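import Mathlib

/-!
# TRACK 11 (S33), package T11 NEW-THETA (N2) (helper6): the Artin–Schreier invariant, in
division-free "trivialisation" form

Pure algebra over Mathlib.  `F` is a field (the function field of `X₀(pM)` over a finite
extension `L''` of `L = ℚ̄^I`, or over `ℚ̄`), `O : Subring F` any ring of "integral functions"
(the lattice `Λ''` of a chart, or the semi-local ring `{V₁ ≥ 0, V₂ ≥ 0}` of the two Gauss
valuations), `lam = ζ_p − 1`, `ϖ` any element with `lam ∈ ϖ·O`, `p ∈ ϖ·O` (a uniformiser of the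
base), and `τ : F →+* F` an element of the inertia group: it acts trivially on `O/ϖO`
(`hτO`) and `τ(lam) = lam·(c + ϖ·m)` (`hτlam`; `c = χ(τ)` the cyclotomic character, see
`S33N2_tau_lambda`).

The paper invariant is `Θ(x) = [w̄] ∈ W/(℘(W) + k)` for a trivialisation
`b·f₁^p·u = 1 + lam^p·w` of the Kummer generator `u` of `x` (depth `c* = ord(lam^p)`), with
`Θ(τx) = χ(τ)·Θ(x)`.  We never form the quotient: for `c'` with `c + c' ≡ 0 mod p` the class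
`y = τx + c'·x = τx − χ(τ)·x` has the Kummer generator `τ(u)·u^{c'}`, and

* `S33N2_step`  : `φ := τ(f₁)·f₁^{c'}`, `b_y := τ(b)·b^{c'}` is a trivialisation of `y` of depth
  `lam^p·ϖ` (strictly deeper than `c*`): this is `Θ(y) = 0`;
* `S33N2_ratio` : if two trivialisations of `x` are compatible to depth `lam`
  (`f₁ = f₁'·(1 + lam·g)`), the induced trivialisations of `y` are compatible to depth `lam·ϖ`
  (`φ = φ'·(1 + lam·ϖ·g')`): the input `htt` of the Newton/injectivity step (N3);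
* `S33N2_key`   : the common computation `τ(1 + lam^j w)·(1 + lam^j w)^{c'} ∈ 1 + lam^j·ϖ·O`
  whenever `c^j + c' ∈ ϖ·O`.

So (N2) + (N3) give `y = 0`, i.e. `τx = χ(τ)·x` = input (N) of `S33G_glue`.
-/

set_option autoImplicit false

namespace Fermat.Agent.S33

section NewTheta

variable {F : Type*} [Field F]

/-- `(1 + Y)^n = 1 + n·Y + Y²·R` with `R` in the subring. -/
theorem S33N2_one_add_pow (O : Subring F) (n : ℕ) (Y : F) (hY : Y ∈ O) :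
    ∃ R ∈ O, (1 + Y) ^ n = 1 + (n : F) * Y + Y ^ 2 * R := by
  induction n with
  | zero => exact ⟨0, O.zero_mem, by simp⟩
  | succ k ih =>
    obtain ⟨R, hR, h⟩ := ih
    refine ⟨R * (1 + Y) + (k : F), ?_, ?_⟩
    · exact O.add_mem (O.mul_mem hR (O.add_mem O.one_mem hY)) (natCast_mem O k)
    · rw [pow_succ, h]
      push_cast
      ring

/-- `(x + Y)^n = x^n + Y·R` with `R` in the subring. -/
theorem S33N2_add_pow (O : Subring F) (n : ℕ) (x Y : F) (hx : x ∈ O) (hY : Y ∈ O) :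
    ∃ R ∈ O, (x + Y) ^ n = x ^ n + Y * R := by
  induction n with
  | zero => exact ⟨0, O.zero_mem, by simp⟩
  | succ k ih =>
    obtain ⟨R, hR, h⟩ := ih
    refine ⟨R * (x + Y) + x ^ k, ?_, ?_⟩
    · exact O.add_mem (O.mul_mem hR (O.add_mem hx hY)) (O.pow_mem hx k)
    · rw [pow_succ, h]
      ring

/-- the cyclotomic congruence: if `τ ζ = ζ^a` then `τ(ζ − 1) = (ζ − 1)·(a + (ζ − 1)·m)` with `m`
in any subring containing `ζ`. -/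
theorem S33N2_tau_lambda (O : Subring F) (τ : F →+* F) (ζ : F) (hζ : ζ ∈ O) (a : ℕ)
    (hτ : τ ζ = ζ ^ a) :
    ∃ m ∈ O, τ (ζ - 1) = (ζ - 1) * ((a : F) + (ζ - 1) * m) := by
  refine ⟨∑ i ∈ Finset.range a, ∑ j ∈ Finset.range i, ζ ^ j, ?_, ?_⟩
  · exact O.sum_mem fun i _ => O.sum_mem fun j _ => O.pow_mem hζ j
  · rw [map_sub, map_one, hτ]
    have h1 : ζ ^ a - 1 = (ζ - 1) * ∑ i ∈ Finset.range a, ζ ^ i := by
      rw [mul_comm]
      exact (geom_sum_mul ζ a).symm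
    rw [h1]
    congr 1
    rw [Finset.mul_sum]
    have h2 : ∀ i ∈ Finset.range a, ζ ^ i = 1 + (ζ - 1) * ∑ j ∈ Finset.range i, ζ ^ j := by
      intro i _
      rw [mul_comm, geom_sum_mul]
      ring
    rw [Finset.sum_congr rfl h2, Finset.sum_add_distrib]
    simp

/-- the hypothesis `hτlam` of `S33N2_key` for `lam = ζ − 1`, `τ ζ = ζ^c`, and any `ϖ` dividing
`lam` in `O`. -/
theorem S33N2_tau_lambda' (O : Subring F) (τ : F →+* F) (ζ ϖ : F) (hζ : ζ ∈ O)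
    (hlamϖ : ∃ t ∈ O, ζ - 1 = ϖ * t) (c : ℕ) (hτ : τ ζ = ζ ^ c) :
    ∃ m ∈ O, τ (ζ - 1) = (ζ - 1) * ((c : F) + ϖ * m) := by
  obtain ⟨t, ht, hlam⟩ := hlamϖ
  obtain ⟨m, hm, h⟩ := S33N2_tau_lambda O τ ζ hζ c hτ
  refine ⟨t * m, O.mul_mem ht hm, ?_⟩
  rw [h]
  linear_combination ((ζ - 1) * m) * hlam

/-- **the key computation**: `τ(1 + lam^j w)·(1 + lam^j w)^{c'} ∈ 1 + lam^j·ϖ·O` as soon as
`c^j + c' ∈ ϖ·O`, `τ(lam) = lam·(c + ϖ m)`, `τ ≡ id` modulo `ϖ` on `O`, and `lam ∈ ϖ·O`. -/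
theorem S33N2_key (O : Subring F) (τ : F →+* F) (lam ϖ : F) (hlam : lam ∈ O) (hϖ : ϖ ∈ O)
    (hlamϖ : ∃ t ∈ O, lam = ϖ * t)
    (c c' j : ℕ) (hj : 1 ≤ j)
    (hcj : ∃ t ∈ O, (c : F) ^ j + (c' : F) = ϖ * t)
    (hτlam : ∃ m ∈ O, τ lam = lam * ((c : F) + ϖ * m))
    (hτO : ∀ a ∈ O, ∃ l ∈ O, τ a - a = ϖ * l)
    (w : F) (hw : w ∈ O) :
    ∃ l ∈ O, τ (1 + lam ^ j * w) * (1 + lam ^ j * w) ^ c' = 1 + lam ^ j * ϖ * l := by
  obtain ⟨t, ht, hlamϖ⟩ := hlamϖ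
  obtain ⟨tc, htc, hcj⟩ := hcj
  obtain ⟨m, hm, hτlam⟩ := hτlam
  obtain ⟨l₁, hl₁, hτw⟩ := hτO w hw
  have hcO : (c : F) ∈ O := natCast_mem O c
  have hc'O : (c' : F) ∈ O := natCast_mem O c'
  obtain ⟨R₁, hR₁, hbin⟩ := S33N2_add_pow O j (c : F) (ϖ * m) hcO (O.mul_mem hϖ hm)
  have hY : lam ^ j * w ∈ O := O.mul_mem (O.pow_mem hlam j) hw
  obtain ⟨R₂, hR₂, hpow⟩ := S33N2_one_add_pow O c' (lam ^ j * w) hY
  obtain ⟨j', rfl⟩ : ∃ j', j = j' + 1 := ⟨j - 1, by omega⟩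
  have hlamj : lam ^ (j' + 1) = ϖ * (t * lam ^ j') := by
    rw [pow_succ]
    nth_rewrite 2 [hlamϖ]
    ring
  have htj : t * lam ^ j' ∈ O := O.mul_mem ht (O.pow_mem hlam j')
  have hτw' : τ w = w + ϖ * l₁ := by linear_combination hτw
  set a : F := ((c : F) ^ (j' + 1) + ϖ * m * R₁) * (w + ϖ * l₁) with ha
  have haO : a ∈ O :=
    O.mul_mem (O.add_mem (O.pow_mem hcO _) (O.mul_mem (O.mul_mem hϖ hm) hR₁))
      (O.add_mem hw (O.mul_mem hϖ hl₁))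
  set Q : F := w ^ 2 * R₂
    + a * ((c' : F) * w + lam ^ (j' + 1) * w ^ 2 * R₂) with hQ
  have hQO : Q ∈ O :=
    O.add_mem (O.mul_mem (O.pow_mem hw 2) hR₂)
      (O.mul_mem haO (O.add_mem (O.mul_mem hc'O hw)
        (O.mul_mem (O.mul_mem (O.pow_mem hlam _) (O.pow_mem hw 2)) hR₂)))
  refine ⟨tc * w + ((c : F) ^ (j' + 1) * l₁ + m * R₁ * (w + ϖ * l₁)) + t * lam ^ j' * Q, ?_, ?_⟩
  · exact O.add_mem (O.add_mem (O.mul_mem htc hw)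
      (O.add_mem (O.mul_mem (O.pow_mem hcO _) hl₁)
        (O.mul_mem (O.mul_mem hm hR₁) (O.add_mem hw (O.mul_mem hϖ hl₁)))))
      (O.mul_mem htj hQO)
  · rw [map_add, map_one, map_mul, map_pow, hτlam, hτw', mul_pow, hbin, hpow, hQ, ha]
    linear_combination (lam ^ (j' + 1) * w) * hcj
      + (lam ^ (j' + 1) * (w ^ 2 * R₂
          + ((c : F) ^ (j' + 1) + ϖ * m * R₁) * (w + ϖ * l₁)
            * ((c' : F) * w + lam ^ (j' + 1) * w ^ 2 * R₂))) * hlamj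

/-- Fermat's little theorem in the form needed: `c + c' = p·k` gives `c^p + c' = p·k'` in `F`. -/
theorem S33N2_fermat (p : ℕ) (hp : p.Prime) (c c' k : ℕ) (hcc : c + c' = p * k) :
    ∃ k' : ℤ, (c : F) ^ p + (c' : F) = (p : F) * (k' : F) := by
  have : Fact p.Prime := ⟨hp⟩
  have h1 : (((c : ℤ) ^ p - (c : ℤ) : ℤ) : ZMod p) = 0 := by
    push_cast
    rw [ZMod.pow_card, sub_self]
  obtain ⟨k₂, hk₂⟩ := (ZMod.intCast_zmod_eq_zero_iff_dvd _ p).mp h1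
  refine ⟨k₂ + k, ?_⟩
  have h2 : ((c : ℤ) ^ p + (c' : ℤ) : ℤ) = (p : ℤ) * (k₂ + k) := by
    have h3 : ((c : ℤ) + (c' : ℤ) : ℤ) = (p : ℤ) * (k : ℤ) := by exact_mod_cast hcc
    linear_combination hk₂ + h3
  have h4 := congrArg (Int.cast : ℤ → F) h2
  push_cast at h4 ⊢
  exact h4

/-- **(N2), the trivialisation of `y = τx + c'x`**: if `b·f₁^p·u = 1 + lam^p·w` (`w ∈ O`) is a
trivialisation of the Kummer generator `u` of `x` of depth `lam^p`, then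
`φ = τ(f₁)·f₁^{c'}`, `b_y = τ(b)·b^{c'}` trivialise `u_y = τ(u)·u^{c'}` to the depth `lam^p·ϖ`
(`c + c' ≡ 0 mod p`, `c = χ(τ)`).  This is `Θ(τx) = χ(τ)·Θ(x)`. -/
theorem S33N2_step (O : Subring F) (τ : F →+* F) (lam ϖ : F) (hlam : lam ∈ O) (hϖ : ϖ ∈ O)
    (hlamϖ : ∃ t ∈ O, lam = ϖ * t)
    (p : ℕ) (hp : p.Prime) (hpϖ : ∃ t ∈ O, (p : F) = ϖ * t)
    (c c' k : ℕ) (hcc : c + c' = p * k)
    (hτlam : ∃ m ∈ O, τ lam = lam * ((c : F) + ϖ * m))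
    (hτO : ∀ a ∈ O, ∃ l ∈ O, τ a - a = ϖ * l)
    (b u f₁ w : F) (hw : w ∈ O) (hE : b * f₁ ^ p * u = 1 + lam ^ p * w) :
    ∃ l ∈ O, (τ b * b ^ c') * (τ f₁ * f₁ ^ c') ^ p * (τ u * u ^ c') = 1 + lam ^ p * ϖ * l := by
  obtain ⟨k', hk'⟩ := S33N2_fermat (F := F) p hp c c' k hcc
  obtain ⟨t, ht, hpt⟩ := hpϖ
  have hcj : ∃ t ∈ O, (c : F) ^ p + (c' : F) = ϖ * t :=
    ⟨t * (k' : F), O.mul_mem ht (intCast_mem O k'), by rw [hk', hpt]; ring⟩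
  obtain ⟨l, hl, h⟩ := S33N2_key O τ lam ϖ hlam hϖ hlamϖ c c' p hp.one_le hcj hτlam hτO w hw
  refine ⟨l, hl, ?_⟩
  rw [← h, ← hE]
  simp only [map_mul, map_pow]
  ring

/-- **(N2), compatibility**: if two trivialisations of `x` agree to the depth `lam`
(`f₁ = f₁'·(1 + lam·g)`, `g ∈ O`), the induced trivialisations of `y = τx + c'x` agree to the
depth `lam·ϖ`. -/
theorem S33N2_ratio (O : Subring F) (τ : F →+* F) (lam ϖ : F) (hlam : lam ∈ O) (hϖ : ϖ ∈ O)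
    (hlamϖ : ∃ t ∈ O, lam = ϖ * t)
    (c c' : ℕ) (hcc : ∃ t ∈ O, (c : F) + (c' : F) = ϖ * t)
    (hτlam : ∃ m ∈ O, τ lam = lam * ((c : F) + ϖ * m))
    (hτO : ∀ a ∈ O, ∃ l ∈ O, τ a - a = ϖ * l)
    (f₁ f₁' g : F) (hg : g ∈ O) (hff : f₁ = f₁' * (1 + lam * g)) :
    ∃ l ∈ O, τ f₁ * f₁ ^ c' = (τ f₁' * f₁' ^ c') * (1 + lam * ϖ * l) := by
  have hcj : ∃ t ∈ O, (c : F) ^ 1 + (c' : F) = ϖ * t := by simpa using hcc
  obtain ⟨l, hl, h⟩ := S33N2_key O τ lam ϖ hlam hϖ hlamϖ c c' 1 le_rfl hcj hτlam hτO g hg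
  refine ⟨l, hl, ?_⟩
  rw [pow_one] at h
  rw [← h, hff]
  simp only [map_mul, mul_pow]
  ring

/-- the same in difference form: `φ − φ' = lam·ϖ·(l·φ')`. -/
theorem S33N2_ratio_sub (O : Subring F) (τ : F →+* F) (lam ϖ : F) (hlam : lam ∈ O) (hϖ : ϖ ∈ O)
    (hlamϖ : ∃ t ∈ O, lam = ϖ * t)
    (c c' : ℕ) (hcc : ∃ t ∈ O, (c : F) + (c' : F) = ϖ * t)
    (hτlam : ∃ m ∈ O, τ lam = lam * ((c : F) + ϖ * m))
    (hτO : ∀ a ∈ O, ∃ l ∈ O, τ a - a = ϖ * l)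
    (f₁ f₁' g : F) (hg : g ∈ O) (hff : f₁ = f₁' * (1 + lam * g)) :
    ∃ l ∈ O, τ f₁ * f₁ ^ c' - τ f₁' * f₁' ^ c' = lam * ϖ * (l * (τ f₁' * f₁' ^ c')) := by
  obtain ⟨l, hl, h⟩ := S33N2_ratio O τ lam ϖ hlam hϖ hlamϖ c c' hcc hτlam hτO f₁ f₁' g hg hff
  exact ⟨l, hl, by rw [h]; ring⟩

end NewTheta

end Fermat.Agent.S33
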