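import Fermat.Agent.S33.NewDepth
import Fermat.Agent.S33.NewTheta

/-!
# TRACK 11 (S33), package N-AS part 1 (helper16, designer): the RATIONAL assembly of NEW33

Pure algebra (Mathlib + `S33/NewDepth` + `S33/NewTheta`).  `F` is the RATIONAL function field
`F'' = fixF(I'')` (a field), `O i` its discrete valuation rings at the components of the special
fibre (uniformiser `π = ϖ''`), `Λ`, `Λ'` the rational integral functions on the charts `U`, `U'`,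
`lam = ζ_p − 1 = π^e₀·ε`, `u` a Kummer generator (exponent `p`), `τ` the action of `τ₀ ∈ I`
(`τ ζ = ζ^c`, `c + c' = p·k`).

`S33NA_rat`: from
* (R1) `hO`     : the `O i` are discrete valuation rings with uniformiser `π`        [V-DISC]
* (R2) `hsat`   : `Λ`, `Λ'` are saturated                                            [N-LA]
* (R3) `hFrob`  : `Λ/πΛ`, `Λ'/πΛ'` are Frobenius-closed in `∏ κ_i`                    [LIFT]
* (R4) `hN0`    : `u` is a `p`-th power at every component to any precision           [N0]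
* (R5) `hstart` : trivialisations of depth `1` on `U` and on `U'`                     [START]
* (R6) `hτlam`, `hτO`, `hτΛ`, `hτΛ'` : `τ` is trivial modulo `π`                      [BASE-Z, N-LA]
we get trivialisations `φ`, `φ'` of `u_y = τ(u)·u^c'` of depth `π^(p e₀ + 1)` on `U` and `U'`
which agree to the depth `π^(e₀ + 1)`: exactly the inputs `ht`, `ht'`, `htt` of NEW-INJ
(`S33N3_false`, `r₀ = p e₀ + 1`, `s₀ = e₀ + 1`, `e = (p − 1) e₀`).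
-/

set_option autoImplicit false

namespace Fermat.Agent.S33

section NewAsm

variable {F : Type*} [Field F]

/-- **the rational assembly of NEW33** (N1 on both charts, overlap, N2). -/
theorem S33NA_rat {p : ℕ} (hp : p.Prime) (hp2 : p ≠ 2) {ι : Type*} [Nonempty ι]
    (O : ι → Subring F) (π : F) (hO : ∀ i, S33N1_IsDV (O i) π) (e₀ : ℕ) (he₀ : 0 < e₀)
    -- the intersection of the valuation rings and the two charts
    (Os Λ Λ' : Subring F) (hOs : ∀ x, x ∈ Os ↔ ∀ i, x ∈ O i) (hΛ : Λ ≤ Os) (hΛ' : Λ' ≤ Os)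
    (hπ : π ∈ Λ) (hπ' : π ∈ Λ')
    (hpπ : S33N1_Div Λ π ((p - 1) * e₀) (p : F)) (hpπ' : S33N1_Div Λ' π ((p - 1) * e₀) (p : F))
    -- `lam = π^e₀ · ε`, `ε` a unit of `Λ ⊓ Λ'`
    (lam ε ε' : F) (hε : ε ∈ Λ) (hε' : ε' ∈ Λ) (hεΛ' : ε ∈ Λ') (hε'Λ' : ε' ∈ Λ')
    (hεε : ε * ε' = 1) (hlam : lam = π ^ e₀ * ε)
    -- (R2), (R3)
    (hsat : ∀ w ∈ Λ, (∀ i, S33N1_Div (O i) π 1 w) → S33N1_Div Λ π 1 w)
    (hsat' : ∀ w ∈ Λ', (∀ i, S33N1_Div (O i) π 1 w) → S33N1_Div Λ' π 1 w)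
    (hFrob : ∀ w ∈ Λ, (∀ i, ∃ z ∈ O i, S33N1_Div (O i) π 1 (w - z ^ p)) →
      ∃ g ∈ Λ, S33N1_Div Λ π 1 (w - g ^ p))
    (hFrob' : ∀ w ∈ Λ', (∀ i, ∃ z ∈ O i, S33N1_Div (O i) π 1 (w - z ^ p)) →
      ∃ g ∈ Λ', S33N1_Div Λ' π 1 (w - g ^ p))
    -- (R4), (R5)
    (u : F) (hN0 : ∀ i, ∀ n : ℕ, ∃ y : F, S33N1_Div (O i) π n (u * y ^ p - 1))
    (hstart : ∃ f, ∃ w ∈ Λ, f ^ p * u = 1 + π * w)
    (hstart' : ∃ f, ∃ w ∈ Λ', f ^ p * u = 1 + π * w)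
    -- (R6)
    (τ : F →+* F) (c c' k : ℕ) (hcc : c + c' = p * k)
    (hτlam : ∃ m ∈ Λ, τ lam = lam * ((c : F) + π * m))
    (hτlam' : ∃ m ∈ Λ', τ lam = lam * ((c : F) + π * m))
    (hτOs : ∀ a ∈ Os, ∃ l ∈ Os, τ a - a = π * l)
    (hτΛ : ∀ a ∈ Λ, ∃ l ∈ Λ, τ a - a = π * l)
    (hτΛ' : ∀ a ∈ Λ', ∃ l ∈ Λ', τ a - a = π * l) :
    ∃ φ φ' : F, (∃ l ∈ Λ, φ ^ p * (τ u * u ^ c') = 1 + π ^ (p * e₀ + 1) * l) ∧
      (∃ l ∈ Λ', φ' ^ p * (τ u * u ^ c') = 1 + π ^ (p * e₀ + 1) * l) ∧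
      ∃ m ∈ Os, φ - φ' = π ^ (e₀ + 1) * (m * φ') := by
  have hΛO : ∀ i, Λ ≤ O i := fun i x hx => (hOs x).1 (hΛ hx) i
  have hΛ'O : ∀ i, Λ' ≤ O i := fun i x hx => (hOs x).1 (hΛ' hx) i
  -- N1 on both charts
  obtain ⟨f₁, -, w, hw, hE⟩ := S33N1_main hp hp2 O π hO e₀ he₀ Λ hπ hpπ hΛO hsat hFrob
    Set.univ (fun _ _ _ _ => Set.mem_univ _) u hN0
    (by obtain ⟨f, w, hw, h⟩ := hstart; exact ⟨f, Set.mem_univ _, w, hw, h⟩)
  obtain ⟨f₁', -, w', hw', hE'⟩ := S33N1_main hp hp2 O π hO e₀ he₀ Λ' hπ' hpπ' hΛ'O hsat' hFrob'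
    Set.univ (fun _ _ _ _ => Set.mem_univ _) u hN0
    (by obtain ⟨f, w, hw, h⟩ := hstart'; exact ⟨f, Set.mem_univ _, w, hw, h⟩)
  -- overlap
  obtain ⟨g, hg, hff⟩ := S33N1_overlap hp O π hO e₀ he₀
    (fun i => S33N1_Div_le (hΛO i) π hpπ) u f₁ f₁' w w'
    (fun i => hΛO i hw) (fun i => hΛ'O i hw') hE hE'
  have hgOs : g ∈ Os := (hOs g).2 hg
  -- `π^e₀ = lam · ε'`
  have hπlam : π ^ e₀ = lam * ε' := by rw [hlam, mul_assoc, hεε, mul_one]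
  have hlamΛ : lam ∈ Λ := by rw [hlam]; exact Λ.mul_mem (Λ.pow_mem hπ _) hε
  have hlamΛ' : lam ∈ Λ' := by rw [hlam]; exact Λ'.mul_mem (Λ'.pow_mem hπ' _) hεΛ'
  obtain ⟨j, hj⟩ : ∃ j, e₀ = j + 1 := ⟨e₀ - 1, by omega⟩
  have hlamπ : ∀ (X : Subring F), π ∈ X → ε ∈ X → ∃ t ∈ X, lam = π * t := fun X h1 h2 =>
    ⟨π ^ j * ε, X.mul_mem (X.pow_mem h1 _) h2, by rw [hlam, hj, pow_succ]; ring⟩
  have hpX : ∀ (X : Subring F), π ∈ X → S33N1_Div X π ((p - 1) * e₀) (p : F) →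
      ∃ t ∈ X, (p : F) = π * t := by
    intro X h1 ⟨a, ha, hpa⟩
    have hpos : 0 < (p - 1) * e₀ := Nat.mul_pos (by have := hp.two_le; omega) he₀
    obtain ⟨i, hi⟩ : ∃ i, (p - 1) * e₀ = i + 1 := ⟨(p - 1) * e₀ - 1, by omega⟩
    exact ⟨π ^ i * a, X.mul_mem (X.pow_mem h1 _) ha, by rw [hpa, hi, pow_succ]; ring⟩
  -- depth `lam^p`
  have hEl : 1 * f₁ ^ p * u = 1 + lam ^ p * (ε' ^ p * w) := by
    rw [one_mul, hE, pow_mul', hπlam]; ring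
  have hEl' : 1 * f₁' ^ p * u = 1 + lam ^ p * (ε' ^ p * w') := by
    rw [one_mul, hE', pow_mul', hπlam]; ring
  -- N2 on both charts
  obtain ⟨l, hl, hS⟩ := S33N2_step Λ τ lam π hlamΛ hπ (hlamπ Λ hπ hε) p hp (hpX Λ hπ hpπ)
    c c' k hcc hτlam hτΛ 1 u f₁ (ε' ^ p * w) (Λ.mul_mem (Λ.pow_mem hε' _) hw) hEl
  obtain ⟨l', hl', hS'⟩ := S33N2_step Λ' τ lam π hlamΛ' hπ' (hlamπ Λ' hπ' hεΛ') p hp
    (hpX Λ' hπ' hpπ') c c' k hcc hτlam' hτΛ' 1 u f₁' (ε' ^ p * w')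
    (Λ'.mul_mem (Λ'.pow_mem hε'Λ' _) hw') hEl'
  -- N2 on the overlap
  have hπOs : π ∈ Os := hΛ hπ
  have hεOs : ε ∈ Os := hΛ hε
  have hlamOs : lam ∈ Os := hΛ hlamΛ
  have hccOs : ∃ t ∈ Os, (c : F) + (c' : F) = π * t := by
    obtain ⟨t, ht, hpt⟩ := hpX Os hπOs (S33N1_Div_le hΛ π hpπ)
    refine ⟨t * (k : F), Os.mul_mem ht (natCast_mem Os k), ?_⟩
    have : ((c + c' : ℕ) : F) = ((p * k : ℕ) : F) := by rw [hcc]
    push_cast at this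
    rw [this, hpt]; ring
  have hτlamOs : ∃ m ∈ Os, τ lam = lam * ((c : F) + π * m) := by
    obtain ⟨m, hm, h⟩ := hτlam
    exact ⟨m, hΛ hm, h⟩
  have hff' : f₁ = f₁' * (1 + lam * (ε' * g)) := by
    rw [hff, hπlam]; ring
  obtain ⟨m, hm, hR⟩ := S33N2_ratio_sub Os τ lam π hlamOs hπOs (hlamπ Os hπOs hεOs) c c' hccOs
    hτlamOs hτOs f₁ f₁' (ε' * g) (Os.mul_mem (hΛ hε') hgOs) hff'
  refine ⟨τ f₁ * f₁ ^ c', τ f₁' * f₁' ^ c', ⟨ε ^ p * l, Λ.mul_mem (Λ.pow_mem hε _) hl, ?_⟩,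
    ⟨ε ^ p * l', Λ'.mul_mem (Λ'.pow_mem hεΛ' _) hl', ?_⟩, ε * m, Os.mul_mem hεOs hm, ?_⟩
  · have := hS
    simp only [map_one, one_pow, one_mul] at this
    rw [this, hlam, mul_pow, ← pow_mul', pow_succ]; ring
  · have := hS'
    simp only [map_one, one_pow, one_mul] at this
    rw [this, hlam, mul_pow, ← pow_mul', pow_succ]; ring
  · rw [hR, hlam, pow_succ]; ring

end NewAsm

end Fermat.Agent.S33
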