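import Fermat.Agent.S34.Asm3
import Fermat.Agent.S34.InjConc
import Fermat.Agent.S36.FixLInst
import Fermat.Agent.S33.NewAsm

/-!
# TRACK 11 (S33), designer's file (helper16): THE concrete rational objects of NEW33 and the
targets of the instance packages

Level `M * p` (`p ∤ M`), `A ∣ p` a place of `ℚ̄`, `T₁ = S34M_T1`, `T₂ = S34M_T2` the two Gauss
valuation data of TRACK 7 (with `q := p`), `H ≤ Gal(ℚ̄/ℚ)` a subgroup (in the application an open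
subgroup of the inertia group `I` of `A`, normal in `I`, fixing `ζ_p` and finitely many functions).

* `S33NX_F M p H`            : the rational function field `F'' = fixF(H)` (a field);
* `S33NX_incl`               : `F'' →+* F = modularFunctionFieldBar (M * p)`;
* `S33NX_O … i`, `i : Fin 2` : the rational valuation rings `O_i'' = T_i.O ∩ F''`;
* `S33NX_Os`                 : `O₁'' ⊓ O₂''`;
* `S33NX_B`, `S33NX_B' c₀`   : the chart rings over `ℚ̄` (`U` = off the poles of `j`,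
                               `U'` = off the zeros of `j − c₀`), `S33NX_B'' c₀` = overlap;
* `S33NX_Lam`, `S33NX_Lam' c₀` : the rational lattices `Λ''_U`, `Λ''_U'`;
* `S33NX_const c hc`         : a constant `c ∈ fixK(H)` as an element of `F''`.

Targets (each a `Prop` about these objects; `ϖ : F''` is the image of a uniformiser of
`A ∩ fixK(H)`):
`S33NX_TDV` (V-DISC), `S33NX_TSat`, `S33NX_TSat'` (N-LA), `S33NX_TFrob`, `S33NX_TFrob'` (LIFT),
`S33NX_TN0` (N0), `S33NX_TTau` (TAU + N-LA).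

`S33NX_rat` : `S33NA_rat` on these objects.
-/

set_option autoImplicit false
set_option synthInstance.maxHeartbeats 400000
set_option maxHeartbeats 1000000
set_option linter.unusedSectionVars false
set_option linter.unusedVariables false

open ModularCurve AlgebraicCurve

noncomputable section

namespace Fermat.Agent.S33

open Fermat.Agent.S34 Fermat.Agent.S36 Fermat.Agent.S18 Fermat.Agent.S24

section defs

variable (M p : ℕ) [NeZero (M * p)] (hp : p.Prime) (hpM : ¬ p ∣ M)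
  (A : ValuationSubring (AlgebraicClosure ℚ))
  (hgen : PrincipalGeneratedByIntegral A (IsLocalRing.residue A) (M * p))
  (H : Subgroup (AlgebraicClosure ℚ ≃ₐ[ℚ] AlgebraicClosure ℚ))

/-- the rational function field `F'' = fixF(H)`. -/
abbrev S33NX_F : Type := ↥(S36FI_act (M * p) H).fixF

/-- the inclusion `F'' → F`. -/
def S33NX_incl : S33NX_F M p H →+* ↥(modularFunctionFieldBar (M * p)) :=
  (S36FI_act (M * p) H).fixF.subtype

theorem S33NX_incl_apply (f : S33NX_F M p H) : S33NX_incl M p H f = (f : ↥(modularFunctionFieldBar (M * p))) :=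
  rfl

/-- the rational valuation rings: `0 ↦ V₁`, `1 ↦ V₂`. -/
def S33NX_O (i : Fin 2) : Subring (S33NX_F M p H) :=
  if i = 0 then (S34M_T1 M p A hgen).O.toSubring.comap (S33NX_incl M p H)
  else (S34M_T2 M p hp hpM A hgen).O.toSubring.comap (S33NX_incl M p H)

theorem S33NX_mem_O_zero (f : S33NX_F M p H) :
    f ∈ S33NX_O M p hp hpM A hgen H 0 ↔
      (f : ↥(modularFunctionFieldBar (M * p))) ∈ (S34M_T1 M p A hgen).O := by
  simp [S33NX_O, S33NX_incl]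

theorem S33NX_mem_O_one (f : S33NX_F M p H) :
    f ∈ S33NX_O M p hp hpM A hgen H 1 ↔
      (f : ↥(modularFunctionFieldBar (M * p))) ∈ (S34M_T2 M p hp hpM A hgen).O := by
  simp [S33NX_O, S33NX_incl]

/-- `O₁'' ⊓ O₂''`. -/
def S33NX_Os : Subring (S33NX_F M p H) :=
  S33NX_O M p hp hpM A hgen H 0 ⊓ S33NX_O M p hp hpM A hgen H 1

theorem S33NX_mem_Os (f : S33NX_F M p H) :
    f ∈ S33NX_Os M p hp hpM A hgen H ↔ ∀ i, f ∈ S33NX_O M p hp hpM A hgen H i := by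
  constructor
  · intro h i
    fin_cases i
    · exact h.1
    · exact h.2
  · intro h
    exact ⟨h 0, h 1⟩

/-- the chart ring of `U` over `ℚ̄`: regular off the poles of `j`. -/
def S33NX_B : Subalgebra (AlgebraicClosure ℚ) ↥(modularFunctionFieldBar (M * p)) :=
  S34IX_reg (S34IX_TU (jB (M * p)))

/-- the chart ring of `U'` over `ℚ̄`: regular off the zeros of `j − c₀`. -/
def S33NX_B' (c₀ : AlgebraicClosure ℚ) :
    Subalgebra (AlgebraicClosure ℚ) ↥(modularFunctionFieldBar (M * p)) :=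
  S34IX_reg (S34IX_TU' (jB (M * p)) c₀)

/-- the chart ring of `U'' = U ∩ U'` over `ℚ̄`. -/
def S33NX_B'' (c₀ : AlgebraicClosure ℚ) :
    Subalgebra (AlgebraicClosure ℚ) ↥(modularFunctionFieldBar (M * p)) :=
  S34IX_reg (S34IX_TU'' (jB (M * p)) c₀)

/-- the rational lattice `Λ''_U`. -/
def S33NX_Lam : Subring (S33NX_F M p H) :=
  S33NX_Os M p hp hpM A hgen H ⊓ (S33NX_B M p).toSubring.comap (S33NX_incl M p H)

/-- the rational lattice `Λ''_U'`. -/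
def S33NX_Lam' (c₀ : AlgebraicClosure ℚ) : Subring (S33NX_F M p H) :=
  S33NX_Os M p hp hpM A hgen H ⊓ (S33NX_B' M p c₀).toSubring.comap (S33NX_incl M p H)

theorem S33NX_mem_Lam (f : S33NX_F M p H) :
    f ∈ S33NX_Lam M p hp hpM A hgen H ↔
      f ∈ S33NX_Os M p hp hpM A hgen H ∧
        (f : ↥(modularFunctionFieldBar (M * p))) ∈ S33NX_B M p := Iff.rfl

theorem S33NX_mem_Lam' (c₀ : AlgebraicClosure ℚ) (f : S33NX_F M p H) :
    f ∈ S33NX_Lam' M p hp hpM A hgen H c₀ ↔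
      f ∈ S33NX_Os M p hp hpM A hgen H ∧
        (f : ↥(modularFunctionFieldBar (M * p))) ∈ S33NX_B' M p c₀ := Iff.rfl

/-- a constant of `fixK(H)` as an element of `F''`. -/
def S33NX_const (c : AlgebraicClosure ℚ) (hc : c ∈ (S36FI_act (M * p) H).fixK) :
    S33NX_F M p H :=
  ⟨algebraMap (AlgebraicClosure ℚ) ↥(modularFunctionFieldBar (M * p)) c,
    (S36FI_act (M * p) H).algebraMap_mem_fixF hc⟩

/-! ### the targets of the instance packages -/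

/-- (V-DISC): the rational valuation rings are discrete with uniformiser `ϖ`. -/
def S33NX_TDV (ϖ : S33NX_F M p H) : Prop :=
  ∀ i, S33N1_IsDV (S33NX_O M p hp hpM A hgen H i) ϖ

/-- (N-LA, saturation) on `U`. -/
def S33NX_TSat (ϖ : S33NX_F M p H) : Prop :=
  ∀ w ∈ S33NX_Lam M p hp hpM A hgen H,
    (∀ i, S33N1_Div (S33NX_O M p hp hpM A hgen H i) ϖ 1 w) →
      S33N1_Div (S33NX_Lam M p hp hpM A hgen H) ϖ 1 w

/-- (N-LA, saturation) on `U'`. -/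
def S33NX_TSat' (ϖ : S33NX_F M p H) (c₀ : AlgebraicClosure ℚ) : Prop :=
  ∀ w ∈ S33NX_Lam' M p hp hpM A hgen H c₀,
    (∀ i, S33N1_Div (S33NX_O M p hp hpM A hgen H i) ϖ 1 w) →
      S33N1_Div (S33NX_Lam' M p hp hpM A hgen H c₀) ϖ 1 w

/-- (LIFT): Frobenius-closedness on `U`. -/
def S33NX_TFrob (ϖ : S33NX_F M p H) : Prop :=
  ∀ w ∈ S33NX_Lam M p hp hpM A hgen H,
    (∀ i, ∃ z ∈ S33NX_O M p hp hpM A hgen H i,
      S33N1_Div (S33NX_O M p hp hpM A hgen H i) ϖ 1 (w - z ^ p)) →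
    ∃ g ∈ S33NX_Lam M p hp hpM A hgen H,
      S33N1_Div (S33NX_Lam M p hp hpM A hgen H) ϖ 1 (w - g ^ p)

/-- (LIFT): Frobenius-closedness on `U'`. -/
def S33NX_TFrob' (ϖ : S33NX_F M p H) (c₀ : AlgebraicClosure ℚ) : Prop :=
  ∀ w ∈ S33NX_Lam' M p hp hpM A hgen H c₀,
    (∀ i, ∃ z ∈ S33NX_O M p hp hpM A hgen H i,
      S33N1_Div (S33NX_O M p hp hpM A hgen H i) ϖ 1 (w - z ^ p)) →
    ∃ g ∈ S33NX_Lam' M p hp hpM A hgen H c₀,
      S33N1_Div (S33NX_Lam' M p hp hpM A hgen H c₀) ϖ 1 (w - g ^ p)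

/-- (N0): `u` is a `p`-th power at both components to any precision. -/
def S33NX_TN0 (ϖ u : S33NX_F M p H) : Prop :=
  ∀ i, ∀ n : ℕ, ∃ y : S33NX_F M p H,
    S33N1_Div (S33NX_O M p hp hpM A hgen H i) ϖ n (u * y ^ p - 1)

/-- (TAU + N-LA): `τ` is trivial modulo `ϖ` on `O₁'' ⊓ O₂''`, `Λ''_U`, `Λ''_U'`, and
`τ lam = lam (c + ϖ m)`. -/
def S33NX_TTau (ϖ lam : S33NX_F M p H) (c₀ : AlgebraicClosure ℚ)
    (τ : S33NX_F M p H →+* S33NX_F M p H) (c : ℕ) : Prop :=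
  (∃ m ∈ S33NX_Lam M p hp hpM A hgen H ⊓ S33NX_Lam' M p hp hpM A hgen H c₀,
      τ lam = lam * ((c : S33NX_F M p H) + ϖ * m)) ∧
    (∀ a ∈ S33NX_Os M p hp hpM A hgen H, ∃ l ∈ S33NX_Os M p hp hpM A hgen H, τ a - a = ϖ * l) ∧
    (∀ a ∈ S33NX_Lam M p hp hpM A hgen H, ∃ l ∈ S33NX_Lam M p hp hpM A hgen H,
      τ a - a = ϖ * l) ∧
    (∀ a ∈ S33NX_Lam' M p hp hpM A hgen H c₀, ∃ l ∈ S33NX_Lam' M p hp hpM A hgen H c₀,
      τ a - a = ϖ * l)

/-- **NEW33, rational part, on the concrete objects**: from the targets of the instance packages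
and START, trivialisations of `u_y = τ(u)·u^c'` of depth `ϖ^(p e₀ + 1)` on `U` and on `U'`
agreeing to the depth `ϖ^(e₀ + 1)`. -/
theorem S33NX_rat (hp2 : p ≠ 2) (ϖ : S33NX_F M p H) (e₀ : ℕ) (he₀ : 0 < e₀)
    (c₀ : AlgebraicClosure ℚ)
    (hDV : S33NX_TDV M p hp hpM A hgen H ϖ)
    -- constants (RA): `ϖ`, `ε`, `ε'` lie in both lattices, `p = ϖ^((p-1)e₀)·a`, `lam = ϖ^e₀·ε`
    (hϖ : ϖ ∈ S33NX_Lam M p hp hpM A hgen H ⊓ S33NX_Lam' M p hp hpM A hgen H c₀)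
    (hpϖ : S33N1_Div (S33NX_Lam M p hp hpM A hgen H ⊓ S33NX_Lam' M p hp hpM A hgen H c₀) ϖ
      ((p - 1) * e₀) (p : S33NX_F M p H))
    (lam ε ε' : S33NX_F M p H)
    (hε : ε ∈ S33NX_Lam M p hp hpM A hgen H ⊓ S33NX_Lam' M p hp hpM A hgen H c₀)
    (hε' : ε' ∈ S33NX_Lam M p hp hpM A hgen H ⊓ S33NX_Lam' M p hp hpM A hgen H c₀)
    (hεε : ε * ε' = 1) (hlam : lam = ϖ ^ e₀ * ε)
    (hsat : S33NX_TSat M p hp hpM A hgen H ϖ) (hsat' : S33NX_TSat' M p hp hpM A hgen H ϖ c₀)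
    (hFrob : S33NX_TFrob M p hp hpM A hgen H ϖ)
    (hFrob' : S33NX_TFrob' M p hp hpM A hgen H ϖ c₀)
    (u : S33NX_F M p H) (hN0 : S33NX_TN0 M p hp hpM A hgen H ϖ u)
    (hstart : ∃ f, ∃ w ∈ S33NX_Lam M p hp hpM A hgen H, f ^ p * u = 1 + ϖ * w)
    (hstart' : ∃ f, ∃ w ∈ S33NX_Lam' M p hp hpM A hgen H c₀, f ^ p * u = 1 + ϖ * w)
    (τ : S33NX_F M p H →+* S33NX_F M p H) (c c' k : ℕ) (hcc : c + c' = p * k)
    (hτ : S33NX_TTau M p hp hpM A hgen H ϖ lam c₀ τ c) :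
    ∃ φ φ' : S33NX_F M p H,
      (∃ l ∈ S33NX_Lam M p hp hpM A hgen H, φ ^ p * (τ u * u ^ c') = 1 + ϖ ^ (p * e₀ + 1) * l) ∧
      (∃ l ∈ S33NX_Lam' M p hp hpM A hgen H c₀,
        φ' ^ p * (τ u * u ^ c') = 1 + ϖ ^ (p * e₀ + 1) * l) ∧
      ∃ m ∈ S33NX_Os M p hp hpM A hgen H, φ - φ' = ϖ ^ (e₀ + 1) * (m * φ') := by
  obtain ⟨⟨m, hm, hτlam⟩, hτOs, hτΛ, hτΛ'⟩ := hτ
  obtain ⟨a, ha, hpa⟩ := hpϖ
  exact S33NA_rat hp hp2 (S33NX_O M p hp hpM A hgen H) ϖ hDV e₀ he₀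
    (S33NX_Os M p hp hpM A hgen H) (S33NX_Lam M p hp hpM A hgen H)
    (S33NX_Lam' M p hp hpM A hgen H c₀) (S33NX_mem_Os M p hp hpM A hgen H)
    inf_le_left inf_le_left hϖ.1 hϖ.2 ⟨a, ha.1, hpa⟩ ⟨a, ha.2, hpa⟩
    lam ε ε' hε.1 hε'.1 hε.2 hε'.2 hεε hlam hsat hsat' hFrob hFrob' u hN0 hstart hstart'
    τ c c' k hcc ⟨m, hm.1, hτlam⟩ ⟨m, hm.2, hτlam⟩ hτOs hτΛ hτΛ'

end defs

end Fermat.Agent.S33
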