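import Fermat.Agent.S33.NewLatInst
import Fermat.Agent.S33.NewDefs

/-!
# TRACK 11 (S33), package V-DISC (helper3): the two Gauss valuation rings of level `M p` are
DISCRETE valuation rings of the rational function field `F'' = F^H`, uniformiser `ϖ`

Level `N = M p` (`p ∤ M` prime), `A ⊂ Ω = ℚ̄` over `p`, `H ≤ Gal(Ω/ℚ)` ANY subgroup, `ϖ` a
uniformiser of `A ∩ Ω^H` (`S33NL2_Unif A H ϖ`, helper7: every `H`-fixed `c ≠ 0` is `ϖ^m ·` unit).
Objects: helper16's `S33/NewDefs.lean` (`S33NX_F`, `S33NX_O`, `S33NX_Os`, `S33NX_Lam`,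
`S33NX_Lam'`, `S33NX_const`).

* `S33ND_isDV_of` : the abstract statement (Mathlib + `S33N1_IsDV`);
* `S33ND_mem_O_zero`, `S33ND_mem_O_one` : membership in `O_i''` in terms of `S18_O A (M p)`
  and `w_p`;
* **`S33ND_TDV`** : the target `S33NX_TDV M p hp hpM A hgen H (S33NX_const M p H ϖ _)`;
* constants: `S33ND_const_mem_O`, `S33ND_const_mem_Os`, `S33ND_const_mem_Lam`,
  `S33ND_const_mem_Lam'`, `S33ND_const_mem_LL` (a constant `c ∈ A ∩ Ω^H` lies in `Λ''_U ⊓ Λ''_U'`),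
  `S33ND_const_mul/_pow/_natCast/_one`, `S33ND_const_div`, `S33ND_natCast_div`
  (`p = ϖ^n a`, `a ∈ A ∩ Ω^H` ⇒ `S33N1_Div (Λ ⊓ Λ') ϖ n p`), `S33ND_const_unit`;
* from the valuation form of RA-FIN (`S33BL_exists_H`): `S33ND_unif_of_val` (⇒ `S33NL2_Unif`),
  **`S33ND_TDV_of_val`**, `S33ND_unit_of_val`, `S33ND_const_eq_pow_mul` (`hlam`, `hε`, `hε'`, `hεε`
  of `S33NX_rat`), `S33ND_natCast_div_of_val` (`hpϖ`), `S33ND_unif_mem_LL` (`hϖ`).
-/

set_option autoImplicit false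
set_option linter.unusedSectionVars false
set_option linter.unusedVariables false
set_option linter.style.haveILetI false
set_option synthInstance.maxHeartbeats 400000
set_option maxHeartbeats 1000000

open HahnSeries ModularCurve IntermediateField

namespace Fermat.Agent.S33

open Fermat.Agent.S18 Fermat.Agent.S24 Fermat.Agent.S34 Fermat.Agent.S36 Fermat.Agent.GalRep

local notation "Ω" => AlgebraicClosure ℚ

/-! ### the abstract statement -/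

section abs

variable {F : Type*} [Field F]

/-- **V-DISC, abstract form**: a valuation ring `O` of `F`, a subfield `Fs`, `O' = O ∩ Fs`,
`π ∈ O'` a non-unit of `O` such that every `x ≠ 0` of `Fs` is `π^(-k) ·` (unit of `O`): then `O'`
is a discrete valuation ring of `Fs` with uniformiser `π`. -/
theorem S33ND_isDV_of (Fs : Subfield F) (O : ValuationSubring F) (O' : Subring Fs)
    (hO' : ∀ x : Fs, x ∈ O' ↔ (x : F) ∈ O) (π : Fs)
    (hπO : (π : F) ∈ O) (hπ0 : (π : F) ≠ 0) (hπinv : (π : F)⁻¹ ∉ O)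
    (hdv : ∀ x ∈ Fs, x ≠ 0 → ∃ k : ℤ, x * (π : F) ^ k ∈ O ∧ (x * (π : F) ^ k)⁻¹ ∈ O) :
    S33N1_IsDV O' π where
  π_mem := (hO' π).2 hπO
  π_ne := fun h0 => hπ0 (congrArg Subtype.val h0)
  π_inv := fun hmem => hπinv ((hO' π⁻¹).1 hmem)
  val := fun x => by
    rcases O.mem_or_inv_mem (x : F) with h | h
    · exact Or.inl ((hO' x).2 h)
    · exact Or.inr ((hO' x⁻¹).2 h)
  loc := by
    intro x hx
    have hxO : (x : F) ∈ O := (hO' x).1 hx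
    by_cases hx0 : x = 0
    · exact Or.inl ⟨0, zero_mem _, by rw [hx0, mul_zero]⟩
    have hx0' : (x : F) ≠ 0 := fun h0 => hx0 (Subtype.ext h0)
    obtain ⟨k, hk1, hk2⟩ := hdv x x.2 hx0'
    rcases lt_or_ge k 0 with hk | hk
    · -- `x = π · t`
      left
      obtain ⟨n, hn⟩ : ∃ n : ℕ, -k - 1 = (n : ℤ) := Int.eq_ofNat_of_zero_le (by omega)
      have hk' : k = -(n : ℤ) - 1 := by omega
      refine ⟨x * π⁻¹, ?_, ?_⟩
      · rw [hO']
        have e : ((x * π⁻¹ : Fs) : F) = (x : F) * (π : F) ^ k * (π : F) ^ n := by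
          show (x : F) * (π : F)⁻¹ = _
          rw [mul_assoc, ← zpow_natCast, ← zpow_add₀ hπ0, hk']
          have : -(n : ℤ) - 1 + n = -1 := by ring
          rw [this, zpow_neg_one]
        rw [e]
        exact O.mul_mem _ _ hk1 (pow_mem hπO n)
      · have hπ0' : π ≠ 0 := fun h0 => hπ0 (congrArg Subtype.val h0)
        rw [mul_comm x, ← mul_assoc, mul_inv_cancel₀ hπ0', one_mul]
    · -- `x⁻¹ ∈ O`
      right
      obtain ⟨n, rfl⟩ := Int.eq_ofNat_of_zero_le hk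
      rw [hO']
      have e : ((x⁻¹ : Fs) : F) = ((x : F) * (π : F) ^ (n : ℤ))⁻¹ * (π : F) ^ n := by
        show (x : F)⁻¹ = _
        rw [zpow_natCast, mul_inv, mul_assoc, inv_mul_cancel₀ (pow_ne_zero _ hπ0), mul_one]
      rw [e]
      exact O.mul_mem _ _ hk2 (pow_mem hπO n)

end abs

/-! ### the uniformiser of `A ∩ Ω^H` -/

section unif

variable (A : ValuationSubring Ω) (H : Subgroup (Ω ≃ₐ[ℚ] Ω)) {ϖ : Ω}

theorem S33ND_unif_mem (h : S33NL2_Unif A H ϖ) : ϖ ∈ A :=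
  (A.valuation_le_one_iff ϖ).mp h.lt_one.le

theorem S33ND_unif_inv_not_mem (h : S33NL2_Unif A H ϖ) : ϖ⁻¹ ∉ A := by
  intro hmem
  have h1 : A.valuation ϖ⁻¹ ≤ 1 := (A.valuation_le_one_iff _).mpr hmem
  rw [map_inv₀] at h1
  have h0 : A.valuation ϖ ≠ 0 := (map_ne_zero _).mpr h.ne_zero
  have h2 : 1 ≤ A.valuation ϖ := (inv_le_one₀ (zero_lt_iff.mpr h0)).mp h1
  exact absurd h.lt_one (not_lt.mpr h2)

end unif

/-! ### the concrete objects -/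

variable (M p : ℕ) [NeZero (M * p)] (hp : p.Prime) (hpM : ¬ p ∣ M)
  (A : ValuationSubring Ω) (hA : A.LiesOverPrime p)
  (hgen : PrincipalGeneratedByIntegral A (IsLocalRing.residue A) (M * p))
  (H : Subgroup (Ω ≃ₐ[ℚ] Ω)) {ϖ : Ω}

theorem S33ND_mem_O_zero (x : S33NX_F M p H) :
    x ∈ S33NX_O M p hp hpM A hgen H 0 ↔
      (x : ↥(modularFunctionFieldBar (M * p))) ∈ S34DF_O1 M p A hgen := by
  rw [S33NX_mem_O_zero, S34M_T1_O]

theorem S33ND_mem_O_one (x : S33NX_F M p H) :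
    x ∈ S33NX_O M p hp hpM A hgen H 1 ↔
      (x : ↥(modularFunctionFieldBar (M * p))) ∈ S34DF_O2 M p hp hpM A hgen := by
  rw [S33NX_mem_O_one, S34M_T2_O]

theorem S33ND_mem_O_zero' (x : S33NX_F M p H) :
    x ∈ S33NX_O M p hp hpM A hgen H 0 ↔
      (x : ↥(modularFunctionFieldBar (M * p))) ∈ S18_O A (M * p) :=
  S33ND_mem_O_zero M p hp hpM A hgen H x

theorem S33ND_mem_O_one' (x : S33NX_F M p H) :
    x ∈ S33NX_O M p hp hpM A hgen H 1 ↔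
      S34DF_wq M p hp hpM (x : ↥(modularFunctionFieldBar (M * p))) ∈ S18_O A (M * p) :=
  S33ND_mem_O_one M p hp hpM A hgen H x

/-- `O₁'' ⊓ O₂''` is the rational part of the two-valuation lattice of TRACK 7. -/
theorem S33ND_mem_Os_lat (x : S33NX_F M p H) :
    x ∈ S33NX_Os M p hp hpM A hgen H ↔
      (x : ↥(modularFunctionFieldBar (M * p))) ∈ (S34DF_lat M p hp hpM A).O := by
  show x ∈ S33NX_O M p hp hpM A hgen H 0 ∧ x ∈ S33NX_O M p hp hpM A hgen H 1 ↔ _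
  rw [S33ND_mem_O_zero', S33ND_mem_O_one']
  exact Iff.rfl

/-! ### constants -/

theorem S33ND_const_O1_iff {c : Ω} :
    algebraMap Ω ↥(modularFunctionFieldBar (M * p)) c ∈ S34DF_O1 M p A hgen ↔ c ∈ A :=
  S18_algebraMap_mem_O_iff A (M * p) c

theorem S33ND_const_O2_iff {c : Ω} :
    algebraMap Ω ↥(modularFunctionFieldBar (M * p)) c ∈ S34DF_O2 M p hp hpM A hgen ↔ c ∈ A := by
  show S34DF_wq M p hp hpM (algebraMap Ω ↥(modularFunctionFieldBar (M * p)) c) ∈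
    S18_O A (M * p) ↔ _
  rw [AlgEquiv.commutes]
  exact S18_algebraMap_mem_O_iff A (M * p) c

@[simp] theorem S33ND_const_coe (c : Ω) (hc : c ∈ (S36FI_act (M * p) H).fixK) :
    ((S33NX_const M p H c hc : S33NX_F M p H) : ↥(modularFunctionFieldBar (M * p))) =
      algebraMap Ω ↥(modularFunctionFieldBar (M * p)) c := rfl

theorem S33ND_const_mem_O {c : Ω} (hc : c ∈ (S36FI_act (M * p) H).fixK) (hcA : c ∈ A)
    (i : Fin 2) : S33NX_const M p H c hc ∈ S33NX_O M p hp hpM A hgen H i := by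
  fin_cases i
  · exact (S33ND_mem_O_zero M p hp hpM A hgen H _).2
      ((S33ND_const_O1_iff M p A hgen).2 hcA)
  · exact (S33ND_mem_O_one M p hp hpM A hgen H _).2
      ((S33ND_const_O2_iff M p hp hpM A hgen).2 hcA)

theorem S33ND_const_mem_Os {c : Ω} (hc : c ∈ (S36FI_act (M * p) H).fixK) (hcA : c ∈ A) :
    S33NX_const M p H c hc ∈ S33NX_Os M p hp hpM A hgen H :=
  (S33NX_mem_Os M p hp hpM A hgen H _).2 (S33ND_const_mem_O M p hp hpM A hgen H hc hcA)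

theorem S33ND_const_mem_Lam {c : Ω} (hc : c ∈ (S36FI_act (M * p) H).fixK) (hcA : c ∈ A) :
    S33NX_const M p H c hc ∈ S33NX_Lam M p hp hpM A hgen H :=
  (S33NX_mem_Lam M p hp hpM A hgen H _).2
    ⟨S33ND_const_mem_Os M p hp hpM A hgen H hc hcA, (S33NX_B M p).algebraMap_mem c⟩

theorem S33ND_const_mem_Lam' (c₀ : Ω) {c : Ω} (hc : c ∈ (S36FI_act (M * p) H).fixK)
    (hcA : c ∈ A) : S33NX_const M p H c hc ∈ S33NX_Lam' M p hp hpM A hgen H c₀ :=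
  (S33NX_mem_Lam' M p hp hpM A hgen H c₀ _).2
    ⟨S33ND_const_mem_Os M p hp hpM A hgen H hc hcA, (S33NX_B' M p c₀).algebraMap_mem c⟩

/-- a constant `c ∈ A ∩ Ω^H` lies in `Λ''_U ⊓ Λ''_U'`. -/
theorem S33ND_const_mem_LL (c₀ : Ω) {c : Ω} (hc : c ∈ (S36FI_act (M * p) H).fixK)
    (hcA : c ∈ A) :
    S33NX_const M p H c hc ∈
      S33NX_Lam M p hp hpM A hgen H ⊓ S33NX_Lam' M p hp hpM A hgen H c₀ :=
  ⟨S33ND_const_mem_Lam M p hp hpM A hgen H hc hcA,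
    S33ND_const_mem_Lam' M p hp hpM A hgen H c₀ hc hcA⟩

theorem S33ND_const_mul {a b : Ω} (ha : a ∈ (S36FI_act (M * p) H).fixK)
    (hb : b ∈ (S36FI_act (M * p) H).fixK) :
    S33NX_const M p H (a * b) (mul_mem ha hb) =
      S33NX_const M p H a ha * S33NX_const M p H b hb :=
  Subtype.ext (map_mul _ _ _)

theorem S33ND_const_pow {a : Ω} (ha : a ∈ (S36FI_act (M * p) H).fixK) (n : ℕ) :
    S33NX_const M p H (a ^ n) (pow_mem ha n) = S33NX_const M p H a ha ^ n :=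
  Subtype.ext (map_pow _ _ _)

theorem S33ND_const_one :
    S33NX_const M p H 1 (one_mem _) = 1 :=
  Subtype.ext (map_one _)

theorem S33ND_const_natCast (n : ℕ) :
    S33NX_const M p H (n : Ω) (natCast_mem _ n) = (n : S33NX_F M p H) :=
  Subtype.ext (map_natCast _ n)

theorem S33ND_const_congr {a b : Ω} (hab : a = b) (ha : a ∈ (S36FI_act (M * p) H).fixK) :
    S33NX_const M p H a ha = S33NX_const M p H b (hab ▸ ha) := by
  subst hab; rfl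

/-- `c = ϖ^n · u` in `Ω` with `u` a constant of a subring `X` of `F''` ⇒ `ϖ^n ∣ c` in `X`. -/
theorem S33ND_const_div (X : Subring (S33NX_F M p H)) {c u : Ω} (n : ℕ)
    (hϖ : ϖ ∈ (S36FI_act (M * p) H).fixK) (hu : u ∈ (S36FI_act (M * p) H).fixK)
    (hc : c ∈ (S36FI_act (M * p) H).fixK) (hcu : c = ϖ ^ n * u)
    (huX : S33NX_const M p H u hu ∈ X) :
    S33N1_Div X (S33NX_const M p H ϖ hϖ) n (S33NX_const M p H c hc) := by
  refine ⟨S33NX_const M p H u hu, huX, ?_⟩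
  apply Subtype.ext
  show algebraMap Ω ↥(modularFunctionFieldBar (M * p)) c =
    algebraMap Ω ↥(modularFunctionFieldBar (M * p)) ϖ ^ n *
      algebraMap Ω ↥(modularFunctionFieldBar (M * p)) u
  rw [hcu, map_mul, map_pow]

/-- the same for a natural number: `(p : Ω) = ϖ^n · u` ⇒ `ϖ^n ∣ p` in `X`. -/
theorem S33ND_natCast_div (X : Subring (S33NX_F M p H)) (m : ℕ) {u : Ω} (n : ℕ)
    (hϖ : ϖ ∈ (S36FI_act (M * p) H).fixK) (hu : u ∈ (S36FI_act (M * p) H).fixK)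
    (hcu : (m : Ω) = ϖ ^ n * u) (huX : S33NX_const M p H u hu ∈ X) :
    S33N1_Div X (S33NX_const M p H ϖ hϖ) n (m : S33NX_F M p H) := by
  rw [← S33ND_const_natCast M p H m]
  exact S33ND_const_div M p H X n hϖ hu _ hcu huX

/-- **`hpϖ` of `S33NX_rat`**: `(p : Ω) = ϖ^n · a`, `a ∈ A ∩ Ω^H` ⇒ `ϖ^n ∣ p` in `Λ ⊓ Λ'`. -/
theorem S33ND_natCast_div_LL (c₀ : Ω) (m : ℕ) {u : Ω} (n : ℕ)
    (hϖ : ϖ ∈ (S36FI_act (M * p) H).fixK) (hu : u ∈ (S36FI_act (M * p) H).fixK)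
    (huA : u ∈ A) (hcu : (m : Ω) = ϖ ^ n * u) :
    S33N1_Div (S33NX_Lam M p hp hpM A hgen H ⊓ S33NX_Lam' M p hp hpM A hgen H c₀)
      (S33NX_const M p H ϖ hϖ) n (m : S33NX_F M p H) :=
  S33ND_natCast_div M p H _ m n hϖ hu hcu (S33ND_const_mem_LL M p hp hpM A hgen H c₀ hu huA)

/-- a unit `ε ∈ A ∩ Ω^H` (`ε ε' = 1`, `ε' ∈ A`) gives `ε · ε' = 1` in `F''`. -/
theorem S33ND_const_unit {ε ε' : Ω} (hε : ε ∈ (S36FI_act (M * p) H).fixK)
    (hε' : ε' ∈ (S36FI_act (M * p) H).fixK) (h1 : ε * ε' = 1) :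
    S33NX_const M p H ε hε * S33NX_const M p H ε' hε' = 1 := by
  rw [← S33ND_const_mul, ← S33ND_const_one M p H]
  exact S33ND_const_congr M p H h1 _

/-! ### V-DISC -/

include hA in
/-- **V-DISC at `V₁`**. -/
theorem S33ND_isDV_zero (h : S33NL2_Unif A H ϖ) :
    S33N1_IsDV (S33NX_O M p hp hpM A hgen H 0)
      (S33NX_const M p H ϖ ((S36FI_mem_fixK (M * p) H).2 h.fixed)) := by
  haveI : NeZero p := ⟨hp.ne_zero⟩
  haveI : NeZero M := ⟨fun h0 => NeZero.ne (M * p) (by rw [h0, zero_mul])⟩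
  have hϖ0 : algebraMap Ω ↥(modularFunctionFieldBar (M * p)) ϖ ≠ 0 :=
    (map_ne_zero _).mpr h.ne_zero
  refine S33ND_isDV_of (S36FI_act (M * p) H).fixF (S34DF_O1 M p A hgen) _
    (S33ND_mem_O_zero M p hp hpM A hgen H) _
    ((S33ND_const_O1_iff M p A hgen).2 (S33ND_unif_mem A H h)) hϖ0 ?_ ?_
  · rw [S33ND_const_coe, ← map_inv₀, S33ND_const_O1_iff]
    exact S33ND_unif_inv_not_mem A H h
  · intro x hx hx0
    obtain ⟨k, hk1, hk2⟩ := S33NL2_dv_F M p hp A hA H h x hx hx0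
    rw [map_zpow₀] at hk1 hk2
    exact ⟨k, S36NR_G_le_S18 M p hp hpM A hA hk1, S36NR_G_le_S18 M p hp hpM A hA hk2⟩

include hA in
/-- **V-DISC at `V₂ = V₁ ∘ w_p`**. -/
theorem S33ND_isDV_one (h : S33NL2_Unif A H ϖ) :
    S33N1_IsDV (S33NX_O M p hp hpM A hgen H 1)
      (S33NX_const M p H ϖ ((S36FI_mem_fixK (M * p) H).2 h.fixed)) := by
  haveI : NeZero p := ⟨hp.ne_zero⟩
  haveI : NeZero M := ⟨fun h0 => NeZero.ne (M * p) (by rw [h0, zero_mul])⟩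
  have hϖ0 : algebraMap Ω ↥(modularFunctionFieldBar (M * p)) ϖ ≠ 0 :=
    (map_ne_zero _).mpr h.ne_zero
  refine S33ND_isDV_of (S36FI_act (M * p) H).fixF (S34DF_O2 M p hp hpM A hgen) _
    (S33ND_mem_O_one M p hp hpM A hgen H) _
    ((S33ND_const_O2_iff M p hp hpM A hgen).2 (S33ND_unif_mem A H h)) hϖ0 ?_ ?_
  · rw [S33ND_const_coe, ← map_inv₀, S33ND_const_O2_iff]
    exact S33ND_unif_inv_not_mem A H h
  · intro x hx hx0
    have hwx : S34DF_wq M p hp hpM x ∈ (S36FI_act (M * p) H).fixF :=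
      S33NL2_wq_fix M p hp hpM H x hx
    have hwx0 : S34DF_wq M p hp hpM x ≠ 0 := (map_ne_zero _).mpr hx0
    obtain ⟨k, hk1, hk2⟩ := S33NL2_dv_F M p hp A hA H h _ hwx hwx0
    rw [map_zpow₀] at hk1 hk2
    have e : S34DF_wq M p hp hpM (x * algebraMap Ω ↥(modularFunctionFieldBar (M * p)) ϖ ^ k) =
        S34DF_wq M p hp hpM x * algebraMap Ω ↥(modularFunctionFieldBar (M * p)) ϖ ^ k := by
      rw [map_mul, map_zpow₀, AlgEquiv.commutes]
    refine ⟨k, ?_, ?_⟩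
    · show S34DF_wq M p hp hpM _ ∈ S18_O A (M * p)
      rw [S33ND_const_coe, e]
      exact S36NR_G_le_S18 M p hp hpM A hA hk1
    · show S34DF_wq M p hp hpM _ ∈ S18_O A (M * p)
      rw [S33ND_const_coe, map_inv₀, e]
      exact S36NR_G_le_S18 M p hp hpM A hA hk2

include hA in
/-- **V-DISC** = the target `S33NX_TDV` of `S33/NewDefs.lean`. -/
theorem S33ND_TDV (h : S33NL2_Unif A H ϖ) :
    S33NX_TDV M p hp hpM A hgen H
      (S33NX_const M p H ϖ ((S36FI_mem_fixK (M * p) H).2 h.fixed)) := by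
  intro i
  fin_cases i
  · exact S33ND_isDV_zero M p hp hpM A hA hgen H h
  · exact S33ND_isDV_one M p hp hpM A hA hgen H h

/-- the same with any proof of `ϖ ∈ Ω^H`. -/
theorem S33ND_TDV' (h : S33NL2_Unif A H ϖ) (hϖ : ϖ ∈ (S36FI_act (M * p) H).fixK)
    (hA' : A.LiesOverPrime p) :
    S33NX_TDV M p hp hpM A hgen H (S33NX_const M p H ϖ hϖ) :=
  S33ND_TDV M p hp hpM A hA' hgen H h

/-! ### from the valuation form of RA-FIN (`S33BL_exists_H`, helper18) -/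

/-- **`S33NL2_Unif` from the valuation form**: `ϖ ∈ Ω^H`, `ϖ ≠ 0`, `v(ϖ) < 1` and every
`c ≠ 0` of `Ω^H` has `v(c) = v(ϖ)^m` (the output of `S33BL_exists_H`). -/
theorem S33ND_unif_of_val (N : ℕ) (hϖ : ϖ ∈ (S36FI_act N H).fixK) (hϖ0 : ϖ ≠ 0)
    (hϖ1 : A.valuation ϖ < 1)
    (hval : ∀ c : Ω, c ∈ (S36FI_act N H).fixK → c ≠ 0 →
      ∃ m : ℤ, A.valuation c = A.valuation ϖ ^ m) :
    S33NL2_Unif A H ϖ where
  fixed := (S36FI_mem_fixK N H).1 hϖ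
  lt_one := hϖ1
  ne_zero := hϖ0
  dv := by
    intro x hx hx0
    obtain ⟨m, hm⟩ := hval x ((S36FI_mem_fixK N H).2 hx) hx0
    have hw0 : A.valuation ϖ ≠ 0 := (map_ne_zero _).mpr hϖ0
    exact ⟨-m, by rw [map_mul, map_zpow₀, hm, ← zpow_add₀ hw0, add_neg_cancel, zpow_zero]⟩

include hA in
/-- **V-DISC from the valuation form** (plug the output of `S33BL_exists_H` directly). -/
theorem S33ND_TDV_of_val (hϖ : ϖ ∈ (S36FI_act (M * p) H).fixK) (hϖ0 : ϖ ≠ 0)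
    (hϖ1 : A.valuation ϖ < 1)
    (hval : ∀ c : Ω, c ∈ (S36FI_act (M * p) H).fixK → c ≠ 0 →
      ∃ m : ℤ, A.valuation c = A.valuation ϖ ^ m) :
    S33NX_TDV M p hp hpM A hgen H (S33NX_const M p H ϖ hϖ) :=
  S33ND_TDV M p hp hpM A hA hgen H (S33ND_unif_of_val A H (M * p) hϖ hϖ0 hϖ1 hval)

/-- a constant `c ∈ Ω^H` with `v(c) = v(ϖ)^n` is `ϖ^n · ε` with `ε, ε' ∈ A ∩ Ω^H`, `ε ε' = 1`. -/
theorem S33ND_unit_of_val (N : ℕ) (hϖ : ϖ ∈ (S36FI_act N H).fixK) (hϖ0 : ϖ ≠ 0) {c : Ω}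
    (hc : c ∈ (S36FI_act N H).fixK) (n : ℕ) (hcn : A.valuation c = A.valuation ϖ ^ n) :
    ∃ ε ε' : Ω, ε ∈ (S36FI_act N H).fixK ∧ ε' ∈ (S36FI_act N H).fixK ∧ ε ∈ A ∧ ε' ∈ A ∧
      ε * ε' = 1 ∧ c = ϖ ^ n * ε := by
  have hw0 : A.valuation ϖ ≠ 0 := (map_ne_zero _).mpr hϖ0
  have hc0 : c ≠ 0 := by
    intro h0
    rw [h0, map_zero] at hcn
    exact pow_ne_zero n hw0 hcn.symm
  have hϖn0 : ϖ ^ n ≠ 0 := pow_ne_zero n hϖ0
  have hv1 : A.valuation (c * (ϖ ^ n)⁻¹) = 1 := by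
    rw [map_mul, map_inv₀, map_pow, hcn, mul_inv_cancel₀ (pow_ne_zero n hw0)]
  have hv2 : A.valuation (ϖ ^ n * c⁻¹) = 1 := by
    rw [map_mul, map_inv₀, map_pow, hcn, mul_inv_cancel₀ (pow_ne_zero n hw0)]
  refine ⟨c * (ϖ ^ n)⁻¹, ϖ ^ n * c⁻¹, mul_mem hc (inv_mem (pow_mem hϖ n)),
    mul_mem (pow_mem hϖ n) (inv_mem hc), ?_, ?_, ?_, ?_⟩
  · rw [← A.valuation_le_one_iff, hv1]
  · rw [← A.valuation_le_one_iff, hv2]
  · field_simp
  · field_simp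

/-- **`hlam`-shape**: a constant `c ∈ Ω^H` with `v(c) = v(ϖ)^n` is, in `F''`,
`(const ϖ)^n · ε` with `ε`, `ε'` in `Λ''_U ⊓ Λ''_U'` and `ε ε' = 1`. -/
theorem S33ND_const_eq_pow_mul (c₀ : Ω) (hϖ : ϖ ∈ (S36FI_act (M * p) H).fixK) (hϖ0 : ϖ ≠ 0)
    {c : Ω} (hc : c ∈ (S36FI_act (M * p) H).fixK) (n : ℕ)
    (hcn : A.valuation c = A.valuation ϖ ^ n) :
    ∃ ε ε' : S33NX_F M p H,
      ε ∈ S33NX_Lam M p hp hpM A hgen H ⊓ S33NX_Lam' M p hp hpM A hgen H c₀ ∧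
      ε' ∈ S33NX_Lam M p hp hpM A hgen H ⊓ S33NX_Lam' M p hp hpM A hgen H c₀ ∧
      ε * ε' = 1 ∧ S33NX_const M p H c hc = S33NX_const M p H ϖ hϖ ^ n * ε := by
  obtain ⟨ε, ε', hε, hε', hεA, hε'A, h1, hcε⟩ := S33ND_unit_of_val A H (M * p) hϖ hϖ0 hc n hcn
  refine ⟨S33NX_const M p H ε hε, S33NX_const M p H ε' hε',
    S33ND_const_mem_LL M p hp hpM A hgen H c₀ hε hεA,
    S33ND_const_mem_LL M p hp hpM A hgen H c₀ hε' hε'A,
    S33ND_const_unit M p H hε hε' h1, ?_⟩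
  apply Subtype.ext
  show algebraMap Ω ↥(modularFunctionFieldBar (M * p)) c =
    algebraMap Ω ↥(modularFunctionFieldBar (M * p)) ϖ ^ n *
      algebraMap Ω ↥(modularFunctionFieldBar (M * p)) ε
  rw [hcε, map_mul, map_pow]

/-- **`hpϖ`-shape**: `v(m) = v(ϖ)^n` for a natural number `m` ⇒ `ϖ^n ∣ m` in `Λ ⊓ Λ'`. -/
theorem S33ND_natCast_div_of_val (c₀ : Ω) (hϖ : ϖ ∈ (S36FI_act (M * p) H).fixK) (hϖ0 : ϖ ≠ 0)
    (m n : ℕ) (hcn : A.valuation (m : Ω) = A.valuation ϖ ^ n) :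
    S33N1_Div (S33NX_Lam M p hp hpM A hgen H ⊓ S33NX_Lam' M p hp hpM A hgen H c₀)
      (S33NX_const M p H ϖ hϖ) n (m : S33NX_F M p H) := by
  obtain ⟨ε, ε', hε, hε', hεA, hε'A, h1, hcε⟩ :=
    S33ND_unit_of_val A H (M * p) hϖ hϖ0 (natCast_mem _ m) n hcn
  exact S33ND_natCast_div_LL M p hp hpM A hgen H c₀ m n hϖ hε hεA hcε

/-- **`hϖ`-shape**: the uniformiser lies in `Λ ⊓ Λ'`. -/
theorem S33ND_unif_mem_LL (c₀ : Ω) (hϖ : ϖ ∈ (S36FI_act (M * p) H).fixK)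
    (hϖ1 : A.valuation ϖ < 1) :
    S33NX_const M p H ϖ hϖ ∈
      S33NX_Lam M p hp hpM A hgen H ⊓ S33NX_Lam' M p hp hpM A hgen H c₀ :=
  S33ND_const_mem_LL M p hp hpM A hgen H c₀ hϖ ((A.valuation_le_one_iff ϖ).mp hϖ1.le)

end Fermat.Agent.S33
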