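import Fermat.Agent.S33.BaseFin
import Fermat.Agent.S33.NewDisc
import Fermat.Agent.S36.BaseLDvr

/-!
# TRACK 11 (S33), package RA-DISC (helper20): the constants of NEW33 in the consumers' shapes

The discreteness itself is `S33BL_exists_H` (helper18, `S33/BaseFin.lean`, valuation form) and
its conversions to the rational function field are in `S33/NewDisc.lean` (helper3).  Here: the
remaining conversions, prefix `S33BD_`.

* `S33BD_hpe`       : the uniformiser as an element `ϖ` of `A`, not a unit, `ϖ ≠ 0`, and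
                      `p = ϖ ^ E · ε` with `ε : Aˣ` — the inputs `ϖ hϖ hϖ0 e₀ ε hpe` of
                      `S33NG_hinj_bad` (`S33/NewInjGrid.lean`), `E = (p - 1) e₀`;
* `S33BD_exists_c0` : a chart constant `c₀ ∈ A`, fixed by the inertia group, whose residue
                      avoids a given finite set (`bad` of `S33NG_hinj_bad`);
* `S33BD_val_lam`   : `v(ζ - 1) = v(1 - ζ)`;
* `S33BD_consts`    : ALL constants of `S33NX_rat` at once from the valuation form: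
                      `hϖ`, `hpϖ`, `ε`, `ε'`, `hε`, `hε'`, `hεε`, `hlam` for
                      `lam = S33NX_const (ζ - 1)`, together with `S33NX_TDV`;
* `S33BD_main`      : `S33BL_exists_H` + all of the above in one statement.
-/

set_option autoImplicit false
set_option synthInstance.maxHeartbeats 400000
set_option maxHeartbeats 1000000
set_option linter.unusedSectionVars false
set_option linter.unusedVariables false
set_option linter.style.haveILetI false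

open ModularCurve AlgebraicCurve

namespace Fermat.Agent.S33

open Fermat.Agent.S19 Fermat.Agent.S34 Fermat.Agent.S36 Fermat.Agent.S18 Fermat.Agent.S24

noncomputable section

local notation "Ω" => AlgebraicClosure ℚ
local notation "Γ" => (AlgebraicClosure ℚ ≃ₐ[ℚ] AlgebraicClosure ℚ)

section inA

variable (A : ValuationSubring Ω)

/-- **`hpe`**: the uniformiser as an element of `A` and `p = ϖ ^ E · ε`, `ε` a unit of `A`. -/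
theorem S33BD_hpe {p : ℕ} {ϖ₀ : Ω} (hϖ0 : ϖ₀ ≠ 0) (hϖ1 : A.valuation ϖ₀ < 1) (E : ℕ)
    (hvp : A.valuation (p : Ω) = A.valuation ϖ₀ ^ E) :
    ∃ (ϖ : A) (ε : Aˣ), (ϖ : Ω) = ϖ₀ ∧ ¬ IsUnit ϖ ∧ ϖ ≠ 0 ∧ ((p : ℕ) : A) = ϖ ^ E * ε := by
  have hw0 : A.valuation ϖ₀ ≠ 0 := (map_ne_zero _).mpr hϖ0
  have hϖA : ϖ₀ ∈ A := (A.valuation_le_one_iff ϖ₀).mp hϖ1.le
  have hp0 : (p : Ω) ≠ 0 := by
    intro h0
    rw [h0, map_zero] at hvp
    exact pow_ne_zero E hw0 hvp.symm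
  have hϖE0 : ϖ₀ ^ E ≠ 0 := pow_ne_zero E hϖ0
  have hv1 : A.valuation ((p : Ω) * (ϖ₀ ^ E)⁻¹) = 1 := by
    rw [map_mul, map_inv₀, map_pow, hvp, mul_inv_cancel₀ (pow_ne_zero E hw0)]
  have hv2 : A.valuation (ϖ₀ ^ E * ((p : Ω))⁻¹) = 1 := by
    rw [map_mul, map_inv₀, map_pow, hvp, mul_inv_cancel₀ (pow_ne_zero E hw0)]
  have ht : (p : Ω) * (ϖ₀ ^ E)⁻¹ ∈ A := by rw [← A.valuation_le_one_iff, hv1]
  have ht' : ϖ₀ ^ E * ((p : Ω))⁻¹ ∈ A := by rw [← A.valuation_le_one_iff, hv2]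
  refine ⟨⟨ϖ₀, hϖA⟩, ⟨⟨_, ht⟩, ⟨_, ht'⟩, Subtype.ext ?_, Subtype.ext ?_⟩, rfl, ?_, ?_, ?_⟩
  · show (p : Ω) * (ϖ₀ ^ E)⁻¹ * (ϖ₀ ^ E * ((p : Ω))⁻¹) = 1
    field_simp
  · show ϖ₀ ^ E * ((p : Ω))⁻¹ * ((p : Ω) * (ϖ₀ ^ E)⁻¹) = 1
    field_simp
  · intro hu
    have h1 := S36IT_inv_mem_of_isUnit A hu
    rw [← A.valuation_le_one_iff, map_inv₀] at h1
    have h2 : 1 ≤ A.valuation ϖ₀ := by
      have h3 := (inv_le_one₀ (zero_lt_iff.mpr hw0)).mp h1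
      exact h3
    exact lt_irrefl _ (hϖ1.trans_le h2)
  · intro h0
    exact hϖ0 (congrArg Subtype.val h0)
  · apply Subtype.ext
    show ((((p : ℕ) : A) : A) : Ω) = (((⟨ϖ₀, hϖA⟩ : A) ^ E * (⟨(p : Ω) * (ϖ₀ ^ E)⁻¹, ht⟩ : A) : A) : Ω)
    push_cast
    field_simp

/-- **the chart constant**: an inertia-fixed `c₀ ∈ A` whose residue avoids a finite set. -/
theorem S33BD_exists_c0 {p : ℕ} (hp : p.Prime) (hA : A.LiesOverPrime p)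
    (bad : Finset (IsLocalRing.ResidueField A)) :
    ∃ c₀ : A, (∀ τ ∈ A.inertiaSubgroupIn ℚ, τ (c₀ : Ω) = (c₀ : Ω)) ∧
      IsLocalRing.residue A c₀ ∉ bad := by
  haveI : IsAlgClosed (IsLocalRing.ResidueField A) := S18_residue_isAlgClosed A
  haveI : Infinite (IsLocalRing.ResidueField A) := IsAlgClosed.instInfinite
  haveI : Algebra.IsAlgebraic ℚ Ω := AlgebraicClosure.isAlgebraic ℚ
  obtain ⟨y, hy⟩ := Infinite.exists_notMem_finset bad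
  obtain ⟨a, ha, hfix⟩ := S19TE_exists_lift A hp hA y
  exact ⟨a, hfix, by rw [ha]; exact hy⟩

/-- `v(ζ - 1) = v(1 - ζ)`. -/
theorem S33BD_val_lam (ζ : Ω) : A.valuation (ζ - 1) = A.valuation (1 - ζ) :=
  Valuation.map_sub_swap _ _ _

end inA

/-! ### the constants of `S33NX_rat` -/

section consts

variable (M p : ℕ) [NeZero (M * p)] (hp : p.Prime) (hpM : ¬ p ∣ M)
  (A : ValuationSubring Ω) (hA : A.LiesOverPrime p)
  (hgen : PrincipalGeneratedByIntegral A (IsLocalRing.residue A) (M * p))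
  (H : Subgroup Γ)

/-- `ζ - 1` is a constant of `fixK(H)`. -/
theorem S33BD_lam_mem {ζ : Ω} (hζ : ζ ∈ (S36FI_act (M * p) H).fixK) :
    ζ - 1 ∈ (S36FI_act (M * p) H).fixK :=
  sub_mem hζ (one_mem _)

include hA in
/-- **ALL constants of `S33NX_rat`** from the valuation form (the output of `S33BL_exists_H`):
`hDV`, `hϖ`, `hpϖ`, and `ε`, `ε'` with `hε`, `hε'`, `hεε`, `hlam` for
`lam = S33NX_const (ζ - 1)`, `ϖ = S33NX_const ϖ₀`. -/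
theorem S33BD_consts {ζ ϖ₀ : Ω} {e₀ : ℕ}
    (hζ : ζ ∈ (S36FI_act (M * p) H).fixK)
    (hϖ : ϖ₀ ∈ (S36FI_act (M * p) H).fixK) (hϖ0 : ϖ₀ ≠ 0) (hϖ1 : A.valuation ϖ₀ < 1)
    (hval : ∀ c : Ω, c ∈ (S36FI_act (M * p) H).fixK → c ≠ 0 →
      ∃ m : ℤ, A.valuation c = A.valuation ϖ₀ ^ m)
    (hlam : A.valuation (1 - ζ) = A.valuation ϖ₀ ^ e₀)
    (hvp : A.valuation (p : Ω) = A.valuation ϖ₀ ^ ((p - 1) * e₀)) (c₀ : Ω) :
    S33NX_TDV M p hp hpM A hgen H (S33NX_const M p H ϖ₀ hϖ) ∧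
    S33NX_const M p H ϖ₀ hϖ ∈
      S33NX_Lam M p hp hpM A hgen H ⊓ S33NX_Lam' M p hp hpM A hgen H c₀ ∧
    S33N1_Div (S33NX_Lam M p hp hpM A hgen H ⊓ S33NX_Lam' M p hp hpM A hgen H c₀)
      (S33NX_const M p H ϖ₀ hϖ) ((p - 1) * e₀) (p : S33NX_F M p H) ∧
    ∃ ε ε' : S33NX_F M p H,
      ε ∈ S33NX_Lam M p hp hpM A hgen H ⊓ S33NX_Lam' M p hp hpM A hgen H c₀ ∧
      ε' ∈ S33NX_Lam M p hp hpM A hgen H ⊓ S33NX_Lam' M p hp hpM A hgen H c₀ ∧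
      ε * ε' = 1 ∧
      S33NX_const M p H (ζ - 1) (S33BD_lam_mem M p H hζ) = S33NX_const M p H ϖ₀ hϖ ^ e₀ * ε :=
  ⟨S33ND_TDV_of_val M p hp hpM A hA hgen H hϖ hϖ0 hϖ1 hval,
    S33ND_unif_mem_LL M p hp hpM A hgen H c₀ hϖ hϖ1,
    S33ND_natCast_div_of_val M p hp hpM A hgen H c₀ hϖ hϖ0 p ((p - 1) * e₀) hvp,
    S33ND_const_eq_pow_mul M p hp hpM A hgen H c₀ hϖ hϖ0 (S33BD_lam_mem M p H hζ) e₀
      ((S33BD_val_lam A ζ).trans hlam)⟩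

include hA in
/-- **RA, everything at once**: for a finite list `fs` of functions of `F = ℚ̄(X₀(M p))`, a finite
list `cs` of constants, a primitive `p`-th root of unity `ζ` and a finite set `bad` of residues
there are
* `H ≤ I`, normalised by `I`, of finite index in `I`, fixing `fs`, `cs`, `ζ`, with `Ω^I ⊆ fixK(H)`;
* a uniformiser `ϖ₀` of `A ∩ fixK(H)` and `e₀ ≥ 1` (valuation form, `S33NL2_Unif A H ϖ₀`);
* `ϖ : A`, `ε : Aˣ` with `(ϖ : Ω) = ϖ₀`, `¬ IsUnit ϖ`, `ϖ ≠ 0`, `p = ϖ ^ ((p - 1) e₀) · ε`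
  (inputs of `S33NG_hinj_bad`);
* an `I`-fixed chart constant `c₀ ∈ A` with `c̄₀ ∉ bad`;
* the constants of `S33NX_rat` (`S33BD_consts`) for `ϖ = S33NX_const ϖ₀`,
  `lam = S33NX_const (ζ - 1)` and the chart `U' = {j ≠ c₀}`. -/
theorem S33BD_main
    (fs : Finset ↥(modularFunctionFieldBar (M * p))) (cs : Finset Ω)
    {ζ : Ω} (hprim : IsPrimitiveRoot ζ p) (bad : Finset (IsLocalRing.ResidueField A)) :
    ∃ H : Subgroup Γ, H ≤ A.inertiaSubgroupIn ℚ ∧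
      (∀ δ ∈ A.inertiaSubgroupIn ℚ, ∀ τ ∈ H, δ * τ * δ⁻¹ ∈ H) ∧
      (H.subgroupOf (A.inertiaSubgroupIn ℚ)).FiniteIndex ∧
      (∀ f ∈ fs, f ∈ (S36FI_act (M * p) H).fixF) ∧
      (∀ c ∈ cs, c ∈ (S36FI_act (M * p) H).fixK) ∧
      (∀ c : Ω, (∀ τ ∈ A.inertiaSubgroupIn ℚ, τ c = c) → c ∈ (S36FI_act (M * p) H).fixK) ∧
      ∃ (hζ : ζ ∈ (S36FI_act (M * p) H).fixK) (ϖ₀ : Ω) (e₀ : ℕ)
        (hϖ : ϖ₀ ∈ (S36FI_act (M * p) H).fixK) (ϖ : A) (ε : Aˣ) (c₀ : A),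
        0 < e₀ ∧ S33NL2_Unif A H ϖ₀ ∧
        A.valuation (1 - ζ) = A.valuation ϖ₀ ^ e₀ ∧
        A.valuation (p : Ω) = A.valuation ϖ₀ ^ ((p - 1) * e₀) ∧
        (ϖ : Ω) = ϖ₀ ∧ ¬ IsUnit ϖ ∧ ϖ ≠ 0 ∧ ((p : ℕ) : A) = ϖ ^ ((p - 1) * e₀) * ε ∧
        (∀ τ ∈ A.inertiaSubgroupIn ℚ, τ (c₀ : Ω) = (c₀ : Ω)) ∧
        IsLocalRing.residue A c₀ ∉ bad ∧
        S33NX_TDV M p hp hpM A hgen H (S33NX_const M p H ϖ₀ hϖ) ∧
        S33NX_const M p H ϖ₀ hϖ ∈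
          S33NX_Lam M p hp hpM A hgen H ⊓ S33NX_Lam' M p hp hpM A hgen H (c₀ : Ω) ∧
        S33N1_Div (S33NX_Lam M p hp hpM A hgen H ⊓ S33NX_Lam' M p hp hpM A hgen H (c₀ : Ω))
          (S33NX_const M p H ϖ₀ hϖ) ((p - 1) * e₀) (p : S33NX_F M p H) ∧
        ∃ ε₁ ε₁' : S33NX_F M p H,
          ε₁ ∈ S33NX_Lam M p hp hpM A hgen H ⊓ S33NX_Lam' M p hp hpM A hgen H (c₀ : Ω) ∧
          ε₁' ∈ S33NX_Lam M p hp hpM A hgen H ⊓ S33NX_Lam' M p hp hpM A hgen H (c₀ : Ω) ∧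
          ε₁ * ε₁' = 1 ∧
          S33NX_const M p H (ζ - 1) (S33BD_lam_mem M p H hζ) =
            S33NX_const M p H ϖ₀ hϖ ^ e₀ * ε₁ := by
  haveI : Fact p.Prime := ⟨hp⟩
  obtain ⟨H, hHI, hnorm, hfin, hfs, hcs, hζ, hI, ϖ₀, e₀, hϖ, hϖ0, hϖ1, he₀, hval, hlam, hvp⟩ :=
    S33BL_exists_H A hA (M * p) fs cs hprim
  obtain ⟨ϖ, ε, hϖϖ, hϖu, hϖn, hpe⟩ := S33BD_hpe A hϖ0 hϖ1 ((p - 1) * e₀) hvp
  obtain ⟨c₀, hc₀fix, hc₀⟩ := S33BD_exists_c0 A hp hA bad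
  obtain ⟨h1, h2, h3, h4⟩ :=
    S33BD_consts M p hp hpM A hA hgen H hζ hϖ hϖ0 hϖ1 hval hlam hvp (c₀ : Ω)
  exact ⟨H, hHI, hnorm, hfin, hfs, hcs, hI, hζ, ϖ₀, e₀, hϖ, ϖ, ε, c₀, he₀,
    S33ND_unif_of_val A H (M * p) hϖ hϖ0 hϖ1 hval, hlam, hvp, hϖϖ, hϖu, hϖn, hpe, hc₀fix, hc₀,
    h1, h2, h3, h4⟩

end consts

end

end Fermat.Agent.S33
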