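import Mathlib
import Fermat.Agent.S36.BaseLDvr
import Fermat.Agent.S36.OrdQ

/-!
# TRACK 11 (S33), pre-work BASE-Z (helper20): the base ring `O' = A ∩ L(ζ_p)`

`Ω = ℚ̄`, `A` a valuation subring of `Ω` over the prime `p`, `I` its inertia group, `ζ` a primitive
`p`-th root of unity, `λ = ζ - 1`, `I_ζ = {τ ∈ I | τ ζ = ζ}`, `L' ⊆ Ω^{I_ζ}` a subfield
containing `ζ` (e.g. `L' = L(ζ)`, `L = Ω^I`).  Prefix `S33BZ_`.

* `S33BZ_val_eq`    : a non-zero `c` fixed by `I_ζ` has `v(c) = v(1 - ζ) ^ m`, `m : ℤ`;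
* `S33BZ_isDVR_of_val` (general) : a valuation ring all of whose values are powers of `v(π)`,
  `v(π) < 1`, is a discrete valuation ring;
* `S33BZ_isDVR`     : `A ∩ L'` is a discrete valuation ring (uniformiser `1 - ζ`);
* `S33BZ_dv`        : every `c ≠ 0` of `L'` is `(1 - ζ) ^ m · unit`;
* `S33BZ_lambda_pow`: `(ζ - 1) ^ (p - 1) = p · (-1 + (ζ - 1) a)` with `a ∈ A` (`λ^{p-1} = -p · unit`);
* `S33BZ_sigma_lambda` : `σ λ = λ · (χ(σ) + m)` with `m ∈ 𝔪_A` for `σ ∈ I`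
  (`σ λ / λ ≡ ε̄(σ)`), `χ = S36BL_chi` the cyclotomic character;
* `S33BZ_res_surjective` : the residue field of `A ∩ L'` is that of `A`.
-/

set_option autoImplicit false
set_option linter.unusedSectionVars false
set_option linter.unusedVariables false
set_option linter.style.haveILetI false

open Fermat.Agent.S19 Fermat.Agent.S36

namespace Fermat.Agent.S33

noncomputable section

/-! ### general: valuation rings with value group `v(π) ^ ℤ` -/

section general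

variable {Γ₀ : Type*} [LinearOrderedCommGroupWithZero Γ₀]

theorem S33BZ_zpow_lt_one_iff {w : Γ₀} (h0 : w ≠ 0) (h1 : w < 1) {a : ℤ} :
    w ^ a < 1 ↔ 0 < a := by
  have hpos : 0 < w := zero_lt_iff.mpr h0
  constructor
  · intro h
    by_contra hcon
    push Not at hcon
    rcases hcon.lt_or_eq with hlt | heq
    · have := zpow_lt_zpow_right_of_lt_one₀ hpos h1 hlt
      rw [zpow_zero] at this
      exact lt_irrefl _ (this.trans h)
    · rw [heq, zpow_zero] at h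
      exact lt_irrefl _ h
  · intro h
    have := zpow_lt_zpow_right_of_lt_one₀ hpos h1 h
    rwa [zpow_zero] at this

theorem S33BZ_zpow_le_one_iff {w : Γ₀} (h0 : w ≠ 0) (h1 : w < 1) {a : ℤ} :
    w ^ a ≤ 1 ↔ 0 ≤ a := by
  have hpos : 0 < w := zero_lt_iff.mpr h0
  constructor
  · intro h
    by_contra hcon
    push Not at hcon
    have := zpow_lt_zpow_right_of_lt_one₀ hpos h1 hcon
    rw [zpow_zero] at this
    exact lt_irrefl _ (this.trans_le h)
  · intro h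
    rcases h.lt_or_eq with hlt | heq
    · exact ((S33BZ_zpow_lt_one_iff h0 h1).2 hlt).le
    · rw [← heq, zpow_zero]

variable {K : Type*} [Field K]

/-- a valuation subring of a subfield `L'`, all of whose non-zero elements have a value
`v(π) ^ m`, `π ∈ L'`, `v(π) < 1`, is a discrete valuation ring. -/
theorem S33BZ_isDVR_of_val (A : ValuationSubring K) (L' : Subfield K) (π : L') (hπ0 : π ≠ 0)
    (hπ1 : A.valuation (π : K) < 1)
    (hval : ∀ x : L', x ≠ 0 → ∃ m : ℤ, A.valuation (x : K) = A.valuation (π : K) ^ m) :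
    IsDiscreteValuationRing ↥(A.comap L'.subtype) := by
  have hπK : (π : K) ≠ 0 := fun h => hπ0 (Subtype.ext h)
  have hw0 : A.valuation (π : K) ≠ 0 := (Valuation.ne_zero_iff _).2 hπK
  have hmem : ∀ x : L', x ∈ A.comap L'.subtype ↔ A.valuation (x : K) ≤ 1 := fun x => by
    rw [A.valuation_le_one_iff]; rfl
  refine S36IT_isDVR_of_unif (A.comap L'.subtype) π ((hmem π).2 hπ1.le) hπ0 ?_ ?_ ?_
  · rw [hmem]
    push_cast
    rw [map_inv₀, not_le]
    exact (one_lt_inv₀ (zero_lt_iff.mpr hw0)).mpr hπ1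
  · intro x hx hxi
    have hx0 : x ≠ 0 := by
      rintro rfl
      rw [inv_zero] at hxi
      exact hxi (A.comap L'.subtype).zero_mem
    obtain ⟨m, hm⟩ := hval x hx0
    have hlt : A.valuation (x : K) < 1 := by
      rw [hmem] at hxi
      push_cast at hxi
      rw [map_inv₀, not_le] at hxi
      have hvx0 : A.valuation (x : K) ≠ 0 :=
        (Valuation.ne_zero_iff _).2 (fun h => hx0 (Subtype.ext h))
      exact (one_lt_inv₀ (zero_lt_iff.mpr hvx0)).mp hxi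
    rw [hm, S33BZ_zpow_lt_one_iff hw0 hπ1] at hlt
    rw [hmem]
    push_cast
    rw [map_div₀, hm, div_eq_mul_inv, ← zpow_neg_one, ← zpow_add₀ hw0,
      S33BZ_zpow_le_one_iff hw0 hπ1]
    omega
  · intro x hx hx0
    obtain ⟨m, hm⟩ := hval x hx0
    have hle : A.valuation (x : K) ≤ 1 := (hmem x).mp hx
    rw [hm, S33BZ_zpow_le_one_iff hw0 hπ1] at hle
    refine ⟨m.toNat + 1, ?_⟩
    rw [hmem]
    push_cast
    rw [map_div₀, map_pow, hm, not_le, div_eq_mul_inv, ← zpow_natCast, ← zpow_neg,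
      ← zpow_add₀ hw0]
    have hneg : m + -((m.toNat + 1 : ℕ) : ℤ) < 0 := by
      have := Int.toNat_of_nonneg hle
      push_cast
      omega
    have hpos : 0 < A.valuation (π : K) := zero_lt_iff.mpr hw0
    have := zpow_lt_zpow_right_of_lt_one₀ hpos hπ1 hneg
    rwa [zpow_zero] at this

/-- every non-zero element is `π ^ m · unit`. -/
theorem S33BZ_dv_of_val (A : ValuationSubring K) (L' : Subfield K) (π : L') (hπ0 : π ≠ 0)
    (hval : ∀ x : L', x ≠ 0 → ∃ m : ℤ, A.valuation (x : K) = A.valuation (π : K) ^ m)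
    {c : L'} (hc : c ≠ 0) :
    ∃ m : ℤ, c * π ^ (-m) ∈ A.comap L'.subtype ∧ (c * π ^ (-m))⁻¹ ∈ A.comap L'.subtype := by
  have hπK : (π : K) ≠ 0 := fun h => hπ0 (Subtype.ext h)
  have hw0 : A.valuation (π : K) ≠ 0 := (Valuation.ne_zero_iff _).2 hπK
  obtain ⟨m, hm⟩ := hval c hc
  have hone : A.valuation ((c : K) * (π : K) ^ (-m)) = 1 := by
    rw [map_mul, map_zpow₀, hm, ← zpow_add₀ hw0, add_neg_cancel, zpow_zero]
  have hcoe : L'.subtype (c * π ^ (-m)) = (c : K) * (π : K) ^ (-m) := by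
    rw [map_mul, map_zpow₀]
    rfl
  refine ⟨m, ?_, ?_⟩
  · show L'.subtype (c * π ^ (-m)) ∈ A
    rw [hcoe, ← A.valuation_le_one_iff, hone]
  · show L'.subtype (c * π ^ (-m))⁻¹ ∈ A
    rw [map_inv₀, hcoe, ← A.valuation_le_one_iff, map_inv₀, hone, inv_one]

end general

/-! ### the cyclotomic base -/

local notation "Ω" => AlgebraicClosure ℚ
local notation "Γ" => (AlgebraicClosure ℚ ≃ₐ[ℚ] AlgebraicClosure ℚ)

variable {p : ℕ} [hp : Fact p.Prime] (A : ValuationSubring Ω)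

theorem S33BZ_one_sub_ne_zero {ζ : Ω} (hprim : IsPrimitiveRoot ζ p) : (1 - ζ : Ω) ≠ 0 :=
  sub_ne_zero.mpr (Ne.symm (hprim.ne_one hp.out.one_lt))

/-- `v(1 - ζ) < 1`. -/
theorem S33BZ_val_one_sub_lt (hA : A.LiesOverPrime p) {ζ : Ω} (hprim : IsPrimitiveRoot ζ p) :
    A.valuation (1 - ζ) < 1 := by
  have h1 := S36BL_val_one_sub_zeta A hprim
  have h2 := S36BL_vq_lt_one A hA
  by_contra hcon
  push Not at hcon
  have h3 : 1 ≤ A.valuation (1 - ζ) ^ (p - 1) := one_le_pow₀ hcon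
  rw [h1] at h3
  exact lt_irrefl _ (h2.trans_le h3)

/-- **the value group of `L(ζ_p)`**: a non-zero `c` fixed by `I_ζ` has `v(c) = v(1 - ζ) ^ m`. -/
theorem S33BZ_val_eq (hA : A.LiesOverPrime p) {ζ : Ω} (hprim : IsPrimitiveRoot ζ p) {c : Ω}
    (hc : c ≠ 0) (hfix : ∀ τ ∈ A.inertiaSubgroupIn ℚ, τ ζ = ζ → τ c = c) :
    ∃ m : ℤ, A.valuation c = A.valuation (1 - ζ) ^ m := by
  obtain ⟨k, hk⟩ := S36BL_val_zeta A hA hprim.pow_eq_one hc hfix
  have hp1 : p - 1 ≠ 0 := by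
    have := hp.out.two_le
    omega
  have hw0 : A.valuation (1 - ζ : Ω) ≠ 0 :=
    (Valuation.ne_zero_iff _).2 (S33BZ_one_sub_ne_zero hprim)
  have hvq := S36BL_val_one_sub_zeta A hprim
  refine ⟨-k, ?_⟩
  have h1 : (A.valuation c * A.valuation (1 - ζ) ^ k) ^ (p - 1) = 1 := by
    rw [mul_pow, ← zpow_natCast (A.valuation (1 - ζ) ^ k), ← zpow_mul, mul_comm k,
      zpow_mul, zpow_natCast, hvq, ← map_pow, ← map_zpow₀, ← map_mul]
    exact hk
  have h2 := (pow_eq_one_iff_of_nonneg zero_le hp1).mp h1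
  rw [zpow_neg]
  exact eq_inv_of_mul_eq_one_left h2

variable (L' : Subfield Ω)

/-- **`A ∩ L'` is a discrete valuation ring** with uniformiser `1 - ζ`, for `ζ ∈ L' ⊆ Ω^{I_ζ}`. -/
theorem S33BZ_isDVR (hA : A.LiesOverPrime p) {ζ : Ω} (hprim : IsPrimitiveRoot ζ p)
    (hζ : ζ ∈ L')
    (hL' : ∀ c ∈ L', ∀ τ ∈ A.inertiaSubgroupIn ℚ, τ ζ = ζ → τ c = c) :
    IsDiscreteValuationRing ↥(A.comap L'.subtype) := by
  refine S33BZ_isDVR_of_val A L' ⟨1 - ζ, L'.sub_mem L'.one_mem hζ⟩ ?_ ?_ ?_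
  · intro h
    exact S33BZ_one_sub_ne_zero hprim (congrArg Subtype.val h)
  · exact S33BZ_val_one_sub_lt A hA hprim
  · intro x hx
    exact S33BZ_val_eq A hA hprim (fun h => hx (Subtype.ext h)) (hL' x x.2)

/-- every non-zero element of `L'` is `(1 - ζ) ^ m · unit` of `A ∩ L'`. -/
theorem S33BZ_dv (hA : A.LiesOverPrime p) {ζ : Ω} (hprim : IsPrimitiveRoot ζ p)
    (hζ : ζ ∈ L')
    (hL' : ∀ c ∈ L', ∀ τ ∈ A.inertiaSubgroupIn ℚ, τ ζ = ζ → τ c = c) {c : L'} (hc : c ≠ 0) :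
    ∃ m : ℤ, c * (⟨1 - ζ, L'.sub_mem L'.one_mem hζ⟩ : L') ^ (-m) ∈ A.comap L'.subtype ∧
      (c * (⟨1 - ζ, L'.sub_mem L'.one_mem hζ⟩ : L') ^ (-m))⁻¹ ∈ A.comap L'.subtype := by
  refine S33BZ_dv_of_val A L' ⟨1 - ζ, L'.sub_mem L'.one_mem hζ⟩ ?_ ?_ hc
  · intro h
    exact S33BZ_one_sub_ne_zero hprim (congrArg Subtype.val h)
  · intro x hx
    exact S33BZ_val_eq A hA hprim (fun h => hx (Subtype.ext h)) (hL' x x.2)

/-- the residue map of `A ∩ L'` is onto the residue field of `A` (for `Ω^I ⊆ L'`). -/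
theorem S33BZ_res_surjective (hA : A.LiesOverPrime p)
    (hL : ∀ c : Ω, (∀ τ ∈ A.inertiaSubgroupIn ℚ, τ c = c) → c ∈ L') :
    Function.Surjective (S36BL_resL A L') :=
  S36BL_resL_surjective A L' hA hL

/-! ### `λ = ζ - 1` -/

/-- `ζ ^ j - 1 ∈ 𝔪_A`. -/
theorem S33BZ_pow_sub_one_mem (hA : A.LiesOverPrime p) {ζ : Ω} (hprim : IsPrimitiveRoot ζ p)
    (j : ℕ) : A.valuation (ζ ^ j - 1) < 1 := by
  have hζA : A.valuation ζ ≤ 1 := (A.valuation_le_one_iff ζ).mpr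
    (S19TE_root_mem A hp.out.pos hprim.pow_eq_one)
  have h1 : ζ ^ j - 1 = (ζ - 1) * ∑ i ∈ Finset.range j, ζ ^ i := by
    rw [mul_comm]; exact (geom_sum_mul ζ j).symm
  have h2 : A.valuation (∑ i ∈ Finset.range j, ζ ^ i) ≤ 1 := by
    refine A.valuation.map_sum_le fun i _ => ?_
    rw [map_pow]
    exact pow_le_one₀ zero_le hζA
  have h3 : A.valuation (ζ - 1) < 1 := by
    rw [← neg_sub, Valuation.map_neg]
    exact S33BZ_val_one_sub_lt A hA hprim
  rw [h1, map_mul]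
  exact lt_of_le_of_lt (mul_le_of_le_one_right' h2) h3

/-- **`σ λ / λ ≡ χ(σ)` modulo `𝔪_A`**: for `σ` in the inertia group, with `a = χ(σ)` the value
of the cyclotomic character, `σ (ζ - 1) = (ζ - 1) · (a + m)` with `v(m) < 1`. -/
theorem S33BZ_sigma_lambda (hA : A.LiesOverPrime p) {ζ : Ω} (hprim : IsPrimitiveRoot ζ p)
    (σ : ↥(A.inertiaSubgroupIn ℚ)) :
    ∃ m : Ω, A.valuation m < 1 ∧
      (σ : Γ) (ζ - 1) = (ζ - 1) * ((((S36BL_chi A hprim σ : (ZMod p)ˣ) : ZMod p).val : Ω) + m) := by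
  set a : ℕ := ((S36BL_chi A hprim σ : (ZMod p)ˣ) : ZMod p).val with ha
  have hσ : (σ : Γ) ζ = ζ ^ a := (S36BL_chi_spec A hprim σ).symm
  refine ⟨∑ i ∈ Finset.range a, (ζ ^ i - 1), ?_, ?_⟩
  · refine A.valuation.map_sum_lt one_ne_zero fun i _ => ?_
    exact S33BZ_pow_sub_one_mem A hA hprim i
  · rw [map_sub, map_one, hσ]
    have h1 : ζ ^ a - 1 = (ζ - 1) * ∑ i ∈ Finset.range a, ζ ^ i := by
      rw [mul_comm]; exact (geom_sum_mul ζ a).symm
    rw [h1]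
    congr 1
    rw [Finset.sum_sub_distrib]
    simp

/-- **`λ ^ (p - 1) = - p · unit`**: `(ζ - 1) ^ (p - 1) = p · (-1 + (ζ - 1) · a)`, `a ∈ A`. -/
theorem S33BZ_lambda_pow (hA : A.LiesOverPrime p) {ζ : Ω} (hprim : IsPrimitiveRoot ζ p) :
    ∃ a : Ω, a ∈ A ∧ (ζ - 1) ^ (p - 1) = (p : Ω) * (-1 + (ζ - 1) * a) := by
  have hζA : ζ ∈ A := S19TE_root_mem A hp.out.pos hprim.pow_eq_one
  have hsum : ∑ i ∈ Finset.range p, ζ ^ i = 0 := by
    have h1 := mul_geom_sum ζ p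
    rw [hprim.pow_eq_one, sub_self] at h1
    rcases mul_eq_zero.mp h1 with h | h
    · exact absurd (sub_eq_zero.mp h) (hprim.ne_one hp.out.one_lt)
    · exact h
  have hsumA : ∑ i ∈ Finset.range p, (⟨ζ, hζA⟩ : A) ^ i = 0 := by
    apply Subtype.ext
    have h0 : ((0 : A) : Ω) = 0 := rfl
    rw [h0, ← hsum]
    push_cast
    rfl
  obtain ⟨a, ha⟩ := S36OQ_pi_pow (R := A) p hp.out ⟨ζ, hζA⟩ hsumA
  refine ⟨(a : Ω), a.2, ?_⟩
  have h2 := congrArg (fun z : A => (z : Ω)) ha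
  simpa using h2

end

end Fermat.Agent.S33
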