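import Mathlib
import Fermat.Agent.S36.BaseLZeta
import Fermat.Agent.S36.BaseLCyc
import Fermat.Agent.S33.BaseZ
import Fermat.Agent.GalRep.Fin
import Fermat.Agent.S36.FixLInst

/-!
# TRACK 11 (S33), package N-RA = BASE-L'' (helper18): the discrete base ring `O'' = A ∩ L''`
— prefix `S33BL_`

`Ω = ℚ̄`, `A` a valuation subring of `Ω` over `p`, `I` its inertia group, `K₀ ⊆ Ω` a finite normal
extension of `ℚ`, `I'' = {τ ∈ I | τ = id on K₀}` (open, normal in `I`), `L'' = Ω^{I''}`.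

* `S33BL_val_hom`  : (general norm argument) if `ψ : I →* G'`, `G'` finite, and `c ≠ 0` is fixed by
  `ker ψ`, then `v(c) ^ |G'| ∈ v(p) ^ ℤ`;
* `S33BL_L2 A K₀`  : the subfield `L'' = Ω^{I''}`; it contains `K₀` and `Ω^I`;
* `S33BL_val_pow`  : `c ∈ L''`, `c ≠ 0` ⇒ `v(c) ^ d = v(p) ^ k`, `d = |Gal(K₀/ℚ)|`;
* `S33BL_exists_unif` : **discreteness**: `∃ ϖ ∈ L''`, `v(ϖ) < 1`, every `c ≠ 0` of `L''` has
  `v(c) = v(ϖ) ^ m`;
* `S33BL_isDVR`    : `A ∩ L''` is a discrete valuation ring;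
* `S33BL_ord_p`    : `v(p) = v(ϖ) ^ E`, `E ≥ 1`; `S33BL_ord_lambda` : if a primitive `p`-th root of
  unity `ζ` lies in `K₀` then `v(1 - ζ) = v(ϖ) ^ e₀` with `E = (p - 1) e₀` (so `(p - 1) ∣ E` and
  `c* = ord(λ^p) = p e₀`);
* `S33BL_exists_K0` : every finite set of functions of `F_N` and of constants is rational over
  some `K₀` (finite, normal over `ℚ`): the functions are fixed by `I''`, the constants lie in `K₀`.
-/

set_option autoImplicit false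
set_option linter.unusedSectionVars false
set_option linter.unusedVariables false
set_option linter.style.haveILetI false

open Fermat.Agent.S19 Fermat.Agent.S36 Fermat.Agent.GalRep

namespace Fermat.Agent.S33

noncomputable section

local notation "Ω" => AlgebraicClosure ℚ
local notation "Γ" => (AlgebraicClosure ℚ ≃ₐ[ℚ] AlgebraicClosure ℚ)

variable {p : ℕ} [hp : Fact p.Prime] (A : ValuationSubring Ω)

/-- **norm argument**: if `c ≠ 0` is fixed by the kernel of `ψ : I →* G'` (`G'` finite), then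
`c ^ |G'|` is `p ^ (-k)` times a unit of `A`. -/
theorem S33BL_val_hom (hA : A.LiesOverPrime p) {G' : Type*} [Group G'] [Finite G']
    (ψ : ↥(A.inertiaSubgroupIn ℚ) →* G') {c : Ω} (hc : c ≠ 0)
    (hker : ∀ κ : ↥(A.inertiaSubgroupIn ℚ), κ ∈ ψ.ker → (κ : Γ) c = c) :
    ∃ k : ℤ, A.valuation (c ^ Nat.card G' * (p : Ω) ^ k) = 1 := by
  classical
  haveI : Finite (↥(A.inertiaSubgroupIn ℚ) ⧸ ψ.ker) :=
    Finite.of_equiv _ (QuotientGroup.quotientKerEquivRange ψ).toEquiv.symm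
  letI : Fintype (↥(A.inertiaSubgroupIn ℚ) ⧸ ψ.ker) := Fintype.ofFinite _
  -- the norm
  set N : Ω := ∏ g : ↥(A.inertiaSubgroupIn ℚ) ⧸ ψ.ker, ((g.out : ↥(A.inertiaSubgroupIn ℚ)) : Γ) c
    with hN
  have hNfix : ∀ τ ∈ A.inertiaSubgroupIn ℚ, τ N = N := by
    intro τ hτ
    rw [hN, map_prod]
    have hterm : ∀ g : ↥(A.inertiaSubgroupIn ℚ) ⧸ ψ.ker,
        τ (((g.out : ↥(A.inertiaSubgroupIn ℚ)) : Γ) c)
          = ((((QuotientGroup.mk ⟨τ, hτ⟩ : ↥(A.inertiaSubgroupIn ℚ) ⧸ ψ.ker) * g).out :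
              ↥(A.inertiaSubgroupIn ℚ)) : Γ) c := by
      intro g
      have hmk : (QuotientGroup.mk ((⟨τ, hτ⟩ : ↥(A.inertiaSubgroupIn ℚ)) * g.out) :
          ↥(A.inertiaSubgroupIn ℚ) ⧸ ψ.ker)
          = QuotientGroup.mk
            ((QuotientGroup.mk ⟨τ, hτ⟩ : ↥(A.inertiaSubgroupIn ℚ) ⧸ ψ.ker) * g).out := by
        rw [QuotientGroup.out_eq', QuotientGroup.mk_mul, QuotientGroup.out_eq']
      rw [QuotientGroup.eq] at hmk
      have h5 := hker _ hmk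
      have h6 : ((((QuotientGroup.mk ⟨τ, hτ⟩ : ↥(A.inertiaSubgroupIn ℚ) ⧸ ψ.ker) * g).out :
              ↥(A.inertiaSubgroupIn ℚ)) : Γ) c
          = τ (((g.out : ↥(A.inertiaSubgroupIn ℚ)) : Γ)
              (((((⟨τ, hτ⟩ : ↥(A.inertiaSubgroupIn ℚ)) * g.out)⁻¹ *
                ((QuotientGroup.mk ⟨τ, hτ⟩ : ↥(A.inertiaSubgroupIn ℚ) ⧸ ψ.ker) * g).out :
                  ↥(A.inertiaSubgroupIn ℚ)) : Γ) c)) := by
        simp only [Subgroup.coe_mul, Subgroup.coe_inv, AlgEquiv.mul_apply]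
        simp
      rw [h6, h5]
    rw [Finset.prod_congr rfl (fun g _ => hterm g)]
    exact Fintype.prod_equiv (Equiv.mulLeft (QuotientGroup.mk ⟨τ, hτ⟩)) _ _ (fun g => rfl)
  have hN0 : N ≠ 0 := by
    rw [hN]
    exact Finset.prod_ne_zero_iff.mpr (fun g _ => (map_ne_zero _).mpr hc)
  obtain ⟨k₀, hk₀⟩ := S36BL_val' A hA hN0 hNfix
  have hvN : A.valuation N = A.valuation c ^ Fintype.card (↥(A.inertiaSubgroupIn ℚ) ⧸ ψ.ker) := by
    rw [hN, map_prod]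
    rw [Finset.prod_congr rfl (fun g _ => S36BL_dec_val A (S19D_inertia_le (g.out).2) c)]
    simp
  have hdvd : Fintype.card (↥(A.inertiaSubgroupIn ℚ) ⧸ ψ.ker) ∣ Nat.card G' := by
    have h2 : Nat.card (↥(A.inertiaSubgroupIn ℚ) ⧸ ψ.ker) = Nat.card ψ.range :=
      Nat.card_congr (QuotientGroup.quotientKerEquivRange ψ).toEquiv
    have h3 : Nat.card ψ.range ∣ Nat.card G' := Subgroup.card_subgroup_dvd_card _
    rw [← Nat.card_eq_fintype_card, h2]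
    exact h3
  obtain ⟨e, he⟩ := hdvd
  refine ⟨(e : ℤ) * k₀, ?_⟩
  rw [he, pow_mul, zpow_mul', zpow_natCast, ← mul_pow, map_pow, map_mul, map_pow, ← hvN,
    ← map_mul, hk₀, one_pow]

variable (K₀ : IntermediateField ℚ Ω)

/-- the field `L'' = Ω^{I''}`, `I'' = {τ ∈ I | τ = id on K₀}`. -/
def S33BL_L2 : Subfield Ω where
  carrier := {c | ∀ τ ∈ A.inertiaSubgroupIn ℚ, (∀ x ∈ K₀, τ x = x) → τ c = c}
  mul_mem' := fun {a b} ha hb τ hτ h => by rw [map_mul, ha τ hτ h, hb τ hτ h]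
  one_mem' := fun τ _ _ => map_one τ
  add_mem' := fun {a b} ha hb τ hτ h => by rw [map_add, ha τ hτ h, hb τ hτ h]
  zero_mem' := fun τ _ _ => map_zero τ
  neg_mem' := fun {a} ha τ hτ h => by rw [map_neg, ha τ hτ h]
  inv_mem' := fun a ha τ hτ h => by rw [map_inv₀, ha τ hτ h]

theorem S33BL_mem_L2 {c : Ω} :
    c ∈ S33BL_L2 A K₀ ↔
      ∀ τ ∈ A.inertiaSubgroupIn ℚ, (∀ x ∈ K₀, τ x = x) → τ c = c := Iff.rfl

theorem S33BL_K0_le {c : Ω} (hc : c ∈ K₀) : c ∈ S33BL_L2 A K₀ :=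
  fun τ _ h => h c hc

theorem S33BL_fixI_le {c : Ω} (hc : ∀ τ ∈ A.inertiaSubgroupIn ℚ, τ c = c) :
    c ∈ S33BL_L2 A K₀ :=
  fun τ hτ _ => hc τ hτ

theorem S33BL_p_mem : (p : Ω) ∈ S33BL_L2 A K₀ :=
  fun τ _ _ => map_natCast τ p

variable [FiniteDimensional ℚ K₀] [Normal ℚ K₀]

/-- **values of `L''`**: `v(c) ^ d ∈ v(p) ^ ℤ`, `d = |Gal(K₀/ℚ)|`. -/
theorem S33BL_val_pow (hA : A.LiesOverPrime p) {c : Ω} (hc : c ≠ 0)
    (hmem : c ∈ S33BL_L2 A K₀) :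
    ∃ k : ℤ, A.valuation (c ^ Nat.card (K₀ ≃ₐ[ℚ] K₀) * (p : Ω) ^ k) = 1 := by
  refine S33BL_val_hom A hA
    ((AlgEquiv.restrictNormalHom (F := ℚ) (K₁ := Ω) K₀).comp (A.inertiaSubgroupIn ℚ).subtype)
    hc ?_
  intro κ hκ
  refine hmem _ κ.2 ?_
  intro x hx
  have h1 : (AlgEquiv.restrictNormalHom (F := ℚ) (K₁ := Ω) K₀) (κ : Γ) = 1 := hκ
  have h2 := AlgEquiv.restrictNormal_commutes (κ : Γ) K₀ ⟨x, hx⟩
  have h3 : (κ : Γ).restrictNormal K₀ = 1 := h1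
  rw [h3] at h2
  exact h2.symm

theorem S33BL_card_pos : 0 < Nat.card (K₀ ≃ₐ[ℚ] K₀) := Nat.card_pos

/-- **discreteness of `L''`**: there is a uniformiser. -/
theorem S33BL_exists_unif (hA : A.LiesOverPrime p) :
    ∃ ϖ : Ω, ϖ ∈ S33BL_L2 A K₀ ∧ ϖ ≠ 0 ∧ A.valuation ϖ < 1 ∧
      ∀ c : Ω, c ∈ S33BL_L2 A K₀ → c ≠ 0 → ∃ m : ℤ, A.valuation c = A.valuation ϖ ^ m := by
  classical
  set d := Nat.card (K₀ ≃ₐ[ℚ] K₀) with hd
  have hd0 : d ≠ 0 := (S33BL_card_pos K₀).ne'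
  have hw0 : A.valuation (p : Ω) ≠ 0 := S36BL_vq_ne_zero (q := p) A
  have hw1 : A.valuation (p : Ω) < 1 := S36BL_vq_lt_one A hA
  -- valuation form of `S33BL_val_pow`
  have hval : ∀ c : Ω, c ∈ S33BL_L2 A K₀ → c ≠ 0 →
      ∃ k : ℤ, A.valuation c ^ d = A.valuation (p : Ω) ^ k := by
    intro c hcm hc
    obtain ⟨k, hk⟩ := S33BL_val_pow A K₀ hA hc hcm
    refine ⟨-k, ?_⟩
    rw [map_mul, map_pow, map_zpow₀] at hk
    rw [zpow_neg]
    exact eq_inv_of_mul_eq_one_left hk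
  -- the least positive exponent
  have hex : ∃ n : ℕ, 0 < n ∧ ∃ c : Ω, c ∈ S33BL_L2 A K₀ ∧ c ≠ 0 ∧
      A.valuation c ^ d = A.valuation (p : Ω) ^ (n : ℤ) := by
    refine ⟨d, Nat.pos_of_ne_zero hd0, (p : Ω), S33BL_p_mem A K₀, S36BL_q_ne_zero, ?_⟩
    rw [zpow_natCast]
  set k₀ := Nat.find hex with hk₀
  obtain ⟨hk₀pos, ϖ, hϖm, hϖ0, hϖ⟩ := Nat.find_spec hex
  have hmin : ∀ n : ℕ, n < k₀ → ¬ (0 < n ∧ ∃ c : Ω, c ∈ S33BL_L2 A K₀ ∧ c ≠ 0 ∧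
      A.valuation c ^ d = A.valuation (p : Ω) ^ (n : ℤ)) := fun n hn => Nat.find_min hex hn
  have hvϖ0 : A.valuation ϖ ≠ 0 := (Valuation.ne_zero_iff _).2 hϖ0
  have hvϖ1 : A.valuation ϖ < 1 := by
    by_contra hcon
    push Not at hcon
    have h3 : 1 ≤ A.valuation ϖ ^ d := one_le_pow₀ hcon
    rw [hϖ] at h3
    have h4 : A.valuation (p : Ω) ^ ((k₀ : ℕ) : ℤ) < 1 := by
      rw [S33BZ_zpow_lt_one_iff hw0 hw1]
      exact_mod_cast hk₀pos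
    exact lt_irrefl _ (h4.trans_le h3)
  refine ⟨ϖ, hϖm, hϖ0, hvϖ1, ?_⟩
  intro c hcm hc
  obtain ⟨k, hk⟩ := hval c hcm hc
  have hk₀' : ((k₀ : ℕ) : ℤ) ≠ 0 := by exact_mod_cast hk₀pos.ne'
  set m : ℤ := k / (k₀ : ℤ) with hm
  set r : ℤ := k % (k₀ : ℤ) with hr
  have hr0 : 0 ≤ r := Int.emod_nonneg k hk₀'
  have hr1 : r < (k₀ : ℤ) := Int.emod_lt_of_pos k (by exact_mod_cast hk₀pos)
  have hkmr : k = (k₀ : ℤ) * m + r := (Int.mul_ediv_add_emod k (k₀ : ℤ)).symm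
  -- `y = c ϖ^{-m}`
  set y : Ω := c * ϖ ^ (-m) with hy
  have hym : y ∈ S33BL_L2 A K₀ :=
    (S33BL_L2 A K₀).mul_mem hcm ((S33BL_L2 A K₀).zpow_mem hϖm (-m))
  have hy0 : y ≠ 0 := mul_ne_zero hc (zpow_ne_zero _ hϖ0)
  have hvy : A.valuation y ^ d = A.valuation (p : Ω) ^ r := by
    rw [hy, map_mul, map_zpow₀, mul_pow, hk, ← zpow_natCast (A.valuation ϖ ^ (-m)) d,
      ← zpow_mul, mul_comm (-m) (d : ℤ), zpow_mul, zpow_natCast, hϖ, ← zpow_mul,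
      ← zpow_add₀ hw0, hkmr]
    congr 1
    ring
  have hr_eq : r = 0 := by
    by_contra hne
    have hrpos : 0 < r := lt_of_le_of_ne hr0 (Ne.symm hne)
    have hlt : r.toNat < k₀ := by
      have := Int.toNat_of_nonneg hr0
      omega
    refine hmin r.toNat hlt ⟨by omega, y, hym, hy0, ?_⟩
    rw [Int.toNat_of_nonneg hr0]
    exact hvy
  rw [hr_eq, zpow_zero] at hvy
  have hvy1 : A.valuation y = 1 := (pow_eq_one_iff_of_nonneg zero_le hd0).mp hvy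
  refine ⟨m, ?_⟩
  rw [hy, map_mul, map_zpow₀, zpow_neg] at hvy1
  exact eq_of_mul_inv_eq_one hvy1 |>.trans rfl

/-- **`O'' = A ∩ L''` is a discrete valuation ring.** -/
theorem S33BL_isDVR (hA : A.LiesOverPrime p) :
    IsDiscreteValuationRing ↥(A.comap (S33BL_L2 A K₀).subtype) := by
  obtain ⟨ϖ, hϖm, hϖ0, hϖ1, hval⟩ := S33BL_exists_unif A K₀ hA
  refine S33BZ_isDVR_of_val A (S33BL_L2 A K₀) ⟨ϖ, hϖm⟩ ?_ hϖ1 ?_
  · intro h
    exact hϖ0 (congrArg Subtype.val h)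
  · intro x hx
    exact hval x x.2 (fun h => hx (Subtype.ext h))

/-- **RA, main statement**: a uniformiser `ϖ` of `L''`, and `e₀ ≥ 1` with `v(1 - ζ) = v(ϖ)^e₀`,
`v(p) = v(ϖ)^((p-1) e₀)` (so `E = ord(p) = (p-1) e₀` and `c* = ord(λ^p) = p e₀`). -/
theorem S33BL_main (hA : A.LiesOverPrime p) {ζ : Ω} (hprim : IsPrimitiveRoot ζ p)
    (hζ : ζ ∈ K₀) :
    ∃ (ϖ : Ω) (e₀ : ℕ), ϖ ∈ S33BL_L2 A K₀ ∧ ϖ ≠ 0 ∧ A.valuation ϖ < 1 ∧ 0 < e₀ ∧
      (∀ c : Ω, c ∈ S33BL_L2 A K₀ → c ≠ 0 → ∃ m : ℤ, A.valuation c = A.valuation ϖ ^ m) ∧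
      A.valuation (1 - ζ) = A.valuation ϖ ^ e₀ ∧
      A.valuation (p : Ω) = A.valuation ϖ ^ ((p - 1) * e₀) := by
  obtain ⟨ϖ, hϖm, hϖ0, hϖ1, hval⟩ := S33BL_exists_unif A K₀ hA
  have hvϖ0 : A.valuation ϖ ≠ 0 := (Valuation.ne_zero_iff _).2 hϖ0
  have hlm : (1 - ζ : Ω) ∈ S33BL_L2 A K₀ :=
    (S33BL_L2 A K₀).sub_mem (S33BL_L2 A K₀).one_mem (S33BL_K0_le A K₀ hζ)
  obtain ⟨m, hm⟩ := hval _ hlm (S33BZ_one_sub_ne_zero hprim)
  have hlt := S33BZ_val_one_sub_lt A hA hprim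
  rw [hm, S33BZ_zpow_lt_one_iff hvϖ0 hϖ1] at hlt
  refine ⟨ϖ, m.toNat, hϖm, hϖ0, hϖ1, by omega, hval, ?_, ?_⟩
  · rw [hm, ← zpow_natCast, Int.toNat_of_nonneg hlt.le]
  · rw [← S36BL_val_one_sub_zeta A hprim, hm, mul_comm, pow_mul, ← zpow_natCast (A.valuation ϖ),
      Int.toNat_of_nonneg hlt.le]

/-! ### the open subgroup `I''` and the actions of FIX-L -/

omit [FiniteDimensional ℚ K₀] [Normal ℚ K₀] in
/-- a finite-dimensional intermediate field is contained in a finite normal one. -/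
theorem S33BL_exists_normal (K : IntermediateField ℚ Ω) [FiniteDimensional ℚ K] :
    ∃ K₁ : IntermediateField ℚ Ω, FiniteDimensional ℚ K₁ ∧ Normal ℚ K₁ ∧ K ≤ K₁ := by
  haveI := S19D_isGalois
  haveI : Normal ℚ Ω := IsGalois.to_normal
  exact ⟨IntermediateField.normalClosure ℚ K Ω, inferInstance,
    normalClosure.normal ℚ K Ω, IntermediateField.le_normalClosure K⟩

omit [FiniteDimensional ℚ K₀] [Normal ℚ K₀] in
/-- the open subgroup `I'' = {τ ∈ I | τ = id on K₀}`. -/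
def S33BL_I2 : Subgroup Γ where
  carrier := {τ | τ ∈ A.inertiaSubgroupIn ℚ ∧ ∀ x ∈ K₀, τ x = x}
  mul_mem' := fun {a b} ha hb => ⟨mul_mem ha.1 hb.1, fun x hx => by
    rw [AlgEquiv.mul_apply, hb.2 x hx, ha.2 x hx]⟩
  one_mem' := ⟨one_mem _, fun x _ => rfl⟩
  inv_mem' := fun {a} ha => ⟨inv_mem ha.1, fun x hx => by
    have h := ha.2 x hx
    calc a⁻¹ x = a⁻¹ (a x) := by rw [h]
      _ = x := by rw [← AlgEquiv.mul_apply, inv_mul_cancel, AlgEquiv.one_apply]⟩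

omit [FiniteDimensional ℚ K₀] [Normal ℚ K₀] in
theorem S33BL_mem_I2 {τ : Γ} :
    τ ∈ S33BL_I2 A K₀ ↔ τ ∈ A.inertiaSubgroupIn ℚ ∧ ∀ x ∈ K₀, τ x = x := Iff.rfl

omit [FiniteDimensional ℚ K₀] [Normal ℚ K₀] in
theorem S33BL_I2_le : S33BL_I2 A K₀ ≤ A.inertiaSubgroupIn ℚ := fun _ h => h.1

omit [FiniteDimensional ℚ K₀] [Normal ℚ K₀] in
/-- the constants fixed by `I''` are `L''`. -/
theorem S33BL_mem_fixK (N : ℕ) {c : Ω} :
    c ∈ (S36FI_act N (S33BL_I2 A K₀)).fixK ↔ c ∈ S33BL_L2 A K₀ := by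
  rw [S36FI_mem_fixK]
  exact ⟨fun h τ hτ hx => h τ ⟨hτ, hx⟩, fun h τ hτ => h τ hτ.1 hτ.2⟩

omit [FiniteDimensional ℚ K₀] [Normal ℚ K₀] in
/-- the functions fixed by `I''`. -/
theorem S33BL_mem_fixF (N : ℕ) {f : ↥(ModularCurve.modularFunctionFieldBar N)} :
    f ∈ (S36FI_act N (S33BL_I2 A K₀)).fixF ↔
      ∀ τ ∈ A.inertiaSubgroupIn ℚ, (∀ x ∈ K₀, τ x = x) → GR_gal N τ f = f := by
  rw [S36FI_mem_fixF]
  exact ⟨fun h τ hτ hx => h τ ⟨hτ, hx⟩, fun h τ hτ => h τ hτ.1 hτ.2⟩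

omit [FiniteDimensional ℚ K₀] [Normal ℚ K₀] in
/-- finitely many functions are fixed by the Galois group of one number field. -/
theorem S33BL_exists_level (N : ℕ) (fs : Finset ↥(ModularCurve.modularFunctionFieldBar N)) :
    ∃ K : IntermediateField ℚ Ω, FiniteDimensional ℚ K ∧
      ∀ f ∈ fs, ∀ σ : Γ, (∀ x ∈ K, σ x = x) → GR_gal N σ f = f := by
  classical
  induction fs using Finset.induction_on with
  | empty => exact ⟨⊥, inferInstance, fun f hf => absurd hf (Finset.notMem_empty f)⟩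
  | insert f s _ ih =>
    obtain ⟨K, hK, h⟩ := ih
    obtain ⟨K', hK', h'⟩ := GRF_exists_level N f
    refine ⟨K ⊔ K', inferInstance, ?_⟩
    intro g hg σ hσ
    rcases Finset.mem_insert.mp hg with rfl | hg
    · exact h' σ (fun x hx => hσ x ((le_sup_right : K' ≤ K ⊔ K') hx))
    · exact h g hg σ (fun x hx => hσ x ((le_sup_left : K ≤ K ⊔ K') hx))

omit [FiniteDimensional ℚ K₀] [Normal ℚ K₀] in
/-- **RAT**: every finite set of functions of `F_N` and of constants is rational over some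
finite normal `K₀`. -/
theorem S33BL_exists_K0 (N : ℕ) (fs : Finset ↥(ModularCurve.modularFunctionFieldBar N))
    (cs : Finset Ω) :
    ∃ K₁ : IntermediateField ℚ Ω, FiniteDimensional ℚ K₁ ∧ Normal ℚ K₁ ∧ (∀ c ∈ cs, c ∈ K₁) ∧
      ∀ f ∈ fs, ∀ σ : Γ, (∀ x ∈ K₁, σ x = x) → GR_gal N σ f = f := by
  classical
  obtain ⟨K, hK, h⟩ := S33BL_exists_level N fs
  haveI : FiniteDimensional ℚ (IntermediateField.adjoin ℚ (cs : Set Ω)) :=
    IntermediateField.finiteDimensional_adjoin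
      (fun x _ => ((AlgebraicClosure.isAlgebraic ℚ).isAlgebraic x).isIntegral)
  obtain ⟨K₁, hK₁, hn, hle⟩ :=
    S33BL_exists_normal (K ⊔ IntermediateField.adjoin ℚ (cs : Set Ω))
  refine ⟨K₁, hK₁, hn, ?_, ?_⟩
  · intro c hc
    exact hle ((le_sup_right : IntermediateField.adjoin ℚ (cs : Set Ω) ≤ _)
      (IntermediateField.subset_adjoin ℚ _ hc))
  · intro f hf σ hσ
    exact h f hf σ (fun x hx => hσ x (hle ((le_sup_left : K ≤ _) hx)))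

end

end Fermat.Agent.S33
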