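import Mathlib
import Fermat.Agent.S33.BaseLpp

/-!
# TRACK 11 (S33), package RA-FIN (helper18): the open subgroup `H = I''` — prefix `S33BL_`

`H = S33BL_I2 A K₀ = {τ ∈ I | τ = id on K₀}` (`K₀/ℚ` finite normal):

* `S33BL_I2_normal`      : `H` is normalised by `I` (indeed by every `δ`  normalising `I`);
* `S33BL_I2_finiteIndex` : `H` has finite index in `I`;
* `S33BL_exists_H`       : **RA (packaged)**: for finitely many functions `fs ⊂ F_N` and constants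
  `cs ⊂ ℚ̄` and a primitive `p`-th root of unity `ζ` there is `H ≤ I`, normalised by `I`, of finite
  index in `I`, with `fs ⊂ fixF(H)`, `cs ∪ {ζ} ⊂ fixK(H)`, and a uniformiser `ϖ₀ ∈ fixK(H)`:
  every `c ≠ 0` of `fixK(H)` has `v(c) = v(ϖ₀)^m`, `v(1 - ζ) = v(ϖ₀)^e₀`, `v(p) = v(ϖ₀)^((p-1)e₀)`.
-/

set_option autoImplicit false
set_option linter.unusedSectionVars false
set_option linter.unusedVariables false
set_option linter.style.haveILetI false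

open Fermat.Agent.S19 Fermat.Agent.S36 Fermat.Agent.GalRep

namespace Fermat.Agent.S33

noncomputable section

local notation "Ω" => AlgebraicClosure ℚ
local notation "Γ" => (AlgebraicClosure ℚ ≃ₐ[ℚ] AlgebraicClosure ℚ)

variable {p : ℕ} [hp : Fact p.Prime] (A : ValuationSubring Ω)
  (K₀ : IntermediateField ℚ Ω) [FiniteDimensional ℚ K₀] [Normal ℚ K₀]

/-- an automorphism of `Ω` maps the normal field `K₀` into itself. -/
theorem S33BL_map_mem (δ : Γ) {x : Ω} (hx : x ∈ K₀) : δ x ∈ K₀ := by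
  have h := AlgEquiv.restrictNormal_commutes δ K₀ ⟨x, hx⟩
  rw [← show algebraMap (↥K₀) Ω ⟨x, hx⟩ = x from rfl, ← h]
  exact (δ.restrictNormal K₀ ⟨x, hx⟩).2

/-- `H` is normalised by every `δ` normalising `I`. -/
theorem S33BL_I2_conj {δ : Γ}
    (hδ : ∀ τ ∈ A.inertiaSubgroupIn ℚ, δ * τ * δ⁻¹ ∈ A.inertiaSubgroupIn ℚ)
    {τ : Γ} (hτ : τ ∈ S33BL_I2 A K₀) : δ * τ * δ⁻¹ ∈ S33BL_I2 A K₀ := by
  refine ⟨hδ τ hτ.1, fun x hx => ?_⟩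
  have h1 : δ⁻¹ x ∈ K₀ := S33BL_map_mem K₀ δ⁻¹ hx
  have h2 := hτ.2 _ h1
  rw [AlgEquiv.mul_apply, AlgEquiv.mul_apply, h2, ← AlgEquiv.mul_apply, mul_inv_cancel,
    AlgEquiv.one_apply]

/-- **`H` is normalised by `I`.** -/
theorem S33BL_I2_normal {δ : Γ} (hδ : δ ∈ A.inertiaSubgroupIn ℚ)
    {τ : Γ} (hτ : τ ∈ S33BL_I2 A K₀) : δ * τ * δ⁻¹ ∈ S33BL_I2 A K₀ :=
  S33BL_I2_conj A K₀ (fun τ' hτ' => mul_mem (mul_mem hδ hτ') (inv_mem hδ)) hτ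

/-- the restriction homomorphism `I → Gal(K₀/ℚ)`. -/
def S33BL_res : ↥(A.inertiaSubgroupIn ℚ) →* (K₀ ≃ₐ[ℚ] K₀) :=
  (AlgEquiv.restrictNormalHom (F := ℚ) (K₁ := Ω) K₀).comp (A.inertiaSubgroupIn ℚ).subtype

theorem S33BL_res_ker :
    (S33BL_res A K₀).ker = (S33BL_I2 A K₀).subgroupOf (A.inertiaSubgroupIn ℚ) := by
  ext κ
  rw [MonoidHom.mem_ker, Subgroup.mem_subgroupOf, S33BL_mem_I2]
  constructor
  · intro h
    refine ⟨κ.2, fun x hx => ?_⟩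
    have h2 := AlgEquiv.restrictNormal_commutes (κ : Γ) K₀ ⟨x, hx⟩
    have h3 : (κ : Γ).restrictNormal K₀ = 1 := h
    rw [h3] at h2
    exact h2.symm
  · rintro ⟨-, h⟩
    show (κ : Γ).restrictNormal K₀ = 1
    ext ⟨x, hx⟩
    have h2 := AlgEquiv.restrictNormal_commutes (κ : Γ) K₀ ⟨x, hx⟩
    have h3 : (κ : Γ) ((algebraMap (↥K₀) Ω) ⟨x, hx⟩) = x := h x hx
    rw [h3] at h2
    exact h2

/-- **`H` has finite index in `I`.** -/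
theorem S33BL_I2_finite :
    Finite (↥(A.inertiaSubgroupIn ℚ) ⧸ (S33BL_I2 A K₀).subgroupOf (A.inertiaSubgroupIn ℚ)) := by
  rw [← S33BL_res_ker]
  exact Finite.of_equiv _ (QuotientGroup.quotientKerEquivRange (S33BL_res A K₀)).toEquiv.symm

theorem S33BL_I2_finiteIndex :
    ((S33BL_I2 A K₀).subgroupOf (A.inertiaSubgroupIn ℚ)).FiniteIndex := by
  haveI := S33BL_I2_finite A K₀
  exact Subgroup.finiteIndex_of_finite_quotient

omit [FiniteDimensional ℚ K₀] [Normal ℚ K₀] in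
/-- **RA, packaged.** -/
theorem S33BL_exists_H (hA : A.LiesOverPrime p) (N : ℕ)
    (fs : Finset ↥(ModularCurve.modularFunctionFieldBar N)) (cs : Finset Ω)
    {ζ : Ω} (hprim : IsPrimitiveRoot ζ p) :
    ∃ H : Subgroup Γ, H ≤ A.inertiaSubgroupIn ℚ ∧
      (∀ δ ∈ A.inertiaSubgroupIn ℚ, ∀ τ ∈ H, δ * τ * δ⁻¹ ∈ H) ∧
      (H.subgroupOf (A.inertiaSubgroupIn ℚ)).FiniteIndex ∧
      (∀ f ∈ fs, f ∈ (S36FI_act N H).fixF) ∧
      (∀ c ∈ cs, c ∈ (S36FI_act N H).fixK) ∧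
      ζ ∈ (S36FI_act N H).fixK ∧
      (∀ c : Ω, (∀ τ ∈ A.inertiaSubgroupIn ℚ, τ c = c) → c ∈ (S36FI_act N H).fixK) ∧
      ∃ (ϖ₀ : Ω) (e₀ : ℕ), ϖ₀ ∈ (S36FI_act N H).fixK ∧ ϖ₀ ≠ 0 ∧ A.valuation ϖ₀ < 1 ∧ 0 < e₀ ∧
        (∀ c : Ω, c ∈ (S36FI_act N H).fixK → c ≠ 0 →
          ∃ m : ℤ, A.valuation c = A.valuation ϖ₀ ^ m) ∧
        A.valuation (1 - ζ) = A.valuation ϖ₀ ^ e₀ ∧
        A.valuation (p : Ω) = A.valuation ϖ₀ ^ ((p - 1) * e₀) := by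
  classical
  obtain ⟨K₁, hK₁, hn, hcs, hfs⟩ := S33BL_exists_K0 N fs (insert ζ cs)
  haveI := hK₁
  haveI := hn
  have hζ : ζ ∈ K₁ := hcs ζ (Finset.mem_insert_self ζ cs)
  obtain ⟨ϖ₀, e₀, hϖm, hϖ0, hϖ1, he₀, hval, hlam, hvp⟩ := S33BL_main A K₁ hA hprim hζ
  refine ⟨S33BL_I2 A K₁, S33BL_I2_le A K₁, fun δ hδ τ hτ => S33BL_I2_normal A K₁ hδ hτ,
    S33BL_I2_finiteIndex A K₁, ?_, ?_, ?_, ?_, ϖ₀, e₀, ?_, hϖ0, hϖ1, he₀, ?_, hlam, hvp⟩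
  · intro f hf
    rw [S33BL_mem_fixF]
    exact fun τ _ hx => hfs f hf τ hx
  · intro c hc
    rw [S33BL_mem_fixK]
    exact S33BL_K0_le A K₁ (hcs c (Finset.mem_insert_of_mem hc))
  · rw [S33BL_mem_fixK]
    exact S33BL_K0_le A K₁ hζ
  · intro c hc
    rw [S33BL_mem_fixK]
    exact S33BL_fixI_le A K₁ hc
  · rw [S33BL_mem_fixK]
    exact hϖm
  · intro c hc hc0
    rw [S33BL_mem_fixK] at hc
    exact hval c hc hc0

end

end Fermat.Agent.S33
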