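import Fermat.Agent.S33.NewDisc
import Fermat.Agent.S33.BaseFin

/-!
# TRACK 11 (S33), package CHOICE (helper5): the choice of the open subgroup `H = I''`, of the
uniformiser `ϖ₀` and of `e₀`, with ALL the constants hypotheses of `S33NX_rat`.  Prefix `S33NC_`.

Level `N = M p` (`p ∤ M`), `A ⊂ Ω = ℚ̄` over `p`, `I = A.inertiaSubgroupIn ℚ`.

* `S33NC_Choice … fs cs ζ H ϖ₀ e₀` : the bundle — `H ≤ I`, normalised by `I`, of finite index,
  fixing the finite set `fs` of functions, the finite set `cs` of constants, `ζ`, and every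
  `I`-fixed constant; `ϖ₀` a uniformiser of `A ∩ Ω^H` (`S33NL2_Unif`), `v(ζ − 1) = v(ϖ₀)^e₀`,
  `v(p) = v(ϖ₀)^((p−1)e₀)`, `e₀ > 0`;
* `S33NC_exists` : **such a choice exists** (RA-FIN, helper18);
* consequences (V-DISC, helper3) in the literal shapes of `S33NX_rat`:
  `S33NC_Choice.TDV` (`hDV`), `.hϖ`, `.hpϖ`, `.lam_mem`, `.exists_eps` (`ε ε' hε hε' hεε hlam`, with
  `lam = S33NX_const (ζ − 1)`), for EVERY chart constant `c₀`;
* `S33NC_rat` : **`S33NX_rat` with all the constants plugged in**.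
-/

set_option autoImplicit false
set_option linter.unusedSectionVars false
set_option linter.unusedVariables false
set_option linter.style.haveILetI false
set_option linter.style.longLine false
set_option synthInstance.maxHeartbeats 400000
set_option maxHeartbeats 1000000

open ModularCurve

namespace Fermat.Agent.S33

open Fermat.Agent.S18 Fermat.Agent.S24 Fermat.Agent.S34 Fermat.Agent.S36 Fermat.Agent.GalRep

local notation "Ω" => AlgebraicClosure ℚ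
local notation "Γ" => (AlgebraicClosure ℚ ≃ₐ[ℚ] AlgebraicClosure ℚ)

variable (M p : ℕ) [NeZero (M * p)] (hp : p.Prime) (hpM : ¬ p ∣ M)
  (A : ValuationSubring Ω) (hA : A.LiesOverPrime p)
  (hgen : PrincipalGeneratedByIntegral A (IsLocalRing.residue A) (M * p))

/-- **the choice of `H = I''`, `ϖ₀`, `e₀`.** -/
structure S33NC_Choice (fs : Finset ↥(modularFunctionFieldBar (M * p))) (cs : Finset Ω) (ζ : Ω)
    (H : Subgroup Γ) (ϖ₀ : Ω) (e₀ : ℕ) : Prop where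
  /-- `H ≤ I` -/
  le : H ≤ A.inertiaSubgroupIn ℚ
  /-- `H` is normalised by `I` -/
  normal : ∀ δ ∈ A.inertiaSubgroupIn ℚ, ∀ τ ∈ H, δ * τ * δ⁻¹ ∈ H
  /-- `H` has finite index in `I` -/
  finiteIndex : (H.subgroupOf (A.inertiaSubgroupIn ℚ)).FiniteIndex
  /-- the functions are `H`-rational -/
  fs_mem : ∀ f ∈ fs, f ∈ (S36FI_act (M * p) H).fixF
  /-- the constants are `H`-rational -/
  cs_mem : ∀ c ∈ cs, c ∈ (S36FI_act (M * p) H).fixK
  /-- `ζ` is `H`-rational -/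
  zeta_mem : ζ ∈ (S36FI_act (M * p) H).fixK
  /-- every `I`-fixed constant is `H`-rational -/
  fixI_mem : ∀ c : Ω, (∀ τ ∈ A.inertiaSubgroupIn ℚ, τ c = c) → c ∈ (S36FI_act (M * p) H).fixK
  /-- `ϖ₀` is `H`-rational -/
  varpi_mem : ϖ₀ ∈ (S36FI_act (M * p) H).fixK
  /-- `ϖ₀` is a uniformiser of `A ∩ Ω^H` -/
  unif : S33NL2_Unif A H ϖ₀
  /-- the valuations of the constants of `Ω^H` -/
  val : ∀ c : Ω, c ∈ (S36FI_act (M * p) H).fixK → c ≠ 0 →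
    ∃ m : ℤ, A.valuation c = A.valuation ϖ₀ ^ m
  e_pos : 0 < e₀
  /-- `λ = ζ − 1 = ϖ₀^e₀ · unit` -/
  val_lam : A.valuation (ζ - 1) = A.valuation ϖ₀ ^ e₀
  /-- `p = ϖ₀^((p−1) e₀) · unit` -/
  val_p : A.valuation (p : Ω) = A.valuation ϖ₀ ^ ((p - 1) * e₀)

include hp hA in
/-- **CHOICE**: for finitely many functions `fs`, finitely many constants `cs` and a primitive
`p`-th root of unity `ζ` there are `H`, `ϖ₀`, `e₀`. -/
theorem S33NC_exists (fs : Finset ↥(modularFunctionFieldBar (M * p))) (cs : Finset Ω)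
    {ζ : Ω} (hprim : IsPrimitiveRoot ζ p) :
    ∃ (H : Subgroup Γ) (ϖ₀ : Ω) (e₀ : ℕ), S33NC_Choice M p A fs cs ζ H ϖ₀ e₀ := by
  haveI : Fact p.Prime := ⟨hp⟩
  obtain ⟨H, hle, hnorm, hfin, hfs, hcs, hζ, hI, ϖ₀, e₀, hϖ, hϖ0, hϖ1, he₀, hval, hlam, hvp⟩ :=
    S33BL_exists_H A hA (M * p) fs cs hprim
  refine ⟨H, ϖ₀, e₀, hle, hnorm, hfin, hfs, hcs, hζ, hI, hϖ,
    S33ND_unif_of_val A H (M * p) hϖ hϖ0 hϖ1 hval, hval, he₀, ?_, hvp⟩
  rw [← hlam]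
  exact Valuation.map_sub_swap _ _ _

namespace S33NC_Choice

variable {M p A}
variable {fs : Finset ↥(modularFunctionFieldBar (M * p))} {cs : Finset Ω} {ζ : Ω}
  {H : Subgroup Γ} {ϖ₀ : Ω} {e₀ : ℕ} (h : S33NC_Choice M p A fs cs ζ H ϖ₀ e₀)

include h

theorem varpi_ne : ϖ₀ ≠ 0 := h.unif.ne_zero

theorem varpi_lt : A.valuation ϖ₀ < 1 := h.unif.lt_one

/-- `λ = ζ − 1` is `H`-rational. -/
theorem lam_mem : ζ - 1 ∈ (S36FI_act (M * p) H).fixK := sub_mem h.zeta_mem (one_mem _)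

include hA in
/-- **`hDV`** of `S33NX_rat` (V-DISC). -/
theorem TDV : S33NX_TDV M p hp hpM A hgen H (S33NX_const M p H ϖ₀ h.varpi_mem) :=
  S33ND_TDV' M p hp hpM A hgen H h.unif h.varpi_mem hA

/-- **`hϖ`** of `S33NX_rat`. -/
theorem hϖ (c₀ : Ω) :
    S33NX_const M p H ϖ₀ h.varpi_mem ∈
      S33NX_Lam M p hp hpM A hgen H ⊓ S33NX_Lam' M p hp hpM A hgen H c₀ :=
  S33ND_unif_mem_LL M p hp hpM A hgen H c₀ h.varpi_mem h.varpi_lt

/-- **`hpϖ`** of `S33NX_rat`. -/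
theorem hpϖ (c₀ : Ω) :
    S33N1_Div (S33NX_Lam M p hp hpM A hgen H ⊓ S33NX_Lam' M p hp hpM A hgen H c₀)
      (S33NX_const M p H ϖ₀ h.varpi_mem) ((p - 1) * e₀) (p : S33NX_F M p H) :=
  S33ND_natCast_div_of_val M p hp hpM A hgen H c₀ h.varpi_mem h.varpi_ne p _ h.val_p

/-- **`ε`, `ε'`, `hε`, `hε'`, `hεε`, `hlam`** of `S33NX_rat`, with `lam = S33NX_const (ζ − 1)`;
the units do not depend on the chart constant `c₀`. -/
theorem exists_eps :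
    ∃ ε ε' : S33NX_F M p H,
      (∀ c₀ : Ω, ε ∈ S33NX_Lam M p hp hpM A hgen H ⊓ S33NX_Lam' M p hp hpM A hgen H c₀) ∧
      (∀ c₀ : Ω, ε' ∈ S33NX_Lam M p hp hpM A hgen H ⊓ S33NX_Lam' M p hp hpM A hgen H c₀) ∧
      ε * ε' = 1 ∧
      S33NX_const M p H (ζ - 1) h.lam_mem = S33NX_const M p H ϖ₀ h.varpi_mem ^ e₀ * ε := by
  obtain ⟨ε, ε', hε, hε', hεA, hε'A, h1, hcε⟩ :=
    S33ND_unit_of_val A H (M * p) h.varpi_mem h.varpi_ne h.lam_mem e₀ h.val_lam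
  refine ⟨S33NX_const M p H ε hε, S33NX_const M p H ε' hε',
    fun c₀ => S33ND_const_mem_LL M p hp hpM A hgen H c₀ hε hεA,
    fun c₀ => S33ND_const_mem_LL M p hp hpM A hgen H c₀ hε' hε'A,
    S33ND_const_unit M p H hε hε' h1, ?_⟩
  apply Subtype.ext
  show algebraMap Ω ↥(modularFunctionFieldBar (M * p)) (ζ - 1) =
    algebraMap Ω ↥(modularFunctionFieldBar (M * p)) ϖ₀ ^ e₀ *
      algebraMap Ω ↥(modularFunctionFieldBar (M * p)) ε
  rw [hcε, map_mul, map_pow]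

end S33NC_Choice

include hA in
/-- **`S33NX_rat` with all the constants plugged in**: for a choice `(H, ϖ₀, e₀)`, from the targets
`TSat`, `TFrob`, `TN0`, `TTau` (for `lam = ζ − 1`) and START on `U`, `U'`, trivialisations of
`τ(u)·u^c'` of depth `ϖ^(p e₀ + 1)` on `U` and on `U'` agreeing to the depth `ϖ^(e₀ + 1)`. -/
theorem S33NC_rat (hp2 : p ≠ 2)
    {fs : Finset ↥(modularFunctionFieldBar (M * p))} {cs : Finset Ω} {ζ : Ω}
    {H : Subgroup Γ} {ϖ₀ : Ω} {e₀ : ℕ} (h : S33NC_Choice M p A fs cs ζ H ϖ₀ e₀)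
    (c₀ : Ω)
    (hsat : S33NX_TSat M p hp hpM A hgen H (S33NX_const M p H ϖ₀ h.varpi_mem))
    (hsat' : S33NX_TSat' M p hp hpM A hgen H (S33NX_const M p H ϖ₀ h.varpi_mem) c₀)
    (hFrob : S33NX_TFrob M p hp hpM A hgen H (S33NX_const M p H ϖ₀ h.varpi_mem))
    (hFrob' : S33NX_TFrob' M p hp hpM A hgen H (S33NX_const M p H ϖ₀ h.varpi_mem) c₀)
    (u : S33NX_F M p H)
    (hN0 : S33NX_TN0 M p hp hpM A hgen H (S33NX_const M p H ϖ₀ h.varpi_mem) u)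
    (hstart : ∃ f, ∃ w ∈ S33NX_Lam M p hp hpM A hgen H,
      f ^ p * u = 1 + S33NX_const M p H ϖ₀ h.varpi_mem * w)
    (hstart' : ∃ f, ∃ w ∈ S33NX_Lam' M p hp hpM A hgen H c₀,
      f ^ p * u = 1 + S33NX_const M p H ϖ₀ h.varpi_mem * w)
    (τ : S33NX_F M p H →+* S33NX_F M p H) (c c' k : ℕ) (hcc : c + c' = p * k)
    (hτ : S33NX_TTau M p hp hpM A hgen H (S33NX_const M p H ϖ₀ h.varpi_mem)
      (S33NX_const M p H (ζ - 1) h.lam_mem) c₀ τ c) :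
    ∃ φ φ' : S33NX_F M p H,
      (∃ l ∈ S33NX_Lam M p hp hpM A hgen H,
        φ ^ p * (τ u * u ^ c') = 1 + S33NX_const M p H ϖ₀ h.varpi_mem ^ (p * e₀ + 1) * l) ∧
      (∃ l ∈ S33NX_Lam' M p hp hpM A hgen H c₀,
        φ' ^ p * (τ u * u ^ c') = 1 + S33NX_const M p H ϖ₀ h.varpi_mem ^ (p * e₀ + 1) * l) ∧
      ∃ m ∈ S33NX_Os M p hp hpM A hgen H,
        φ - φ' = S33NX_const M p H ϖ₀ h.varpi_mem ^ (e₀ + 1) * (m * φ') := by
  obtain ⟨ε, ε', hε, hε', hεε, hlam⟩ := h.exists_eps hp hpM hgen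
  exact S33NX_rat M p hp hpM A hgen H hp2 (S33NX_const M p H ϖ₀ h.varpi_mem) e₀ h.e_pos c₀
    (h.TDV hp hpM hA hgen) (h.hϖ hp hpM hgen c₀) (h.hpϖ hp hpM hgen c₀)
    (S33NX_const M p H (ζ - 1) h.lam_mem) ε ε' (hε c₀) (hε' c₀) hεε hlam
    hsat hsat' hFrob hFrob' u hN0 hstart hstart' τ c c' k hcc hτ

end Fermat.Agent.S33
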