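import Fermat.Agent.S33.NewLift
import Fermat.Agent.S34.SatBridgeIX

/-!
# TRACK 11 (S33), package LIFT, chart `U'` (helper14, plan by helper6): Frobenius closedness of
the reduced lattice on the chart `U' = {j ≠ c₀}` — prefix `S33NFZ_`

Level `M q` (`q ∤ M` prime; in TRACK 11 `q = p`), `A ⊂ ℚ̄` a valuation subring over `q`, `I` its
inertia group, `V₁ = S34M_T1`, `V₂ = S34M_T2` the two Gauss valuations of TRACK 7,
`z = j − c₀`, `c₀ ∈ A` fixed by `I`, chart `U' = {z ≠ 0}` (`B' = S34SB_regZ Ω z`).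

No nodes on `U'` are needed: multiplication by `z^N` moves everything to the chart `U`
(`S33LF_frob_U`, helper6), the chain of `U` (`S34NXF_chain`) controls the pole orders at the
cusps, and division by `z^N` (a unit of `O₁ ∩ O₂`) comes back.

* `S33NFZ_clear`     : `f ∈ L(E(a,b)) ⇒ z^b f ∈ L((a+b)·(x)_∞)`;
* `S33NFZ_inv_clear` : `f ∈ L(N·(x)_∞) ⇒ z^(-N) f` is regular off the zeros of `z`;
* `S33NFZ_root`      : `f^n ∈ L(nN·(x)_∞) ⇒ f ∈ L(N·(x)_∞)`;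
* `S33NFZ_core`      : the abstract core (two valuation data, chain of `U`, hFrob on `U`, rational
  lifts on the levels `L(N·(x)_∞)`);
* `S33NFZ_frob_U'`   : **hFrob on `U'`, over `ℚ̄`**, for EVERY `c₀ ∈ A` fixed by `I`;
* **`S33NFZ_TFrob'`** : the target `S33NX_TFrob' … ϖ c₀` from (V-DISC) and the saturation
  `S33NX_TSat' … ϖ c₀`, for EVERY `c₀ ∈ A` fixed by `I` and every `H ≤ I`.
-/

set_option autoImplicit false
set_option synthInstance.maxHeartbeats 400000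
set_option maxHeartbeats 1000000
set_option linter.unusedSectionVars false
set_option linter.unusedVariables false
set_option linter.style.haveILetI false

open HahnSeries IntermediateField AlgebraicCurve ModularCurve

noncomputable section

namespace Fermat.Agent.S33

open Fermat.Agent.Lib Fermat.Agent.S18 Fermat.Agent.S24 Fermat.Agent.S34 Fermat.Agent.S36
  Fermat.Agent.GalRep

local notation "Ω" => AlgebraicClosure ℚ

/-! ### the grid -/

section grid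

variable {K F : Type*} [Field K] [Field F] [Algebra K F] (hP : HasPrincipalDivisors K F)

/-- clearing the poles at the zeros of `x − c`, with the pole order at the poles of `x`:
`f ∈ L(E(a,b)) ⇒ (x − c)^b f ∈ L((a+b)·(x)_∞)`. -/
theorem S33NFZ_clear (x : F) (c : K) (a b : ℕ) {f : F}
    (hf : f ∈ riemannRochSpace (S34P_E hP x (x - algebraMap K F c) a b)) :
    (x - algebraMap K F c) ^ b * f ∈ riemannRochSpace ((a + b) • RR_poleDiv hP x) := by
  rw [mem_riemannRochSpace_iff] at hf ⊢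
  intro Q
  by_cases hf0 : f = 0
  · left
    rw [hf0, mul_zero]
  by_cases hz0 : x - algebraMap K F c = 0
  · rcases Nat.eq_zero_or_pos b with hb | hb
    · subst hb
      right
      have h1 := (hf Q).resolve_left hf0
      rw [S34P_E_apply] at h1
      rw [pow_zero, one_mul, S18_semi_nsmul_apply, RR_poleDiv_apply]
      push_cast at h1 ⊢
      linarith
    · left
      rw [hz0, zero_pow hb.ne', zero_mul]
  right
  have hzb : (x - algebraMap K F c) ^ b ≠ 0 := pow_ne_zero b hz0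
  have h1 := (hf Q).resolve_left hf0
  rw [S34P_E_apply] at h1
  rw [Q.ord_mul hzb hf0, S18_ord_pow, S18_semi_nsmul_apply, RR_poleDiv_apply]
  push_cast
  linarith

/-- `f ∈ L(N·(x)_∞) ⇒ (x − c)⁻¹^N f` is regular off the zeros of `x − c`. -/
theorem S33NFZ_inv_clear (x : F) (c : K) (hz0 : x - algebraMap K F c ≠ 0) (N : ℕ) {f : F}
    (hf : f ∈ riemannRochSpace (N • RR_poleDiv hP x)) :
    (x - algebraMap K F c)⁻¹ ^ N * f ∈ S34SB_regZ K (x - algebraMap K F c) := by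
  by_cases hf0 : f = 0
  · rw [hf0, mul_zero]
    exact (S34SB_regZ K _).zero_mem
  have hzi : (x - algebraMap K F c)⁻¹ ^ N ≠ 0 := pow_ne_zero _ (inv_ne_zero hz0)
  unfold S34SB_regZ
  rw [S34SB_mem_regOff_iff (mul_ne_zero hzi hf0)]
  intro Q hQ
  rw [S34SB_mem_zeros, not_lt] at hQ
  rw [Q.ord_mul hzi hf0, ← zpow_natCast, Q.ord_zpow, Q.ord_inv]
  rcases mem_riemannRochSpace_iff.mp hf Q with h1 | h1
  · exact absurd h1 hf0
  · rw [S34SB_nsmul_poleDiv_apply] at h1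
    rcases lt_or_ge (Q.ord x) 0 with hx | hx
    · rw [LC_ord_sub_const_of_neg Q hx c]
      rw [max_eq_left (by omega)] at h1
      linarith
    · have h2 := LC_ord_sub_const_nonneg Q hx c
      have h3 : Q.ord (x - algebraMap K F c) = 0 := by omega
      rw [max_eq_right (by omega), mul_zero] at h1
      rw [h3]
      simp only [neg_zero, mul_zero, zero_add]
      omega

/-- roots on the levels of the chart `U`: `f^n ∈ L(nN·(x)_∞) ⇒ f ∈ L(N·(x)_∞)`. -/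
theorem S33NFZ_root (x f : F) {n : ℕ} (hn : 0 < n) (N : ℕ)
    (hf : f ^ n ∈ riemannRochSpace ((n * N) • RR_poleDiv hP x)) :
    f ∈ riemannRochSpace (N • RR_poleDiv hP x) := by
  have h := S34P_mem_E_of_pow hP (x := x) (z := (1 : F)) (f := f) one_ne_zero hn N 0
    (by rw [zero_mul, pow_zero, mul_one, add_zero]; exact hf)
  rwa [S34SB_E_zero] at h

end grid

/-! ### the abstract core -/

section core

variable {L F k Fk : Type*} [Field L] [Field F] [Algebra L F] [Field k] [Field Fk]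
  [Algebra k Fk] (S₁ S₂ : S18_Val L F k Fk) (hS : S34P_Same S₁ S₂)
  (hP : HasPrincipalDivisors L F) (hP₁ : HasPrincipalDivisors k Fk)

include hS in
/-- **hFrob on `U'` from hFrob on `U`**: the `z^N` trick. -/
theorem S33NFZ_core (x : S34P_O2 S₁ S₂) (x₁ x₂ : Fk) (c : S₁.A)
    (hz₁ : (S34P_red S₁ S₂ x).1 - algebraMap k Fk (S₁.res c) ≠ 0)
    (hz₂ : (S34P_red S₁ S₂ x).2 - algebraMap k Fk (S₁.res c) ≠ 0)
    (s m₀ : ℕ)
    (hchain : S34S_Chain
      (fun m => S34P_redSub S₁ S₂ hS (riemannRochSpace (m • RR_poleDiv hP (x : F))))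
      (fun m => (riemannRochSpace (m • RR_poleDiv hP₁ x₁)).prod
        (riemannRochSpace (m • RR_poleDiv hP₁ x₂))) s m₀)
    (q : ℕ) (hq : 0 < q)
    (P : F → Prop)
    (hPz : ∀ (g : F) (N : ℕ), P g → P (((x : F) - algebraMap L F (c : L))⁻¹ ^ N * g))
    (frobU : ∀ w : S34P_O2 S₁ S₂, (w : F) ∈ S34SB_reg L (x : F) → ∀ g₁ g₂ : Fk,
      g₁ ^ q = (S34P_red S₁ S₂ w).1 → g₂ ^ q = (S34P_red S₁ S₂ w).2 →
      ∃ g : F, g ∈ S34SB_reg L (x : F) ∧ ∃ hg : g ∈ S34P_O2 S₁ S₂,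
        S34P_red S₁ S₂ ⟨g, hg⟩ = (g₁, g₂))
    (lev : ∀ (N : ℕ) (f : S34P_O2 S₁ S₂),
      (f : F) ∈ riemannRochSpace (N • RR_poleDiv hP (x : F)) →
      ∃ g : F, g ∈ riemannRochSpace (N • RR_poleDiv hP (x : F)) ∧
        ∃ hg : g ∈ S34P_O2 S₁ S₂, P g ∧ S34P_red S₁ S₂ ⟨g, hg⟩ = S34P_red S₁ S₂ f)
    (w : S34P_O2 S₁ S₂)
    (hw : (w : F) ∈ S34SB_regZ L ((x : F) - algebraMap L F (c : L)))
    (g₁ g₂ : Fk) (h₁ : g₁ ^ q = (S34P_red S₁ S₂ w).1) (h₂ : g₂ ^ q = (S34P_red S₁ S₂ w).2) :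
    ∃ g : F, g ∈ S34SB_regZ L ((x : F) - algebraMap L F (c : L)) ∧
      ∃ hg : g ∈ S34P_O2 S₁ S₂, P g ∧ S34P_red S₁ S₂ ⟨g, hg⟩ = (g₁, g₂) := by
  classical
  -- `z = x − c` as an element of `O₁ ∩ O₂`
  have hcO : algebraMap L F (c : L) ∈ S34P_O2 S₁ S₂ := S34P_const_mem hS c
  set zO : S34P_O2 S₁ S₂ := x - ⟨_, hcO⟩ with hzO
  have hzc : (zO : F) = (x : F) - algebraMap L F (c : L) := rfl
  have hzred : S34P_red S₁ S₂ zO =
      ((S34P_red S₁ S₂ x).1 - algebraMap k Fk (S₁.res c),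
        (S34P_red S₁ S₂ x).2 - algebraMap k Fk (S₁.res c)) := by
    rw [hzO, map_sub, S34P_red_const hS c]
    rfl
  have hzr₁ : (S34P_red S₁ S₂ zO).1 ≠ 0 := by rw [hzred]; exact hz₁
  have hzr₂ : (S34P_red S₁ S₂ zO).2 ≠ 0 := by rw [hzred]; exact hz₂
  have hz0 : (x : F) - algebraMap L F (c : L) ≠ 0 := by
    intro h0
    have e : zO = 0 := Subtype.ext h0
    apply hzr₁
    rw [e, map_zero]
    rfl
  -- the inverse of `z` in `O₁ ∩ O₂`
  have hinv : ∀ (S : S18_Val L F k Fk) (hm : (zO : F) ∈ S.O), S.red ⟨(zO : F), hm⟩ ≠ 0 →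
      ((x : F) - algebraMap L F (c : L))⁻¹ ∈ S.O := by
    intro S hm hne
    obtain ⟨u, hu⟩ := (S.red_ne_zero_iff _).1 hne
    have h1 : ((u⁻¹ : S.Oˣ) : S.O) * ⟨(zO : F), hm⟩ = 1 := by
      rw [← hu]
      exact u.inv_mul
    have h2 : (((u⁻¹ : S.Oˣ) : S.O) : F) * (zO : F) = 1 := congrArg Subtype.val h1
    rw [hzc] at h2
    rw [← eq_inv_of_mul_eq_one_left h2]
    exact ((u⁻¹ : S.Oˣ) : S.O).2
  have hzi₁ := hinv S₁ zO.2.1 hzr₁
  have hzi₂ := hinv S₂ zO.2.2 hzr₂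
  set ziO : S34P_O2 S₁ S₂ := ⟨((x : F) - algebraMap L F (c : L))⁻¹, hzi₁, hzi₂⟩ with hziO
  have hzzi : ziO * zO = 1 := Subtype.ext (inv_mul_cancel₀ hz0)
  have hrzi : S34P_red S₁ S₂ ziO * S34P_red S₁ S₂ zO = 1 := by
    rw [← map_mul, hzzi, map_one]
  -- step 1: `w' = z^(qN) w` lies on the chart `U`
  obtain ⟨m₁, hm₁⟩ := S34SB_regZ_ex hP (x : F) (c : L) hw
  set N := max m₁ m₀ with hN
  have hN0 : m₀ ≤ N := le_max_right _ _
  have hqN : m₁ ≤ q * N := le_trans (le_max_left _ _) (Nat.le_mul_of_pos_left N hq)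
  have hw'L := S33NFZ_clear hP (x : F) (c : L) 0 (q * N) (hm₁ (q * N) hqN)
  rw [zero_add] at hw'L
  set w' : S34P_O2 S₁ S₂ := zO ^ (q * N) * w with hw'
  have hw'c : (w' : F) ∈ riemannRochSpace ((q * N) • RR_poleDiv hP (x : F)) := hw'L
  set r : Fk × Fk := S34P_red S₁ S₂ zO ^ N * (g₁, g₂) with hr
  have hred' : S34P_red S₁ S₂ w' = r ^ q := by
    rw [hw', map_mul, map_pow, hr, mul_pow, ← pow_mul, mul_comm N q]
    congr 1
    exact Prod.ext h₁.symm h₂.symm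
  -- step 2: pole orders of the roots
  have hRf := hchain.le (q * N) ⟨w', hw'c, rfl⟩
  rw [hred'] at hRf
  have hr₁ : r.1 ∈ riemannRochSpace (N • RR_poleDiv hP₁ x₁) :=
    S33NFZ_root hP₁ x₁ r.1 hq N hRf.1
  have hr₂ : r.2 ∈ riemannRochSpace (N • RR_poleDiv hP₁ x₂) :=
    S33NFZ_root hP₁ x₂ r.2 hq N hRf.2
  -- step 3: the root is a reduction (chart `U`), of bounded pole order (chain)
  obtain ⟨f, hfB, hfO, hfred⟩ := frobU w' (S34SB_RR_le_reg hP _ _ hw'c) r.1 r.2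
    (by rw [hred']; rfl) (by rw [hred']; rfl)
  obtain ⟨m₂, hm₂⟩ := S34SB_reg_ex hP (x : F) hfB
  have hfW : r ∈ S34P_redSub S₁ S₂ hS
      (riemannRochSpace ((max m₂ N) • RR_poleDiv hP (x : F))) :=
    ⟨⟨f, hfO⟩, hm₂ _ (le_max_left _ _), hfred⟩
  have hsat := hchain.sat hN0 (le_max_right m₂ N)
  have hWN : r ∈ S34P_redSub S₁ S₂ hS (riemannRochSpace (N • RR_poleDiv hP (x : F))) := by
    have h3 : r ∈ S34P_redSub S₁ S₂ hS
        (riemannRochSpace ((max m₂ N) • RR_poleDiv hP (x : F))) ⊓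
        (riemannRochSpace (N • RR_poleDiv hP₁ x₁)).prod
          (riemannRochSpace (N • RR_poleDiv hP₁ x₂)) := ⟨hfW, hr₁, hr₂⟩
    exact (SetLike.ext_iff.mp hsat r).1 h3
  obtain ⟨g', hg'L, hg'red⟩ := hWN
  -- step 4: the rational lift
  obtain ⟨g'', hg''L, hg''O, hPg, hg''red⟩ := lev N g' hg'L
  -- step 5: back to `U'`
  refine ⟨((x : F) - algebraMap L F (c : L))⁻¹ ^ N * g'',
    S33NFZ_inv_clear hP (x : F) (c : L) hz0 N hg''L,
    (ziO ^ N * ⟨g'', hg''O⟩ : S34P_O2 S₁ S₂).2, hPz _ _ hPg, ?_⟩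
  have e : (⟨((x : F) - algebraMap L F (c : L))⁻¹ ^ N * g'',
      (ziO ^ N * ⟨g'', hg''O⟩ : S34P_O2 S₁ S₂).2⟩ : S34P_O2 S₁ S₂) =
      ziO ^ N * ⟨g'', hg''O⟩ := rfl
  rw [e, map_mul, map_pow, hg''red, hg'red, hr, ← mul_assoc, ← mul_pow, hrzi, one_pow, one_mul]

end core

/-! ### the chart `U'` at level `M q` -/

section U'

variable (M q : ℕ) [NeZero M] [NeZero q] (hq : q.Prime) (hqM : ¬ q ∣ M)
  (A : ValuationSubring Ω) (hA : A.LiesOverPrime q)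
  (hgen : PrincipalGeneratedByIntegral A (IsLocalRing.residue A) (M * q))

/-- a transcendental element is not a constant. -/
theorem S33NFZ_ne_const {K E : Type*} [Field K] [Field E] [Algebra K E] {x : E}
    (hx : Transcendental K x) (c : K) : x - algebraMap K E c ≠ 0 := by
  intro h
  apply hx
  rw [sub_eq_zero.mp h]
  exact isAlgebraic_algebraMap c

include hA in
/-- **hFrob on `U'`, over `ℚ̄`**: if the reduction of an integral `w` regular on `U' = {j ≠ c₀}`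
(`c₀ ∈ A` fixed by `I`) is `(g₁^q, g₂^q)`, then `(g₁, g₂)` is the reduction of an `I`-fixed
integral `g` regular on `U'`. -/
theorem S33NFZ_frob_U' (c₀ : Ω) (hc₀A : c₀ ∈ A)
    (hc₀ : ∀ τ ∈ A.inertiaSubgroupIn ℚ, τ c₀ = c₀)
    (w : S34P_O2 (S34M_T1 M q A hgen) (S34M_T2 M q hq hqM A hgen))
    (hw : (w : ↥(modularFunctionFieldBar (M * q))) ∈
      S34SB_regZ Ω ((jB (M * q) : ↥(modularFunctionFieldBar (M * q))) -
        algebraMap Ω ↥(modularFunctionFieldBar (M * q)) c₀))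
    (g₁ g₂ : ↥(modularFunctionFieldFullC (IsLocalRing.ResidueField A) (M * q)))
    (h₁ : g₁ ^ q = (S34P_red (S34M_T1 M q A hgen) (S34M_T2 M q hq hqM A hgen) w).1)
    (h₂ : g₂ ^ q = (S34P_red (S34M_T1 M q A hgen) (S34M_T2 M q hq hqM A hgen) w).2) :
    ∃ g : ↥(modularFunctionFieldBar (M * q)),
      g ∈ S34SB_regZ Ω ((jB (M * q) : ↥(modularFunctionFieldBar (M * q))) -
        algebraMap Ω ↥(modularFunctionFieldBar (M * q)) c₀) ∧
      ∃ hg : g ∈ S34P_O2 (S34M_T1 M q A hgen) (S34M_T2 M q hq hqM A hgen),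
        (∀ σ ∈ A.inertiaSubgroupIn ℚ, GR_gal (M * q) σ g = g) ∧
        S34P_red (S34M_T1 M q A hgen) (S34M_T2 M q hq hqM A hgen) ⟨g, hg⟩ = (g₁, g₂) := by
  haveI : Fact q.Prime := ⟨hq⟩
  haveI : NeZero (M * q) := ⟨Nat.mul_ne_zero (NeZero.ne M) (NeZero.ne q)⟩
  have hF := S18_hRR (M * q)
  have hk := S34VF_hk M A hq hA hqM
  obtain ⟨s, m₀, -, hchain⟩ := S34NXF_chain M q hq hqM A hgen hA hF hk
  have htr : Transcendental (IsLocalRing.ResidueField A) (S34M_xb M q A) := by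
    rw [S34NXF_xb]
    exact S34VF_transcendental M A (q := q)
  have htr₂ : Transcendental (IsLocalRing.ResidueField A) (S34M_xb M q A ^ q) :=
    htr.pow hq.pos
  have hj := S34NXF_red_j M q hq hqM A hgen hA
  have hj₁ : (S34P_red (S34M_T1 M q A hgen) (S34M_T2 M q hq hqM A hgen)
      (S34PX_j M q hq hqM A hgen)).1 = S34M_xb M q A := congrArg Prod.fst hj
  have hj₂ : (S34P_red (S34M_T1 M q A hgen) (S34M_T2 M q hq hqM A hgen)
      (S34PX_j M q hq hqM A hgen)).2 = S34M_xb M q A ^ q := congrArg Prod.snd hj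
  have hc₀A' : c₀ ∈ (S34M_T1 M q A hgen).A := hc₀A
  refine S33NFZ_core (S34M_T1 M q A hgen) (S34M_T2 M q hq hqM A hgen)
    (S34PX_same M q hq hqM A hgen) hF.principal hk.principal (S34PX_j M q hq hqM A hgen)
    (S34M_xb M q A) (S34M_xb M q A ^ q) ⟨c₀, hc₀A'⟩ ?_ ?_ s m₀ hchain q hq.pos
    (fun g => ∀ σ ∈ A.inertiaSubgroupIn ℚ, GR_gal (M * q) σ g = g) ?_ ?_ ?_ w hw g₁ g₂ h₁ h₂
  · rw [hj₁]
    exact S33NFZ_ne_const htr _
  · rw [hj₂]
    exact S33NFZ_ne_const htr₂ _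
  · intro g N hg σ hσ
    have hz := S36DW_sub_fixed (M * q) σ (S34SW_gal_jB (M * q) σ) (hc₀ σ hσ)
    rw [map_mul, map_pow, map_inv₀, hg σ hσ]
    congr 3
  · intro w' hw' r₁ r₂ e₁ e₂
    obtain ⟨g, hgB, hgO, -, hgred⟩ := S33LF_frob_U M q hq hqM A hA hgen w' hw' r₁ r₂ e₁ e₂
    exact ⟨g, hgB, hgO, hgred⟩
  · intro N f hf
    have hf' : (f : ↥(modularFunctionFieldBar (M * q))) ∈ riemannRochSpace
        (S34P_E hF.principal (jB (M * q) : ↥(modularFunctionFieldBar (M * q)))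
          ((jB (M * q) : ↥(modularFunctionFieldBar (M * q))) -
            algebraMap Ω ↥(modularFunctionFieldBar (M * q)) c₀) N 0) := by
      rw [S34SB_E_zero]
      exact hf
    obtain ⟨g, hgV, hgO, hgfix, hgred⟩ := S36DW_levJ M q hq hqM A hA hgen hF.principal c₀ hc₀
      N 0 (f : ↥(modularFunctionFieldBar (M * q))) hf' f.2
    rw [S34SB_E_zero] at hgV
    exact ⟨g, hgV, hgO, hgfix, hgred⟩

end U'

/-! ### the target -/

section target

variable (M p : ℕ) [NeZero (M * p)] (hp : p.Prime) (hpM : ¬ p ∣ M)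
  (A : ValuationSubring Ω) (hA : A.LiesOverPrime p)
  (hgen : PrincipalGeneratedByIntegral A (IsLocalRing.residue A) (M * p))
  (H : Subgroup (Ω ≃ₐ[ℚ] Ω)) (hH : H ≤ A.inertiaSubgroupIn ℚ)

include hA hH in
/-- **TARGET `S33NX_TFrob'`** (LIFT + hFrob on `U' = {j ≠ c₀}`), from (V-DISC) and the
saturation of `Λ''_U'`, for EVERY `c₀ ∈ A` fixed by the inertia group. -/
theorem S33NFZ_TFrob' (c₀ : Ω) (hc₀A : c₀ ∈ A)
    (hc₀ : ∀ τ ∈ A.inertiaSubgroupIn ℚ, τ c₀ = c₀)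
    (ϖ : S33NX_F M p H) (hDV : S33NX_TDV M p hp hpM A hgen H ϖ)
    (hsat : S33NX_TSat' M p hp hpM A hgen H ϖ c₀) :
    S33NX_TFrob' M p hp hpM A hgen H ϖ c₀ := by
  haveI : NeZero M := ⟨fun h => NeZero.ne (M * p) (by rw [h, zero_mul])⟩
  haveI : NeZero p := ⟨hp.ne_zero⟩
  intro w hw hz
  rw [S33NX_mem_Lam'] at hw
  obtain ⟨hwOs, hwB⟩ := hw
  have hwO₁ := (S33LF_hO_zero M p hp hpM A hgen H w).1 hwOs.1
  have hwO₂ := (S33LF_hO_one M p hp hpM A hgen H w).1 hwOs.2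
  obtain ⟨z₀, hz₀, hd₀⟩ := hz 0
  obtain ⟨z₁, hz₁, hd₁⟩ := hz 1
  have hz₀O := (S33LF_hO_zero M p hp hpM A hgen H z₀).1 hz₀
  have hz₁O := (S33LF_hO_one M p hp hpM A hgen H z₁).1 hz₁
  -- the reductions of `w` are `p`-th powers
  obtain ⟨hm₀, hr₀⟩ := S33LF_red_of_div (S34M_T1 M p A hgen) _ _
    (S33LF_hO_zero M p hp hpM A hgen H) ϖ (hDV 0) hd₀
  obtain ⟨hm₁, hr₁⟩ := S33LF_red_of_div (S34M_T2 M p hp hpM A hgen) _ _
    (S33LF_hO_one M p hp hpM A hgen H) ϖ (hDV 1) hd₁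
  have h₁ : (S34M_T1 M p A hgen).red ⟨_, hz₀O⟩ ^ p =
      (S34P_red (S34M_T1 M p A hgen) (S34M_T2 M p hp hpM A hgen) ⟨_, hwO₁, hwO₂⟩).1 := by
    rw [S34P_red_fst, ← map_pow]
    have e : (⟨_, hwO₁⟩ : (S34M_T1 M p A hgen).O) - ⟨_, hz₀O⟩ ^ p = ⟨_, hm₀⟩ := by
      apply Subtype.ext
      push_cast
      rfl
    have := congrArg (S34M_T1 M p A hgen).red e
    rw [map_sub, hr₀, sub_eq_zero] at this
    exact this.symm
  have h₂ : (S34M_T2 M p hp hpM A hgen).red ⟨_, hz₁O⟩ ^ p =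
      (S34P_red (S34M_T1 M p A hgen) (S34M_T2 M p hp hpM A hgen) ⟨_, hwO₁, hwO₂⟩).2 := by
    rw [S34P_red_snd, ← map_pow]
    have e : (⟨_, hwO₂⟩ : (S34M_T2 M p hp hpM A hgen).O) - ⟨_, hz₁O⟩ ^ p = ⟨_, hm₁⟩ := by
      apply Subtype.ext
      push_cast
      rfl
    have := congrArg (S34M_T2 M p hp hpM A hgen).red e
    rw [map_sub, hr₁, sub_eq_zero] at this
    exact this.symm
  have hwB' : (w : ↥(modularFunctionFieldBar (M * p))) ∈
      S34SB_regZ Ω ((jB (M * p) : ↥(modularFunctionFieldBar (M * p))) -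
        algebraMap Ω ↥(modularFunctionFieldBar (M * p)) c₀) := by
    rw [S34SB_regZ_eq_IX]
    exact hwB
  obtain ⟨g, hgB, hgO, hgfix, hgred⟩ := S33NFZ_frob_U' M p hp hpM A hA hgen c₀ hc₀A hc₀
    ⟨_, hwO₁, hwO₂⟩ hwB' _ _ h₁ h₂
  -- the rational function `g`
  have hgF : g ∈ (S36FI_act (M * p) H).fixF :=
    (S36FI_mem_fixF (M * p) H).2 fun σ hσ => hgfix σ (hH hσ)
  set g'' : S33NX_F M p H := ⟨g, hgF⟩ with hg''
  have hg''Os : g'' ∈ S33NX_Os M p hp hpM A hgen H :=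
    ⟨(S33LF_hO_zero M p hp hpM A hgen H g'').2 hgO.1,
      (S33LF_hO_one M p hp hpM A hgen H g'').2 hgO.2⟩
  have hg''Lam : g'' ∈ S33NX_Lam' M p hp hpM A hgen H c₀ := by
    rw [S33NX_mem_Lam']
    refine ⟨hg''Os, ?_⟩
    show g ∈ S33NX_B' M p c₀
    unfold S33NX_B'
    rw [← S34SB_regZ_eq_IX]
    exact hgB
  refine ⟨g'', hg''Lam, ?_⟩
  have hdLam : w - g'' ^ p ∈ S33NX_Lam' M p hp hpM A hgen H c₀ :=
    (S33NX_Lam' M p hp hpM A hgen H c₀).sub_mem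
      ((S33NX_mem_Lam' M p hp hpM A hgen H c₀ w).2 ⟨hwOs, hwB⟩)
      ((S33NX_Lam' M p hp hpM A hgen H c₀).pow_mem hg''Lam p)
  refine hsat _ hdLam ?_
  have hred₁ := congrArg Prod.fst hgred
  have hred₂ := congrArg Prod.snd hgred
  rw [S34P_red_fst] at hred₁
  rw [S34P_red_snd] at hred₂
  simp only at hred₁ hred₂
  intro i
  fin_cases i
  · have hmem : ((w - g'' ^ p : S33NX_F M p H) : ↥(modularFunctionFieldBar (M * p))) ∈
        (S34M_T1 M p A hgen).O :=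
      (S33LF_hO_zero M p hp hpM A hgen H _).1 hdLam.1.1
    refine S33LF_div_of_red (S34M_T1 M p A hgen) _ _ (S33LF_hO_zero M p hp hpM A hgen H) ϖ
      (hDV 0) hmem ?_
    have e : (⟨_, hmem⟩ : (S34M_T1 M p A hgen).O) = ⟨_, hwO₁⟩ - ⟨g, hgO.1⟩ ^ p := by
      apply Subtype.ext
      push_cast
      rfl
    rw [e, map_sub, map_pow, hred₁, h₁, S34P_red_fst, sub_self]
  · have hmem : ((w - g'' ^ p : S33NX_F M p H) : ↥(modularFunctionFieldBar (M * p))) ∈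
        (S34M_T2 M p hp hpM A hgen).O :=
      (S33LF_hO_one M p hp hpM A hgen H _).1 hdLam.1.2
    refine S33LF_div_of_red (S34M_T2 M p hp hpM A hgen) _ _ (S33LF_hO_one M p hp hpM A hgen H) ϖ
      (hDV 1) hmem ?_
    have e : (⟨_, hmem⟩ : (S34M_T2 M p hp hpM A hgen).O) = ⟨_, hwO₂⟩ - ⟨g, hgO.2⟩ ^ p := by
      apply Subtype.ext
      push_cast
      rfl
    rw [e, map_sub, map_pow, hred₂, h₂, S34P_red_snd, sub_self]

end target

end Fermat.Agent.S33
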