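import Fermat.Agent.S33.NewInjInst
import Fermat.Agent.S34.NodesX0
import Fermat.Agent.S34.NodalX0Main

/-!
# TRACK 11 (S33), package N3-INST part 2 (helper28): INJ at the Kummer exponent `n = p`

Port of TRACK 7's `S34/InjGrid.lean`, `S34/InjWire.lean`, `S34/NodesX0.lean` to the Kummer
exponent `n = p` (the residue characteristic), on helper20's `S33NI_inj_O`
(`S33/NewInjInst.lean`).  No `hnk`, no `hker`: the inputs are trivialisations beyond the depth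
`c* = p e / (p - 1)`.

* `S33NG_hinj_lat` : for a lattice datum with a cartesian chart, the standard charts
  `U = {x ≠ ∞}`, `U' = {x ≠ c₀}` of a coordinate `x`, a Kummer generator `u ∈ O`,
  `p • D = div u`, saturation on the grid `L(E(a,b) + D)` and trivialisations `f₁` on `U`, `f₁'`
  on `U'` modulo `c ^ r₀` which agree modulo `c ^ s₀` (`p = c ^ e · ε`, `p e < r₀ (p - 1)`,
  `e < s₀ (p - 1)`): `u = c' · g ^ p`.  (`htors` = `S34IG_htors`, `hconst` = `S34IX_reg_const`.)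
* `S33NG_glued_one`, `S33NG_red_triv`, `S33NG_triv_mem_O`, `S33NG_hWu` : a trivialisation modulo
  a non-unit is integral, reduces to `(1, 1)`, hence the gluing invariant of `u` in the chart `U`
  is trivial (HEX).
* `S33NG_lev_X0_aux` : (LEV) on the canonical objects for a GIVEN chart constant `c` whose
  residue avoids the `j̄`-values of the nodes (port of `S34CL_lev_X0_aux` on `S34CL_lev_of`).
* `S33NG_hinj_nodes` : INJ on the canonical objects of level `M p` from the nodes of G1.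
* `S33NG_hinj_asm` : the same in the shape of the image in `F` of the conclusion of `S33NX_rat`
  (`e = (p - 1) e₀`, `r₀ = p e₀ + 1`, `s₀ = e₀ + 1`).
* `S33NG_hinj_bad` : the same without the nodes: `∃ bad : Finset k, ∀ c₀, c̄₀ ∉ bad → …`.
-/

set_option autoImplicit false
set_option synthInstance.maxHeartbeats 400000
set_option maxHeartbeats 1000000
set_option linter.unusedSectionVars false
set_option linter.unusedVariables false
set_option linter.style.haveILetI false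

open HahnSeries IntermediateField AlgebraicCurve ModularCurve

noncomputable section

namespace Fermat.Agent.S33

open Fermat.Agent.Lib Fermat.Agent.S18 Fermat.Agent.S24 Fermat.Agent.GalRep Fermat.Agent.S34

section Glue

variable {k : Type*} [Field k] {R₁ R₂ : Type*} [CommRing R₁] [CommRing R₂]
  [Algebra k R₁] [Algebra k R₂] {ι : Type*}

/-- a glued module which contains `1` has the trivial gluing invariant. -/
theorem S33NG_glued_one (e₁ : ι → R₁ →ₐ[k] k) (e₂ : ι → R₂ →ₐ[k] k) (c : ι → k)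
    (h : (1 : R₁ × R₂) ∈ S34B_glued e₁ e₂ c) :
    S34B_glued e₁ e₂ c = S34B_glued e₁ e₂ (fun _ => 1) := by
  have hc : c = fun _ => 1 := by
    funext i
    have h1 := (S34B_mem_glued e₁ e₂ c 1).1 h i
    simp only [Prod.fst_one, Prod.snd_one, map_one, mul_one] at h1
    exact h1.symm
  rw [hc]

/-- Frobenius is injective on a field of characteristic `p`. -/
theorem S33NG_eq_one_of_pow {K : Type*} [Field K] {p : ℕ} (hp : p.Prime) [CharP K p] {x : K}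
    (h : x ^ p = 1) : x = 1 := by
  haveI : Fact p.Prime := ⟨hp⟩
  have h1 : (x - 1) ^ p = 0 := by rw [sub_pow_char, h, one_pow, sub_self]
  exact sub_eq_zero.1 (pow_eq_zero_iff hp.ne_zero |>.1 h1)

end Glue

section Pair

variable {L F k : Type*} [Field L] [Field F] [Algebra L F] [Field k]

/-- **INJ at `n = p` on a lattice datum, standard charts**: `htors` from a cartesian chart,
Riemann's theorem and saturation on the grid (`S34IG_htors`), `hconst` from the covering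
`U ∪ U' = X` (`S34IX_reg_const`). -/
theorem S33NG_hinj_lat {R : Type*} [CommRing R] [Algebra k R] [Nontrivial R]
    (S : S34L_Lat L F k R) (hRR : RR_Hyp L F)
    {x₀ : S.O} {r : ℕ} {y : Fin r → S.O} (hC : S.IsCart x₀ y)
    (hrank : ∀ c : S.A, ¬ IsUnit c → c ≠ 0 → ∀ a : S.A, a ≠ 0 → ∃ N : ℕ, a ∣ c ^ N)
    {p : ℕ} (hp : p.Prime)
    (c : S.A) (hc : ¬ IsUnit c) (hc0 : c ≠ 0) (e : ℕ) (ε : S.Aˣ)
    (hpe : ((p : ℕ) : S.A) = c ^ e * ε)
    (x : F) (c₀ : L) (hx : 0 < (RR_poleDiv hRR.principal x).degree)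
    (u : F) (huO : u ∈ S.O) (hu0 : u ≠ 0) (D : Divisor L F)
    (hD : p • D = RR_div hRR.principal u)
    (m₀ : ℕ)
    (hsat : ∀ a b a' b', m₀ ≤ min a a' + min b b' →
      S.redSub (riemannRochSpace
          (S34P_E hRR.principal x (x - algebraMap L F c₀) a b + D)) ⊓
        S.redSub (riemannRochSpace
          (S34P_E hRR.principal x (x - algebraMap L F c₀) a' b' + D)) ≤
      S.redSub (riemannRochSpace
          (S34P_E hRR.principal x (x - algebraMap L F c₀) (min a a') (min b b') + D)))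
    (f₁ f₁' : F) (hf₁O : f₁ ∈ S.O) (hf₁ : f₁ ^ p * u ∈ S34IX_reg (S34IX_TU (K := L) x))
    (hf₁'O : f₁' ∈ S.O) (hf₁' : f₁' ^ p * u ∈ S34IX_reg (S34IX_TU' x c₀))
    (r₀ : ℕ) (hr₀ : p * e < r₀ * (p - 1)) (d : S.A) (hd0 : d ≠ 0) (hd : c ^ r₀ ∣ d)
    (ht : ∃ l ∈ S.O, f₁ ^ p * u = 1 + algebraMap L F (d : L) * l)
    (ht' : ∃ l ∈ S.O, f₁' ^ p * u = 1 + algebraMap L F (d : L) * l)
    (s₀ : ℕ) (hs₀ : e < s₀ * (p - 1)) (d' : S.A) (hd'0 : d' ≠ 0) (hd' : c ^ s₀ ∣ d')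
    (htt : ∃ m ∈ S.O, f₁ = f₁' + algebraMap L F (d' : L) * m) :
    ∃ (c' : L) (g : F), c' ≠ 0 ∧ g ≠ 0 ∧ u = algebraMap L F c' * g ^ p := by
  have hn : 0 < p := hp.pos
  have hroot : ∀ y : F, y ^ p ∈ S34IX_reg (S34IX_TU (K := L) x) →
      y ∈ S34IX_reg (S34IX_TU (K := L) x) := fun y hy => S34IX_reg_root _ hn y hy
  have hroot' : ∀ y : F, y ^ p ∈ S34IX_reg (S34IX_TU' x c₀) → y ∈ S34IX_reg (S34IX_TU' x c₀) :=
    fun y hy => S34IX_reg_root _ hn y hy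
  have hroot'' : ∀ y : F, y ^ p ∈ S34IX_reg (S34IX_TU'' x c₀) →
      y ∈ S34IX_reg (S34IX_TU'' x c₀) := fun y hy => S34IX_reg_root _ hn y hy
  exact S33NI_inj_O S hrank hp c hc hc0 e ε hpe
    (S34IX_reg (S34IX_TU (K := L) x)) (S34IX_reg (S34IX_TU' x c₀))
    (S34IX_reg (S34IX_TU'' x c₀))
    (S34IX_reg_anti (S34IX_TU''_sub x c₀)) (S34IX_reg_anti (S34IX_TU''_sub' x c₀))
    hroot hroot' hroot''
    (fun f hf hf' => S34IX_reg_const hRR (S34IX_cover x c₀) f hf hf')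
    u huO hu0
    (S34IG_htors S hRR hC x c₀ hx hn u hu0 D hD m₀ hsat _ _ _ hroot hroot' hroot''
      le_rfl le_rfl le_rfl)
    f₁ f₁' hf₁O hf₁ hf₁'O hf₁' r₀ hr₀ d hd0 hd ht ht' s₀ hs₀ d' hd'0 hd' htt

variable {Fk₁ Fk₂ : Type*} [Field Fk₁] [Field Fk₂] [Algebra k Fk₁] [Algebra k Fk₂]
  {S₁ : S18_Val L F k Fk₁} {S₂ : S18_Val L F k Fk₂} (hS : S34P_Same S₁ S₂)

include hS in
/-- a normalised element is a unit of `O₂`: its inverse is integral. -/
theorem S33NG_inv_mem_of_Norm {u : F} (hu : u ∈ S34K_Norm S₁ S₂) : u⁻¹ ∈ S34P_O2 S₁ S₂ := by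
  obtain ⟨hu1, hu2⟩ := hu
  have hunit : IsUnit (⟨u, hu1⟩ : (S34P_lat hS).O) := by
    apply (S34P_lat hS).isUnit_of_red
    have : (S34P_lat hS).red ⟨u, hu1⟩ = 1 := hu2
    rw [this]
    exact isUnit_one
  obtain ⟨v, hv⟩ := hunit.exists_right_inv
  have h1 : u * (v : F) = 1 := congrArg Subtype.val hv
  have hu0 : u ≠ 0 := left_ne_zero_of_mul_eq_one h1
  have : u⁻¹ = (v : F) := by
    rw [← mul_one u⁻¹, ← h1, ← mul_assoc, inv_mul_cancel₀ hu0, one_mul]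
  rw [this]
  exact v.2

include hS in
/-- a trivialisation of a normalised element is integral. -/
theorem S33NG_triv_mem_O {n : ℕ} (hn : 0 < n) {u : F} (hu : u ∈ S34K_Norm S₁ S₂)
    (f t : F) (ht : t ∈ S34P_O2 S₁ S₂) (h : f ^ n * u = t) : f ∈ S34P_O2 S₁ S₂ := by
  have hu0 : u ≠ 0 := S34K_ne_zero_of_Norm hu
  have hpow : f ^ n ∈ S34P_O2 S₁ S₂ := by
    have : f ^ n = t * u⁻¹ := by
      rw [← h, mul_assoc, mul_inv_cancel₀ hu0, mul_one]
    rw [this]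
    exact (S34P_O2 S₁ S₂).mul_mem ht (S33NG_inv_mem_of_Norm hS hu)
  exact ⟨S34IX_mem_of_pow_mem S₁.O hn hpow.1, S34IX_mem_of_pow_mem S₂.O hn hpow.2⟩

include hS in
/-- the reduction of a trivialisation modulo a non-unit is `1` (residue characteristic `p`,
exponent `p`). -/
theorem S33NG_red_triv {p : ℕ} (hp : p.Prime) [CharP k p] {u : F}
    (hu : u ∈ S34K_Norm S₁ S₂) (d : S₁.A) (hd : ¬ IsUnit d)
    (f : F) (hfO : f ∈ S34P_O2 S₁ S₂) (l : F) (hl : l ∈ S34P_O2 S₁ S₂)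
    (h : f ^ p * u = 1 + algebraMap L F (d : L) * l) :
    S34P_red S₁ S₂ ⟨f, hfO⟩ = 1 := by
  obtain ⟨hu1, hu2⟩ := hu
  haveI : CharP Fk₁ p := charP_of_injective_algebraMap (algebraMap k Fk₁).injective p
  haveI : CharP Fk₂ p := charP_of_injective_algebraMap (algebraMap k Fk₂).injective p
  have hE : (⟨f, hfO⟩ : S34P_O2 S₁ S₂) ^ p * ⟨u, hu1⟩ =
      1 + ⟨algebraMap L F (d : L), S34P_const_mem hS d⟩ * ⟨l, hl⟩ := Subtype.ext h
  have hred := congrArg (S34P_red S₁ S₂) hE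
  rw [map_mul, map_pow, hu2, mul_one, map_add, map_one, map_mul, S34P_red_const hS d,
    (S₁.res_eq_zero_iff d).2 hd, map_zero, map_zero] at hred
  have hz : ((0 : Fk₁), (0 : Fk₂)) = 0 := rfl
  rw [hz, zero_mul, add_zero] at hred
  apply Prod.ext
  · exact S33NG_eq_one_of_pow hp (by simpa using congrArg Prod.fst hred)
  · exact S33NG_eq_one_of_pow hp (by simpa using congrArg Prod.snd hred)

/-- **the gluing invariant of a Kummer generator with a trivialisation on `U` is trivial**: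
if `W^u` is glued (HEX) and `f₁ ∈ O₂`, `f₁ ^ n · u ∈ B`, `red f₁ = 1`, then
`W^u = glued e₁ e₂ 1`. -/
theorem S33NG_hWu {n : ℕ}
    (C : S34K_Chart (L := L) (F := F) (k := k) (Fk₁ := Fk₁) (Fk₂ := Fk₂) n) {ι : Type*}
    (e₁ : ι → ↥C.Rb₁ →ₐ[k] k) (e₂ : ι → ↥C.Rb₂ →ₐ[k] k) (u : F)
    (hex : ∃ c : ι → k, S34K_W hS C u = S34B_glued e₁ e₂ c)
    (f₁ : F) (hf₁O : f₁ ∈ S34P_O2 S₁ S₂) (hf₁ : f₁ ^ n * u ∈ C.B)
    (hred : S34P_red S₁ S₂ ⟨f₁, hf₁O⟩ = 1) :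
    S34K_W hS C u = S34B_glued e₁ e₂ (fun _ => 1) := by
  obtain ⟨c, hc⟩ := hex
  rw [hc]
  apply S33NG_glued_one
  rw [← hc, S34K_mem_W]
  exact ⟨⟨f₁, hf₁O⟩, hf₁, hred⟩

end Pair

section X0

variable (M p : ℕ) [NeZero (M * p)] (hp : p.Prime) (hpM : ¬ p ∣ M)
  (A : ValuationSubring (AlgebraicClosure ℚ))
  (hgen : PrincipalGeneratedByIntegral A (IsLocalRing.residue A) (M * p))

/-- (LEV) on the canonical pair for a GIVEN chart constant `c` avoiding the node values, with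
the reduction `x₁ = j̄` as a variable (port of `S34CL_lev_X0_aux`). -/
theorem S33NG_lev_X0_aux (hA : A.LiesOverPrime p)
    (x₁ : ↥(modularFunctionFieldFullC (IsLocalRing.ResidueField A) (M * p)))
    (hx₁ : x₁ = S18_jbar (M * p) (IsLocalRing.ResidueField A))
    {n : ℕ} (hn : 0 < n) {ι : Type*} [Fintype ι]
    (e₁ : ι → ↥(S34SB_reg (IsLocalRing.ResidueField A) x₁) →ₐ[IsLocalRing.ResidueField A]
      IsLocalRing.ResidueField A)
    (e₂ : ι → ↥(S34SB_reg (IsLocalRing.ResidueField A) (x₁ ^ p)) →ₐ[IsLocalRing.ResidueField A]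
      IsLocalRing.ResidueField A)
    (hE : Function.Surjective (S34B_E e₁ e₂))
    (hcard : (RR_genus (AlgebraicClosure ℚ) ↥(modularFunctionFieldBar (M * p)) : ℤ) + 1 -
      2 * RR_genus (IsLocalRing.ResidueField A)
        ↥(modularFunctionFieldFullC (IsLocalRing.ResidueField A) (M * p)) ≤ Fintype.card ι)
    (c : (S34M_T1 M p A hgen).A)
    (hc : ∀ i, e₁ i ⟨x₁, S34SB_self_mem_reg x₁⟩ ≠ (S34M_T1 M p A hgen).res c)
    (u : ↥(modularFunctionFieldBar (M * p)))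
    (hu : u ∈ S34K_Norm (S34M_T1 M p A hgen) (S34M_T2 M p hp hpM A hgen))
    (D : Divisor (AlgebraicClosure ℚ) ↥(modularFunctionFieldBar (M * p)))
    (hD : n • D = RR_div (S18_hRR (M * p)).principal u)
    (hWu : S34K_W (S34M_same M p hp hpM A hgen)
        (S34SB_chart (AlgebraicClosure ℚ) (IsLocalRing.ResidueField A) (jB (M * p))
          x₁ (x₁ ^ p) n hn) u = S34B_glued e₁ e₂ (fun _ => 1)) :
    ∃ (m₀ : ℕ)
      (G : ℕ → ℕ → Submodule (IsLocalRing.ResidueField A)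
        (↥(modularFunctionFieldFullC (IsLocalRing.ResidueField A) (M * p)) ×
          ↥(modularFunctionFieldFullC (IsLocalRing.ResidueField A) (M * p)))),
      (∀ a b a' b', G a b ⊓ G a' b' ≤ G (min a a') (min b b')) ∧
      (∀ a b, m₀ ≤ a + b → (S34P_lat (S34M_same M p hp hpM A hgen)).redSub (riemannRochSpace
        (S34P_E (S18_hRR (M * p)).principal (jB (M * p))
          (jB (M * p) - algebraMap (AlgebraicClosure ℚ) ↥(modularFunctionFieldBar (M * p))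
            (c : AlgebraicClosure ℚ))
          a b + D)) = G a b) ∧
      (∃ a, m₀ ≤ a ∧ (1 : _ × _) ∈ G a 0) ∧ (∃ b, m₀ ≤ b ∧ (1 : _ × _) ∈ G 0 b) := by
  subst hx₁
  haveI : NeZero M := S34CL_neZero_M M p
  haveI : IsAlgClosed (IsLocalRing.ResidueField A) := S18_residue_isAlgClosed A
  have hk := S34VF_hk M A hp hA hpM
  have hcart : S34PX_Cart M p hp hpM A hgen := S34VW_cart M p hp hpM A hgen hA
  have hd₁ := S34PX_pole (M := M) (hq := hp) (hqM := hpM) (A := A) hA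
  have hd₂ : 0 < (RR_poleDiv hk.principal
      (S18_jbar (M * p) (IsLocalRing.ResidueField A) ^ p)).degree := by
    rw [S34VD_poleDiv_pow_degree]
    have : (0 : ℤ) < (p : ℤ) := by exact_mod_cast hp.pos
    exact mul_pos this hd₁
  have hred : S34P_red (S34M_T1 M p A hgen) (S34M_T2 M p hp hpM A hgen)
      (S34PX_j M p hp hpM A hgen) =
      (S18_jbar (M * p) (IsLocalRing.ResidueField A),
        S18_jbar (M * p) (IsLocalRing.ResidueField A) ^ p) :=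
    Prod.ext (S34PX_red_j_fst M p hp hpM A hgen) (S34PX_red_j_snd M p hp hpM A hgen hA)
  exact S34CL_lev_of (S34M_same M p hp hpM A hgen) (S18_hRR (M * p)) hk hk
    (S34PX_j M p hp hpM A hgen) (S34PX_hyp hcart)
    (fun V hV => by
      rw [S34P_lat_redSub]
      exact S34PX_count hcart V hV)
    _ _ hred hd₁ hd₂ (S34VF_hdeg M A hp hA hpM hk.principal hk.principal _) hn e₁ e₂ hE
    (by linarith) c hc u hu D hD hWu

/-- **N3-INST, part 2, on the canonical objects of level `M p`, exponent `n = p`**: let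
`e₁ e₂ hE hW1` be the nodes of the chart `U` (G1 of TRACK 7 with `n := p`), `c₀ ∈ A` a chart
constant whose residue avoids the `j̄`-values of the nodes, `ϖ ∈ A` a non-unit with
`p = ϖ ^ e · ε`.  A normalised Kummer generator `u` (exponent `p`) with trivialisations
`f₁` on `U = {j ≠ ∞}`, `f₁'` on `U' = {j ≠ c₀}` modulo `d` (`ϖ ^ r₀ ∣ d`, `p e < r₀ (p - 1)`)
which agree modulo `d'` (`ϖ ^ s₀ ∣ d'`, `e < s₀ (p - 1)`) is a trivial Kummer generator. -/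
theorem S33NG_hinj_nodes (hA : A.LiesOverPrime p) {ι : Type*} [Fintype ι]
    (e₁ : ι → ↥(S34M_chart M p A p hp.pos).Rb₁ →ₐ[IsLocalRing.ResidueField A]
      IsLocalRing.ResidueField A)
    (e₂ : ι → ↥(S34M_chart M p A p hp.pos).Rb₂ →ₐ[IsLocalRing.ResidueField A]
      IsLocalRing.ResidueField A)
    (hE : Function.Surjective (S34B_E e₁ e₂))
    (hW1 : S34K_W (S34M_same M p hp hpM A hgen) (S34M_chart M p A p hp.pos) 1 = S34B_W e₁ e₂)
    (c₀ : (S34M_T1 M p A hgen).A)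
    (hc₀ : ∀ i, e₁ i ⟨S34M_xb M p A, S34SB_self_mem_reg _⟩ ≠ (S34M_T1 M p A hgen).res c₀)
    (ϖ : (S34M_T1 M p A hgen).A) (hϖ : ¬ IsUnit ϖ) (hϖ0 : ϖ ≠ 0) (e : ℕ)
    (ε : ((S34M_T1 M p A hgen).A)ˣ) (hpe : ((p : ℕ) : (S34M_T1 M p A hgen).A) = ϖ ^ e * ε)
    (u : ↥(modularFunctionFieldBar (M * p))) (hu : u ∈ S34M_Kp M p hp hpM A hgen p)
    (f₁ f₁' : ↥(modularFunctionFieldBar (M * p)))
    (hf₁ : f₁ ^ p * u ∈ S34IX_reg (S34IX_TU (K := AlgebraicClosure ℚ) (jB (M * p))))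
    (hf₁' : f₁' ^ p * u ∈ S34IX_reg (S34IX_TU' (jB (M * p)) (c₀ : AlgebraicClosure ℚ)))
    (r₀ : ℕ) (hr₀ : p * e < r₀ * (p - 1)) (d : (S34M_T1 M p A hgen).A) (hd0 : d ≠ 0)
    (hd : ϖ ^ r₀ ∣ d)
    (ht : ∃ l ∈ S34P_O2 (S34M_T1 M p A hgen) (S34M_T2 M p hp hpM A hgen),
      f₁ ^ p * u = 1 + algebraMap (AlgebraicClosure ℚ) ↥(modularFunctionFieldBar (M * p))
        (d : AlgebraicClosure ℚ) * l)
    (ht' : ∃ l ∈ S34P_O2 (S34M_T1 M p A hgen) (S34M_T2 M p hp hpM A hgen),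
      f₁' ^ p * u = 1 + algebraMap (AlgebraicClosure ℚ) ↥(modularFunctionFieldBar (M * p))
        (d : AlgebraicClosure ℚ) * l)
    (s₀ : ℕ) (hs₀ : e < s₀ * (p - 1)) (d' : (S34M_T1 M p A hgen).A) (hd'0 : d' ≠ 0)
    (hd' : ϖ ^ s₀ ∣ d')
    (htt : ∃ m ∈ S34P_O2 (S34M_T1 M p A hgen) (S34M_T2 M p hp hpM A hgen),
      f₁ = f₁' + algebraMap (AlgebraicClosure ℚ) ↥(modularFunctionFieldBar (M * p))
        (d' : AlgebraicClosure ℚ) * m) :
    GR_IsTriv (M * p) p u := by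
  haveI : NeZero M := S34CL_neZero_M M p
  haveI : CharP (IsLocalRing.ResidueField A) p := S18_residue_charP A p hp hA
  have hn : 0 < p := hp.pos
  have hS := S34M_same M p hp hpM A hgen
  have hu0 : u ≠ 0 := hu.1.1
  -- `d` is not a unit
  have hdu : ¬ IsUnit d := by
    intro hdu
    have hr : 0 < r₀ := by
      rcases Nat.eq_zero_or_pos r₀ with h | h
      · rw [h] at hr₀; simp at hr₀
      · exact h
    have : ϖ ∣ d := dvd_trans (dvd_pow_self ϖ hr.ne') hd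
    exact hϖ (isUnit_of_dvd_unit this hdu)
  -- the trivialisations are integral and reduce to `1`
  obtain ⟨l, hl, hfl⟩ := ht
  obtain ⟨l', hl', hfl'⟩ := ht'
  have hcO : ∀ a : (S34M_T1 M p A hgen).A,
      algebraMap (AlgebraicClosure ℚ) ↥(modularFunctionFieldBar (M * p))
        (a : AlgebraicClosure ℚ) ∈ S34P_O2 (S34M_T1 M p A hgen) (S34M_T2 M p hp hpM A hgen) :=
    fun a => S34P_const_mem hS a
  have hf₁O : f₁ ∈ S34P_O2 (S34M_T1 M p A hgen) (S34M_T2 M p hp hpM A hgen) :=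
    S33NG_triv_mem_O hS hn hu.2 f₁ _
      (Subring.add_mem _ (Subring.one_mem _) (Subring.mul_mem _ (hcO d) hl)) hfl
  have hf₁'O : f₁' ∈ S34P_O2 (S34M_T1 M p A hgen) (S34M_T2 M p hp hpM A hgen) :=
    S33NG_triv_mem_O hS hn hu.2 f₁' _
      (Subring.add_mem _ (Subring.one_mem _) (Subring.mul_mem _ (hcO d) hl')) hfl'
  have hred : S34P_red (S34M_T1 M p A hgen) (S34M_T2 M p hp hpM A hgen) ⟨f₁, hf₁O⟩ = 1 :=
    S33NG_red_triv hS hp hu.2 d hdu f₁ hf₁O l hl hfl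
  -- the gluing invariant is trivial
  have hWu : S34K_W (S34M_same M p hp hpM A hgen) (S34M_chart M p A p hn) u =
      S34B_glued e₁ e₂ (fun _ => 1) :=
    S33NG_hWu (S34M_same M p hp hpM A hgen) (S34M_chart M p A p hn) e₁ e₂ u
      (S34HX_hex_X0 M p hp hpM A hgen hA hn e₁ e₂ hE hW1 u hu) f₁ hf₁O
      ((S34IW_hCB (jB (M * p)) (S34M_xb M p A) (S34M_xb M p A ^ p) p hn _).2 hf₁) hred
  -- the level description for the chart constant `c₀`
  obtain ⟨D, hD⟩ := S34HX_exists_D (S18_hRR (M * p)).principal u hu.1.2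
  obtain ⟨m₀, G, hG, hlev, -, -⟩ :=
    S33NG_lev_X0_aux M p hp hpM A hgen hA (S34M_xb M p A) (S34PX_red_j_fst M p hp hpM A hgen)
      hn e₁ e₂ hE
      (S34CL_card_X0_aux M p hp hpM A hgen hA (S34M_xb M p A)
        (S34PX_red_j_fst M p hp hpM A hgen) hn e₁ e₂ hE hW1).ge
      c₀ hc₀ u hu.2 D hD hWu
  obtain ⟨r, y, hC⟩ := S34VW_cart M p hp hpM A hgen hA
  have hx : 0 < (RR_poleDiv (S18_hRR (M * p)).principal (jB (M * p))).degree := by
    rw [S34VD_deg_jB]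
    exact_mod_cast Fermat.Agent.GalRep.GRHF_dedekindPsi_pos (M * p)
  exact S33NG_hinj_lat (S34P_lat (S34M_same M p hp hpM A hgen)) (S18_hRR (M * p)) hC
    (fun c hc hc0 a ha => S34RO_rank_one_Qbar (S34M_T1 M p A hgen).A hp hA c hc hc0 a ha)
    hp ϖ hϖ hϖ0 e ε hpe (jB (M * p)) (c₀ : AlgebraicClosure ℚ) hx u hu.2.1 hu0 D hD m₀
    (fun a b a' b' h => S34IG_hsat _ G m₀ hG hlev a b a' b' h)
    f₁ f₁' hf₁O hf₁ hf₁'O hf₁' r₀ hr₀ d hd0 hd ⟨l, hl, hfl⟩ ⟨l', hl', hfl'⟩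
    s₀ hs₀ d' hd'0 hd' htt

/-- **N3-INST, part 2, consumer shape** (the image in `F` of the conclusion of `S33NX_rat`):
`ϖ ∈ A` a non-unit with `p = ϖ ^ ((p - 1) e₀) · ε`, and
`φ ^ p u = 1 + ϖ ^ (p e₀ + 1) l`, `l ∈ O₁ ∩ O₂ ∩ B_U`,
`φ' ^ p u = 1 + ϖ ^ (p e₀ + 1) l'`, `l' ∈ O₁ ∩ O₂ ∩ B_U'`,
`φ - φ' = ϖ ^ (e₀ + 1) (m φ')`, `m ∈ O₁ ∩ O₂`.  Then `u` is a trivial Kummer generator. -/
theorem S33NG_hinj_asm (hA : A.LiesOverPrime p) {ι : Type*} [Fintype ι]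
    (e₁ : ι → ↥(S34M_chart M p A p hp.pos).Rb₁ →ₐ[IsLocalRing.ResidueField A]
      IsLocalRing.ResidueField A)
    (e₂ : ι → ↥(S34M_chart M p A p hp.pos).Rb₂ →ₐ[IsLocalRing.ResidueField A]
      IsLocalRing.ResidueField A)
    (hE : Function.Surjective (S34B_E e₁ e₂))
    (hW1 : S34K_W (S34M_same M p hp hpM A hgen) (S34M_chart M p A p hp.pos) 1 = S34B_W e₁ e₂)
    (c₀ : A)
    (hc₀ : ∀ i, e₁ i ⟨S34M_xb M p A, S34SB_self_mem_reg _⟩ ≠ IsLocalRing.residue A c₀)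
    (ϖ : A) (hϖ : ¬ IsUnit ϖ) (hϖ0 : ϖ ≠ 0) (e₀ : ℕ) (ε : Aˣ)
    (hpe : ((p : ℕ) : A) = ϖ ^ ((p - 1) * e₀) * ε)
    (u : ↥(modularFunctionFieldBar (M * p))) (hu : u ∈ S34M_Kp M p hp hpM A hgen p)
    (φ φ' : ↥(modularFunctionFieldBar (M * p)))
    (ht : ∃ l : ↥(modularFunctionFieldBar (M * p)), l ∈ (S34M_T1 M p A hgen).O ∧
      l ∈ (S34M_T2 M p hp hpM A hgen).O ∧
      l ∈ S34IX_reg (S34IX_TU (K := AlgebraicClosure ℚ) (jB (M * p))) ∧
      φ ^ p * u = 1 + algebraMap (AlgebraicClosure ℚ) ↥(modularFunctionFieldBar (M * p))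
        (ϖ : AlgebraicClosure ℚ) ^ (p * e₀ + 1) * l)
    (ht' : ∃ l : ↥(modularFunctionFieldBar (M * p)), l ∈ (S34M_T1 M p A hgen).O ∧
      l ∈ (S34M_T2 M p hp hpM A hgen).O ∧
      l ∈ S34IX_reg (S34IX_TU' (jB (M * p)) (c₀ : AlgebraicClosure ℚ)) ∧
      φ' ^ p * u = 1 + algebraMap (AlgebraicClosure ℚ) ↥(modularFunctionFieldBar (M * p))
        (ϖ : AlgebraicClosure ℚ) ^ (p * e₀ + 1) * l)
    (htt : ∃ m : ↥(modularFunctionFieldBar (M * p)), m ∈ (S34M_T1 M p A hgen).O ∧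
      m ∈ (S34M_T2 M p hp hpM A hgen).O ∧
      φ - φ' = algebraMap (AlgebraicClosure ℚ) ↥(modularFunctionFieldBar (M * p))
        (ϖ : AlgebraicClosure ℚ) ^ (e₀ + 1) * (m * φ')) :
    GR_IsTriv (M * p) p u := by
  have hn : 0 < p := hp.pos
  have hp1 : 1 ≤ p - 1 := by have := hp.two_le; omega
  have hS := S34M_same M p hp hpM A hgen
  obtain ⟨l, hl1, hl2, hlB, hfl⟩ := ht
  obtain ⟨l', hl'1, hl'2, hl'B, hfl'⟩ := ht'
  obtain ⟨m, hm1, hm2, hfm⟩ := htt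
  have hcoe : ∀ r : ℕ, algebraMap (AlgebraicClosure ℚ) ↥(modularFunctionFieldBar (M * p))
      (((ϖ ^ r : A) : A) : AlgebraicClosure ℚ) =
      algebraMap (AlgebraicClosure ℚ) ↥(modularFunctionFieldBar (M * p))
        (ϖ : AlgebraicClosure ℚ) ^ r := by
    intro r
    rw [SubmonoidClass.coe_pow, map_pow]
  have hcO : ∀ a : (S34M_T1 M p A hgen).A,
      algebraMap (AlgebraicClosure ℚ) ↥(modularFunctionFieldBar (M * p))
        (a : AlgebraicClosure ℚ) ∈ S34P_O2 (S34M_T1 M p A hgen) (S34M_T2 M p hp hpM A hgen) :=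
    fun a => S34P_const_mem hS a
  have hφ'O : φ' ∈ S34P_O2 (S34M_T1 M p A hgen) (S34M_T2 M p hp hpM A hgen) := by
    refine S33NG_triv_mem_O hS hn hu.2 φ' _ ?_ hfl'
    rw [← hcoe]
    exact Subring.add_mem _ (Subring.one_mem _)
      (Subring.mul_mem _ (hcO (ϖ ^ (p * e₀ + 1))) ⟨hl'1, hl'2⟩)
  refine S33NG_hinj_nodes M p hp hpM A hgen hA e₁ e₂ hE hW1 c₀ hc₀ ϖ hϖ hϖ0 ((p - 1) * e₀) ε hpe
    u hu φ φ' ?_ ?_ (p * e₀ + 1) ?_ (ϖ ^ (p * e₀ + 1)) (pow_ne_zero _ hϖ0) dvd_rfl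
    ⟨l, ⟨hl1, hl2⟩, by rw [hfl, hcoe]⟩ ⟨l', ⟨hl'1, hl'2⟩, by rw [hfl', hcoe]⟩
    (e₀ + 1) ?_ (ϖ ^ (e₀ + 1)) (pow_ne_zero _ hϖ0) dvd_rfl
    ⟨m * φ', (S34P_O2 _ _).mul_mem ⟨hm1, hm2⟩ hφ'O, by rw [hcoe, ← hfm]; ring⟩
  · rw [hfl]
    exact Subalgebra.add_mem _ (Subalgebra.one_mem _)
      (Subalgebra.mul_mem _ (Subalgebra.pow_mem _ (Subalgebra.algebraMap_mem _ _) _) hlB)
  · rw [hfl']
    exact Subalgebra.add_mem _ (Subalgebra.one_mem _)
      (Subalgebra.mul_mem _ (Subalgebra.pow_mem _ (Subalgebra.algebraMap_mem _ _) _) hl'B)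
  · -- `p (p - 1) e₀ < (p e₀ + 1) (p - 1)`
    have : p * ((p - 1) * e₀) = p * e₀ * (p - 1) := by ring
    rw [this, add_mul, one_mul]
    omega
  · -- `(p - 1) e₀ < (e₀ + 1) (p - 1)`
    have : (p - 1) * e₀ = e₀ * (p - 1) := by ring
    rw [this, add_mul, one_mul]
    omega

/-- **N3-INST, part 2, without the nodes**: there is a finite set `bad` of residues (the
`j̄`-values of the nodes) such that the conclusion of `S33NG_hinj_asm` holds for every chart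
constant `c₀ ∈ A` with `c̄₀ ∉ bad`. -/
theorem S33NG_hinj_bad (hA : A.LiesOverPrime p) :
    ∃ bad : Finset (IsLocalRing.ResidueField A), ∀ c₀ : A, IsLocalRing.residue A c₀ ∉ bad →
    ∀ (ϖ : A), ¬ IsUnit ϖ → ϖ ≠ 0 → ∀ (e₀ : ℕ) (ε : Aˣ),
    ((p : ℕ) : A) = ϖ ^ ((p - 1) * e₀) * ε →
    ∀ u ∈ S34M_Kp M p hp hpM A hgen p, ∀ φ φ' : ↥(modularFunctionFieldBar (M * p)),
    (∃ l : ↥(modularFunctionFieldBar (M * p)), l ∈ (S34M_T1 M p A hgen).O ∧
      l ∈ (S34M_T2 M p hp hpM A hgen).O ∧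
      l ∈ S34IX_reg (S34IX_TU (K := AlgebraicClosure ℚ) (jB (M * p))) ∧
      φ ^ p * u = 1 + algebraMap (AlgebraicClosure ℚ) ↥(modularFunctionFieldBar (M * p))
        (ϖ : AlgebraicClosure ℚ) ^ (p * e₀ + 1) * l) →
    (∃ l : ↥(modularFunctionFieldBar (M * p)), l ∈ (S34M_T1 M p A hgen).O ∧
      l ∈ (S34M_T2 M p hp hpM A hgen).O ∧
      l ∈ S34IX_reg (S34IX_TU' (jB (M * p)) (c₀ : AlgebraicClosure ℚ)) ∧
      φ' ^ p * u = 1 + algebraMap (AlgebraicClosure ℚ) ↥(modularFunctionFieldBar (M * p))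
        (ϖ : AlgebraicClosure ℚ) ^ (p * e₀ + 1) * l) →
    (∃ m : ↥(modularFunctionFieldBar (M * p)), m ∈ (S34M_T1 M p A hgen).O ∧
      m ∈ (S34M_T2 M p hp hpM A hgen).O ∧
      φ - φ' = algebraMap (AlgebraicClosure ℚ) ↥(modularFunctionFieldBar (M * p))
        (ϖ : AlgebraicClosure ℚ) ^ (e₀ + 1) * (m * φ')) →
    GR_IsTriv (M * p) p u := by
  classical
  obtain ⟨s, e₁, e₂, hE, hW1⟩ := S34NX_nodes M p hp hpM A hA hgen p hp.pos
  refine ⟨Finset.univ.image fun i : Fin s => e₁ i ⟨S34M_xb M p A, S34SB_self_mem_reg _⟩, ?_⟩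
  intro c₀ hc₀ ϖ hϖ hϖ0 e₀ ε hpe u hu φ φ' ht ht' htt
  exact S33NG_hinj_asm M p hp hpM A hgen hA e₁ e₂ hE hW1 c₀
    (fun i h => hc₀ (Finset.mem_image.mpr ⟨i, Finset.mem_univ i, h⟩))
    ϖ hϖ hϖ0 e₀ ε hpe u hu φ φ' ht ht' htt

end X0

end Fermat.Agent.S33
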