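import Fermat.Agent.S33.NewFin
import Fermat.Agent.S33.NewInjGrid

/-!
# TRACK 11 (S33), package N3-FIN, part 2 (helper25): from the rational conclusion to `GR_IsTriv`

`S33NF_rat_triv` : the conclusion of `S33NX_rat` (`S33/NewDefs.lean`, in the rational function
field `F'' = fixF(H)`, with `ϖ = S33NX_const ϖ₀`) for a normalised Kummer generator `u`
(`(u : F) ∈ S34M_Kp … p`) and a chart constant `c₀ ∈ A` with `c̄₀ ∉ bad` implies
`GR_IsTriv (M p) p u`  (helper28's `S33NG_hinj_bad` applied to the image in `F`).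
Prefix `S33NF_`.
-/

set_option autoImplicit false
set_option synthInstance.maxHeartbeats 400000
set_option maxHeartbeats 1000000
set_option linter.unusedSectionVars false
set_option linter.unusedVariables false

open ModularCurve AlgebraicCurve

namespace Fermat.Agent.S33

open Fermat.Agent.S34 Fermat.Agent.S36 Fermat.Agent.S18 Fermat.Agent.S24 Fermat.Agent.GalRep

variable (M p : ℕ) [NeZero (M * p)] (hp : p.Prime) (hpM : ¬ p ∣ M)
  (A : ValuationSubring (AlgebraicClosure ℚ))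
  (hgen : PrincipalGeneratedByIntegral A (IsLocalRing.residue A) (M * p))

/-- membership in `O₁'' ⊓ O₂''`, in terms of `T₁`, `T₂`. -/
theorem S33NF_mem_Os' (H : Subgroup (AlgebraicClosure ℚ ≃ₐ[ℚ] AlgebraicClosure ℚ))
    (f : S33NX_F M p H) (hf : f ∈ S33NX_Os M p hp hpM A hgen H) :
    (f : ↥(modularFunctionFieldBar (M * p))) ∈ (S34M_T1 M p A hgen).O ∧
      (f : ↥(modularFunctionFieldBar (M * p))) ∈ (S34M_T2 M p hp hpM A hgen).O :=
  ⟨(S33NX_mem_O_zero M p hp hpM A hgen H f).1 ((S33NX_mem_Os M p hp hpM A hgen H f).1 hf 0),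
    (S33NX_mem_O_one M p hp hpM A hgen H f).1 ((S33NX_mem_Os M p hp hpM A hgen H f).1 hf 1)⟩

/-- **N3-FIN**: the conclusion of `S33NX_rat` makes a normalised Kummer generator trivial, for
every chart constant `c₀` off a finite set of residues. -/
theorem S33NF_rat_triv (hA : A.LiesOverPrime p) :
    ∃ bad : Finset (IsLocalRing.ResidueField A), ∀ c₀ : A, IsLocalRing.residue A c₀ ∉ bad →
    ∀ (ϖ₀ : A), ¬ IsUnit ϖ₀ → ϖ₀ ≠ 0 → ∀ (e₀ : ℕ) (ε : Aˣ),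
    ((p : ℕ) : A) = ϖ₀ ^ ((p - 1) * e₀) * ε →
    ∀ (H : Subgroup (AlgebraicClosure ℚ ≃ₐ[ℚ] AlgebraicClosure ℚ))
      (hϖH : (ϖ₀ : AlgebraicClosure ℚ) ∈ (S36FI_act (M * p) H).fixK)
      (u φ φ' : S33NX_F M p H),
    (u : ↥(modularFunctionFieldBar (M * p))) ∈ S34M_Kp M p hp hpM A hgen p →
    (∃ l ∈ S33NX_Lam M p hp hpM A hgen H,
      φ ^ p * u = 1 + S33NX_const M p H (ϖ₀ : AlgebraicClosure ℚ) hϖH ^ (p * e₀ + 1) * l) →
    (∃ l ∈ S33NX_Lam' M p hp hpM A hgen H (c₀ : AlgebraicClosure ℚ),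
      φ' ^ p * u = 1 + S33NX_const M p H (ϖ₀ : AlgebraicClosure ℚ) hϖH ^ (p * e₀ + 1) * l) →
    (∃ m ∈ S33NX_Os M p hp hpM A hgen H,
      φ - φ' = S33NX_const M p H (ϖ₀ : AlgebraicClosure ℚ) hϖH ^ (e₀ + 1) * (m * φ')) →
    GR_IsTriv (M * p) p (u : ↥(modularFunctionFieldBar (M * p))) := by
  obtain ⟨bad, hbad⟩ := S33NG_hinj_bad M p hp hpM A hgen hA
  refine ⟨bad, fun c₀ hc₀ ϖ₀ hϖ hϖ0 e₀ ε hpe H hϖH u φ φ' hu h1 h2 h3 => ?_⟩
  obtain ⟨l, hl, e1⟩ := h1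
  obtain ⟨l', hl', e2⟩ := h2
  obtain ⟨m, hm, e3⟩ := h3
  obtain ⟨hl1, hl2⟩ := S33NF_mem_Os' M p hp hpM A hgen H l hl.1
  obtain ⟨hl1', hl2'⟩ := S33NF_mem_Os' M p hp hpM A hgen H l' hl'.1
  obtain ⟨hm1, hm2⟩ := S33NF_mem_Os' M p hp hpM A hgen H m hm
  exact hbad c₀ hc₀ ϖ₀ hϖ hϖ0 e₀ ε hpe _ hu (φ : ↥(modularFunctionFieldBar (M * p)))
    (φ' : ↥(modularFunctionFieldBar (M * p)))
    ⟨l, hl1, hl2, hl.2, congrArg Subtype.val e1⟩
    ⟨l', hl1', hl2', hl'.2, congrArg Subtype.val e2⟩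
    ⟨m, hm1, hm2, congrArg Subtype.val e3⟩

end Fermat.Agent.S33
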