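import Fermat.Agent.S33.NewDefs
import Fermat.Agent.S33.NewInjGrid
import Fermat.Agent.S33.NewFinWire
import Fermat.Agent.S34.Asm4
import Fermat.Agent.GalRep.KMKappa

/-!
# TRACK 11 (S33), package GEO-WIRE (helper28): from the rational trivialisations to `GR_IsTriv`

The conclusion of `S33NX_rat` (`S33/NewDefs.lean`) for `(u'', τ'', c')` — trivialisations `φ`,
`φ'` of `u_y = τ''(u'')·u''^c'` of depth `ϖ^(p e₀ + 1)` on the charts `U`, `U'` agreeing to the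
depth `ϖ^(e₀ + 1)`, in the rational function field `F'' = fixF(H)` — implies that
`τ₀(u)·u^{-c}` is a trivial Kummer generator (`c + c' = p·k`, `τ₀` in the inertia group,
`τ''` the restriction of `GR_gal (M p) τ₀` to `F''`, `u` = the image of `u''`, a normalised
Kummer generator of exponent `p`).

* `S33GW_isKum_pow`, `S33GW_pow_mem_Norm`, `S33GW_gal_mem_Norm` : powers and inertia-conjugates of
  (normalised) Kummer generators;
* `S33GW_uy_mem_Kp` : `u_y = τ₀(u)·u^c' ∈ S34M_Kp`;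
* `S33GW_triv_of_uy` : `GR_IsTriv (u_y)` ⇒ `GR_IsTriv (τ₀(u)·(u^c)⁻¹)`;
* `S33GW_main` : GEO-WIRE: `∃ bad : Finset k, ∀ c₀ ∈ A, c̄₀ ∉ bad → …` (on helper25's
  `S33NF_rat_triv`, which is `S33NG_hinj_bad` read in `F''`);
* `S33GW_main'` : the same with `ϖ : F''` a variable, `ϖ = S33NX_const ϖ₀ _`.
-/

set_option autoImplicit false
set_option synthInstance.maxHeartbeats 400000
set_option maxHeartbeats 1000000
set_option linter.unusedSectionVars false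
set_option linter.unusedVariables false
set_option linter.style.haveILetI false

open HahnSeries IntermediateField AlgebraicCurve ModularCurve

noncomputable section

namespace Fermat.Agent.S33

open Fermat.Agent.Lib Fermat.Agent.S18 Fermat.Agent.S24 Fermat.Agent.GalRep Fermat.Agent.S34
  Fermat.Agent.S36

section gen

variable {K F : Type} [Field K] [Field F] [Algebra K F]

/-- `1` is a Kummer generator. -/
theorem S33GW_isKum_one (n : ℕ) : KM_IsKum K F n (1 : F) := by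
  refine ⟨one_ne_zero, fun v => ?_⟩
  have h : v.ord (1 : F) = 0 := by
    have h1 := v.ord_mul (one_ne_zero : (1 : F) ≠ 0) one_ne_zero
    rw [one_mul] at h1
    omega
  rw [h]
  exact dvd_zero _

/-- powers of Kummer generators are Kummer generators. -/
theorem S33GW_isKum_pow {n : ℕ} {f : F} (hf : KM_IsKum K F n f) (m : ℕ) :
    KM_IsKum K F n (f ^ m) := by
  induction m with
  | zero => rw [pow_zero]; exact S33GW_isKum_one n
  | succ m ih => rw [pow_succ]; exact GRF_isKum_mul ih hf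

end gen

section pair

variable {L F k Fk₁ Fk₂ : Type*} [Field L] [Field F] [Algebra L F] [Field k]
  [Field Fk₁] [Field Fk₂] [Algebra k Fk₁] [Algebra k Fk₂]
  {S₁ : S18_Val L F k Fk₁} {S₂ : S18_Val L F k Fk₂}

/-- powers of normalised elements are normalised. -/
theorem S33GW_pow_mem_Norm {u : F} (hu : u ∈ S34K_Norm S₁ S₂) (m : ℕ) :
    u ^ m ∈ S34K_Norm S₁ S₂ := by
  induction m with
  | zero => rw [pow_zero]; exact S34K_one_mem_Norm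
  | succ m ih => rw [pow_succ]; exact S34K_mul_mem_Norm ih hu

end pair

section triv

/-- `GR_IsTriv (v · u^c')` ⇒ `GR_IsTriv (v · (u^c)⁻¹)` if `c + c' = n·k`. -/
theorem S33GW_triv_of_uy (N n : ℕ) (u v : ↥(modularFunctionFieldBar N)) (hu0 : u ≠ 0)
    (c c' k : ℕ) (hcc : c + c' = n * k) (h : GR_IsTriv N n (v * u ^ c')) :
    GR_IsTriv N n (v * (u ^ c)⁻¹) := by
  obtain ⟨a, g, ha, hg, hE⟩ := h
  refine ⟨a, g * (u ^ k)⁻¹, ha, mul_ne_zero hg (inv_ne_zero (pow_ne_zero _ hu0)), ?_⟩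
  have hpow : u ^ c * u ^ c' = (u ^ k) ^ n := by
    rw [← _root_.pow_add, hcc, mul_comm, pow_mul]
  have hc0 : u ^ c ≠ 0 := pow_ne_zero _ hu0
  have hk0 : (u ^ k) ^ n ≠ 0 := pow_ne_zero _ (pow_ne_zero _ hu0)
  have hc' : u ^ c' = (u ^ k) ^ n * (u ^ c)⁻¹ := by
    rw [← hpow, mul_comm (u ^ c), mul_assoc, mul_inv_cancel₀ hc0, mul_one]
  have hv : v * (u ^ c)⁻¹ = (v * u ^ c') * ((u ^ k) ^ n)⁻¹ := by
    rw [hc', mul_comm ((u ^ k) ^ n), ← mul_assoc, mul_assoc (v * (u ^ c)⁻¹),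
      mul_inv_cancel₀ hk0, mul_one]
  rw [hv, hE, mul_pow, inv_pow, mul_assoc]

end triv

section X0

variable (M p : ℕ) [NeZero (M * p)] (hp : p.Prime) (hpM : ¬ p ∣ M)
  (A : ValuationSubring (AlgebraicClosure ℚ))
  (hgen : PrincipalGeneratedByIntegral A (IsLocalRing.residue A) (M * p))

/-- inertia keeps the normalised elements. -/
theorem S33GW_gal_mem_Norm (τ₀ : GQ) (hτ₀ : τ₀ ∈ A.inertiaSubgroupIn ℚ)
    {u : ↥(modularFunctionFieldBar (M * p))}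
    (hu : u ∈ S34K_Norm (S34M_T1 M p A hgen) (S34M_T2 M p hp hpM A hgen)) :
    GR_gal (M * p) τ₀ u ∈ S34K_Norm (S34M_T1 M p A hgen) (S34M_T2 M p hp hpM A hgen) := by
  obtain ⟨hgO₁, hgO₂, -, hr₁, hr₂⟩ := S34M_straightTau M p hp hpM A hgen 1 one_pos τ₀ hτ₀
  obtain ⟨hu1, hu2⟩ := hu
  refine ⟨⟨hgO₁ u hu1.1, hgO₂ u hu1.2⟩, ?_⟩
  have h1 := congrArg Prod.fst hu2
  have h2 := congrArg Prod.snd hu2
  apply Prod.ext
  · rw [S34P_red_fst]
    rw [S34P_red_fst] at h1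
    exact (hr₁ ⟨u, hu1.1⟩).trans h1
  · rw [S34P_red_snd]
    rw [S34P_red_snd] at h2
    exact (hr₂ ⟨u, hu1.2⟩).trans h2

/-- `u_y = τ₀(u)·u^c'` is a normalised Kummer generator. -/
theorem S33GW_uy_mem_Kp (τ₀ : GQ) (hτ₀ : τ₀ ∈ A.inertiaSubgroupIn ℚ) (n : ℕ)
    {u : ↥(modularFunctionFieldBar (M * p))} (hu : u ∈ S34M_Kp M p hp hpM A hgen n) (c' : ℕ) :
    GR_gal (M * p) τ₀ u * u ^ c' ∈ S34M_Kp M p hp hpM A hgen n := by
  haveI : NeZero M := ⟨fun h => NeZero.ne (M * p) (by rw [h, zero_mul])⟩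
  refine ⟨GRF_isKum_mul (KMK_gal (M * p) n τ₀ u hu.1) (S33GW_isKum_pow hu.1 c'), ?_⟩
  exact S34K_mul_mem_Norm (S33GW_gal_mem_Norm M p hp hpM A hgen τ₀ hτ₀ hu.2)
    (S33GW_pow_mem_Norm hu.2 c')

/-- **GEO-WIRE**: the conclusion of `S33NX_rat` for `(u, τ, c')` (`u ∈ F''` with image a
normalised Kummer generator of exponent `p`, `τ` the restriction to `F''` of `GR_gal τ₀`, `τ₀`
in the inertia group of `A`, `c + c' = p·k`, `ϖ = S33NX_const ϖ₀`) implies that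
`τ₀(u)·u^{-c}` is a trivial Kummer generator, for every chart constant `c₀ ∈ A` whose residue
avoids a finite set. -/
theorem S33GW_main (hA : A.LiesOverPrime p) :
    ∃ bad : Finset (IsLocalRing.ResidueField A), ∀ c₀ : A, IsLocalRing.residue A c₀ ∉ bad →
    ∀ (ϖ₀ : A), ¬ IsUnit ϖ₀ → ϖ₀ ≠ 0 → ∀ (e₀ : ℕ) (ε : Aˣ),
    ((p : ℕ) : A) = ϖ₀ ^ ((p - 1) * e₀) * ε →
    ∀ (H : Subgroup (AlgebraicClosure ℚ ≃ₐ[ℚ] AlgebraicClosure ℚ))
      (hϖH : (ϖ₀ : AlgebraicClosure ℚ) ∈ (S36FI_act (M * p) H).fixK)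
      (u : S33NX_F M p H),
    (u : ↥(modularFunctionFieldBar (M * p))) ∈ S34M_Kp M p hp hpM A hgen p →
    ∀ (τ₀ : GQ), τ₀ ∈ A.inertiaSubgroupIn ℚ →
    ∀ (τ : S33NX_F M p H →+* S33NX_F M p H),
      (∀ x : S33NX_F M p H, ((τ x : S33NX_F M p H) : ↥(modularFunctionFieldBar (M * p))) =
        GR_gal (M * p) τ₀ (x : ↥(modularFunctionFieldBar (M * p)))) →
    ∀ (c c' k : ℕ), c + c' = p * k →
    (∃ φ φ' : S33NX_F M p H,
      (∃ l ∈ S33NX_Lam M p hp hpM A hgen H, φ ^ p * (τ u * u ^ c') =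
        1 + S33NX_const M p H (ϖ₀ : AlgebraicClosure ℚ) hϖH ^ (p * e₀ + 1) * l) ∧
      (∃ l ∈ S33NX_Lam' M p hp hpM A hgen H (c₀ : AlgebraicClosure ℚ),
        φ' ^ p * (τ u * u ^ c') =
          1 + S33NX_const M p H (ϖ₀ : AlgebraicClosure ℚ) hϖH ^ (p * e₀ + 1) * l) ∧
      ∃ m ∈ S33NX_Os M p hp hpM A hgen H,
        φ - φ' = S33NX_const M p H (ϖ₀ : AlgebraicClosure ℚ) hϖH ^ (e₀ + 1) * (m * φ')) →
    GR_IsTriv (M * p) p
      (GR_gal (M * p) τ₀ (u : ↥(modularFunctionFieldBar (M * p))) *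
        ((u : ↥(modularFunctionFieldBar (M * p))) ^ c)⁻¹) := by
  obtain ⟨bad, hbad⟩ := S33NF_rat_triv M p hp hpM A hgen hA
  refine ⟨bad, fun c₀ hc₀ ϖ₀ hϖ hϖ0 e₀ ε hpe H hϖH u hu τ₀ hτ₀ τ hτ c c' k hcc hrat => ?_⟩
  obtain ⟨φ, φ', h1, h2, h3⟩ := hrat
  have hcoe : ((τ u * u ^ c' : S33NX_F M p H) : ↥(modularFunctionFieldBar (M * p))) =
      GR_gal (M * p) τ₀ (u : ↥(modularFunctionFieldBar (M * p))) *
        (u : ↥(modularFunctionFieldBar (M * p))) ^ c' := by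
    rw [← hτ u]
    rfl
  have huy : ((τ u * u ^ c' : S33NX_F M p H) : ↥(modularFunctionFieldBar (M * p))) ∈
      S34M_Kp M p hp hpM A hgen p := by
    rw [hcoe]
    exact S33GW_uy_mem_Kp M p hp hpM A hgen τ₀ hτ₀ p hu c'
  have ht := hbad c₀ hc₀ ϖ₀ hϖ hϖ0 e₀ ε hpe H hϖH (τ u * u ^ c') φ φ' huy h1 h2 h3
  rw [hcoe] at ht
  exact S33GW_triv_of_uy (M * p) p _ _ hu.1.1 c c' k hcc ht

/-- **GEO-WIRE**, with `ϖ : F''` a variable: `ϖ = S33NX_const ϖ₀ _`. -/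
theorem S33GW_main' (hA : A.LiesOverPrime p) :
    ∃ bad : Finset (IsLocalRing.ResidueField A), ∀ c₀ : A, IsLocalRing.residue A c₀ ∉ bad →
    ∀ (ϖ₀ : A), ¬ IsUnit ϖ₀ → ϖ₀ ≠ 0 → ∀ (e₀ : ℕ) (ε : Aˣ),
    ((p : ℕ) : A) = ϖ₀ ^ ((p - 1) * e₀) * ε →
    ∀ (H : Subgroup (AlgebraicClosure ℚ ≃ₐ[ℚ] AlgebraicClosure ℚ))
      (hϖH : (ϖ₀ : AlgebraicClosure ℚ) ∈ (S36FI_act (M * p) H).fixK)
      (ϖ : S33NX_F M p H), ϖ = S33NX_const M p H (ϖ₀ : AlgebraicClosure ℚ) hϖH →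
    ∀ (u : S33NX_F M p H),
    (u : ↥(modularFunctionFieldBar (M * p))) ∈ S34M_Kp M p hp hpM A hgen p →
    ∀ (τ₀ : GQ), τ₀ ∈ A.inertiaSubgroupIn ℚ →
    ∀ (τ : S33NX_F M p H →+* S33NX_F M p H),
      (∀ x : S33NX_F M p H, ((τ x : S33NX_F M p H) : ↥(modularFunctionFieldBar (M * p))) =
        GR_gal (M * p) τ₀ (x : ↥(modularFunctionFieldBar (M * p)))) →
    ∀ (c c' k : ℕ), c + c' = p * k →
    (∃ φ φ' : S33NX_F M p H,
      (∃ l ∈ S33NX_Lam M p hp hpM A hgen H, φ ^ p * (τ u * u ^ c') =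
        1 + ϖ ^ (p * e₀ + 1) * l) ∧
      (∃ l ∈ S33NX_Lam' M p hp hpM A hgen H (c₀ : AlgebraicClosure ℚ),
        φ' ^ p * (τ u * u ^ c') = 1 + ϖ ^ (p * e₀ + 1) * l) ∧
      ∃ m ∈ S33NX_Os M p hp hpM A hgen H, φ - φ' = ϖ ^ (e₀ + 1) * (m * φ')) →
    GR_IsTriv (M * p) p
      (GR_gal (M * p) τ₀ (u : ↥(modularFunctionFieldBar (M * p))) *
        ((u : ↥(modularFunctionFieldBar (M * p))) ^ c)⁻¹) := by
  obtain ⟨bad, hbad⟩ := S33GW_main M p hp hpM A hgen hA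
  refine ⟨bad, fun c₀ hc₀ ϖ₀ hϖ hϖ0 e₀ ε hpe H hϖH ϖ hϖeq u hu τ₀ hτ₀ τ hτ c c' k hcc hrat => ?_⟩
  subst hϖeq
  exact hbad c₀ hc₀ ϖ₀ hϖ hϖ0 e₀ ε hpe H hϖH u hu τ₀ hτ₀ τ hτ c c' k hcc hrat

end X0

end Fermat.Agent.S33
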