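import Fermat.Agent.S33.NewLat
import Fermat.Agent.S36.FixLFive
import Fermat.Agent.S36.NormRes3
import Fermat.Agent.S34.RedOneGal
import Fermat.Agent.S34.WqInst

/-!
# TRACK 11 (S33), package N-LA (helper7), part 2: the two Gauss valuations of level `M q` on the
field `F'' = F^H` of `H`-fixed functions — discreteness, SATURATION, `hτO`

Level `N = M q` (`q ∤ M` prime; in TRACK 11 `q = p`), `A ⊂ ℚ̄` over `q`, `H ≤ Gal(ℚ̄/ℚ)`,
`ϖ` a uniformiser of `A ∩ ℚ̄^H` (`S33NL2_Unif`), `V₁` = Gauss valuation (`S18_O A (M q)`),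
`V₂ = V₁ ∘ w_q`, `O = O₁ ∩ O₂ = (S34DF_lat M q hq hqM A).O` (TRACK 7).

* `S33NL2_dv_F`, `S33NL2_dv_V` : `V₁`, `V₂` are discrete on `F''` with uniformiser `ϖ`;
* `S33NL2_sat_F`, `S33NL2_sat_V` (Gauss form), `S33NL2_sat_O1`, `S33NL2_sat_O2` (TRACK 7 form);
* **`S33NL2_sat_lat`** : `f ∈ F'' ∩ O` with `red f = 0` ⇒ `f / ϖ ∈ O`;
* `S33NL2_gal_fix` : `τ f ∈ F''` for `f ∈ F''` if `τ` normalises `H`;
* **`S33NL2_tau`** (`hτO`) : for `τ` in the inertia group normalising `H` and `a ∈ F'' ∩ O`: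
  `(τ a − a) / ϖ ∈ F'' ∩ O`.
-/

set_option autoImplicit false
set_option linter.unusedSectionVars false
set_option linter.unusedVariables false
set_option linter.style.haveILetI false
set_option synthInstance.maxHeartbeats 400000
set_option maxHeartbeats 1000000

open HahnSeries ModularCurve IntermediateField

namespace Fermat.Agent.S33

open Fermat.Agent.S18 Fermat.Agent.S24 Fermat.Agent.S34 Fermat.Agent.S36 Fermat.Agent.GalRep

local notation "Ω" => AlgebraicClosure ℚ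

variable (M q : ℕ) [NeZero M] [NeZero q] (hq : q.Prime) (hqM : ¬ q ∣ M)
  (A : ValuationSubring Ω) (hA : A.LiesOverPrime q)
  (H : Subgroup (Ω ≃ₐ[ℚ] Ω)) {ϖ : Ω}

/-! ### the hypotheses of `S36FI_val` for `emF`, `emV` and any `H` -/

theorem S33NL2_hgen_F (d : ℕ) [NeZero d] (hd : d ∣ M * q) (n : ℤ) :
    (S36V_emF M q (jBar (M * q) d hd)).coeff n ∈ A ∧
      ∀ σ ∈ H, σ ((S36V_emF M q (jBar (M * q) d hd)).coeff n) =
        (S36V_emF M q (jBar (M * q) d hd)).coeff n :=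
  S36FI_hgen_of (M * q) A H (S36V_emF M q) (fun d _ hd => S36FI_emF_int M q A d hd)
    (fun σ _ g => S36FI_emF_eq M q σ g) d hd n

theorem S33NL2_hgen_V (d : ℕ) [NeZero d] (hd : d ∣ M * q) (n : ℤ) :
    (S36V_emV M q hq hqM (jBar (M * q) d hd)).coeff n ∈ A ∧
      ∀ σ ∈ H, σ ((S36V_emV M q hq hqM (jBar (M * q) d hd)).coeff n) =
        (S36V_emV M q hq hqM (jBar (M * q) d hd)).coeff n :=
  S36FI_hgen_of (M * q) A H (S36V_emV M q hq hqM)
    (fun d _ hd => S36FI_emV_int M q hq hqM A d hd)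
    (fun σ _ g => S36FI_emV_eq M q hq hqM σ g) d hd n

/-! ### discreteness -/

include hq hA in
/-- **`V₁` is discrete on `F''`**, uniformiser `ϖ`. -/
theorem S33NL2_dv_F (h : S33NL2_Unif A H ϖ) (f : ↥(modularFunctionFieldBar (M * q)))
    (hf : f ∈ (S36FI_act (M * q) H).fixF) (hf0 : f ≠ 0) :
    ∃ k : ℤ, f * algebraMap Ω ↥(modularFunctionFieldBar (M * q)) (ϖ ^ k) ∈
        S36V_G A (S36V_emF M q) ∧
      (f * algebraMap Ω ↥(modularFunctionFieldBar (M * q)) (ϖ ^ k))⁻¹ ∈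
        S36V_G A (S36V_emF M q) :=
  haveI : Fact q.Prime := ⟨hq⟩
  S33NL2_dv (M * q) A H (S36V_emF M q) hA h (S36FI_emF_const M q)
    (fun d _ hd n => S33NL2_hgen_F M q A H d hd n) f hf hf0

include hq hA in
/-- **`V₂` is discrete on `F''`**, uniformiser `ϖ`. -/
theorem S33NL2_dv_V (h : S33NL2_Unif A H ϖ) (f : ↥(modularFunctionFieldBar (M * q)))
    (hf : f ∈ (S36FI_act (M * q) H).fixF) (hf0 : f ≠ 0) :
    ∃ k : ℤ, f * algebraMap Ω ↥(modularFunctionFieldBar (M * q)) (ϖ ^ k) ∈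
        S36V_G A (S36V_emV M q hq hqM) ∧
      (f * algebraMap Ω ↥(modularFunctionFieldBar (M * q)) (ϖ ^ k))⁻¹ ∈
        S36V_G A (S36V_emV M q hq hqM) :=
  haveI : Fact q.Prime := ⟨hq⟩
  S33NL2_dv (M * q) A H (S36V_emV M q hq hqM) hA h (S36FI_emV_const M q hq hqM)
    (fun d _ hd n => S33NL2_hgen_V M q hq hqM A H d hd n) f hf hf0

/-! ### saturation -/

include hq hA in
theorem S33NL2_sat_F (h : S33NL2_Unif A H ϖ) (f : ↥(modularFunctionFieldBar (M * q)))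
    (hf : f ∈ (S36FI_act (M * q) H).fixF) (hfG : f ∈ S36V_G A (S36V_emF M q))
    (hred : S36V_Gred A (S36V_emF M q) ⟨f, hfG⟩ = 0) :
    f * algebraMap Ω ↥(modularFunctionFieldBar (M * q)) ϖ⁻¹ ∈ S36V_G A (S36V_emF M q) :=
  haveI : Fact q.Prime := ⟨hq⟩
  S33NL2_sat (M * q) A H (S36V_emF M q) hA h (S36FI_emF_const M q)
    (fun d _ hd n => S33NL2_hgen_F M q A H d hd n) f hf hfG hred

include hq hA in
theorem S33NL2_sat_V (h : S33NL2_Unif A H ϖ) (f : ↥(modularFunctionFieldBar (M * q)))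
    (hf : f ∈ (S36FI_act (M * q) H).fixF) (hfG : f ∈ S36V_G A (S36V_emV M q hq hqM))
    (hred : S36V_Gred A (S36V_emV M q hq hqM) ⟨f, hfG⟩ = 0) :
    f * algebraMap Ω ↥(modularFunctionFieldBar (M * q)) ϖ⁻¹ ∈ S36V_G A (S36V_emV M q hq hqM) :=
  haveI : Fact q.Prime := ⟨hq⟩
  S33NL2_sat (M * q) A H (S36V_emV M q hq hqM) hA h (S36FI_emV_const M q hq hqM)
    (fun d _ hd n => S33NL2_hgen_V M q hq hqM A H d hd n) f hf hfG hred

include hq hqM hA in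
/-- **saturation at `V₁`**, TRACK 7 form. -/
theorem S33NL2_sat_O1 (h : S33NL2_Unif A H ϖ) (f : ↥(modularFunctionFieldBar (M * q)))
    (hf : f ∈ (S36FI_act (M * q) H).fixF) (hO : f ∈ S18_O A (M * q))
    (hred : S18_red A (M * q) ⟨f, hO⟩ = 0) :
    f * algebraMap Ω ↥(modularFunctionFieldBar (M * q)) ϖ⁻¹ ∈ S18_O A (M * q) := by
  have hfG : f ∈ S36V_G A (S36V_emF M q) := S36NR_S18_le_G M q A hO
  have hr : S36V_Gred A (S36V_emF M q) ⟨f, hfG⟩ = 0 := by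
    have := S36V_Gred_S18 A (M * q) ⟨f, hO⟩
    rw [hred] at this
    exact this
  exact S36NR_G_le_S18 M q hq hqM A hA (S33NL2_sat_F M q hq A hA H h f hf hfG hr)

/-- `w_q` preserves `F''`. -/
theorem S33NL2_wq_fix (f : ↥(modularFunctionFieldBar (M * q)))
    (hf : f ∈ (S36FI_act (M * q) H).fixF) :
    S34DF_wq M q hq hqM f ∈ (S36FI_act (M * q) H).fixF := by
  rw [S36FI_mem_fixF] at hf ⊢
  intro σ hσ
  have h1 : S34DF_wq M q hq hqM (GR_gal (M * q) σ f) =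
      GR_gal (M * q) σ (S34DF_wq M q hq hqM f) := S34WJ_wq_gal hq hqM σ f
  have h2 : GR_gal (M * q) σ f = f := hf σ hσ
  rw [h2] at h1
  exact h1.symm

include hq hqM hA in
/-- **saturation at `V₂ = V₁ ∘ w_q`**, TRACK 7 form. -/
theorem S33NL2_sat_O2 (h : S33NL2_Unif A H ϖ) (f : ↥(modularFunctionFieldBar (M * q)))
    (hf : f ∈ (S36FI_act (M * q) H).fixF) (hO : S34DF_wq M q hq hqM f ∈ S18_O A (M * q))
    (hred : S18_red A (M * q) ⟨S34DF_wq M q hq hqM f, hO⟩ = 0) :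
    S34DF_wq M q hq hqM (f * algebraMap Ω ↥(modularFunctionFieldBar (M * q)) ϖ⁻¹) ∈
      S18_O A (M * q) := by
  have h1 := S33NL2_sat_O1 M q hq hqM A hA H h _ (S33NL2_wq_fix M q hq hqM H f hf) hO hred
  rw [map_mul, AlgEquiv.commutes]
  exact h1

include hq hqM hA in
/-- **SATURATION of the two-valuation lattice**: `f ∈ F'' ∩ O₁ ∩ O₂` with `red f = (0, 0)`
is divisible by `ϖ`. -/
theorem S33NL2_sat_lat (h : S33NL2_Unif A H ϖ) (f : ↥(modularFunctionFieldBar (M * q)))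
    (hf : f ∈ (S36FI_act (M * q) H).fixF) (hO : f ∈ (S34DF_lat M q hq hqM A).O)
    (hred : (S34DF_lat M q hq hqM A).red ⟨f, hO⟩ = 0) :
    f * algebraMap Ω ↥(modularFunctionFieldBar (M * q)) ϖ⁻¹ ∈ (S34DF_lat M q hq hqM A).O := by
  rw [S34DF_lat_red] at hred
  have h1 : S18_red A (M * q) ⟨f, hO.1⟩ = 0 := congrArg Prod.fst hred
  have h2 : S18_red A (M * q) ⟨S34DF_wq M q hq hqM f, hO.2⟩ = 0 := congrArg Prod.snd hred
  exact (S34DF_mem_lat_O M q hq hqM A).2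
    ⟨S33NL2_sat_O1 M q hq hqM A hA H h f hf hO.1 h1,
      S33NL2_sat_O2 M q hq hqM A hA H h f hf hO.2 h2⟩

/-! ### `hτO` -/

/-- `τ` maps `F''` into itself if it normalises `H`. -/
theorem S33NL2_gal_fix (τ : Ω ≃ₐ[ℚ] Ω) (hnorm : ∀ σ ∈ H, τ⁻¹ * σ * τ ∈ H)
    (f : ↥(modularFunctionFieldBar (M * q))) (hf : f ∈ (S36FI_act (M * q) H).fixF) :
    GR_gal (M * q) τ f ∈ (S36FI_act (M * q) H).fixF := by
  rw [S36FI_mem_fixF_iff_coeff] at hf ⊢
  intro k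
  have hk := hf k
  rw [S36FI_mem_fixK] at hk ⊢
  intro σ hσ
  have e : ((GR_gal (M * q) τ f : ↥(modularFunctionFieldBar (M * q))) :
      LaurentSeries Ω).coeff k = τ ((f : LaurentSeries Ω).coeff k) := by
    show (coeffMap _ _).coeff k = _
    rw [coeffMap_coeff]
    rfl
  rw [e]
  have h1 := hk _ (hnorm σ hσ)
  have h2 : (τ⁻¹ * σ * τ) ((f : LaurentSeries Ω).coeff k) =
      τ⁻¹ (σ (τ ((f : LaurentSeries Ω).coeff k))) := rfl
  rw [h2] at h1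
  have h3 := congrArg τ h1
  have h4 : τ (τ⁻¹ (σ (τ ((f : LaurentSeries Ω).coeff k)))) =
      σ (τ ((f : LaurentSeries Ω).coeff k)) := by
    show (τ * τ⁻¹) _ = _
    rw [mul_inv_cancel]
    rfl
  rw [h4] at h3
  exact h3

include hq hqM hA in
/-- **`hτO`**: the inertia group acts trivially on `(F'' ∩ O) / ϖ (F'' ∩ O)`. -/
theorem S33NL2_tau (h : S33NL2_Unif A H ϖ) (τ : Ω ≃ₐ[ℚ] Ω) (hτ : τ ∈ A.inertiaSubgroupIn ℚ)
    (hnorm : ∀ σ ∈ H, τ⁻¹ * σ * τ ∈ H)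
    (a : ↥(modularFunctionFieldBar (M * q))) (ha : a ∈ (S36FI_act (M * q) H).fixF)
    (hO : a ∈ (S34DF_lat M q hq hqM A).O) :
    (GR_gal (M * q) τ a - a) * algebraMap Ω ↥(modularFunctionFieldBar (M * q)) ϖ⁻¹ ∈
        (S36FI_act (M * q) H).fixF ∧
      (GR_gal (M * q) τ a - a) * algebraMap Ω ↥(modularFunctionFieldBar (M * q)) ϖ⁻¹ ∈
        (S34DF_lat M q hq hqM A).O := by
  haveI : NeZero (M * q) := ⟨Nat.mul_ne_zero (NeZero.ne M) (NeZero.ne q)⟩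
  have hτa := S33NL2_gal_fix M q H τ hnorm a ha
  have hdfix : GR_gal (M * q) τ a - a ∈ (S36FI_act (M * q) H).fixF :=
    sub_mem hτa ha
  have hϖfix : algebraMap Ω ↥(modularFunctionFieldBar (M * q)) ϖ⁻¹ ∈
      (S36FI_act (M * q) H).fixF := by
    apply (S36FI_act (M * q) H).algebraMap_mem_fixF
    rw [S36FI_mem_fixK]
    intro σ hσ
    rw [map_inv₀, h.fixed σ hσ]
  obtain ⟨h1O, h1r⟩ := S34R_inertia_O (M * q) A τ hτ a hO.1
  have hw : S34DF_wq M q hq hqM (GR_gal (M * q) τ a) =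
      GR_gal (M * q) τ (S34DF_wq M q hq hqM a) := S34WJ_wq_gal hq hqM τ a
  obtain ⟨h2O, h2r⟩ := S34R_inertia_O (M * q) A τ hτ (S34DF_wq M q hq hqM a) hO.2
  have hτO1 : GR_gal (M * q) τ a ∈ S18_O A (M * q) := h1O
  have hτO2 : S34DF_wq M q hq hqM (GR_gal (M * q) τ a) ∈ S18_O A (M * q) := by
    rw [hw]; exact h2O
  have hdO : GR_gal (M * q) τ a - a ∈ (S34DF_lat M q hq hqM A).O :=
    (S34DF_mem_lat_O M q hq hqM A).2 ⟨sub_mem hτO1 hO.1, by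
      rw [map_sub]; exact sub_mem hτO2 hO.2⟩
  refine ⟨mul_mem hdfix hϖfix, S33NL2_sat_lat M q hq hqM A hA H h _ hdfix hdO ?_⟩
  have e : (⟨GR_gal (M * q) τ a - a, hdO⟩ : (S34DF_lat M q hq hqM A).O) =
      ⟨GR_gal (M * q) τ a, (S34DF_mem_lat_O M q hq hqM A).2 ⟨hτO1, hτO2⟩⟩ - ⟨a, hO⟩ := rfl
  rw [e, map_sub, sub_eq_zero, S34DF_lat_red, S34DF_lat_red]
  refine Prod.ext h1r ?_
  show S18_red A (M * q) ⟨S34DF_wq M q hq hqM (GR_gal (M * q) τ a), hτO2⟩ = _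
  have e2 : (⟨S34DF_wq M q hq hqM (GR_gal (M * q) τ a), hτO2⟩ : S18_O A (M * q)) =
      ⟨GR_gal (M * q) τ (S34DF_wq M q hq hqM a), h2O⟩ := Subtype.ext hw
  rw [e2]
  exact h2r

end Fermat.Agent.S33
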