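import Fermat.Agent.S33.NewDefs
import Fermat.Agent.S33.NewLatInst

/-!
# TRACK 11 (S33), package N-LA part 3 (helper7): the targets `S33NX_TSat`, `S33NX_TSat'` and the
parts 2–4 of `S33NX_TTau` on the concrete rational objects of `S33/NewDefs.lean`

Level `M * p`, `A ∣ p`, `H` any subgroup of `Gal(ℚ̄/ℚ)`, `F'' = S33NX_F M p H = fixF(H)`.

* `S33NL2_mem_Os_iff` : `f ∈ S33NX_Os ↔ (f : F) ∈ (S34DF_lat M p hp hpM A).O` (TRACK 7's lattice).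
* `S33NL2_const_ne_zero`, `S33NL2_const_inv_coe` : constants of `F''`.
* `S33NL2_TSat_gen`, `S33NL2_TSat'_gen` : saturation of `Λ''_U`, `Λ''_U'` for every `ϖ ≠ 0` of `F''`
  whose inverse is regular on the chart;
  **`S33NL2_TSat`**, **`S33NL2_TSat'`** : `S33NX_TSat … (S33NX_const ϖ₀ _)`,
  `S33NX_TSat' … (S33NX_const ϖ₀ _) c₀` for every constant `ϖ₀ ≠ 0` of `fixK(H)` and EVERY `c₀`.
* `S33NL2_gal_regT` : the arithmetic Galois action keeps `S34IX_reg T` for a Galois-stable set of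
  places `T`; `S33NL2_gal_B`, `S33NL2_gal_B'` : the charts `S33NX_B`, `S33NX_B' c₀` (`σ c₀ = c₀`).
* **`S33NL2_TTau_Os`**, **`S33NL2_TTau_Lam`**, **`S33NL2_TTau_Lam'`** : the parts 2, 3, 4 of
  `S33NX_TTau` for `ϖ = S33NX_const ϖ₀ _` (`S33NL2_Unif A H ϖ₀`), `τ₀` in the inertia group of `A`
  and ANY ring hom `τ : F'' →+* F''` with `(τ f : F) = GR_gal (M * p) τ₀ f` (helper21's TAU);
  part 4 needs `τ₀ c₀ = c₀`.
* `S33NL2_TTau` : `S33NX_TTau` from its part 1 and the above.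
-/

set_option autoImplicit false
set_option synthInstance.maxHeartbeats 400000
set_option maxHeartbeats 1000000
set_option linter.unusedSectionVars false
set_option linter.unusedVariables false
set_option linter.style.haveILetI false

open HahnSeries ModularCurve IntermediateField AlgebraicCurve

noncomputable section

namespace Fermat.Agent.S33

open Fermat.Agent.S18 Fermat.Agent.S24 Fermat.Agent.S34 Fermat.Agent.S36 Fermat.Agent.GalRep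

local notation "Ω" => AlgebraicClosure ℚ

section sat

variable (M p : ℕ) [NeZero (M * p)] (hp : p.Prime) (hpM : ¬ p ∣ M)
  (A : ValuationSubring Ω)
  (hgen : PrincipalGeneratedByIntegral A (IsLocalRing.residue A) (M * p))
  (H : Subgroup (Ω ≃ₐ[ℚ] Ω))

/-- `O₁'' ⊓ O₂''` is the trace of TRACK 7's two-valuation lattice. -/
theorem S33NL2_mem_Os_iff (f : S33NX_F M p H) :
    f ∈ S33NX_Os M p hp hpM A hgen H ↔
      (f : ↥(modularFunctionFieldBar (M * p))) ∈ (S34DF_lat M p hp hpM A).O := by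
  rw [S34DF_mem_lat_O]
  constructor
  · intro h
    exact ⟨(S33NX_mem_O_zero M p hp hpM A hgen H f).1 h.1,
      (S33NX_mem_O_one M p hp hpM A hgen H f).1 h.2⟩
  · intro h
    exact ⟨(S33NX_mem_O_zero M p hp hpM A hgen H f).2 h.1,
      (S33NX_mem_O_one M p hp hpM A hgen H f).2 h.2⟩

theorem S33NL2_const_coe (c : Ω) (hc : c ∈ (S36FI_act (M * p) H).fixK) :
    ((S33NX_const M p H c hc : S33NX_F M p H) : ↥(modularFunctionFieldBar (M * p))) =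
      algebraMap Ω ↥(modularFunctionFieldBar (M * p)) c := rfl

theorem S33NL2_const_ne_zero (c : Ω) (hc : c ∈ (S36FI_act (M * p) H).fixK) (h0 : c ≠ 0) :
    S33NX_const M p H c hc ≠ 0 := by
  intro h
  have h1 := congrArg (fun x : S33NX_F M p H => (x : ↥(modularFunctionFieldBar (M * p)))) h
  simp only [S33NL2_const_coe] at h1
  have h2 : algebraMap Ω ↥(modularFunctionFieldBar (M * p)) c = 0 := h1
  rw [map_eq_zero] at h2
  exact h0 h2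

/-- saturation of `Λ''_U`, general uniformiser. -/
theorem S33NL2_TSat_gen (ϖ : S33NX_F M p H) (hϖ : ϖ ≠ 0)
    (hinv : ((ϖ : ↥(modularFunctionFieldBar (M * p))))⁻¹ ∈ S33NX_B M p) :
    S33NX_TSat M p hp hpM A hgen H ϖ := by
  intro w hw hdiv
  obtain ⟨t0, ht0, e0⟩ := hdiv 0
  obtain ⟨t1, ht1, e1⟩ := hdiv 1
  have e01 : t0 = t1 := by
    have : ϖ ^ 1 * t0 = ϖ ^ 1 * t1 := e0.symm.trans e1
    exact mul_left_cancel₀ (pow_ne_zero 1 hϖ) this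
  refine ⟨t0, ⟨⟨ht0, e01 ▸ ht1⟩, ?_⟩, e0⟩
  show (t0 : ↥(modularFunctionFieldBar (M * p))) ∈ S33NX_B M p
  have ht : t0 = w * ϖ⁻¹ := by
    rw [e0, pow_one, mul_comm ϖ t0, mul_assoc, mul_inv_cancel₀ hϖ, mul_one]
  have hc : (t0 : ↥(modularFunctionFieldBar (M * p))) =
      (w : ↥(modularFunctionFieldBar (M * p))) *
        ((ϖ : ↥(modularFunctionFieldBar (M * p))))⁻¹ := by
    rw [ht]; rfl
  rw [hc]
  exact mul_mem hw.2 hinv

/-- saturation of `Λ''_U'`, general uniformiser. -/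
theorem S33NL2_TSat'_gen (ϖ : S33NX_F M p H) (hϖ : ϖ ≠ 0) (c₀ : Ω)
    (hinv : ((ϖ : ↥(modularFunctionFieldBar (M * p))))⁻¹ ∈ S33NX_B' M p c₀) :
    S33NX_TSat' M p hp hpM A hgen H ϖ c₀ := by
  intro w hw hdiv
  obtain ⟨t0, ht0, e0⟩ := hdiv 0
  obtain ⟨t1, ht1, e1⟩ := hdiv 1
  have e01 : t0 = t1 := by
    have : ϖ ^ 1 * t0 = ϖ ^ 1 * t1 := e0.symm.trans e1
    exact mul_left_cancel₀ (pow_ne_zero 1 hϖ) this
  refine ⟨t0, ⟨⟨ht0, e01 ▸ ht1⟩, ?_⟩, e0⟩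
  show (t0 : ↥(modularFunctionFieldBar (M * p))) ∈ S33NX_B' M p c₀
  have ht : t0 = w * ϖ⁻¹ := by
    rw [e0, pow_one, mul_comm ϖ t0, mul_assoc, mul_inv_cancel₀ hϖ, mul_one]
  have hc : (t0 : ↥(modularFunctionFieldBar (M * p))) =
      (w : ↥(modularFunctionFieldBar (M * p))) *
        ((ϖ : ↥(modularFunctionFieldBar (M * p))))⁻¹ := by
    rw [ht]; rfl
  rw [hc]
  exact mul_mem hw.2 hinv

/-- the inverse of a constant lies in every `ℚ̄`-subalgebra. -/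
theorem S33NL2_const_inv_mem (c : Ω) (hc : c ∈ (S36FI_act (M * p) H).fixK)
    (B : Subalgebra Ω ↥(modularFunctionFieldBar (M * p))) :
    ((S33NX_const M p H c hc : S33NX_F M p H) : ↥(modularFunctionFieldBar (M * p)))⁻¹ ∈ B := by
  rw [S33NL2_const_coe, ← map_inv₀]
  exact B.algebraMap_mem _

/-- **(N-LA, saturation) on `U`**: the target `S33NX_TSat` for a constant uniformiser. -/
theorem S33NL2_TSat (ϖ₀ : Ω) (hϖ₀ : ϖ₀ ∈ (S36FI_act (M * p) H).fixK) (h0 : ϖ₀ ≠ 0) :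
    S33NX_TSat M p hp hpM A hgen H (S33NX_const M p H ϖ₀ hϖ₀) :=
  S33NL2_TSat_gen M p hp hpM A hgen H _ (S33NL2_const_ne_zero M p H ϖ₀ hϖ₀ h0)
    (S33NL2_const_inv_mem M p H ϖ₀ hϖ₀ _)

/-- **(N-LA, saturation) on `U'`**: the target `S33NX_TSat'` for a constant uniformiser and every
`c₀`. -/
theorem S33NL2_TSat' (ϖ₀ : Ω) (hϖ₀ : ϖ₀ ∈ (S36FI_act (M * p) H).fixK) (h0 : ϖ₀ ≠ 0) (c₀ : Ω) :
    S33NX_TSat' M p hp hpM A hgen H (S33NX_const M p H ϖ₀ hϖ₀) c₀ :=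
  S33NL2_TSat'_gen M p hp hpM A hgen H _ (S33NL2_const_ne_zero M p H ϖ₀ hϖ₀ h0) c₀
    (S33NL2_const_inv_mem M p H ϖ₀ hϖ₀ _)

end sat

/-! ### the Galois action on the charts -/

section galreg

variable (N : ℕ) [NeZero N]

/-- the arithmetic Galois action keeps the functions regular on a Galois-stable set of places. -/
theorem S33NL2_gal_regT (σ : Ω ≃ₐ[ℚ] Ω) (T : Set (Place Ω ↥(modularFunctionFieldBar N)))
    (hT : ∀ Q ∈ T, (arithmeticGalois (modularFunctionFieldFull N) σ)⁻¹ • Q ∈ T)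
    (f : ↥(modularFunctionFieldBar N)) (hf : f ∈ S34IX_reg T) :
    GR_gal N σ f ∈ S34IX_reg T := by
  intro Q hQ
  set g : SemilinearAut Ω ↥(modularFunctionFieldBar N) :=
    arithmeticGalois (modularFunctionFieldFull N) σ with hg
  have hQv : g • (g⁻¹ • Q) = Q := by rw [smul_smul, mul_inv_cancel, one_smul]
  have hfv : f ∈ (g⁻¹ • Q).toValuationSubring := hf _ (hT Q hQ)
  have h2 : g • f ∈ (g • (g⁻¹ • Q)).toValuationSubring := by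
    rw [SemilinearAut.smul_toValuationSubring]
    exact ValuationSubring.smul_mem_pointwise_smul g f _ hfv
  rw [hQv] at h2
  exact h2

/-- `ord` at the translated place. -/
theorem S33NL2_ord_inv_smul (σ : Ω ≃ₐ[ℚ] Ω) (Q : Place Ω ↥(modularFunctionFieldBar N))
    (x : ↥(modularFunctionFieldBar N)) (hx : GR_gal N σ x = x) :
    ((arithmeticGalois (modularFunctionFieldFull N) σ)⁻¹ • Q).ord x = Q.ord x := by
  set g : SemilinearAut Ω ↥(modularFunctionFieldBar N) :=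
    arithmeticGalois (modularFunctionFieldFull N) σ with hg
  have hQv : g • (g⁻¹ • Q) = Q := by rw [smul_smul, mul_inv_cancel, one_smul]
  have hgx : g • x = x := hx
  have h := SemilinearAut.ord_smul g (g⁻¹ • Q) x
  rw [hQv, hgx] at h
  exact h.symm

/-- the chart `U` of a Galois-fixed coordinate is Galois-stable. -/
theorem S33NL2_gal_TU (σ : Ω ≃ₐ[ℚ] Ω) (x : ↥(modularFunctionFieldBar N))
    (hx : GR_gal N σ x = x) (f : ↥(modularFunctionFieldBar N))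
    (hf : f ∈ S34IX_reg (S34IX_TU (K := Ω) x)) :
    GR_gal N σ f ∈ S34IX_reg (S34IX_TU (K := Ω) x) := by
  refine S33NL2_gal_regT N σ _ (fun Q hQ => ?_) f hf
  have h1 : 0 ≤ ((arithmeticGalois (modularFunctionFieldFull N) σ)⁻¹ • Q).ord x := by
    rw [S33NL2_ord_inv_smul N σ Q x hx]
    exact hQ
  exact h1

/-- the chart `U'` of a Galois-fixed coordinate and a Galois-fixed constant is Galois-stable. -/
theorem S33NL2_gal_TU' (σ : Ω ≃ₐ[ℚ] Ω) (x : ↥(modularFunctionFieldBar N))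
    (hx : GR_gal N σ x = x) (c₀ : Ω) (hc₀ : σ c₀ = c₀) (f : ↥(modularFunctionFieldBar N))
    (hf : f ∈ S34IX_reg (S34IX_TU' x c₀)) :
    GR_gal N σ f ∈ S34IX_reg (S34IX_TU' x c₀) := by
  have hxc : GR_gal N σ (x - algebraMap Ω ↥(modularFunctionFieldBar N) c₀) =
      x - algebraMap Ω ↥(modularFunctionFieldBar N) c₀ := by
    rw [map_sub, hx]
    congr 1
    show arithmeticRingAut (modularFunctionFieldFull N) σ (algebraMap Ω _ c₀) = _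
    rw [arithmeticRingAut_algebraMap, hc₀]
  refine S33NL2_gal_regT N σ _ (fun Q hQ => ?_) f hf
  have h1 : ((arithmeticGalois (modularFunctionFieldFull N) σ)⁻¹ • Q).ord
      (x - algebraMap Ω ↥(modularFunctionFieldBar N) c₀) ≤ 0 := by
    rw [S33NL2_ord_inv_smul N σ Q _ hxc]
    exact hQ
  exact h1

theorem S33NL2_gal_jB (σ : Ω ≃ₐ[ℚ] Ω) : GR_gal N σ (jB N) = jB N :=
  S34WJ_arith_jBar N σ 1 (one_dvd N)

end galreg

section galB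

variable (M p : ℕ) [NeZero (M * p)]

/-- the Galois action keeps the chart ring `B` of `U`. -/
theorem S33NL2_gal_B (σ : Ω ≃ₐ[ℚ] Ω) (f : ↥(modularFunctionFieldBar (M * p)))
    (hf : f ∈ S33NX_B M p) : GR_gal (M * p) σ f ∈ S33NX_B M p :=
  S33NL2_gal_TU (M * p) σ (jB (M * p)) (S33NL2_gal_jB (M * p) σ) f hf

/-- the Galois action keeps the chart ring `B'` of `U'` if it fixes `c₀`. -/
theorem S33NL2_gal_B' (σ : Ω ≃ₐ[ℚ] Ω) (c₀ : Ω) (hc₀ : σ c₀ = c₀)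
    (f : ↥(modularFunctionFieldBar (M * p))) (hf : f ∈ S33NX_B' M p c₀) :
    GR_gal (M * p) σ f ∈ S33NX_B' M p c₀ :=
  S33NL2_gal_TU' (M * p) σ (jB (M * p)) (S33NL2_gal_jB (M * p) σ) c₀ hc₀ f hf

end galB

/-! ### `hτO` without the normality hypothesis -/

section tau'

variable (M q : ℕ) [NeZero M] [NeZero q] (hq : q.Prime) (hqM : ¬ q ∣ M)
  (A : ValuationSubring Ω) (hA : A.LiesOverPrime q)
  (H : Subgroup (Ω ≃ₐ[ℚ] Ω)) {ϖ : Ω}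

include hq hqM hA in
/-- **`hτO`**: for `τ` in the inertia group and `a ∈ F'' ∩ O` with `τ a ∈ F''`:
`(τ a − a)/ϖ ∈ O`. -/
theorem S33NL2_tau' (h : S33NL2_Unif A H ϖ) (τ : Ω ≃ₐ[ℚ] Ω) (hτ : τ ∈ A.inertiaSubgroupIn ℚ)
    (a : ↥(modularFunctionFieldBar (M * q))) (ha : a ∈ (S36FI_act (M * q) H).fixF)
    (hτa : GR_gal (M * q) τ a ∈ (S36FI_act (M * q) H).fixF)
    (hO : a ∈ (S34DF_lat M q hq hqM A).O) :
    (GR_gal (M * q) τ a - a) * algebraMap Ω ↥(modularFunctionFieldBar (M * q)) ϖ⁻¹ ∈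
        (S34DF_lat M q hq hqM A).O := by
  haveI : NeZero (M * q) := ⟨Nat.mul_ne_zero (NeZero.ne M) (NeZero.ne q)⟩
  have hdfix : GR_gal (M * q) τ a - a ∈ (S36FI_act (M * q) H).fixF :=
    sub_mem hτa ha
  obtain ⟨h1O, h1r⟩ := S34R_inertia_O (M * q) A τ hτ a hO.1
  have hw : S34DF_wq M q hq hqM (GR_gal (M * q) τ a) =
      GR_gal (M * q) τ (S34DF_wq M q hq hqM a) := S34WJ_wq_gal hq hqM τ a
  obtain ⟨h2O, h2r⟩ := S34R_inertia_O (M * q) A τ hτ (S34DF_wq M q hq hqM a) hO.2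
  have hτO1 : GR_gal (M * q) τ a ∈ S18_O A (M * q) := h1O
  have hτO2 : S34DF_wq M q hq hqM (GR_gal (M * q) τ a) ∈ S18_O A (M * q) := by
    rw [hw]; exact h2O
  have hdO : GR_gal (M * q) τ a - a ∈ (S34DF_lat M q hq hqM A).O :=
    (S34DF_mem_lat_O M q hq hqM A).2 ⟨sub_mem hτO1 hO.1, by
      rw [map_sub]; exact sub_mem hτO2 hO.2⟩
  refine S33NL2_sat_lat M q hq hqM A hA H h _ hdfix hdO ?_
  have e : (⟨GR_gal (M * q) τ a - a, hdO⟩ : (S34DF_lat M q hq hqM A).O) =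
      ⟨GR_gal (M * q) τ a, (S34DF_mem_lat_O M q hq hqM A).2 ⟨hτO1, hτO2⟩⟩ - ⟨a, hO⟩ := rfl
  rw [e, map_sub, sub_eq_zero, S34DF_lat_red, S34DF_lat_red]
  refine Prod.ext h1r ?_
  show S18_red A (M * q) ⟨S34DF_wq M q hq hqM (GR_gal (M * q) τ a), hτO2⟩ = _
  have e2 : (⟨S34DF_wq M q hq hqM (GR_gal (M * q) τ a), hτO2⟩ : S18_O A (M * q)) =
      ⟨GR_gal (M * q) τ (S34DF_wq M q hq hqM a), h2O⟩ := Subtype.ext hw
  rw [e2]
  exact h2r

end tau'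

/-! ### the parts 2–4 of `S33NX_TTau` -/

section ttau

variable (M p : ℕ) [NeZero (M * p)] (hp : p.Prime) (hpM : ¬ p ∣ M)
  (A : ValuationSubring Ω)
  (hgen : PrincipalGeneratedByIntegral A (IsLocalRing.residue A) (M * p))
  (H : Subgroup (Ω ≃ₐ[ℚ] Ω))

/-- **the general form**: `τ` is trivial modulo `ϖ` on `Os ⊓ B` for every `ℚ̄`-subalgebra `B` of
`F` that is stable under `τ₀`. -/
theorem S33NL2_TTau_X (hA : A.LiesOverPrime p) {ϖ₀ : Ω} (h : S33NL2_Unif A H ϖ₀)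
    (hϖ₀ : ϖ₀ ∈ (S36FI_act (M * p) H).fixK)
    (τ₀ : Ω ≃ₐ[ℚ] Ω) (hτ₀ : τ₀ ∈ A.inertiaSubgroupIn ℚ)
    (τ : S33NX_F M p H →+* S33NX_F M p H)
    (hτ : ∀ f : S33NX_F M p H, ((τ f : S33NX_F M p H) : ↥(modularFunctionFieldBar (M * p))) =
      GR_gal (M * p) τ₀ (f : ↥(modularFunctionFieldBar (M * p))))
    (B : Subalgebra Ω ↥(modularFunctionFieldBar (M * p)))
    (hB : ∀ f ∈ B, GR_gal (M * p) τ₀ f ∈ B) :
    ∀ a ∈ S33NX_Os M p hp hpM A hgen H ⊓ B.toSubring.comap (S33NX_incl M p H),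
      ∃ l ∈ S33NX_Os M p hp hpM A hgen H ⊓ B.toSubring.comap (S33NX_incl M p H),
        τ a - a = S33NX_const M p H ϖ₀ hϖ₀ * l := by
  haveI : NeZero M := ⟨fun h0 => NeZero.ne (M * p) (by rw [h0, zero_mul])⟩
  haveI : NeZero p := ⟨hp.ne_zero⟩
  intro a ha
  have haO : (a : ↥(modularFunctionFieldBar (M * p))) ∈ (S34DF_lat M p hp hpM A).O :=
    (S33NL2_mem_Os_iff M p hp hpM A hgen H a).1 ha.1
  have haB : (a : ↥(modularFunctionFieldBar (M * p))) ∈ B := ha.2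
  have hτa : GR_gal (M * p) τ₀ (a : ↥(modularFunctionFieldBar (M * p))) ∈
      (S36FI_act (M * p) H).fixF := by
    rw [← hτ a]; exact (τ a).2
  have h2 := S33NL2_tau' M p hp hpM A hA H h τ₀ hτ₀ (a : ↥(modularFunctionFieldBar (M * p)))
    a.2 hτa haO
  have hc0 : S33NX_const M p H ϖ₀ hϖ₀ ≠ 0 := S33NL2_const_ne_zero M p H ϖ₀ hϖ₀ h.ne_zero
  have hl : (((τ a - a) * (S33NX_const M p H ϖ₀ hϖ₀)⁻¹ : S33NX_F M p H) :
      ↥(modularFunctionFieldBar (M * p))) =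
      (GR_gal (M * p) τ₀ (a : ↥(modularFunctionFieldBar (M * p))) - a) *
        algebraMap Ω ↥(modularFunctionFieldBar (M * p)) ϖ₀⁻¹ := by
    rw [map_inv₀, ← hτ a]
    rfl
  refine ⟨(τ a - a) * (S33NX_const M p H ϖ₀ hϖ₀)⁻¹,
    ⟨(S33NL2_mem_Os_iff M p hp hpM A hgen H _).2 ?_, ?_⟩, ?_⟩
  · rw [hl]
    exact h2
  · show (((τ a - a) * (S33NX_const M p H ϖ₀ hϖ₀)⁻¹ : S33NX_F M p H) :
      ↥(modularFunctionFieldBar (M * p))) ∈ B
    rw [hl]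
    exact mul_mem (sub_mem (hB _ haB) haB) (B.algebraMap_mem _)
  · rw [mul_comm (τ a - a), ← mul_assoc, mul_inv_cancel₀ hc0, one_mul]

/-- **part 2 of `S33NX_TTau`**: `τ a − a ∈ ϖ·Os` for `a ∈ Os = O₁'' ⊓ O₂''`. -/
theorem S33NL2_TTau_Os (hA : A.LiesOverPrime p) {ϖ₀ : Ω} (h : S33NL2_Unif A H ϖ₀)
    (hϖ₀ : ϖ₀ ∈ (S36FI_act (M * p) H).fixK)
    (τ₀ : Ω ≃ₐ[ℚ] Ω) (hτ₀ : τ₀ ∈ A.inertiaSubgroupIn ℚ)
    (τ : S33NX_F M p H →+* S33NX_F M p H)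
    (hτ : ∀ f : S33NX_F M p H, ((τ f : S33NX_F M p H) : ↥(modularFunctionFieldBar (M * p))) =
      GR_gal (M * p) τ₀ (f : ↥(modularFunctionFieldBar (M * p)))) :
    ∀ a ∈ S33NX_Os M p hp hpM A hgen H, ∃ l ∈ S33NX_Os M p hp hpM A hgen H,
      τ a - a = S33NX_const M p H ϖ₀ hϖ₀ * l := by
  intro a ha
  obtain ⟨l, hl, e⟩ := S33NL2_TTau_X M p hp hpM A hgen H hA h hϖ₀ τ₀ hτ₀ τ hτ
    (⊤ : Subalgebra Ω ↥(modularFunctionFieldBar (M * p)))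
    (fun _ _ => Algebra.mem_top) a ⟨ha, (Algebra.mem_top :
      (a : ↥(modularFunctionFieldBar (M * p))) ∈
        (⊤ : Subalgebra Ω ↥(modularFunctionFieldBar (M * p))))⟩
  exact ⟨l, hl.1, e⟩

/-- **part 3 of `S33NX_TTau`**: `τ a − a ∈ ϖ·Λ''_U` for `a ∈ Λ''_U`. -/
theorem S33NL2_TTau_Lam (hA : A.LiesOverPrime p) {ϖ₀ : Ω} (h : S33NL2_Unif A H ϖ₀)
    (hϖ₀ : ϖ₀ ∈ (S36FI_act (M * p) H).fixK)
    (τ₀ : Ω ≃ₐ[ℚ] Ω) (hτ₀ : τ₀ ∈ A.inertiaSubgroupIn ℚ)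
    (τ : S33NX_F M p H →+* S33NX_F M p H)
    (hτ : ∀ f : S33NX_F M p H, ((τ f : S33NX_F M p H) : ↥(modularFunctionFieldBar (M * p))) =
      GR_gal (M * p) τ₀ (f : ↥(modularFunctionFieldBar (M * p)))) :
    ∀ a ∈ S33NX_Lam M p hp hpM A hgen H, ∃ l ∈ S33NX_Lam M p hp hpM A hgen H,
      τ a - a = S33NX_const M p H ϖ₀ hϖ₀ * l :=
  S33NL2_TTau_X M p hp hpM A hgen H hA h hϖ₀ τ₀ hτ₀ τ hτ (S33NX_B M p)
    (fun f hf => S33NL2_gal_B M p τ₀ f hf)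

/-- **part 4 of `S33NX_TTau`**: `τ a − a ∈ ϖ·Λ''_U'` for `a ∈ Λ''_U'`, for EVERY `c₀` fixed by
`τ₀`. -/
theorem S33NL2_TTau_Lam' (hA : A.LiesOverPrime p) {ϖ₀ : Ω} (h : S33NL2_Unif A H ϖ₀)
    (hϖ₀ : ϖ₀ ∈ (S36FI_act (M * p) H).fixK)
    (τ₀ : Ω ≃ₐ[ℚ] Ω) (hτ₀ : τ₀ ∈ A.inertiaSubgroupIn ℚ)
    (τ : S33NX_F M p H →+* S33NX_F M p H)
    (hτ : ∀ f : S33NX_F M p H, ((τ f : S33NX_F M p H) : ↥(modularFunctionFieldBar (M * p))) =
      GR_gal (M * p) τ₀ (f : ↥(modularFunctionFieldBar (M * p))))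
    (c₀ : Ω) (hc₀ : τ₀ c₀ = c₀) :
    ∀ a ∈ S33NX_Lam' M p hp hpM A hgen H c₀, ∃ l ∈ S33NX_Lam' M p hp hpM A hgen H c₀,
      τ a - a = S33NX_const M p H ϖ₀ hϖ₀ * l :=
  S33NL2_TTau_X M p hp hpM A hgen H hA h hϖ₀ τ₀ hτ₀ τ hτ (S33NX_B' M p c₀)
    (fun f hf => S33NL2_gal_B' M p τ₀ c₀ hc₀ f hf)

/-- **`S33NX_TTau`** from its part 1 (`hτlam`, helper21's TAU). -/
theorem S33NL2_TTau (hA : A.LiesOverPrime p) {ϖ₀ : Ω} (h : S33NL2_Unif A H ϖ₀)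
    (hϖ₀ : ϖ₀ ∈ (S36FI_act (M * p) H).fixK)
    (τ₀ : Ω ≃ₐ[ℚ] Ω) (hτ₀ : τ₀ ∈ A.inertiaSubgroupIn ℚ)
    (τ : S33NX_F M p H →+* S33NX_F M p H)
    (hτ : ∀ f : S33NX_F M p H, ((τ f : S33NX_F M p H) : ↥(modularFunctionFieldBar (M * p))) =
      GR_gal (M * p) τ₀ (f : ↥(modularFunctionFieldBar (M * p))))
    (c₀ : Ω) (hc₀ : τ₀ c₀ = c₀) (lam : S33NX_F M p H) (c : ℕ)
    (hτlam : ∃ m ∈ S33NX_Lam M p hp hpM A hgen H ⊓ S33NX_Lam' M p hp hpM A hgen H c₀,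
      τ lam = lam * ((c : S33NX_F M p H) + S33NX_const M p H ϖ₀ hϖ₀ * m)) :
    S33NX_TTau M p hp hpM A hgen H (S33NX_const M p H ϖ₀ hϖ₀) lam c₀ τ c :=
  ⟨hτlam, S33NL2_TTau_Os M p hp hpM A hgen H hA h hϖ₀ τ₀ hτ₀ τ hτ,
    S33NL2_TTau_Lam M p hp hpM A hgen H hA h hϖ₀ τ₀ hτ₀ τ hτ,
    S33NL2_TTau_Lam' M p hp hpM A hgen H hA h hϖ₀ τ₀ hτ₀ τ hτ c₀ hc₀⟩

end ttau

end Fermat.Agent.S33
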