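import Fermat.Agent.S34.NodalX0Main
import Fermat.Agent.S34.NodalX0Fin
import Fermat.Agent.S36.DescWChart
import Fermat.Agent.S33.NewDefs

/-!
# TRACK 11 (S33), package LIFT (helper6): rational lifts and Frobenius closedness of the reduced
lattice — prefix `S33LF_` (not `S33NF_`: taken by N3-FIN)

Level `M q` (`q ∤ M` prime; in TRACK 11 `q = p`), `A ⊂ ℚ̄` a valuation subring over `q`, `I` its
inertia group, `V₁ = S34M_T1`, `V₂ = S34M_T2` the two Gauss valuations of TRACK 7,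
`O₂ = O₁ ∩ O₂` (`S34P_O2`), `red : O₂ → F̄ × F̄` (`S34P_red`), chart `U = {j ≠ ∞}`
(`B = S34SB_reg Ω j`, `R̄₁ = reg j̄`, `R̄₂ = reg j̄^q`).

* `S33LF_red_mem_U`   : the reduction of a function regular on `U` is regular on `Ū`;
* `S33LF_lift_U`      : **LIFT on `U`**: every integral `f` regular on `U` has the same reduction as an
  `I`-FIXED integral `g` regular on `U`  (so `red : Λ''_U → W` is onto for every `I'' ≤ I`);
* `S33LF_frob_U`      : **hFrob on `U`**: if the reduction `(w̄₁, w̄₂)` of an integral `w` regular on `U`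
  is a `q`-th power `(g₁^q, g₂^q)` in `F̄ × F̄`, then `(g₁, g₂)` is the reduction of an `I`-fixed
  integral `g` regular on `U`   (`W = R̄₁ ×_Z R̄₂` by G1 of TRACK 7 = `S34NX_nodes`; `R̄_i` is root
  closed; Frobenius is injective on `k`).
-/

set_option autoImplicit false
set_option synthInstance.maxHeartbeats 400000
set_option maxHeartbeats 1000000
set_option linter.unusedSectionVars false
set_option linter.unusedVariables false
set_option linter.style.haveILetI false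

open HahnSeries IntermediateField AlgebraicCurve ModularCurve

noncomputable section

namespace Fermat.Agent.S33

open Fermat.Agent.Lib Fermat.Agent.S18 Fermat.Agent.S24 Fermat.Agent.S34 Fermat.Agent.S36
  Fermat.Agent.GalRep

local notation "Ω" => AlgebraicClosure ℚ

/-! ### divisibility by the uniformiser and the reduction -/

section val

variable {L F k Fk : Type*} [Field L] [Field F] [Algebra L F] [Field k] [Field Fk]
  [Algebra k Fk] (S : S18_Val L F k Fk) (F'' : Subfield F) (O'' : Subring F'')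
  (hO'' : ∀ f : F'', f ∈ O'' ↔ (f : F) ∈ S.O) (ϖ : F'') (hDV : S33N1_IsDV O'' ϖ)

include hO'' hDV in
/-- the uniformiser reduces to `0`. -/
theorem S33LF_red_pi : ∃ h : (ϖ : F) ∈ S.O, S.red ⟨(ϖ : F), h⟩ = 0 := by
  have h : (ϖ : F) ∈ S.O := (hO'' ϖ).1 hDV.π_mem
  refine ⟨h, ?_⟩
  rw [S.red_eq_zero_iff]
  intro hu
  obtain ⟨v, hv⟩ := hu.exists_right_inv
  apply hDV.π_inv
  rw [hO'']
  have h1 : (ϖ : F) * (v : F) = 1 := congrArg Subtype.val hv
  have h2 : ((ϖ⁻¹ : F'') : F) = (v : F) := by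
    push_cast
    exact inv_eq_of_mul_eq_one_right h1
  rw [h2]
  exact v.2

include hO'' hDV in
/-- an element divisible by `ϖ` in `O''` reduces to `0`. -/
theorem S33LF_red_of_div {x : F''} (hx : S33N1_Div O'' ϖ 1 x) :
    ∃ h : (x : F) ∈ S.O, S.red ⟨(x : F), h⟩ = 0 := by
  obtain ⟨t, ht, rfl⟩ := hx
  obtain ⟨hϖ, hϖ0⟩ := S33LF_red_pi S F'' O'' hO'' ϖ hDV
  have htO : (t : F) ∈ S.O := (hO'' t).1 ht
  have hmem : ((ϖ ^ 1 * t : F'') : F) ∈ S.O := by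
    push_cast
    rw [pow_one]
    exact S.O.mul_mem _ _ hϖ htO
  refine ⟨hmem, ?_⟩
  have e : (⟨((ϖ ^ 1 * t : F'') : F), hmem⟩ : S.O) = ⟨(ϖ : F), hϖ⟩ * ⟨(t : F), htO⟩ := by
    apply Subtype.ext
    push_cast
    rw [pow_one]
  rw [e, map_mul, hϖ0, zero_mul]

include hO'' hDV in
/-- an element of `O''` with reduction `0` is divisible by `ϖ` in `O''`. -/
theorem S33LF_div_of_red {x : F''} (h : (x : F) ∈ S.O) (hx : S.red ⟨(x : F), h⟩ = 0) :
    S33N1_Div O'' ϖ 1 x := by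
  have hxO : x ∈ O'' := (hO'' x).2 h
  rcases eq_or_ne x 0 with rfl | hx0
  · exact ⟨0, O''.zero_mem, by simp⟩
  rcases hDV.loc x hxO with ⟨t, ht, e⟩ | hinv
  · exact ⟨t, ht, by rw [pow_one]; exact e⟩
  · exfalso
    rw [S.red_eq_zero_iff] at hx
    apply hx
    have hinvO : ((x⁻¹ : F'') : F) ∈ S.O := (hO'' _).1 hinv
    have hx0' : (x : F) ≠ 0 := fun h0 => hx0 (Subtype.ext h0)
    refine ⟨⟨⟨(x : F), h⟩, ⟨((x⁻¹ : F'') : F), hinvO⟩, ?_, ?_⟩, rfl⟩
    · apply Subtype.ext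
      push_cast
      exact mul_inv_cancel₀ hx0'
    · apply Subtype.ext
      push_cast
      exact inv_mul_cancel₀ hx0'

end val

section U

variable (M q : ℕ) [NeZero M] [NeZero q] (hq : q.Prime) (hqM : ¬ q ∣ M)
  (A : ValuationSubring Ω) (hA : A.LiesOverPrime q)
  (hgen : PrincipalGeneratedByIntegral A (IsLocalRing.residue A) (M * q))

include hA in
/-- the reduction of an integral function regular on `U` is regular on `Ū`. -/
theorem S33LF_red_mem_U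
    (w : S34P_O2 (S34M_T1 M q A hgen) (S34M_T2 M q hq hqM A hgen))
    (hw : (w : ↥(modularFunctionFieldBar (M * q))) ∈ S34SB_reg Ω (jB (M * q))) :
    (S34P_red (S34M_T1 M q A hgen) (S34M_T2 M q hq hqM A hgen) w).1 ∈
        S34SB_reg (IsLocalRing.ResidueField A) (S34M_xb M q A) ∧
      (S34P_red (S34M_T1 M q A hgen) (S34M_T2 M q hq hqM A hgen) w).2 ∈
        S34SB_reg (IsLocalRing.ResidueField A) (S34M_xb M q A ^ q) := by
  have hF := S18_hRR (M * q)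
  have hk := S34VF_hk M A hq hA hqM
  obtain ⟨s, m₀, -, hchain⟩ := S34NXF_chain M q hq hqM A hgen hA hF hk
  obtain ⟨m, hm⟩ := (S34SB_mem_reg_iff_exists hF.principal (jB (M * q))).mp hw
  have h1 := hchain.le m ⟨w, hm, rfl⟩
  exact ⟨S34SB_RR_le_reg hk.principal _ m h1.1, S34SB_RR_le_reg hk.principal _ m h1.2⟩

include hA in
/-- **hFrob on `U`, over `ℚ̄`**: if the reduction of an integral `w` regular on `U` is
`(g₁^q, g₂^q)`, then `(g₁, g₂)` is the reduction of an `I`-fixed integral `g` regular on `U`. -/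
theorem S33LF_frob_U
    (w : S34P_O2 (S34M_T1 M q A hgen) (S34M_T2 M q hq hqM A hgen))
    (hw : (w : ↥(modularFunctionFieldBar (M * q))) ∈ S34SB_reg Ω (jB (M * q)))
    (g₁ g₂ : ↥(modularFunctionFieldFullC (IsLocalRing.ResidueField A) (M * q)))
    (h₁ : g₁ ^ q = (S34P_red (S34M_T1 M q A hgen) (S34M_T2 M q hq hqM A hgen) w).1)
    (h₂ : g₂ ^ q = (S34P_red (S34M_T1 M q A hgen) (S34M_T2 M q hq hqM A hgen) w).2) :
    ∃ g : ↥(modularFunctionFieldBar (M * q)), g ∈ S34SB_reg Ω (jB (M * q)) ∧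
      ∃ hg : g ∈ S34P_O2 (S34M_T1 M q A hgen) (S34M_T2 M q hq hqM A hgen),
        (∀ σ ∈ A.inertiaSubgroupIn ℚ, GR_gal (M * q) σ g = g) ∧
        S34P_red (S34M_T1 M q A hgen) (S34M_T2 M q hq hqM A hgen) ⟨g, hg⟩ = (g₁, g₂) := by
  haveI : Fact q.Prime := ⟨hq⟩
  haveI : CharP (IsLocalRing.ResidueField A) q := S18_residue_charP A q hq hA
  obtain ⟨s, e₁, e₂, hE, hW1⟩ := S34NX_nodes M q hq hqM A hA hgen q hq.pos
  obtain ⟨hr₁, hr₂⟩ := S33LF_red_mem_U M q hq hqM A hA hgen w hw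
  have hg₁ : g₁ ∈ S34SB_reg (IsLocalRing.ResidueField A) (S34M_xb M q A) :=
    S34SB_reg_root _ hq.pos g₁ (by rw [h₁]; exact hr₁)
  have hg₂ : g₂ ∈ S34SB_reg (IsLocalRing.ResidueField A) (S34M_xb M q A ^ q) :=
    S34SB_reg_root _ hq.pos g₂ (by rw [h₂]; exact hr₂)
  -- the reduction of `w` lies in `W¹`
  have hmw : ((⟨_, hr₁⟩, ⟨_, hr₂⟩) : ↥(S34M_chart M q A q hq.pos).Rb₁ ×
      ↥(S34M_chart M q A q hq.pos).Rb₂) ∈
      S34K_W (S34M_same M q hq hqM A hgen) (S34M_chart M q A q hq.pos) 1 := by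
    rw [S34K_mem_W]
    refine ⟨w, ?_, rfl⟩
    rw [mul_one]
    exact (S34SB_reg Ω (jB (M * q))).pow_mem hw q
  rw [hW1, S34B_mem_W] at hmw
  -- hence `(g₁, g₂)` lies in `W¹`
  have hmg : ((⟨g₁, hg₁⟩, ⟨g₂, hg₂⟩) : ↥(S34M_chart M q A q hq.pos).Rb₁ ×
      ↥(S34M_chart M q A q hq.pos).Rb₂) ∈
      S34K_W (S34M_same M q hq hqM A hgen) (S34M_chart M q A q hq.pos) 1 := by
    rw [hW1, S34B_mem_W]
    intro i
    apply frobenius_inj (IsLocalRing.ResidueField A) q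
    show e₁ i ⟨g₁, hg₁⟩ ^ q = e₂ i ⟨g₂, hg₂⟩ ^ q
    rw [← map_pow, ← map_pow]
    have e1 : (⟨g₁, hg₁⟩ : ↥(S34M_chart M q A q hq.pos).Rb₁) ^ q = ⟨_, hr₁⟩ :=
      Subtype.ext h₁
    have e2 : (⟨g₂, hg₂⟩ : ↥(S34M_chart M q A q hq.pos).Rb₂) ^ q = ⟨_, hr₂⟩ :=
      Subtype.ext h₂
    rw [e1, e2]
    exact hmw i
  rw [S34K_mem_W] at hmg
  obtain ⟨f, hfB, hfred⟩ := hmg
  rw [mul_one] at hfB
  have hfB' : (f : ↥(modularFunctionFieldBar (M * q))) ∈ S34SB_reg Ω (jB (M * q)) :=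
    S34SB_reg_root _ hq.pos _ hfB
  -- the rational lift
  have hP := (S18_hRR (M * q)).principal
  obtain ⟨a, ha⟩ := S36DW_exists_a hP (jB (M * q)) (0 : Ω) hfB'
  obtain ⟨g, hgV, hg, hgfix, hgred⟩ := S36DW_levJ M q hq hqM A hA hgen hP (0 : Ω)
    (fun τ _ => map_zero τ) a 0 (f : ↥(modularFunctionFieldBar (M * q))) ha f.2
  refine ⟨g, S36DW_reg_le hP (jB (M * q)) (0 : Ω) a hgV, hg, hgfix, ?_⟩
  rw [hgred]
  exact hfred

end U

section target

variable (M p : ℕ) [NeZero (M * p)] (hp : p.Prime) (hpM : ¬ p ∣ M)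
  (A : ValuationSubring Ω) (hA : A.LiesOverPrime p)
  (hgen : PrincipalGeneratedByIntegral A (IsLocalRing.residue A) (M * p))
  (H : Subgroup (Ω ≃ₐ[ℚ] Ω)) (hH : H ≤ A.inertiaSubgroupIn ℚ)

/-- the first rational valuation ring is `T₁.O ∩ F''`. -/
theorem S33LF_hO_zero (f : S33NX_F M p H) :
    f ∈ S33NX_O M p hp hpM A hgen H 0 ↔
      ((f : ↥(modularFunctionFieldBar (M * p)))) ∈ (S34M_T1 M p A hgen).O :=
  S33NX_mem_O_zero M p hp hpM A hgen H f

/-- the second rational valuation ring is `T₂.O ∩ F''`. -/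
theorem S33LF_hO_one (f : S33NX_F M p H) :
    f ∈ S33NX_O M p hp hpM A hgen H 1 ↔
      ((f : ↥(modularFunctionFieldBar (M * p)))) ∈ (S34M_T2 M p hp hpM A hgen).O :=
  S33NX_mem_O_one M p hp hpM A hgen H f

include hA hH in
/-- **TARGET `S33NX_TFrob`** (LIFT + hFrob on `U`), from (V-DISC) and the saturation of `Λ''_U`. -/
theorem S33LF_TFrob (ϖ : S33NX_F M p H) (hDV : S33NX_TDV M p hp hpM A hgen H ϖ)
    (hsat : S33NX_TSat M p hp hpM A hgen H ϖ) :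
    S33NX_TFrob M p hp hpM A hgen H ϖ := by
  haveI : NeZero M := ⟨fun h => NeZero.ne (M * p) (by rw [h, zero_mul])⟩
  haveI : NeZero p := ⟨hp.ne_zero⟩
  intro w hw hz
  rw [S33NX_mem_Lam] at hw
  obtain ⟨hwOs, hwB⟩ := hw
  have hwO₁ := (S33LF_hO_zero M p hp hpM A hgen H w).1 hwOs.1
  have hwO₂ := (S33LF_hO_one M p hp hpM A hgen H w).1 hwOs.2
  obtain ⟨z₀, hz₀, hd₀⟩ := hz 0
  obtain ⟨z₁, hz₁, hd₁⟩ := hz 1
  have hz₀O := (S33LF_hO_zero M p hp hpM A hgen H z₀).1 hz₀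
  have hz₁O := (S33LF_hO_one M p hp hpM A hgen H z₁).1 hz₁
  -- the reductions of `w` are `p`-th powers
  obtain ⟨hm₀, hr₀⟩ := S33LF_red_of_div (S34M_T1 M p A hgen) _ _
    (S33LF_hO_zero M p hp hpM A hgen H) ϖ (hDV 0) hd₀
  obtain ⟨hm₁, hr₁⟩ := S33LF_red_of_div (S34M_T2 M p hp hpM A hgen) _ _
    (S33LF_hO_one M p hp hpM A hgen H) ϖ (hDV 1) hd₁
  have h₁ : (S34M_T1 M p A hgen).red ⟨_, hz₀O⟩ ^ p =
      (S34P_red (S34M_T1 M p A hgen) (S34M_T2 M p hp hpM A hgen) ⟨_, hwO₁, hwO₂⟩).1 := by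
    rw [S34P_red_fst, ← map_pow]
    have e : (⟨_, hwO₁⟩ : (S34M_T1 M p A hgen).O) - ⟨_, hz₀O⟩ ^ p = ⟨_, hm₀⟩ := by
      apply Subtype.ext
      push_cast
      rfl
    have := congrArg (S34M_T1 M p A hgen).red e
    rw [map_sub, hr₀, sub_eq_zero] at this
    exact this.symm
  have h₂ : (S34M_T2 M p hp hpM A hgen).red ⟨_, hz₁O⟩ ^ p =
      (S34P_red (S34M_T1 M p A hgen) (S34M_T2 M p hp hpM A hgen) ⟨_, hwO₁, hwO₂⟩).2 := by
    rw [S34P_red_snd, ← map_pow]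
    have e : (⟨_, hwO₂⟩ : (S34M_T2 M p hp hpM A hgen).O) - ⟨_, hz₁O⟩ ^ p = ⟨_, hm₁⟩ := by
      apply Subtype.ext
      push_cast
      rfl
    have := congrArg (S34M_T2 M p hp hpM A hgen).red e
    rw [map_sub, hr₁, sub_eq_zero] at this
    exact this.symm
  have hwB' : (w : ↥(modularFunctionFieldBar (M * p))) ∈ S34SB_reg Ω (jB (M * p)) := by
    rw [S34IW_reg_eq]
    exact hwB
  obtain ⟨g, hgB, hgO, hgfix, hgred⟩ := S33LF_frob_U M p hp hpM A hA hgen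
    ⟨_, hwO₁, hwO₂⟩ hwB' _ _ h₁ h₂
  -- the rational function `g`
  have hgF : g ∈ (S36FI_act (M * p) H).fixF :=
    (S36FI_mem_fixF (M * p) H).2 fun σ hσ => hgfix σ (hH hσ)
  set g'' : S33NX_F M p H := ⟨g, hgF⟩ with hg''
  have hg''Os : g'' ∈ S33NX_Os M p hp hpM A hgen H :=
    ⟨(S33LF_hO_zero M p hp hpM A hgen H g'').2 hgO.1,
      (S33LF_hO_one M p hp hpM A hgen H g'').2 hgO.2⟩
  have hg''Lam : g'' ∈ S33NX_Lam M p hp hpM A hgen H := by
    rw [S33NX_mem_Lam]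
    refine ⟨hg''Os, ?_⟩
    show g ∈ S33NX_B M p
    unfold S33NX_B
    rw [← S34IW_reg_eq]
    exact hgB
  refine ⟨g'', hg''Lam, ?_⟩
  have hdLam : w - g'' ^ p ∈ S33NX_Lam M p hp hpM A hgen H :=
    (S33NX_Lam M p hp hpM A hgen H).sub_mem ((S33NX_mem_Lam M p hp hpM A hgen H w).2 ⟨hwOs, hwB⟩)
      ((S33NX_Lam M p hp hpM A hgen H).pow_mem hg''Lam p)
  refine hsat _ hdLam ?_
  have hred₁ := congrArg Prod.fst hgred
  have hred₂ := congrArg Prod.snd hgred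
  rw [S34P_red_fst] at hred₁
  rw [S34P_red_snd] at hred₂
  simp only at hred₁ hred₂
  intro i
  fin_cases i
  · have hmem : ((w - g'' ^ p : S33NX_F M p H) : ↥(modularFunctionFieldBar (M * p))) ∈
        (S34M_T1 M p A hgen).O :=
      (S33LF_hO_zero M p hp hpM A hgen H _).1 hdLam.1.1
    refine S33LF_div_of_red (S34M_T1 M p A hgen) _ _ (S33LF_hO_zero M p hp hpM A hgen H) ϖ
      (hDV 0) hmem ?_
    have e : (⟨_, hmem⟩ : (S34M_T1 M p A hgen).O) = ⟨_, hwO₁⟩ - ⟨g, hgO.1⟩ ^ p := by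
      apply Subtype.ext
      push_cast
      rfl
    rw [e, map_sub, map_pow, hred₁, h₁, S34P_red_fst, sub_self]
  · have hmem : ((w - g'' ^ p : S33NX_F M p H) : ↥(modularFunctionFieldBar (M * p))) ∈
        (S34M_T2 M p hp hpM A hgen).O :=
      (S33LF_hO_one M p hp hpM A hgen H _).1 hdLam.1.2
    refine S33LF_div_of_red (S34M_T2 M p hp hpM A hgen) _ _ (S33LF_hO_one M p hp hpM A hgen H) ϖ
      (hDV 1) hmem ?_
    have e : (⟨_, hmem⟩ : (S34M_T2 M p hp hpM A hgen).O) = ⟨_, hwO₂⟩ - ⟨g, hgO.2⟩ ^ p := by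
      apply Subtype.ext
      push_cast
      rfl
    rw [e, map_sub, map_pow, hred₂, h₂, S34P_red_snd, sub_self]

end target

end Fermat.Agent.S33
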