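import Fermat.Agent.S34.RedNorm
import Fermat.Agent.S35.BridgeA

/-!
# TRACK 11 (S33), N0-INST, the two norm identities (helper25)

Level `M`, `p ∤ M` prime, `F = F_{M p}`, `α, β : F_M → F`, `N_α = S35B_NA`, `N_β = S35B_NB` the
norms along `α`, `β`, `w = S34WJ_wq` the Atkin–Lehner involution, `t = GRS_t hst` the
multiplicative `U_p`.  Prefix `S33N0J_`.

* `S33N0J_alpha_NB` : `α (N_β u) = w u · t u`;
* `S33N0J_alpha_NA` : **`α (N_α g) = g · t (w g)`**;
* `S33N0J_beta_NB`  : **`β (N_β g) = g · w (t g)`**;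
* `S33N0J_beta_NA`  : `β (N_α g) = w g · w (t (w g))`.
-/

set_option autoImplicit false
set_option synthInstance.maxHeartbeats 400000
set_option maxHeartbeats 1000000
set_option linter.unusedSectionVars false
set_option linter.style.haveILetI false

open HahnSeries IntermediateField AlgebraicCurve ModularCurve

namespace Fermat.Agent.S33

open Fermat.Agent.S18 Fermat.Agent.Lib Fermat.Agent.GalRep Fermat.Agent.S24 Fermat.Agent.S34
  Fermat.Agent.S35

variable (M p : ℕ) [NeZero M] [NeZero p] (hp : p.Prime) (hpM : ¬ p ∣ M)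
  (ζ : (AlgebraicClosure ℚ)ˣ) (hζ : IsPrimitiveRoot (ζ : AlgebraicClosure ℚ) p)

theorem S33N0J_NA_eq (g : ↥(modularFunctionFieldBar (M * p))) :
    S35B_NA M p g = S34NK_normAlpha M p g := rfl

theorem S33N0J_NB_eq (g : ↥(modularFunctionFieldBar (M * p))) :
    S35B_NB M p g = S34NK_normBeta M p g := rfl

include hζ in
/-- `α (N_β u) = w u · t u`. -/
theorem S33N0J_alpha_NB (hst : GRS_Stab (M * p) p ζ) (u : ↥(modularFunctionFieldBar (M * p))) :
    heckeAlphaBar (AlgebraicClosure ℚ) M p (S35B_NB M p u) =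
      S34WJ_wq hp hpM u * GRS_t hst u := by
  obtain ⟨w, y, h⟩ := S34WQ_bezout hp hpM
  exact (S34U_wq_t M p hp hpM ζ hζ y w h hst (fun f => S34WJ_wq hp hpM f)
    (fun f => S34NK_qExpand_wq M p hp hpM y w h f) u (S35B_NB M p u)
    (S34NK_beta_normBeta M p u)).symm

include hζ in
/-- **`α (N_α g) = g · t (w g)`**. -/
theorem S33N0J_alpha_NA (hst : GRS_Stab (M * p) p ζ) (g : ↥(modularFunctionFieldBar (M * p))) :
    heckeAlphaBar (AlgebraicClosure ℚ) M p (S35B_NA M p g) =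
      g * GRS_t hst (S34WJ_wq hp hpM g) := by
  have h := S33N0J_alpha_NB M p hp hpM ζ hζ hst (S34WJ_wq hp hpM g)
  rw [S33N0J_NB_eq, S34NK_normBeta_wq, S34WJ_wq_wq] at h
  exact h

include hζ in
/-- **`β (N_β g) = g · w (t g)`**. -/
theorem S33N0J_beta_NB (hst : GRS_Stab (M * p) p ζ) (g : ↥(modularFunctionFieldBar (M * p))) :
    heckeBetaBar (AlgebraicClosure ℚ) M p (S35B_NB M p g) =
      g * S34WJ_wq hp hpM (GRS_t hst g) := by
  have h := congrArg (S34WJ_wq hp hpM) (S33N0J_alpha_NB M p hp hpM ζ hζ hst g)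
  rw [map_mul, S34WJ_wq_wq] at h
  rw [← h]
  exact (S34WQ_wq_alpha M p hp hpM _).symm

include hζ in
/-- `β (N_α g) = w g · w (t (w g))`. -/
theorem S33N0J_beta_NA (hst : GRS_Stab (M * p) p ζ) (g : ↥(modularFunctionFieldBar (M * p))) :
    heckeBetaBar (AlgebraicClosure ℚ) M p (S35B_NA M p g) =
      S34WJ_wq hp hpM g * S34WJ_wq hp hpM (GRS_t hst (S34WJ_wq hp hpM g)) := by
  have h := congrArg (S34WJ_wq hp hpM) (S33N0J_alpha_NA M p hp hpM ζ hζ hst g)
  rw [map_mul] at h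
  rw [← h]
  exact (S34WQ_wq_alpha M p hp hpM _).symm

end Fermat.Agent.S33
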