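import Mathlib
import Fermat.Agent.GalRep.HeckeSer

/-!
# TRACK 11 (S33), package T9 = NEWLOC (helper10): the norm estimate (NE), series level

`R` a domain, `u ∈ Rˣ` a root of unity of prime order `p` (`u ^ p = 1`, `u ≠ 1`), the integers
`1, …, p - 1` invertible in `R`.  For Laurent series `x y ∈ R((t))` and a constant `a ∈ R`:

  `∏_{i<p} (x + a y)(u^i t) = ∏_{i<p} x(u^i t) + a^p ∏_{i<p} y(u^i t) + p a r`,   `r ∈ R((t))`

(`S33N0_prodTw_add`).  Proof: the polynomial `P(T) = ∏_i (x(u^i t) + T y(u^i t))` has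
`P' = ∑_i tw_{u^i}(Q)`, and a trace `∑_i tw_{u^i}(c)` is divisible by `p` (`S33N0_trace`), so the
middle coefficients of `P` are divisible by `p`.
-/

set_option autoImplicit false
set_option linter.unusedSectionVars false

open HahnSeries Polynomial

namespace Fermat.Agent.S33

open Fermat.Agent.GalRep

section series

variable {R : Type*} [CommRing R]

/-- twists compose. -/
theorem S33N0_tw_mul (u v : Rˣ) (f : LaurentSeries R) :
    ES_tw (u * v) f = ES_tw u (ES_tw v f) := by
  ext n
  rw [ES_tw_coeff, ES_tw_coeff, ES_tw_coeff, mul_zpow, Units.val_mul, mul_assoc]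

/-- the part of a series with exponents `m` such that `u ^ m = 1`. -/
noncomputable def S33N0_part (u : Rˣ) (c : LaurentSeries R) : LaurentSeries R where
  coeff m := by
    classical
    exact if u ^ m = 1 then c.coeff m else 0
  isPWO_support' := c.isPWO_support.mono (fun n hn => by
    simp only [Function.mem_support, ne_eq] at hn
    intro h0
    apply hn
    rw [h0]
    split_ifs <;> rfl)

open Classical in
theorem S33N0_part_coeff (u : Rˣ) (c : LaurentSeries R) (m : ℤ) :
    (S33N0_part u c).coeff m = if u ^ m = 1 then c.coeff m else 0 := rfl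

/-- **a trace is divisible by `p`**. -/
theorem S33N0_trace [IsDomain R] (p : ℕ) (u : Rˣ) (hu : u ^ p = 1) (c : LaurentSeries R) :
    ∑ i ∈ Finset.range p, ES_tw (u ^ i) c = (p : LaurentSeries R) * S33N0_part u c := by
  classical
  ext m
  have hcast : (p : LaurentSeries R) = HahnSeries.C (p : R) := by
    rw [map_natCast]
  rw [hcast, HahnSeries.C_mul_eq_smul, HahnSeries.coeff_smul, S33N0_part_coeff]
  rw [HahnSeries.coeff_sum]
  have hterm : ∀ i ∈ Finset.range p, (ES_tw (u ^ i) c).coeff m =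
      (((u ^ m : Rˣ) : R)) ^ i * c.coeff m := by
    intro i _
    rw [ES_tw_coeff]
    congr 1
    rw [← Units.val_pow_eq_pow_val, ← zpow_natCast, ← zpow_natCast, ← zpow_mul, ← zpow_mul,
      mul_comm]
  rw [Finset.sum_congr rfl hterm, ← Finset.sum_mul]
  by_cases h1 : u ^ m = 1
  · rw [if_pos h1, h1, Units.val_one]
    simp
  · rw [if_neg h1, smul_zero]
    have hne : ((u ^ m : Rˣ) : R) - 1 ≠ 0 := by
      intro h0
      apply h1
      apply Units.ext
      rw [Units.val_one]
      exact sub_eq_zero.1 h0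
    have hgeom := geom_sum_mul (((u ^ m : Rˣ) : R)) p
    have hpow : (((u ^ m : Rˣ) : R)) ^ p = 1 := by
      rw [← Units.val_pow_eq_pow_val, ← zpow_natCast, ← zpow_mul, mul_comm, zpow_mul,
        zpow_natCast, hu, one_zpow, Units.val_one]
    rw [hpow, sub_self] at hgeom
    rcases mul_eq_zero.1 hgeom with h | h
    · rw [h, zero_mul]
    · exact absurd h hne


/-! ### twists indexed by `ZMod p` -/

variable (p : ℕ) [hp : Fact p.Prime] (u : Rˣ)

/-- the twist `t ↦ u ^ i t`, `i ∈ ZMod p`. -/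
noncomputable def S33N0_E (i : ZMod p) : LaurentSeries R →+* LaurentSeries R :=
  ES_tw (u ^ i.val)

theorem S33N0_E_zero (f : LaurentSeries R) : S33N0_E p u 0 f = f := by
  rw [S33N0_E, ZMod.val_zero, pow_zero, ES_tw_one]

theorem S33N0_E_C (i : ZMod p) (c : R) : S33N0_E p u i (HahnSeries.C c) = HahnSeries.C c :=
  ES_tw_C _ c

variable {u}

theorem S33N0_E_add (hu : u ^ p = 1) (i j : ZMod p) (f : LaurentSeries R) :
    S33N0_E p u (i + j) f = S33N0_E p u i (S33N0_E p u j f) := by
  rw [S33N0_E, S33N0_E, S33N0_E, ← S33N0_tw_mul, ← _root_.pow_add, ZMod.val_add,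
    GRS_tw_pow_mod p u hu]

variable (u)

theorem S33N0_prodTw_eq (f : LaurentSeries R) :
    GRS_prodTw p u f = ∏ i : ZMod p, S33N0_E p u i f := by
  rw [GRS_prodTw]
  refine Finset.prod_nbij' (fun i => (i : ZMod p)) (fun j => j.val) ?_ ?_ ?_ ?_ ?_
  · intro i _; exact Finset.mem_univ _
  · intro j _; exact Finset.mem_range.2 (ZMod.val_lt j)
  · intro i hi
    exact ZMod.val_natCast_of_lt (Finset.mem_range.1 hi)
  · intro j _
    exact ZMod.natCast_zmod_val j
  · intro i hi
    rw [S33N0_E, ZMod.val_natCast_of_lt (Finset.mem_range.1 hi)]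

theorem S33N0_trace' [IsDomain R] (hu : u ^ p = 1) (c : LaurentSeries R) :
    ∑ i : ZMod p, S33N0_E p u i c = (p : LaurentSeries R) * S33N0_part u c := by
  rw [← S33N0_trace p u hu c]
  symm
  refine Finset.sum_nbij' (fun i => (i : ZMod p)) (fun j => j.val) ?_ ?_ ?_ ?_ ?_
  · intro i _; exact Finset.mem_univ _
  · intro j _; exact Finset.mem_range.2 (ZMod.val_lt j)
  · intro i hi
    exact ZMod.val_natCast_of_lt (Finset.mem_range.1 hi)
  · intro j _
    exact ZMod.natCast_zmod_val j
  · intro i hi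
    rw [S33N0_E, ZMod.val_natCast_of_lt (Finset.mem_range.1 hi)]

/-! ### the polynomial `P(T) = ∏_i (x(u^i t) + T y(u^i t))` -/

/-- the linear factor. -/
noncomputable def S33N0_Lf (x y : LaurentSeries R) (i : ZMod p) : (LaurentSeries R)[X] :=
  Polynomial.C (S33N0_E p u i x) + Polynomial.C (S33N0_E p u i y) * Polynomial.X

/-- `P(T) = ∏_i (x(u^i t) + T y(u^i t))`. -/
noncomputable def S33N0_P (x y : LaurentSeries R) : (LaurentSeries R)[X] :=
  ∏ i : ZMod p, S33N0_Lf p u x y i

theorem S33N0_Lf_natDegree (x y : LaurentSeries R) (i : ZMod p) :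
    (S33N0_Lf p u x y i).natDegree ≤ 1 := by
  rw [S33N0_Lf]
  refine (Polynomial.natDegree_add_le _ _).trans (max_le ?_ ?_)
  · rw [Polynomial.natDegree_C]; exact Nat.zero_le _
  · exact (Polynomial.natDegree_C_mul_le _ _).trans Polynomial.natDegree_X_le

theorem S33N0_Lf_map (hu : u ^ p = 1) (x y : LaurentSeries R) (i j : ZMod p) :
    (S33N0_Lf p u x y j).map (S33N0_E p u i) = S33N0_Lf p u x y (i + j) := by
  rw [S33N0_Lf, S33N0_Lf, Polynomial.map_add, Polynomial.map_mul, Polynomial.map_C,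
    Polynomial.map_C, Polynomial.map_X, S33N0_E_add p hu, S33N0_E_add p hu]

theorem S33N0_P_natDegree (x y : LaurentSeries R) : (S33N0_P p u x y).natDegree ≤ p := by
  rw [S33N0_P]
  refine (Polynomial.natDegree_prod_le _ _).trans ?_
  refine (Finset.sum_le_card_nsmul _ _ 1 (fun i _ => S33N0_Lf_natDegree p u x y i)).trans ?_
  simp [ZMod.card]

theorem S33N0_P_eval (x y : LaurentSeries R) (a : R) :
    (S33N0_P p u x y).eval (HahnSeries.C a) = GRS_prodTw p u (x + HahnSeries.C a * y) := by
  rw [S33N0_P, Polynomial.eval_prod, S33N0_prodTw_eq]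
  refine Finset.prod_congr rfl fun i _ => ?_
  rw [S33N0_Lf, Polynomial.eval_add, Polynomial.eval_mul, Polynomial.eval_C, Polynomial.eval_C,
    Polynomial.eval_X, map_add, map_mul, S33N0_E_C]
  ring

theorem S33N0_P_coeff_zero (x y : LaurentSeries R) :
    (S33N0_P p u x y).coeff 0 = GRS_prodTw p u x := by
  rw [Polynomial.coeff_zero_eq_eval_zero, S33N0_P, Polynomial.eval_prod, S33N0_prodTw_eq]
  refine Finset.prod_congr rfl fun i _ => ?_
  rw [S33N0_Lf]
  simp

theorem S33N0_P_coeff_top (x y : LaurentSeries R) :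
    (S33N0_P p u x y).coeff p = GRS_prodTw p u y := by
  have h := Polynomial.coeff_prod_of_natDegree_le (s := (Finset.univ : Finset (ZMod p)))
    (S33N0_Lf p u x y) 1 (fun i _ => S33N0_Lf_natDegree p u x y i)
  rw [Finset.card_univ, ZMod.card, mul_one] at h
  rw [S33N0_P, h, S33N0_prodTw_eq]
  refine Finset.prod_congr rfl fun i _ => ?_
  rw [S33N0_Lf]
  simp

/-- the summand of the derivative at the index `0`. -/
noncomputable def S33N0_Q (x y : LaurentSeries R) : (LaurentSeries R)[X] := by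
  classical
  exact (∏ j ∈ (Finset.univ : Finset (ZMod p)).erase 0, S33N0_Lf p u x y j) *
    Polynomial.C (S33N0_E p u 0 y)

theorem S33N0_P_deriv (hu : u ^ p = 1) (x y : LaurentSeries R) :
    Polynomial.derivative (S33N0_P p u x y) =
      ∑ i : ZMod p, (S33N0_Q p u x y).map (S33N0_E p u i) := by
  classical
  rw [S33N0_P, Polynomial.derivative_prod_finset]
  refine Finset.sum_congr rfl fun i _ => ?_
  rw [S33N0_Q, Polynomial.map_mul, Polynomial.map_C, ← S33N0_E_add p hu, add_zero,
    Polynomial.map_prod]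
  congr 1
  · -- reindex `j ↦ i + j`
    symm
    refine Finset.prod_nbij' (fun j => i + j) (fun j => j - i) ?_ ?_ ?_ ?_ ?_
    · intro j hj
      rw [Finset.mem_erase] at hj ⊢
      refine ⟨fun h => hj.1 ?_, Finset.mem_univ _⟩
      have : i + j = i + 0 := by rw [add_zero]; exact h
      exact add_left_cancel this
    · intro j hj
      rw [Finset.mem_erase] at hj ⊢
      exact ⟨sub_ne_zero.2 hj.1, Finset.mem_univ _⟩
    · intro j _; ring
    · intro j _; ring
    · intro j _
      exact S33N0_Lf_map p u hu x y i j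
  · rw [S33N0_Lf]
    simp

/-- the middle coefficients of `P` are divisible by `p`. -/
theorem S33N0_P_coeff_mid [IsDomain R] (hu : u ^ p = 1)
    (hunit : ∀ k : ℕ, 0 < k → k < p → IsUnit ((k : ℕ) : R))
    (x y : LaurentSeries R) (n : ℕ) (hn : n + 1 < p) :
    ∃ r : LaurentSeries R, (S33N0_P p u x y).coeff (n + 1) = (p : LaurentSeries R) * r := by
  have h1 := Polynomial.coeff_derivative (S33N0_P p u x y) n
  rw [S33N0_P_deriv p u hu, Polynomial.finsetSum_coeff] at h1
  simp only [Polynomial.coeff_map] at h1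
  rw [S33N0_trace' p u hu] at h1
  obtain ⟨v, hv⟩ := hunit (n + 1) (Nat.succ_pos n) hn
  refine ⟨HahnSeries.C ((v⁻¹ : Rˣ) : R) * S33N0_part u ((S33N0_Q p u x y).coeff n), ?_⟩
  have hcast : ((n : LaurentSeries R) + 1) = HahnSeries.C (v : R) := by
    rw [hv, map_natCast, Nat.cast_add, Nat.cast_one]
  rw [hcast] at h1
  have h2 : (S33N0_P p u x y).coeff (n + 1) =
      (S33N0_P p u x y).coeff (n + 1) * HahnSeries.C (v : R) * HahnSeries.C ((v⁻¹ : Rˣ) : R) := by
    rw [mul_assoc, ← map_mul, Units.mul_inv, map_one, mul_one]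
  rw [h2, ← h1]
  ring

/-- **the norm estimate, series level**: `∏_i (x + a y)(u^i t) = ∏_i x(u^i t) +
a^p ∏_i y(u^i t) + p a r`. -/
theorem S33N0_prodTw_add [IsDomain R] (hu : u ^ p = 1)
    (hunit : ∀ k : ℕ, 0 < k → k < p → IsUnit ((k : ℕ) : R))
    (x y : LaurentSeries R) (a : R) :
    ∃ r : LaurentSeries R, GRS_prodTw p u (x + HahnSeries.C a * y) =
      GRS_prodTw p u x + HahnSeries.C (a ^ p) * GRS_prodTw p u y +
        HahnSeries.C ((p : R) * a) * r := by
  classical
  have hp1 : 1 ≤ p := hp.out.one_lt.le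
  rw [← S33N0_P_eval,
    Polynomial.eval_eq_sum_range' (Nat.lt_succ_of_le (S33N0_P_natDegree p u x y)),
    Finset.sum_range_succ, S33N0_P_coeff_top, Finset.sum_range_eq_add_Ico _ hp.out.pos,
    S33N0_P_coeff_zero, pow_zero, mul_one]
  -- the middle terms
  have hmid : ∀ j ∈ Finset.Ico 1 p, ∃ r : LaurentSeries R,
      (S33N0_P p u x y).coeff j * HahnSeries.C a ^ j = HahnSeries.C ((p : R) * a) * r := by
    intro j hj
    rw [Finset.mem_Ico] at hj
    obtain ⟨n, rfl⟩ : ∃ n, j = n + 1 := ⟨j - 1, (Nat.sub_add_cancel hj.1).symm⟩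
    obtain ⟨r, hr⟩ := S33N0_P_coeff_mid p u hu hunit x y n hj.2
    refine ⟨r * HahnSeries.C a ^ n, ?_⟩
    rw [hr, map_mul, map_natCast, pow_succ]
    ring
  choose! rf hrf using hmid
  refine ⟨∑ j ∈ Finset.Ico 1 p, rf j, ?_⟩
  rw [Finset.sum_congr rfl hrf, ← Finset.mul_sum, map_pow]
  ring

end series

section units

variable {L : Type*} [Field L] (A : ValuationSubring L)

/-- the integers `1, …, p - 1` are units of a valuation ring of residue characteristic `p`. -/
theorem S33N0_isUnit_natCast (p : ℕ) (hp : p.Prime) (hpA : A.valuation ((p : ℕ) : L) < 1)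
    (k : ℕ) (hk0 : 0 < k) (hkp : k < p) : IsUnit (((k : ℕ) : ↥A)) := by
  have hcop : IsCoprime (k : ℤ) (p : ℤ) := by
    rw [Int.isCoprime_iff_gcd_eq_one, Int.gcd_natCast_natCast]
    exact (Nat.coprime_comm.1 ((Nat.Prime.coprime_iff_not_dvd hp).2
      (Nat.not_dvd_of_pos_of_lt hk0 hkp)))
  obtain ⟨a, b, hab⟩ := hcop
  have h1 : ((a : L)) * (k : L) + (b : L) * (p : L) = 1 := by
    exact_mod_cast congrArg (fun z : ℤ => (z : L)) hab
  have hb : A.valuation ((b : L) * (p : L)) < 1 := by
    rw [map_mul]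
    refine lt_of_le_of_lt (mul_le_of_le_one_left' ?_) hpA
    exact (A.valuation_le_one_iff _).2 (intCast_mem A b)
  have hak : A.valuation ((a : L) * (k : L)) = 1 := by
    have e : (a : L) * (k : L) = 1 - (b : L) * (p : L) := by rw [← h1]; ring
    rw [e]
    have := Valuation.map_sub_eq_of_lt_left A.valuation (x := (1 : L))
      (y := (b : L) * (p : L)) (by rw [map_one]; exact hb)
    rw [this, map_one]
  have hk1 : A.valuation (k : L) = 1 := by
    have ha1 : A.valuation (a : L) ≤ 1 := (A.valuation_le_one_iff _).2 (intCast_mem A a)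
    have hk1 : A.valuation (k : L) ≤ 1 := (A.valuation_le_one_iff _).2 (natCast_mem A k)
    rw [map_mul] at hak
    refine le_antisymm hk1 ?_
    rw [← hak]
    exact mul_le_of_le_one_left' ha1
  have : A.valuation (((k : ↥A) : L)) = 1 := by
    rw [show (((k : ↥A)) : L) = (k : L) by simp]; exact hk1
  exact (ValuationSubring.valuation_eq_one_iff A _).2 this

end units

end Fermat.Agent.S33
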