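import Mathlib
import Fermat.Agent.S33.NewNorm
import Fermat.Agent.S36.NormRes3

/-!
# TRACK 11 (S33), package N0-INST, part (NE-t) (helper10)

Level `M p`, `p ∤ M` prime, `A ⊂ ℚ̄` a valuation subring over `p`, `t = GRS_t hst = U_p^{mult}`
(`(t f)(q^p) = ∏_{i<p} f(ζ^i q)`), `O = S18_O A (M p)` the Gauss valuation ring of `F_{Mp}`.

* `S33N0T_prodTw_mem` : twisted products preserve the Gauss ring of series `S36NR_Gs A`;
* `S33N0T_series` : for `x ∈ S36NR_Gs A`, `a ∈ A`: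
  `∏_i (1 + a x)(ζ^i q) = 1 + a^p ∏_i x(ζ^i q) + p a R` with `R ∈ S36NR_Gs A`;
* `S33N0T_t_mem` : `t` preserves `O`;
* `S33N0T_main`, `S33N0_NEt` : **(NE-t)**: for `l ∈ O`, `a ∈ A`:
  `t (1 + a l) - 1 = p a l₁ + a^p l₂` with `l₁, l₂ ∈ O` (and in fact `l₂ = t l`).
-/

set_option autoImplicit false
set_option synthInstance.maxHeartbeats 400000
set_option maxHeartbeats 1000000
set_option linter.unusedSectionVars false
set_option linter.style.haveILetI false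

open HahnSeries IntermediateField AlgebraicCurve ModularCurve

noncomputable section

namespace Fermat.Agent.S33

open Fermat.Agent.S18 Fermat.Agent.S36 Fermat.Agent.GalRep

local notation "ℚbar" => AlgebraicClosure ℚ

section series

variable (A : ValuationSubring ℚbar) (p : ℕ) [NeZero p]

/-- twisted products preserve the Gauss ring of series. -/
theorem S33N0T_prodTw_mem (ζ : ℚbarˣ) (hζ : ζ ^ p = 1) {x : LaurentSeries ℚbar}
    (hx : x ∈ S36NR_Gs A) : GRS_prodTw p ζ x ∈ S36NR_Gs A := by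
  rw [GRS_prodTw]
  refine Subring.prod_mem _ (fun i _ => ?_)
  have hi : (ζ ^ i) ^ p = 1 := by rw [← pow_mul, mul_comm, pow_mul, hζ, one_pow]
  exact S36NR_zeta_tw_mem p A (ζ ^ i) hi hx

/-- a twisted product of a series of nonzero reduction has nonzero reduction. -/
theorem S33N0T_rho_prodTw_ne (u : (↥A)ˣ) {s : LaurentSeries ↥A} (hs : S18_ρ A s ≠ 0) :
    S18_ρ A (GRS_prodTw p u s) ≠ 0 := by
  rw [GRS_coeffMap_prodTw, GRS_prodTw]
  refine Finset.prod_ne_zero_iff.2 (fun i _ => ?_)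
  exact (map_ne_zero_iff _ (RingHom.injective _)).2 hs

/-- **(NE), series level over the Gauss ring**: for `x ∈ G`, `a ∈ A`:
`∏_i (1 + a x)(ζ^i q) = 1 + a^p ∏_i x(ζ^i q) + p a R` with `R ∈ G`. -/
theorem S33N0T_series (hp : p.Prime) (hA : A.LiesOverPrime p) (ζ : ℚbarˣ) (hζ : ζ ^ p = 1)
    {a : ℚbar} (ha : a ∈ A) {x : LaurentSeries ℚbar} (hx : x ∈ S36NR_Gs A) :
    ∃ R ∈ S36NR_Gs A, GRS_prodTw p ζ (1 + HahnSeries.C a * x) =
      1 + HahnSeries.C (a ^ p) * GRS_prodTw p ζ x + HahnSeries.C ((p : ℚbar) * a) * R := by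
  obtain ⟨s₁, s₂, hne, hs⟩ := (S36NR_mem_Gs A).1 hx
  obtain ⟨u, hu, hup⟩ := ES_exists_unit A p hp.pos ζ hζ
  haveI : Fact p.Prime := ⟨hp⟩
  have hpA : A.valuation ((p : ℕ) : ℚbar) < 1 := (A.mem_nonunits_iff).mp hA
  obtain ⟨r, hr⟩ := S33N0_prodTw_add p u hup (S33N0_isUnit_natCast A p hp hpA) s₂ s₁ ⟨a, ha⟩
  -- transport to `ℚ̄((t))`
  have e0 : S18_ι A (HahnSeries.C (⟨a, ha⟩ : ↥A)) = HahnSeries.C a := S36V_ι_C A ⟨a, ha⟩
  have e1 : S18_ι A (HahnSeries.C ((⟨a, ha⟩ : ↥A) ^ p)) = HahnSeries.C (a ^ p) := by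
    rw [S36V_ι_C, SubmonoidClass.coe_pow]
  have e2 : S18_ι A (HahnSeries.C (((p : ℕ) : ↥A) * (⟨a, ha⟩ : ↥A))) =
      HahnSeries.C ((p : ℚbar) * a) := by
    rw [S36V_ι_C, MulMemClass.coe_mul]
    simp
  have hr' : GRS_prodTw p ζ (S18_ι A s₂ + HahnSeries.C a * S18_ι A s₁) =
      GRS_prodTw p ζ (S18_ι A s₂) + HahnSeries.C (a ^ p) * GRS_prodTw p ζ (S18_ι A s₁) +
        HahnSeries.C ((p : ℚbar) * a) * S18_ι A r := by
    have h := congrArg (S18_ι A) hr
    rw [GRS_coeffMap_prodTw, hu, map_add (S18_ι A), map_mul (S18_ι A), e0,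
      map_add (S18_ι A), map_add (S18_ι A), map_mul (S18_ι A), map_mul (S18_ι A), e1, e2,
      GRS_coeffMap_prodTw, GRS_coeffMap_prodTw, hu] at h
    exact h
  have hd : S18_ρ A (GRS_prodTw p u s₂) ≠ 0 := S33N0T_rho_prodTw_ne A p u hne
  have hD : GRS_prodTw p ζ (S18_ι A s₂) = S18_ι A (GRS_prodTw p u s₂) := by
    rw [GRS_coeffMap_prodTw, hu]
  have hD0 : GRS_prodTw p ζ (S18_ι A s₂) ≠ 0 := by
    rw [hD]
    intro h0
    apply hd
    have : GRS_prodTw p u s₂ = 0 := S18_ι_injective A (by rw [h0, map_zero])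
    rw [this, map_zero]
  refine ⟨S18_ι A r * (GRS_prodTw p ζ (S18_ι A s₂))⁻¹, ?_, ?_⟩
  · rw [hD]
    exact mul_mem (S36NR_ι_mem A r) (S36NR_ι_inv_mem A hd)
  · apply mul_right_cancel₀ hD0
    rw [← GRS_prodTw_mul]
    have e3 : (1 + HahnSeries.C a * x) * S18_ι A s₂ =
        S18_ι A s₂ + HahnSeries.C a * S18_ι A s₁ := by
      rw [← hs]
      ring
    rw [e3, hr', ← hs, GRS_prodTw_mul]
    field_simp

end series

section main

variable (M p : ℕ) [NeZero M] [NeZero p] (hp : p.Prime) (hpM : ¬ p ∣ M)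
  (A : ValuationSubring ℚbar) (hA : A.LiesOverPrime p)
  (ζ : ℚbarˣ) (hζ : ζ ^ p = 1)

/-- the coercion of a constant. -/
theorem S33N0T_coe1_algebraMap (c : ℚbar) :
    S36V_coe1 M p (algebraMap ℚbar ↥(modularFunctionFieldBar (M * p)) c) = HahnSeries.C c := by
  show algebraMap ℚbar (LaurentSeries ℚbar) c = HahnSeries.C c
  rw [LaurentSeries.algebraMap_apply]

include hp hpM hA in
/-- membership in the Gauss ring `S18_O A (M p)` can be tested on `f(q^p)`. -/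
theorem S33N0T_mem_of_psi {f : ↥(modularFunctionFieldBar (M * p))}
    (h : qExpand ℚbar p (f : LaurentSeries ℚbar) ∈ S36NR_Gs A) : f ∈ S18_O A (M * p) :=
  S36NR_G_le_S18 M p hp hpM A hA (S36NR_reflect_psi M p hp A hA h)

/-- the elements of `S18_O` are in the Gauss ring of series. -/
theorem S33N0T_coe_mem {f : ↥(modularFunctionFieldBar (M * p))} (hf : f ∈ S18_O A (M * p)) :
    (f : LaurentSeries ℚbar) ∈ S36NR_Gs A := by
  obtain ⟨s₁, -, s₂, -, hne, h⟩ := hf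
  exact ⟨s₁, s₂, hne, h⟩

include hp hpM hA hζ in
/-- `t = U_p^{mult}` preserves the Gauss ring. -/
theorem S33N0T_t_mem (hst : GRS_Stab (M * p) p ζ) {l : ↥(modularFunctionFieldBar (M * p))}
    (hl : l ∈ S18_O A (M * p)) : GRS_t hst l ∈ S18_O A (M * p) := by
  apply S33N0T_mem_of_psi M p hp hpM A hA
  rw [GRS_t_spec_of_dvd hst (Dvd.intro_left M rfl)]
  exact S33N0T_prodTw_mem A p ζ hζ (S33N0T_coe_mem M p A hl)

include hp hpM hA hζ in
/-- **(NE-t)**: `t (1 + a l) - 1 = p a l₁ + a^p (t l)` with `l₁ ∈ O`. -/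
theorem S33N0T_main (hst : GRS_Stab (M * p) p ζ) {a : ℚbar} (ha : a ∈ A)
    {l : ↥(modularFunctionFieldBar (M * p))} (hl : l ∈ S18_O A (M * p)) :
    ∃ l₁ ∈ S18_O A (M * p),
      GRS_t hst (1 + algebraMap ℚbar ↥(modularFunctionFieldBar (M * p)) a * l) - 1 =
        algebraMap ℚbar ↥(modularFunctionFieldBar (M * p)) ((p : ℚbar) * a) * l₁ +
          algebraMap ℚbar ↥(modularFunctionFieldBar (M * p)) (a ^ p) * GRS_t hst l := by
  by_cases ha0 : a = 0
  · subst ha0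
    refine ⟨0, zero_mem _, ?_⟩
    rw [map_zero, zero_mul, add_zero, map_one, sub_self, mul_zero, zero_add,
      zero_pow hp.ne_zero, map_zero, zero_mul]
  have hx : (l : LaurentSeries ℚbar) ∈ S36NR_Gs A := S33N0T_coe_mem M p A hl
  obtain ⟨R, hR, hser⟩ := S33N0T_series A p hp hA ζ hζ ha hx
  have hpa : (p : ℚbar) * a ≠ 0 := mul_ne_zero (Nat.cast_ne_zero.2 hp.ne_zero) ha0
  have hpaF : algebraMap ℚbar ↥(modularFunctionFieldBar (M * p)) ((p : ℚbar) * a) ≠ 0 :=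
    (map_ne_zero_iff _ (algebraMap ℚbar ↥(modularFunctionFieldBar (M * p))).injective).2 hpa
  have hdvd : p ∣ M * p := Dvd.intro_left M rfl
  -- the quotient
  obtain ⟨X, hXdef⟩ : ∃ X : ↥(modularFunctionFieldBar (M * p)),
      algebraMap ℚbar ↥(modularFunctionFieldBar (M * p)) ((p : ℚbar) * a) * X =
        GRS_t hst (1 + algebraMap ℚbar ↥(modularFunctionFieldBar (M * p)) a * l) - 1 -
          algebraMap ℚbar ↥(modularFunctionFieldBar (M * p)) (a ^ p) * GRS_t hst l :=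
    ⟨(algebraMap ℚbar ↥(modularFunctionFieldBar (M * p)) ((p : ℚbar) * a))⁻¹ *
      (GRS_t hst (1 + algebraMap ℚbar ↥(modularFunctionFieldBar (M * p)) a * l) - 1 -
          algebraMap ℚbar ↥(modularFunctionFieldBar (M * p)) (a ^ p) * GRS_t hst l),
      by rw [← mul_assoc, mul_inv_cancel₀ hpaF, one_mul]⟩
  refine ⟨X, ?_, ?_⟩
  · apply S33N0T_mem_of_psi M p hp hpM A hA
    -- `X(q^p) = R`
    have hcoe := congrArg (fun z : ↥(modularFunctionFieldBar (M * p)) =>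
      qExpand ℚbar p (S36V_coe1 M p z)) hXdef
    rw [map_mul (S36V_coe1 M p), map_sub (S36V_coe1 M p), map_sub (S36V_coe1 M p),
      map_mul (S36V_coe1 M p), map_one (S36V_coe1 M p), S33N0T_coe1_algebraMap,
      S33N0T_coe1_algebraMap, map_mul (qExpand ℚbar p), map_sub (qExpand ℚbar p),
      map_sub (qExpand ℚbar p), map_mul (qExpand ℚbar p), map_one (qExpand ℚbar p),
      ES_qExpand_C, ES_qExpand_C, S36V_coe1_apply, S36V_coe1_apply, S36V_coe1_apply,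
      GRS_t_spec_of_dvd hst hdvd, GRS_t_spec_of_dvd hst hdvd] at hcoe
    have hcoe2 : ((1 + algebraMap ℚbar ↥(modularFunctionFieldBar (M * p)) a * l :
        ↥(modularFunctionFieldBar (M * p))) : LaurentSeries ℚbar) =
        1 + HahnSeries.C a * (l : LaurentSeries ℚbar) := by
      rw [← S36V_coe1_apply, map_add (S36V_coe1 M p), map_mul (S36V_coe1 M p),
        map_one (S36V_coe1 M p), S33N0T_coe1_algebraMap, S36V_coe1_apply]
    rw [hcoe2, hser] at hcoe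
    have hC : (HahnSeries.C ((p : ℚbar) * a) : LaurentSeries ℚbar) ≠ 0 :=
      (map_ne_zero_iff _ (HahnSeries.C_injective)).2 hpa
    have hXR : qExpand ℚbar p (X : LaurentSeries ℚbar) = R := by
      apply mul_left_cancel₀ hC
      rw [hcoe]
      ring
    rw [hXR]
    exact hR
  · rw [hXdef]
    ring

include hp hpM hA hζ in
/-- **(NE-t)**, relative form: `f - 1 = a l` with `l ∈ O` implies
`t f - 1 = p a l₁ + a^p l₂` with `l₁, l₂ ∈ O`. -/
theorem S33N0T_main' (hst : GRS_Stab (M * p) p ζ) {a : ℚbar} (ha : a ∈ A)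
    {f l : ↥(modularFunctionFieldBar (M * p))} (hl : l ∈ S18_O A (M * p))
    (hf : f - 1 = algebraMap ℚbar ↥(modularFunctionFieldBar (M * p)) a * l) :
    ∃ l₁ ∈ S18_O A (M * p), ∃ l₂ ∈ S18_O A (M * p),
      GRS_t hst f - 1 =
        algebraMap ℚbar ↥(modularFunctionFieldBar (M * p)) ((p : ℚbar) * a) * l₁ +
          algebraMap ℚbar ↥(modularFunctionFieldBar (M * p)) (a ^ p) * l₂ := by
  have hf' : f = 1 + algebraMap ℚbar ↥(modularFunctionFieldBar (M * p)) a * l := by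
    rw [← hf]
    ring
  obtain ⟨l₁, h1, e⟩ := S33N0T_main M p hp hpM A hA ζ hζ hst ha hl
  rw [hf']
  exact ⟨l₁, h1, _, S33N0T_t_mem M p hp hpM A hA ζ hζ hst hl, e⟩

end main

/-- **(NE-t)** in the shape consumed by N0-INST: for `l ∈ O = S18_O A (M p)` and `a ∈ A`,
`t (1 + a l) - 1 = p a l₁ + a^p l₂` with `l₁, l₂ ∈ O`. -/
theorem S33N0_NEt (M p : ℕ) [NeZero (M * p)] [NeZero p] (hp : p.Prime) (hpM : ¬ p ∣ M)
    (A : ValuationSubring ℚbar) (hA : A.LiesOverPrime p)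
    (ζ : ℚbarˣ) (hζ : ζ ^ p = 1) (hst : GRS_Stab (M * p) p ζ)
    {a : ℚbar} (ha : a ∈ A) {l : ↥(modularFunctionFieldBar (M * p))}
    (hl : l ∈ S18_O A (M * p)) :
    ∃ l₁ ∈ S18_O A (M * p), ∃ l₂ ∈ S18_O A (M * p),
      GRS_t hst (1 + algebraMap ℚbar ↥(modularFunctionFieldBar (M * p)) a * l) - 1 =
        algebraMap ℚbar ↥(modularFunctionFieldBar (M * p)) ((p : ℚbar) * a) * l₁ +
          algebraMap ℚbar ↥(modularFunctionFieldBar (M * p)) (a ^ p) * l₂ := by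
  haveI : NeZero M := ⟨fun h => NeZero.ne (M * p) (by rw [h, zero_mul])⟩
  obtain ⟨l₁, h1, e⟩ := S33N0T_main M p hp hpM A hA ζ hζ hst ha hl
  exact ⟨l₁, h1, _, S33N0T_t_mem M p hp hpM A hA ζ hζ hst hl, e⟩

end Fermat.Agent.S33
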