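import Fermat.Agent.S33.NewLocBridgeInst
import Fermat.Agent.S33.NewLocT
import Fermat.Agent.S33.NewLocId
import Fermat.Agent.GalRep.HeckeStab

/-!
# TRACK 11 (S33), package N0-INST, the assembly (helper16): (NE₁) and (NE₂) over `ℚ̄`

Level `M p`, `p ∤ M` prime, `A ⊂ ℚ̄` over `p`, `T₁ = S34M_T1`, `T₂ = S34M_T2 = T₁ ∘ w`,
`N₁₂ = α ∘ N_α`, `N₂₁ = β ∘ N_β`.  Prefix `S33NEZ_`.

* `N₁₂ g = g · t (w g)`, `N₂₁ g = g · w (t g)` (helper25, `S33/NewLocId.lean`);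
* `t (1 + a l) − 1 = p a l₁ + a ^ p l₂` on the Gauss ring (helper10, `S33/NewLocT.lean`);
* `w` swaps `T₁.O` and `T₂.O`.

* `S33NEZ_NE1` : **(NE₁)** = `S33N0B_NE1 … (S33N0B_N12 …)`;
* `S33NEZ_NE2` : **(NE₂)** = `S33N0B_NE2 … (S33N0B_N21 …)`.
-/

set_option autoImplicit false
set_option synthInstance.maxHeartbeats 400000
set_option maxHeartbeats 1000000
set_option linter.unusedSectionVars false
set_option linter.unusedVariables false
set_option linter.style.haveILetI false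

open HahnSeries IntermediateField AlgebraicCurve ModularCurve

noncomputable section

namespace Fermat.Agent.S33

open Fermat.Agent.S18 Fermat.Agent.Lib Fermat.Agent.GalRep Fermat.Agent.S24 Fermat.Agent.S34
  Fermat.Agent.S35 Fermat.Agent.S36

local notation "Ω" => AlgebraicClosure ℚ

/-- in a valuation ring, a function `g` with `g − 1 = x · l`, `x` a non-unit and `l` integral, is
not zero. -/
theorem S33NEZ_ne_zero {F : Type*} [Field F] (O : ValuationSubring F) {x l g : F}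
    (hx : O.valuation x < 1) (hl : l ∈ O) (hg : g - 1 = x * l) : g ≠ 0 := by
  rintro rfl
  have h1 : O.valuation (x * l) = 1 := by
    rw [← hg, zero_sub, Valuation.map_neg, map_one]
  rw [map_mul] at h1
  have hl1 : O.valuation l ≤ 1 := (O.valuation_le_one_iff l).2 hl
  have : O.valuation x * O.valuation l < 1 := by
    calc O.valuation x * O.valuation l ≤ O.valuation x * 1 := by gcongr
      _ = O.valuation x := mul_one _
      _ < 1 := hx
  rw [h1] at this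
  exact lt_irrefl _ this

section ne

variable (M p : ℕ) [NeZero (M * p)] (hp : p.Prime) (hpM : ¬ p ∣ M)
  (A : ValuationSubring Ω) (hA : A.LiesOverPrime p)
  (hgen : PrincipalGeneratedByIntegral A (IsLocalRing.residue A) (M * p))

include hA in
/-- **(NE₁)**: `g − 1 ∈ a T₂.O` ⇒ `N₁₂ g / g − 1 ∈ p a T₁.O + a ^ p T₁.O`. -/
theorem S33NEZ_NE1 : S33N0B_NE1 M p hp hpM A hgen (S33N0B_N12 M p hp hpM) := by
  haveI := S33N0B_neZero_left M p
  haveI := S33N0B_neZero_right M p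
  intro a ha ha1 g hdep
  obtain ⟨l, hl, hg⟩ := hdep
  obtain ⟨-, hAm₂⟩ := S33N0B_const M p A (S34M_T2 M p hp hpM A hgen) rfl
  have hg0 : g ≠ 0 := S33NEZ_ne_zero _ (hAm₂ a ha ha1) hl hg
  -- a primitive `p`-th root of unity
  haveI : Fact p.Prime := ⟨hp⟩
  obtain ⟨ζ₀, hζ₀⟩ := HasEnoughRootsOfUnity.exists_primitiveRoot Ω p
  have hζ0 : ζ₀ ≠ 0 := hζ₀.ne_zero hp.ne_zero
  set ζ : Ωˣ := Units.mk0 ζ₀ hζ0 with hζdef
  have hζ : IsPrimitiveRoot (ζ : Ω) p := hζ₀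
  have hζp : ζ ^ p = 1 := by
    apply Units.ext
    rw [Units.val_pow_eq_pow_val, Units.val_one]
    exact hζ₀.pow_eq_one
  have hst : GRS_Stab (M * p) p ζ := GRHS_stab ζ hζ hp
  -- `N₁₂ g / g = t (w g)`
  have hid : S33N0B_N12 M p hp hpM g / g = GRS_t hst (S34WJ_wq hp hpM g) := by
    rw [S33N0B_N12_apply, S33N0J_alpha_NA M p hp hpM ζ hζ hst g]
    exact mul_div_cancel_left₀ _ hg0
  -- `w g − 1 = a · w l`, `w l ∈ T₁.O`
  have hl' : S34WJ_wq hp hpM l ∈ S18_O A (M * p) := by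
    rw [S34M_T2_O] at hl
    exact (S34DF_mem_O2 M p hp hpM A hgen).1 hl
  have hw : S34WJ_wq hp hpM g - 1 =
      algebraMap Ω ↥(modularFunctionFieldBar (M * p)) a * S34WJ_wq hp hpM l := by
    have := congrArg (S34WJ_wq hp hpM) hg
    rw [map_sub, map_one, map_mul, AlgEquiv.commutes] at this
    exact this
  obtain ⟨l₁, hl₁, l₂, hl₂, e⟩ := S33N0T_main' M p hp hpM A hA ζ hζp hst ha hl' hw
  refine ⟨l₁, ?_, l₂, ?_, ?_⟩
  · rw [S34M_T1_O]; exact (S34DF_mem_O1 M p A hgen).2 hl₁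
  · rw [S34M_T1_O]; exact (S34DF_mem_O1 M p A hgen).2 hl₂
  · rw [hid]; exact e

include hA in
/-- **(NE₂)**: `g − 1 ∈ a T₁.O` ⇒ `N₂₁ g / g − 1 ∈ p a T₂.O + a ^ p T₂.O`. -/
theorem S33NEZ_NE2 : S33N0B_NE2 M p hp hpM A hgen (S33N0B_N21 M p hp) := by
  haveI := S33N0B_neZero_left M p
  haveI := S33N0B_neZero_right M p
  intro a ha ha1 g hdep
  obtain ⟨l, hl, hg⟩ := hdep
  obtain ⟨-, hAm₁⟩ := S33N0B_const M p A (S34M_T1 M p A hgen) rfl
  have hg0 : g ≠ 0 := S33NEZ_ne_zero _ (hAm₁ a ha ha1) hl hg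
  haveI : Fact p.Prime := ⟨hp⟩
  obtain ⟨ζ₀, hζ₀⟩ := HasEnoughRootsOfUnity.exists_primitiveRoot Ω p
  have hζ0 : ζ₀ ≠ 0 := hζ₀.ne_zero hp.ne_zero
  set ζ : Ωˣ := Units.mk0 ζ₀ hζ0 with hζdef
  have hζ : IsPrimitiveRoot (ζ : Ω) p := hζ₀
  have hζp : ζ ^ p = 1 := by
    apply Units.ext
    rw [Units.val_pow_eq_pow_val, Units.val_one]
    exact hζ₀.pow_eq_one
  have hst : GRS_Stab (M * p) p ζ := GRHS_stab ζ hζ hp
  -- `N₂₁ g / g = w (t g)`
  have hid : S33N0B_N21 M p hp g / g = S34WJ_wq hp hpM (GRS_t hst g) := by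
    rw [S33N0B_N21_apply, S33N0J_beta_NB M p hp hpM ζ hζ hst g]
    exact mul_div_cancel_left₀ _ hg0
  have hl' : l ∈ S18_O A (M * p) := by
    rw [S34M_T1_O] at hl
    exact (S34DF_mem_O1 M p A hgen).1 hl
  obtain ⟨l₁, hl₁, l₂, hl₂, e⟩ := S33N0T_main' M p hp hpM A hA ζ hζp hst ha hl' hg
  have hmem : ∀ x ∈ S18_O A (M * p), S34WJ_wq hp hpM x ∈ (S34M_T2 M p hp hpM A hgen).O := by
    intro x hx
    rw [S34M_T2_O]
    refine (S34DF_mem_O2 M p hp hpM A hgen).2 ?_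
    have : S34DF_wq M p hp hpM (S34WJ_wq hp hpM x) = x := S34WJ_wq_wq hp hpM x
    rw [this]
    exact hx
  refine ⟨S34WJ_wq hp hpM l₁, hmem l₁ hl₁, S34WJ_wq hp hpM l₂, hmem l₂ hl₂, ?_⟩
  have h1 : S34WJ_wq hp hpM (GRS_t hst g) - 1 = S34WJ_wq hp hpM (GRS_t hst g - 1) := by
    rw [map_sub, map_one]
  rw [hid, h1, e, map_add, map_mul (S34WJ_wq hp hpM), map_mul (S34WJ_wq hp hpM),
    AlgEquiv.commutes, AlgEquiv.commutes]

end ne

end Fermat.Agent.S33
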