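import Fermat.Agent.S33.NewLocBridgeFin
import Fermat.Agent.S34.KActInst

/-!
# TRACK 11 (S33), package NORM-TRIV (helper17): trivial norms are `p`-th powers after `α`, `β`

`F = modularFunctionFieldBar (M * p)`, `N₁₂ = α ∘ N_α = S33N0B_N12`, `N₂₁ = β ∘ N_β = S33N0B_N21`.
If `N_α u = c · g ^ p` is a TRIVIAL Kummer generator (`GR_IsTriv M p (S35B_NA M p u)`, the
hypothesis of NEW33-K = `S33KB_NewK`), then `N₁₂ u = (c^{1/p} · α g) ^ p` is a `p`-th power in `F`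
(`ℚ̄` is algebraically closed); the same for `β`.  Prefix `S33NV_`.

* `S33NV_root`       : `p`-th roots in `ℚ̄`;
* `S33NV_pow_of_triv`: abstract form (any `ℚ̄`-algebra hom `φ : F_M → F`);
* **`S33NV_h1`**, **`S33NV_h2`** : `∃ h ≠ 0, N₁₂ u = h ^ p`, `∃ h ≠ 0, N₂₁ u = h ^ p`;
* `S33NV_exists`     : both at once;
* **`S33NV_TN0`**    : the target `S33NX_TN0` in the form of the hypotheses of NEW33-K
  (normalisation as `valuation (u − 1) < 1` at `S34DF_O1`, `S34DF_O2`), for `u, h₁, h₂ ∈ F` with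
  proofs of membership in `fixF(H)` (what CHOICE provides);
* `S33NV_TN0_of_triv`: the same with `h₁`, `h₂` quantified: for every `H` fixing `u` and the two
  roots produced by `S33NV_exists`.
-/

set_option autoImplicit false
set_option linter.unusedSectionVars false
set_option linter.unusedVariables false
set_option linter.style.haveILetI false
set_option synthInstance.maxHeartbeats 400000
set_option maxHeartbeats 1000000

open ModularCurve AlgebraicCurve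

noncomputable section

namespace Fermat.Agent.S33

open Fermat.Agent.S34 Fermat.Agent.S36 Fermat.Agent.S18 Fermat.Agent.S24 Fermat.Agent.S35
  Fermat.Agent.GalRep

local notation "Ω" => AlgebraicClosure ℚ

section abs

/-- `p`-th roots in `ℚ̄`. -/
theorem S33NV_root {n : ℕ} (hn : 0 < n) (c : Ω) (hc : c ≠ 0) :
    ∃ c' : Ω, c' ≠ 0 ∧ c' ^ n = c := by
  obtain ⟨c', hc'⟩ := IsAlgClosed.exists_pow_nat_eq c hn
  refine ⟨c', ?_, hc'⟩
  rintro rfl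
  rw [zero_pow hn.ne'] at hc'
  exact hc hc'.symm

/-- abstract form: the image of a trivial generator under a `ℚ̄`-algebra homomorphism of fields
is an `n`-th power. -/
theorem S33NV_pow_of_triv {F₀ F : Type*} [Field F₀] [Field F] [Algebra Ω F₀] [Algebra Ω F]
    (φ : F₀ →ₐ[Ω] F) {n : ℕ} (hn : 0 < n) {f : F₀}
    (h : ∃ (c : Ω) (g : F₀), c ≠ 0 ∧ g ≠ 0 ∧ f = algebraMap Ω F₀ c * g ^ n) :
    ∃ h₁ : F, h₁ ≠ 0 ∧ φ f = h₁ ^ n := by
  obtain ⟨c, g, hc, hg, hf⟩ := h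
  obtain ⟨c', hc', hcc⟩ := S33NV_root hn c hc
  refine ⟨algebraMap Ω F c' * φ g, ?_, ?_⟩
  · refine mul_ne_zero ?_ ?_
    · exact fun h0 => hc' ((map_eq_zero (algebraMap Ω F)).1 h0)
    · exact fun h0 => hg ((map_eq_zero φ).1 h0)
  · rw [hf, map_mul, AlgHom.commutes, map_pow, mul_pow, ← map_pow (algebraMap Ω F), hcc]

end abs

section inst

variable (M p : ℕ) [NeZero (M * p)] (hp : p.Prime) (hpM : ¬ p ∣ M)

/-- **NORM-TRIV at `α`**: `N_α u` trivial ⇒ `α (N_α u)` is a `p`-th power in `F_{Mp}`. -/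
theorem S33NV_h1 (u : ↥(modularFunctionFieldBar (M * p)))
    (h : haveI := S33N0B_neZero_left M p
         haveI := S33N0B_neZero_right M p
         GR_IsTriv M p (S35B_NA M p u)) :
    ∃ h₁ : ↥(modularFunctionFieldBar (M * p)), h₁ ≠ 0 ∧ S33N0B_N12 M p hp hpM u = h₁ ^ p := by
  haveI := S33N0B_neZero_left M p
  haveI := S33N0B_neZero_right M p
  exact S33NV_pow_of_triv (heckeAlphaBar Ω M p) hp.pos h

/-- **NORM-TRIV at `β`**: `N_β u` trivial ⇒ `β (N_β u)` is a `p`-th power in `F_{Mp}`. -/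
theorem S33NV_h2 (u : ↥(modularFunctionFieldBar (M * p)))
    (h : haveI := S33N0B_neZero_left M p
         haveI := S33N0B_neZero_right M p
         GR_IsTriv M p (S35B_NB M p u)) :
    ∃ h₂ : ↥(modularFunctionFieldBar (M * p)), h₂ ≠ 0 ∧ S33N0B_N21 M p hp u = h₂ ^ p := by
  haveI := S33N0B_neZero_left M p
  haveI := S33N0B_neZero_right M p
  exact S33NV_pow_of_triv (heckeBetaBar Ω M p) hp.pos h

/-- both roots at once (with ANY instances `NeZero M`, `NeZero p`, as in `S33KB_NewK`). -/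
theorem S33NV_exists [NeZero M] [NeZero p] (u : ↥(modularFunctionFieldBar (M * p)))
    (hα : GR_IsTriv M p (S35B_NA M p u)) (hβ : GR_IsTriv M p (S35B_NB M p u)) :
    ∃ h₁ h₂ : ↥(modularFunctionFieldBar (M * p)), h₁ ≠ 0 ∧ h₂ ≠ 0 ∧
      S33N0B_N12 M p hp hpM u = h₁ ^ p ∧ S33N0B_N21 M p hp u = h₂ ^ p := by
  obtain ⟨h₁, h10, hh₁⟩ := S33NV_h1 M p hp hpM u hα
  obtain ⟨h₂, h20, hh₂⟩ := S33NV_h2 M p hp u hβ
  exact ⟨h₁, h₂, h10, h20, hh₁, hh₂⟩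

variable (A : ValuationSubring Ω)
  (hgen : PrincipalGeneratedByIntegral A (IsLocalRing.residue A) (M * p))
  (H : Subgroup (Ω ≃ₐ[ℚ] Ω))

/-- normalisation in the form of NEW33-K ⇒ `u ∈ S34K_Norm T₁ T₂`. -/
theorem S33NV_norm (u : ↥(modularFunctionFieldBar (M * p)))
    (hv₁ : (S34DF_O1 M p A hgen).valuation (u - 1) < 1)
    (hv₂ : (S34DF_O2 M p hp hpM A hgen).valuation (u - 1) < 1) :
    u ∈ S34K_Norm (S34M_T1 M p A hgen) (S34M_T2 M p hp hpM A hgen) := by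
  rw [S34K_mem_Norm_iff]
  refine ⟨?_, ?_⟩
  · rw [S34M_T1_O]; exact hv₁
  · rw [S34M_T2_O]; exact hv₂

/-- **the target `S33NX_TN0`, in the form of the hypotheses of NEW33-K**: `u, h₁, h₂ ∈ F` fixed
by `H`, `u ≡ 1` at `V₁` and `V₂`, `α (N_α u) = h₁ ^ p`, `β (N_β u) = h₂ ^ p`. -/
theorem S33NV_TN0 (hA : A.LiesOverPrime p)
    (hNE₁ : S33N0B_NE1 M p hp hpM A hgen (S33N0B_N12 M p hp hpM))
    (hNE₂ : S33N0B_NE2 M p hp hpM A hgen (S33N0B_N21 M p hp))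
    {ϖ₀ : Ω} (h : S33NL2_Unif A H ϖ₀)
    (u h₁ h₂ : ↥(modularFunctionFieldBar (M * p)))
    (huH : u ∈ (S36FI_act (M * p) H).fixF) (h₁H : h₁ ∈ (S36FI_act (M * p) H).fixF)
    (h₂H : h₂ ∈ (S36FI_act (M * p) H).fixF)
    (hv₁ : (S34DF_O1 M p A hgen).valuation (u - 1) < 1)
    (hv₂ : (S34DF_O2 M p hp hpM A hgen).valuation (u - 1) < 1)
    (hN₁ : S33N0B_N12 M p hp hpM u = h₁ ^ p) (hN₂ : S33N0B_N21 M p hp u = h₂ ^ p) :
    S33NX_TN0 M p hp hpM A hgen H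
      (S33NX_const M p H ϖ₀ ((S36FI_mem_fixK (M * p) H).2 h.fixed)) ⟨u, huH⟩ :=
  S33N0B_TN0_fin M p hp hpM A hgen H hA hNE₁ hNE₂ h ⟨u, huH⟩ ⟨h₁, h₁H⟩ ⟨h₂, h₂H⟩
    (S33NV_norm M p hp hpM A hgen u hv₁ hv₂) hN₁ hN₂

/-- **NORM-TRIV + N0**: from the hypotheses of NEW33-K on `u` there are `h₁, h₂ ∈ F` such that
for EVERY `H` (with a uniformiser `ϖ₀`) fixing `u`, `h₁`, `h₂` the target `S33NX_TN0` holds. -/
theorem S33NV_TN0_of_triv [NeZero M] [NeZero p] (hA : A.LiesOverPrime p)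
    (hNE₁ : S33N0B_NE1 M p hp hpM A hgen (S33N0B_N12 M p hp hpM))
    (hNE₂ : S33N0B_NE2 M p hp hpM A hgen (S33N0B_N21 M p hp))
    (u : ↥(modularFunctionFieldBar (M * p)))
    (hv₁ : (S34DF_O1 M p A hgen).valuation (u - 1) < 1)
    (hv₂ : (S34DF_O2 M p hp hpM A hgen).valuation (u - 1) < 1)
    (hα : GR_IsTriv M p (S35B_NA M p u)) (hβ : GR_IsTriv M p (S35B_NB M p u)) :
    ∃ h₁ h₂ : ↥(modularFunctionFieldBar (M * p)), h₁ ≠ 0 ∧ h₂ ≠ 0 ∧
      ∀ (H : Subgroup (Ω ≃ₐ[ℚ] Ω)) {ϖ₀ : Ω} (h : S33NL2_Unif A H ϖ₀)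
        (huH : u ∈ (S36FI_act (M * p) H).fixF),
        h₁ ∈ (S36FI_act (M * p) H).fixF → h₂ ∈ (S36FI_act (M * p) H).fixF →
        S33NX_TN0 M p hp hpM A hgen H
          (S33NX_const M p H ϖ₀ ((S36FI_mem_fixK (M * p) H).2 h.fixed)) ⟨u, huH⟩ := by
  obtain ⟨h₁, h₂, h10, h20, hh₁, hh₂⟩ := S33NV_exists M p hp hpM u hα hβ
  refine ⟨h₁, h₂, h10, h20, ?_⟩
  intro H ϖ₀ h huH h₁H h₂H
  exact S33NV_TN0 M p hp hpM A hgen H hA hNE₁ hNE₂ h u h₁ h₂ huH h₁H h₂H hv₁ hv₂ hh₁ hh₂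

end inst

end Fermat.Agent.S33
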