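import Fermat.Agent.S33.NewStart
import Fermat.Agent.S19.Teich

/-!
# TRACK 11 (S33), package START (helper23), part 2: the choice of the chart constant `c₀`

RULING 6 (designer): the wire picks ONE constant `c₀ ∈ A`, fixed by the inertia group `I` of `A`,
whose residue avoids a finite set `bad` of residues.

* `S33NS_exists_c₀` : for every finite `bad ⊂ k` there is `c₀ ∈ A`, `I`-fixed, with `c̄₀ ∉ bad`
  (Teichmüller lifts, `S19TE_exists_lift`; `k` is infinite);
* `S33NS_main_c₀`   : START (`S33NS_main`) with such a `c₀`, for any extra finite set `bad`.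
-/

set_option autoImplicit false
set_option synthInstance.maxHeartbeats 400000
set_option maxHeartbeats 1000000
set_option linter.unusedSectionVars false
set_option linter.unusedVariables false
set_option linter.style.haveILetI false

open HahnSeries IntermediateField AlgebraicCurve ModularCurve

noncomputable section

namespace Fermat.Agent.S33

open Fermat.Agent.Lib Fermat.Agent.S18 Fermat.Agent.S24 Fermat.Agent.GalRep Fermat.Agent.S34
  Fermat.Agent.S19

/-- **the choice of `c₀`**: an `I`-fixed constant of `A` whose residue avoids a finite set. -/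
theorem S33NS_exists_c₀ {q : ℕ} (hq : q.Prime) (A : ValuationSubring (AlgebraicClosure ℚ))
    (hA : A.LiesOverPrime q) (bad : Finset (IsLocalRing.ResidueField A)) :
    ∃ c₀ : A, (∀ τ ∈ A.inertiaSubgroupIn ℚ, τ (c₀ : AlgebraicClosure ℚ) = c₀) ∧
      IsLocalRing.residue A c₀ ∉ bad := by
  haveI : IsAlgClosed (IsLocalRing.ResidueField A) := S18_residue_isAlgClosed A
  haveI : Infinite (IsLocalRing.ResidueField A) := IsAlgClosed.instInfinite
  haveI : Algebra.IsAlgebraic ℚ (AlgebraicClosure ℚ) := AlgebraicClosure.isAlgebraic ℚ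
  obtain ⟨γ, hγ⟩ := Infinite.exists_notMem_finset bad
  obtain ⟨a, ha, hfix⟩ := S19TE_exists_lift A hq hA γ
  exact ⟨a, hfix, by rw [ha]; exact hγ⟩

section X0

variable (M q : ℕ) [NeZero (M * q)] (hq : q.Prime) (hqM : ¬ q ∣ M)
  (A : ValuationSubring (AlgebraicClosure ℚ))
  (hgen : PrincipalGeneratedByIntegral A (IsLocalRing.residue A) (M * q))

/-- **START with an `I`-fixed chart constant**: for any finite set `bad` of residues there is
`c₀ ∈ A`, fixed by the inertia group, with `c̄₀ ∉ bad`, such that every normalised Kummer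
generator `u` of exponent `n = q ^ r` has trivialisations of depth `1` on `U` and on
`U' = {j ≠ c₀}`. -/
theorem S33NS_main_c₀ (hA : A.LiesOverPrime q) {n : ℕ} (hn : 0 < n) (r : ℕ) (hnr : n = q ^ r)
    (bad : Finset (IsLocalRing.ResidueField A)) :
    ∃ c₀ : A, (∀ τ ∈ A.inertiaSubgroupIn ℚ, τ (c₀ : AlgebraicClosure ℚ) = c₀) ∧
      IsLocalRing.residue A c₀ ∉ bad ∧
      ∀ u ∈ S34M_Kp M q hq hqM A hgen n,
    (∃ (f₁ : ↥(modularFunctionFieldBar (M * q))) (h₁ : f₁ ∈ (S34M_T1 M q A hgen).O)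
        (h₂ : f₁ ∈ (S34M_T2 M q hq hqM A hgen).O),
      (S34M_T1 M q A hgen).red ⟨f₁, h₁⟩ = 1 ∧ (S34M_T2 M q hq hqM A hgen).red ⟨f₁, h₂⟩ = 1 ∧
      f₁ ^ n * u ∈ S34IX_reg (S34IX_TU (K := AlgebraicClosure ℚ) (jB (M * q)))) ∧
    (∃ (f₁' : ↥(modularFunctionFieldBar (M * q))) (h₁ : f₁' ∈ (S34M_T1 M q A hgen).O)
        (h₂ : f₁' ∈ (S34M_T2 M q hq hqM A hgen).O),
      (S34M_T1 M q A hgen).red ⟨f₁', h₁⟩ = 1 ∧ (S34M_T2 M q hq hqM A hgen).red ⟨f₁', h₂⟩ = 1 ∧
      f₁' ^ n * u ∈ S34IX_reg (S34IX_TU' (jB (M * q)) (c₀ : AlgebraicClosure ℚ))) := by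
  classical
  obtain ⟨T, hT⟩ := S33NS_main M q hq hqM A hgen hA hn r hnr
  obtain ⟨c₀, hfix, hc₀⟩ := S33NS_exists_c₀ hq A hA (bad ∪ T)
  rw [Finset.mem_union, not_or] at hc₀
  exact ⟨c₀, hfix, hc₀.1, hT c₀ hc₀.2⟩

end X0

end Fermat.Agent.S33
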