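import Fermat.Agent.S33.NewDefs

/-!
# TRACK 11 (S33), package START-RAT (helper26): `hstart`, `hstart'` of `S33NX_rat`
— prefix `S33NSR_`

Concrete objects of `S33/NewDefs.lean` (level `M p`, `F'' = S33NX_F M p H = fixF(H)`,
`O_i'' = S33NX_O … i`, `Λ''_U = S33NX_Lam`, `Λ''_U' = S33NX_Lam' c₀`, `ϖ : F''`).

If `f₁, u ∈ F''`, `v = f₁^p u` is integral at `V₁` and `V₂`, regular on the chart and has
reduction `1` at `V₁` and `V₂`, then `f₁^p u = 1 + ϖ w` with `w ∈ Λ''` — from discreteness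
(`S33NX_TDV`: a non-unit of `O_i''` is divisible by `ϖ`) and saturation (`S33NX_TSat`).

* `S33NSR_div_of_red` : (abstract) `x ∈ O''`, `red x = 1` ⇒ `x - 1 ∈ ϖ O''`;
* `S33NSR_div_zero`, `S33NSR_div_one` : the same for `O₁''`, `O₂''`;
* **`S33NSR_hstart_v`**, **`S33NSR_hstart'_v`** : `hstart`, `hstart'` from the reductions of
  `v = f₁^p u`;
* **`S33NSR_hstart`**, **`S33NSR_hstart'`** : `hstart`, `hstart'` from `red_i f₁ = 1`,
  `red_i u = 1`.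
-/

set_option autoImplicit false
set_option synthInstance.maxHeartbeats 400000
set_option maxHeartbeats 1000000
set_option linter.unusedSectionVars false
set_option linter.unusedVariables false
set_option linter.style.haveILetI false

open ModularCurve AlgebraicCurve

noncomputable section

namespace Fermat.Agent.S33

open Fermat.Agent.S34 Fermat.Agent.S36 Fermat.Agent.S18 Fermat.Agent.S24

/-! ### abstract core -/

section core

variable {F'' F L k Fk : Type*} [Field F''] [Field F] [Field L] [Algebra L F] [Field k]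
  [Field Fk] [Algebra k Fk] (incl : F'' →+* F) (S : S18_Val L F k Fk)
  (O'' : Subring F'') (hO'' : ∀ x : F'', x ∈ O'' ↔ incl x ∈ S.O) (ϖ : F'')

include hO'' in
/-- an element of `O''` with reduction `1` is `≡ 1` modulo `ϖ`. -/
theorem S33NSR_div_of_red (hDV : S33N1_IsDV O'' ϖ) (x : F'') (hx : incl x ∈ S.O)
    (hred : S.red ⟨incl x, hx⟩ = 1) : S33N1_Div O'' ϖ 1 (x - 1) := by
  have hxO : x ∈ O'' := (hO'' x).2 hx
  have hx1 : x - 1 ∈ O'' := O''.sub_mem hxO O''.one_mem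
  rcases hDV.loc (x - 1) hx1 with ⟨t, ht, e⟩ | hinv
  · exact ⟨t, ht, by rw [pow_one]; exact e⟩
  · by_cases h0 : x - 1 = 0
    · exact ⟨0, O''.zero_mem, by rw [h0, mul_zero]⟩
    · exfalso
      have hinv' : incl (x - 1)⁻¹ ∈ S.O := (hO'' _).1 hinv
      have hmem : incl (x - 1) ∈ S.O := (hO'' _).1 hx1
      have hne : incl (x - 1) ≠ 0 := (map_ne_zero incl).2 h0
      have hu : IsUnit (⟨incl (x - 1), hmem⟩ : S.O) := by
        refine ⟨⟨⟨incl (x - 1), hmem⟩, ⟨incl (x - 1)⁻¹, hinv'⟩, Subtype.ext ?_, Subtype.ext ?_⟩,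
          rfl⟩
        · show incl (x - 1) * incl (x - 1)⁻¹ = 1
          rw [map_inv₀, mul_inv_cancel₀ hne]
        · show incl (x - 1)⁻¹ * incl (x - 1) = 1
          rw [map_inv₀, inv_mul_cancel₀ hne]
      have hr := (S.red_ne_zero_iff _).2 hu
      apply hr
      have e1 : (⟨incl (x - 1), hmem⟩ : S.O) = ⟨incl x, hx⟩ - 1 :=
        Subtype.ext (by
          show incl (x - 1) = incl x - 1
          rw [map_sub, map_one])
      rw [e1, map_sub, map_one, hred, sub_self]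

end core

/-! ### the concrete objects -/

section conc

variable (M p : ℕ) [NeZero (M * p)] (hp : p.Prime) (hpM : ¬ p ∣ M)
  (A : ValuationSubring (AlgebraicClosure ℚ))
  (hgen : PrincipalGeneratedByIntegral A (IsLocalRing.residue A) (M * p))
  (H : Subgroup (AlgebraicClosure ℚ ≃ₐ[ℚ] AlgebraicClosure ℚ))
  (ϖ : S33NX_F M p H)

/-- `x ≡ 1 mod ϖ` at `V₁` if `red₁ x = 1`. -/
theorem S33NSR_div_zero (hDV : S33NX_TDV M p hp hpM A hgen H ϖ) (x : S33NX_F M p H)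
    (hx : (x : ↥(modularFunctionFieldBar (M * p))) ∈ (S34M_T1 M p A hgen).O)
    (hred : (S34M_T1 M p A hgen).red ⟨(x : ↥(modularFunctionFieldBar (M * p))), hx⟩ = 1) :
    S33N1_Div (S33NX_O M p hp hpM A hgen H 0) ϖ 1 (x - 1) :=
  S33NSR_div_of_red (S33NX_incl M p H) (S34M_T1 M p A hgen) (S33NX_O M p hp hpM A hgen H 0)
    (fun y => S33NX_mem_O_zero M p hp hpM A hgen H y) ϖ (hDV 0) x hx hred

/-- `x ≡ 1 mod ϖ` at `V₂` if `red₂ x = 1`. -/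
theorem S33NSR_div_one (hDV : S33NX_TDV M p hp hpM A hgen H ϖ) (x : S33NX_F M p H)
    (hx : (x : ↥(modularFunctionFieldBar (M * p))) ∈ (S34M_T2 M p hp hpM A hgen).O)
    (hred : (S34M_T2 M p hp hpM A hgen).red
      ⟨(x : ↥(modularFunctionFieldBar (M * p))), hx⟩ = 1) :
    S33N1_Div (S33NX_O M p hp hpM A hgen H 1) ϖ 1 (x - 1) :=
  S33NSR_div_of_red (S33NX_incl M p H) (S34M_T2 M p hp hpM A hgen)
    (S33NX_O M p hp hpM A hgen H 1)
    (fun y => S33NX_mem_O_one M p hp hpM A hgen H y) ϖ (hDV 1) x hx hred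

/-- `x ≡ 1 mod ϖ` at both components. -/
theorem S33NSR_div_all (hDV : S33NX_TDV M p hp hpM A hgen H ϖ) (x : S33NX_F M p H)
    (hx₁ : (x : ↥(modularFunctionFieldBar (M * p))) ∈ (S34M_T1 M p A hgen).O)
    (hx₂ : (x : ↥(modularFunctionFieldBar (M * p))) ∈ (S34M_T2 M p hp hpM A hgen).O)
    (hr₁ : (S34M_T1 M p A hgen).red ⟨(x : ↥(modularFunctionFieldBar (M * p))), hx₁⟩ = 1)
    (hr₂ : (S34M_T2 M p hp hpM A hgen).red
      ⟨(x : ↥(modularFunctionFieldBar (M * p))), hx₂⟩ = 1) (i : Fin 2) :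
    S33N1_Div (S33NX_O M p hp hpM A hgen H i) ϖ 1 (x - 1) := by
  fin_cases i
  · exact S33NSR_div_zero M p hp hpM A hgen H ϖ hDV x hx₁ hr₁
  · exact S33NSR_div_one M p hp hpM A hgen H ϖ hDV x hx₂ hr₂

/-- `x ∈ O₁'' ⊓ O₂''` from the two memberships in `F`. -/
theorem S33NSR_mem_Os (x : S33NX_F M p H)
    (hx₁ : (x : ↥(modularFunctionFieldBar (M * p))) ∈ (S34M_T1 M p A hgen).O)
    (hx₂ : (x : ↥(modularFunctionFieldBar (M * p))) ∈ (S34M_T2 M p hp hpM A hgen).O) :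
    x ∈ S33NX_Os M p hp hpM A hgen H :=
  ⟨(S33NX_mem_O_zero M p hp hpM A hgen H x).2 hx₁,
    (S33NX_mem_O_one M p hp hpM A hgen H x).2 hx₂⟩

/-- **`hstart` of `S33NX_rat`** from `v = f₁^p u` integral, regular on `U`, `red_i v = 1`. -/
theorem S33NSR_hstart_v (hDV : S33NX_TDV M p hp hpM A hgen H ϖ)
    (hsat : S33NX_TSat M p hp hpM A hgen H ϖ) (u f₁ : S33NX_F M p H)
    (hv₁ : ((f₁ ^ p * u : S33NX_F M p H) : ↥(modularFunctionFieldBar (M * p))) ∈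
      (S34M_T1 M p A hgen).O)
    (hv₂ : ((f₁ ^ p * u : S33NX_F M p H) : ↥(modularFunctionFieldBar (M * p))) ∈
      (S34M_T2 M p hp hpM A hgen).O)
    (hvB : ((f₁ ^ p * u : S33NX_F M p H) : ↥(modularFunctionFieldBar (M * p))) ∈ S33NX_B M p)
    (hr₁ : (S34M_T1 M p A hgen).red ⟨_, hv₁⟩ = 1)
    (hr₂ : (S34M_T2 M p hp hpM A hgen).red ⟨_, hv₂⟩ = 1) :
    ∃ f, ∃ w ∈ S33NX_Lam M p hp hpM A hgen H, f ^ p * u = 1 + ϖ * w := by
  have hmem : f₁ ^ p * u - 1 ∈ S33NX_Lam M p hp hpM A hgen H := by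
    refine (S33NX_mem_Lam M p hp hpM A hgen H _).2 ⟨?_, ?_⟩
    · exact (S33NX_Os M p hp hpM A hgen H).sub_mem
        (S33NSR_mem_Os M p hp hpM A hgen H _ hv₁ hv₂) (Subring.one_mem _)
    · exact (S33NX_B M p).sub_mem hvB ((S33NX_B M p).one_mem)
  obtain ⟨t, ht, e⟩ := hsat _ hmem
    (S33NSR_div_all M p hp hpM A hgen H ϖ hDV _ hv₁ hv₂ hr₁ hr₂)
  refine ⟨f₁, t, ht, ?_⟩
  rw [pow_one] at e
  rw [← e]
  ring

/-- **`hstart'` of `S33NX_rat`** from `v = f₁'^p u` integral, regular on `U'`, `red_i v = 1`. -/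
theorem S33NSR_hstart'_v (c₀ : AlgebraicClosure ℚ) (hDV : S33NX_TDV M p hp hpM A hgen H ϖ)
    (hsat : S33NX_TSat' M p hp hpM A hgen H ϖ c₀) (u f₁ : S33NX_F M p H)
    (hv₁ : ((f₁ ^ p * u : S33NX_F M p H) : ↥(modularFunctionFieldBar (M * p))) ∈
      (S34M_T1 M p A hgen).O)
    (hv₂ : ((f₁ ^ p * u : S33NX_F M p H) : ↥(modularFunctionFieldBar (M * p))) ∈
      (S34M_T2 M p hp hpM A hgen).O)
    (hvB : ((f₁ ^ p * u : S33NX_F M p H) : ↥(modularFunctionFieldBar (M * p))) ∈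
      S33NX_B' M p c₀)
    (hr₁ : (S34M_T1 M p A hgen).red ⟨_, hv₁⟩ = 1)
    (hr₂ : (S34M_T2 M p hp hpM A hgen).red ⟨_, hv₂⟩ = 1) :
    ∃ f, ∃ w ∈ S33NX_Lam' M p hp hpM A hgen H c₀, f ^ p * u = 1 + ϖ * w := by
  have hmem : f₁ ^ p * u - 1 ∈ S33NX_Lam' M p hp hpM A hgen H c₀ := by
    refine (S33NX_mem_Lam' M p hp hpM A hgen H c₀ _).2 ⟨?_, ?_⟩
    · exact (S33NX_Os M p hp hpM A hgen H).sub_mem
        (S33NSR_mem_Os M p hp hpM A hgen H _ hv₁ hv₂) (Subring.one_mem _)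
    · exact (S33NX_B' M p c₀).sub_mem hvB ((S33NX_B' M p c₀).one_mem)
  obtain ⟨t, ht, e⟩ := hsat _ hmem
    (S33NSR_div_all M p hp hpM A hgen H ϖ hDV _ hv₁ hv₂ hr₁ hr₂)
  refine ⟨f₁, t, ht, ?_⟩
  rw [pow_one] at e
  rw [← e]
  ring

end conc

/-! ### from the reductions of `f₁` and `u` -/

section red

variable {L F k Fk : Type*} [Field L] [Field F] [Algebra L F] [Field k] [Field Fk]
  [Algebra k Fk] (S : S18_Val L F k Fk)

/-- `f^p u` is integral with reduction `1` if `f` and `u` are. -/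
theorem S33NSR_red_pow_mul (p : ℕ) {f u : F} (hf : f ∈ S.O) (hu : u ∈ S.O)
    (hrf : S.red ⟨f, hf⟩ = 1) (hru : S.red ⟨u, hu⟩ = 1) :
    ∃ hv : f ^ p * u ∈ S.O, S.red ⟨f ^ p * u, hv⟩ = 1 := by
  refine ⟨S.O.mul_mem _ _ (S.O.pow_mem hf p) hu, ?_⟩
  have e : (⟨f ^ p * u, S.O.mul_mem _ _ (S.O.pow_mem hf p) hu⟩ : S.O) =
      (⟨f, hf⟩ : S.O) ^ p * ⟨u, hu⟩ := rfl
  rw [e, map_mul, map_pow, hrf, hru, one_pow, one_mul]

end red

section conc2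

variable (M p : ℕ) [NeZero (M * p)] (hp : p.Prime) (hpM : ¬ p ∣ M)
  (A : ValuationSubring (AlgebraicClosure ℚ))
  (hgen : PrincipalGeneratedByIntegral A (IsLocalRing.residue A) (M * p))
  (H : Subgroup (AlgebraicClosure ℚ ≃ₐ[ℚ] AlgebraicClosure ℚ))
  (ϖ : S33NX_F M p H)

/-- **`hstart` of `S33NX_rat`**: `u, f₁ ∈ F''` integral at `V₁`, `V₂` with reductions `1`,
`f₁^p u` regular on `U`. -/
theorem S33NSR_hstart (hDV : S33NX_TDV M p hp hpM A hgen H ϖ)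
    (hsat : S33NX_TSat M p hp hpM A hgen H ϖ) (u f₁ : S33NX_F M p H)
    (hf₁ : (f₁ : ↥(modularFunctionFieldBar (M * p))) ∈ (S34M_T1 M p A hgen).O)
    (hf₂ : (f₁ : ↥(modularFunctionFieldBar (M * p))) ∈ (S34M_T2 M p hp hpM A hgen).O)
    (hu₁ : (u : ↥(modularFunctionFieldBar (M * p))) ∈ (S34M_T1 M p A hgen).O)
    (hu₂ : (u : ↥(modularFunctionFieldBar (M * p))) ∈ (S34M_T2 M p hp hpM A hgen).O)
    (hvB : (f₁ : ↥(modularFunctionFieldBar (M * p))) ^ p *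
      (u : ↥(modularFunctionFieldBar (M * p))) ∈ S33NX_B M p)
    (hrf₁ : (S34M_T1 M p A hgen).red ⟨_, hf₁⟩ = 1)
    (hrf₂ : (S34M_T2 M p hp hpM A hgen).red ⟨_, hf₂⟩ = 1)
    (hru₁ : (S34M_T1 M p A hgen).red ⟨_, hu₁⟩ = 1)
    (hru₂ : (S34M_T2 M p hp hpM A hgen).red ⟨_, hu₂⟩ = 1) :
    ∃ f, ∃ w ∈ S33NX_Lam M p hp hpM A hgen H, f ^ p * u = 1 + ϖ * w := by
  obtain ⟨hv₁, hr₁⟩ := S33NSR_red_pow_mul (S34M_T1 M p A hgen) p hf₁ hu₁ hrf₁ hru₁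
  obtain ⟨hv₂, hr₂⟩ := S33NSR_red_pow_mul (S34M_T2 M p hp hpM A hgen) p hf₂ hu₂ hrf₂ hru₂
  exact S33NSR_hstart_v M p hp hpM A hgen H ϖ hDV hsat u f₁ hv₁ hv₂ hvB hr₁ hr₂

/-- **`hstart'` of `S33NX_rat`**: `u, f₁' ∈ F''` integral at `V₁`, `V₂` with reductions `1`,
`f₁'^p u` regular on `U'`. -/
theorem S33NSR_hstart' (c₀ : AlgebraicClosure ℚ) (hDV : S33NX_TDV M p hp hpM A hgen H ϖ)
    (hsat : S33NX_TSat' M p hp hpM A hgen H ϖ c₀) (u f₁ : S33NX_F M p H)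
    (hf₁ : (f₁ : ↥(modularFunctionFieldBar (M * p))) ∈ (S34M_T1 M p A hgen).O)
    (hf₂ : (f₁ : ↥(modularFunctionFieldBar (M * p))) ∈ (S34M_T2 M p hp hpM A hgen).O)
    (hu₁ : (u : ↥(modularFunctionFieldBar (M * p))) ∈ (S34M_T1 M p A hgen).O)
    (hu₂ : (u : ↥(modularFunctionFieldBar (M * p))) ∈ (S34M_T2 M p hp hpM A hgen).O)
    (hvB : (f₁ : ↥(modularFunctionFieldBar (M * p))) ^ p *
      (u : ↥(modularFunctionFieldBar (M * p))) ∈ S33NX_B' M p c₀)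
    (hrf₁ : (S34M_T1 M p A hgen).red ⟨_, hf₁⟩ = 1)
    (hrf₂ : (S34M_T2 M p hp hpM A hgen).red ⟨_, hf₂⟩ = 1)
    (hru₁ : (S34M_T1 M p A hgen).red ⟨_, hu₁⟩ = 1)
    (hru₂ : (S34M_T2 M p hp hpM A hgen).red ⟨_, hu₂⟩ = 1) :
    ∃ f, ∃ w ∈ S33NX_Lam' M p hp hpM A hgen H c₀, f ^ p * u = 1 + ϖ * w := by
  obtain ⟨hv₁, hr₁⟩ := S33NSR_red_pow_mul (S34M_T1 M p A hgen) p hf₁ hu₁ hrf₁ hru₁
  obtain ⟨hv₂, hr₂⟩ := S33NSR_red_pow_mul (S34M_T2 M p hp hpM A hgen) p hf₂ hu₂ hrf₂ hru₂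
  exact S33NSR_hstart'_v M p hp hpM A hgen H ϖ c₀ hDV hsat u f₁ hv₁ hv₂ hvB hr₁ hr₂

end conc2

end Fermat.Agent.S33
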