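import Fermat.Agent.S33.NewDefs
import Fermat.Agent.S36.BaseLCyc

/-!
# TRACK 11 (S33), package TAU (helper21): the action of `τ₀ ∈ I` on the rational function field
`F'' = fixF(H)` — prefix `S33NT_`

Level `M * p`, `H ≤ Gal(ℚ̄/ℚ)` a subgroup, `τ₀ : Gal(ℚ̄/ℚ)` normalising `H`
(`hnorm : ∀ σ ∈ H, τ₀⁻¹ * σ * τ₀ ∈ H`; for `H` normalised by the inertia group `I` and `τ₀ ∈ I`
this is `S33NT_hnorm_of`).

* `S33NT_gal_mul`   : `GR_gal N (σ * τ) = GR_gal N σ ∘ GR_gal N τ`;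
* `S33NT_gal_fix`   : `GR_gal (M p) τ₀` maps `fixF(H)` into itself;
* `S33NT_tau`       : **the ring hom** `τ : F'' →+* F''`, the restriction of `GR_gal (M p) τ₀`;
* `S33NT_tau_coe`, `S33NT_incl_tau` : compatibility with the inclusion `F'' → F` (by `rfl`);
* `S33NT_fixK_of`, `S33NT_tau_const` : `τ (const c) = const (τ₀ c)`;
* `S33NT_const_mem_O`, `_Os`, `_Lam`, `_Lam'`, `_LL` : a constant `c ∈ A ∩ fixK(H)` lies in
  `O_i''`, `O₁'' ⊓ O₂''`, `Λ''_U`, `Λ''_U'`, `Λ''_U ⊓ Λ''_U'`;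
* `S33NT_const_natCast`, `_one`, `_sub`, `_mul`, `_pow` : `S33NX_const` is a ring hom;
* **`S33NT_hτlam`** : part 1 of `S33NX_TTau` (`hτlam`): for `lam = const (ζ − 1)`, `ζ ^ p = 1`,
  `τ₀ ζ = ζ ^ c`, `lam = ϖ ^ e₀ · ε` (`0 < e₀`, `ϖ, ε ∈ Λ''_U ⊓ Λ''_U'`):
  `∃ m ∈ Λ''_U ⊓ Λ''_U', τ lam = lam · (c + ϖ · m)`;
* `S33NT_TTau`      : `S33NX_TTau` from `S33NT_hτlam` and the three congruences of N-LA;
* `S33NT_exists_tau0` : (for `p` odd) `∃ τ₀ ∈ I`, `c`, `c'` with `p ∤ c − 1`, `c + c' = p · 1`,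
  `τ₀ ζ = ζ ^ c` (`c = p − 1`: `τ₀ ζ = ζ⁻¹`).
-/

set_option autoImplicit false
set_option synthInstance.maxHeartbeats 400000
set_option maxHeartbeats 1000000
set_option linter.unusedSectionVars false
set_option linter.unusedVariables false
set_option linter.style.haveILetI false

open ModularCurve AlgebraicCurve

noncomputable section

namespace Fermat.Agent.S33

open Fermat.Agent.S34 Fermat.Agent.S36 Fermat.Agent.S18 Fermat.Agent.S24 Fermat.Agent.S19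
  Fermat.Agent.GalRep

local notation "Ω" => AlgebraicClosure ℚ
local notation "Γ" => (AlgebraicClosure ℚ ≃ₐ[ℚ] AlgebraicClosure ℚ)

/-! ### the Galois action and the fixed field -/

/-- `GR_gal N` is multiplicative. -/
theorem S33NT_gal_mul (N : ℕ) (σ τ : Γ) (f : ↥(modularFunctionFieldBar N)) :
    GR_gal N (σ * τ) f = GR_gal N σ (GR_gal N τ f) := by
  have h : SemilinearAut.toRingAut
      (arithmeticGalois (L := AlgebraicClosure ℚ) (modularFunctionFieldFull N) (σ * τ)) f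
      = SemilinearAut.toRingAut
        (arithmeticGalois (L := AlgebraicClosure ℚ) (modularFunctionFieldFull N) σ *
          arithmeticGalois (L := AlgebraicClosure ℚ) (modularFunctionFieldFull N) τ) f := by
    rw [map_mul]
  exact h

/-- `GR_gal N 1 = id`. -/
theorem S33NT_gal_one (N : ℕ) (f : ↥(modularFunctionFieldBar N)) :
    GR_gal N 1 f = f := by
  have h : SemilinearAut.toRingAut
      (arithmeticGalois (L := AlgebraicClosure ℚ) (modularFunctionFieldFull N) 1) f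
      = SemilinearAut.toRingAut
        (1 : SemilinearAut (AlgebraicClosure ℚ) ↥(modularFunctionFieldBar N)) f := by
    rw [map_one]
  exact h

/-- the normalisation hypothesis for `τ₀ ∈ I` when `H` is normalised by `I`
(shape of `S33BL_exists_H`). -/
theorem S33NT_hnorm_of (I H : Subgroup Γ) (hI : ∀ δ ∈ I, ∀ τ ∈ H, δ * τ * δ⁻¹ ∈ H)
    (τ₀ : Γ) (hτ₀ : τ₀ ∈ I) : ∀ σ ∈ H, τ₀⁻¹ * σ * τ₀ ∈ H := by
  intro σ hσ
  have h := hI τ₀⁻¹ (I.inv_mem hτ₀) σ hσ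
  rwa [inv_inv] at h

section tau

variable (M p : ℕ) [NeZero (M * p)] (H : Subgroup Γ)

/-- `GR_gal τ₀` maps `fixF(H)` into itself if `τ₀` normalises `H`. -/
theorem S33NT_gal_fix (τ₀ : Γ) (hnorm : ∀ σ ∈ H, τ₀⁻¹ * σ * τ₀ ∈ H)
    (f : ↥(modularFunctionFieldBar (M * p))) (hf : f ∈ (S36FI_act (M * p) H).fixF) :
    GR_gal (M * p) τ₀ f ∈ (S36FI_act (M * p) H).fixF := by
  rw [S36FI_mem_fixF] at hf ⊢
  intro σ hσ
  have h1 : GR_gal (M * p) (τ₀⁻¹ * σ * τ₀) f = f := hf _ (hnorm σ hσ)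
  have h2 : GR_gal (M * p) τ₀ (GR_gal (M * p) (τ₀⁻¹ * σ * τ₀) f) =
      GR_gal (M * p) σ (GR_gal (M * p) τ₀ f) := by
    rw [← S33NT_gal_mul, ← S33NT_gal_mul]
    congr 2
    group
  rw [h1] at h2
  exact h2.symm

/-- a constant `τ₀ c` is fixed by `H` if `c` is and `τ₀` normalises `H`. -/
theorem S33NT_fixK_of (τ₀ : Γ) (hnorm : ∀ σ ∈ H, τ₀⁻¹ * σ * τ₀ ∈ H)
    {c : Ω} (hc : c ∈ (S36FI_act (M * p) H).fixK) : τ₀ c ∈ (S36FI_act (M * p) H).fixK := by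
  rw [S36FI_mem_fixK] at hc ⊢
  intro σ hσ
  have h1 : (τ₀⁻¹ * σ * τ₀) c = c := hc _ (hnorm σ hσ)
  have h2 : τ₀ ((τ₀⁻¹ * σ * τ₀) c) = σ (τ₀ c) := by
    show (τ₀ * (τ₀⁻¹ * σ * τ₀)) c = (σ * τ₀) c
    congr 1
    group
  rw [h1] at h2
  exact h2.symm

/-- **the ring hom `τ`**: the restriction of `GR_gal (M * p) τ₀` to `F'' = fixF(H)`. -/
def S33NT_tau (τ₀ : Γ) (hnorm : ∀ σ ∈ H, τ₀⁻¹ * σ * τ₀ ∈ H) :
    S33NX_F M p H →+* S33NX_F M p H :=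
  (((GR_gal (M * p) τ₀ : ↥(modularFunctionFieldBar (M * p)) ≃+*
      ↥(modularFunctionFieldBar (M * p))) : ↥(modularFunctionFieldBar (M * p)) →+*
      ↥(modularFunctionFieldBar (M * p))).comp (S33NX_incl M p H)).codRestrict
    (S36FI_act (M * p) H).fixF (fun f => S33NT_gal_fix M p H τ₀ hnorm _ f.2)

/-- compatibility of `τ` with the inclusion `F'' → F`. -/
theorem S33NT_tau_coe (τ₀ : Γ) (hnorm : ∀ σ ∈ H, τ₀⁻¹ * σ * τ₀ ∈ H) (f : S33NX_F M p H) :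
    ((S33NT_tau M p H τ₀ hnorm f : S33NX_F M p H) : ↥(modularFunctionFieldBar (M * p))) =
      GR_gal (M * p) τ₀ (f : ↥(modularFunctionFieldBar (M * p))) := rfl

/-- compatibility of `τ` with the inclusion `F'' → F`, `S33NX_incl` form. -/
theorem S33NT_incl_tau (τ₀ : Γ) (hnorm : ∀ σ ∈ H, τ₀⁻¹ * σ * τ₀ ∈ H) (f : S33NX_F M p H) :
    S33NX_incl M p H (S33NT_tau M p H τ₀ hnorm f) =
      GR_gal (M * p) τ₀ (S33NX_incl M p H f) := rfl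

/-- `τ` on a function given by its underlying element. -/
theorem S33NT_tau_mk (τ₀ : Γ) (hnorm : ∀ σ ∈ H, τ₀⁻¹ * σ * τ₀ ∈ H)
    (f : ↥(modularFunctionFieldBar (M * p))) (hf : f ∈ (S36FI_act (M * p) H).fixF) :
    S33NT_tau M p H τ₀ hnorm ⟨f, hf⟩ =
      ⟨GR_gal (M * p) τ₀ f, S33NT_gal_fix M p H τ₀ hnorm f hf⟩ := rfl

/-- `τ` is injective (a ring hom of fields). -/
theorem S33NT_tau_injective (τ₀ : Γ) (hnorm : ∀ σ ∈ H, τ₀⁻¹ * σ * τ₀ ∈ H) :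
    Function.Injective (S33NT_tau M p H τ₀ hnorm) :=
  (S33NT_tau M p H τ₀ hnorm).injective

/-! ### constants -/

theorem S33NT_const_coe (c : Ω) (hc : c ∈ (S36FI_act (M * p) H).fixK) :
    ((S33NX_const M p H c hc : S33NX_F M p H) : ↥(modularFunctionFieldBar (M * p))) =
      algebraMap Ω ↥(modularFunctionFieldBar (M * p)) c := rfl

/-- `τ (const c) = const (τ₀ c)`. -/
theorem S33NT_tau_const (τ₀ : Γ) (hnorm : ∀ σ ∈ H, τ₀⁻¹ * σ * τ₀ ∈ H)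
    (c : Ω) (hc : c ∈ (S36FI_act (M * p) H).fixK) :
    S33NT_tau M p H τ₀ hnorm (S33NX_const M p H c hc) =
      S33NX_const M p H (τ₀ c) (S33NT_fixK_of M p H τ₀ hnorm hc) := by
  apply Subtype.ext
  rw [S33NT_tau_coe, S33NT_const_coe, S33NT_const_coe]
  exact arithmeticRingAut_algebraMap _ τ₀ c

theorem S33NT_const_one (h1 : (1 : Ω) ∈ (S36FI_act (M * p) H).fixK) :
    S33NX_const M p H 1 h1 = 1 :=
  Subtype.ext (by rw [S33NT_const_coe, map_one]; rfl)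

theorem S33NT_const_zero (h0 : (0 : Ω) ∈ (S36FI_act (M * p) H).fixK) :
    S33NX_const M p H 0 h0 = 0 :=
  Subtype.ext (by rw [S33NT_const_coe, map_zero]; rfl)

theorem S33NT_const_natCast (n : ℕ) (hn : (n : Ω) ∈ (S36FI_act (M * p) H).fixK) :
    S33NX_const M p H (n : Ω) hn = (n : S33NX_F M p H) :=
  Subtype.ext (by rw [S33NT_const_coe, map_natCast]; push_cast; rfl)

theorem S33NT_const_add (a b : Ω) (ha : a ∈ (S36FI_act (M * p) H).fixK)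
    (hb : b ∈ (S36FI_act (M * p) H).fixK) (hab : a + b ∈ (S36FI_act (M * p) H).fixK) :
    S33NX_const M p H (a + b) hab = S33NX_const M p H a ha + S33NX_const M p H b hb :=
  Subtype.ext (by
    show algebraMap Ω ↥(modularFunctionFieldBar (M * p)) (a + b) = _
    rw [map_add]; rfl)

theorem S33NT_const_sub (a b : Ω) (ha : a ∈ (S36FI_act (M * p) H).fixK)
    (hb : b ∈ (S36FI_act (M * p) H).fixK) (hab : a - b ∈ (S36FI_act (M * p) H).fixK) :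
    S33NX_const M p H (a - b) hab = S33NX_const M p H a ha - S33NX_const M p H b hb :=
  Subtype.ext (by
    show algebraMap Ω ↥(modularFunctionFieldBar (M * p)) (a - b) = _
    rw [map_sub]; rfl)

theorem S33NT_const_mul (a b : Ω) (ha : a ∈ (S36FI_act (M * p) H).fixK)
    (hb : b ∈ (S36FI_act (M * p) H).fixK) (hab : a * b ∈ (S36FI_act (M * p) H).fixK) :
    S33NX_const M p H (a * b) hab = S33NX_const M p H a ha * S33NX_const M p H b hb :=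
  Subtype.ext (by
    show algebraMap Ω ↥(modularFunctionFieldBar (M * p)) (a * b) = _
    rw [map_mul]; rfl)

theorem S33NT_const_pow (a : Ω) (n : ℕ) (ha : a ∈ (S36FI_act (M * p) H).fixK)
    (han : a ^ n ∈ (S36FI_act (M * p) H).fixK) :
    S33NX_const M p H (a ^ n) han = S33NX_const M p H a ha ^ n :=
  Subtype.ext (by
    show algebraMap Ω ↥(modularFunctionFieldBar (M * p)) (a ^ n) = _
    rw [map_pow]; rfl)

end tau

/-! ### constants of `A` lie in the lattices -/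

section lattices

variable (M p : ℕ) [NeZero (M * p)] (hp : p.Prime) (hpM : ¬ p ∣ M)
  (A : ValuationSubring (AlgebraicClosure ℚ))
  (hgen : PrincipalGeneratedByIntegral A (IsLocalRing.residue A) (M * p))
  (H : Subgroup (AlgebraicClosure ℚ ≃ₐ[ℚ] AlgebraicClosure ℚ))

/-- a constant of `A` lies in `O₁`. -/
theorem S33NT_algebraMap_mem_O1 {c : Ω} (hcA : c ∈ A) :
    algebraMap Ω ↥(modularFunctionFieldBar (M * p)) c ∈ (S34M_T1 M p A hgen).O := by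
  rw [S34M_T1_O, S34DF_mem_O1]
  exact (S18_algebraMap_mem_O_iff A (M * p) c).2 hcA

/-- a constant of `A` lies in `O₂`. -/
theorem S33NT_algebraMap_mem_O2 {c : Ω} (hcA : c ∈ A) :
    algebraMap Ω ↥(modularFunctionFieldBar (M * p)) c ∈ (S34M_T2 M p hp hpM A hgen).O := by
  rw [S34M_T2_O, S34DF_mem_O2, AlgEquiv.commutes]
  exact (S18_algebraMap_mem_O_iff A (M * p) c).2 hcA

theorem S33NT_const_mem_O (c : Ω) (hc : c ∈ (S36FI_act (M * p) H).fixK) (hcA : c ∈ A)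
    (i : Fin 2) : S33NX_const M p H c hc ∈ S33NX_O M p hp hpM A hgen H i := by
  fin_cases i
  · exact (S33NX_mem_O_zero M p hp hpM A hgen H _).2 (S33NT_algebraMap_mem_O1 M p A hgen hcA)
  · exact (S33NX_mem_O_one M p hp hpM A hgen H _).2
      (S33NT_algebraMap_mem_O2 M p hp hpM A hgen hcA)

theorem S33NT_const_mem_Os (c : Ω) (hc : c ∈ (S36FI_act (M * p) H).fixK) (hcA : c ∈ A) :
    S33NX_const M p H c hc ∈ S33NX_Os M p hp hpM A hgen H :=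
  (S33NX_mem_Os M p hp hpM A hgen H _).2 (S33NT_const_mem_O M p hp hpM A hgen H c hc hcA)

theorem S33NT_const_mem_Lam (c : Ω) (hc : c ∈ (S36FI_act (M * p) H).fixK) (hcA : c ∈ A) :
    S33NX_const M p H c hc ∈ S33NX_Lam M p hp hpM A hgen H :=
  (S33NX_mem_Lam M p hp hpM A hgen H _).2
    ⟨S33NT_const_mem_Os M p hp hpM A hgen H c hc hcA, (S33NX_B M p).algebraMap_mem c⟩

theorem S33NT_const_mem_Lam' (c₀ : Ω) (c : Ω) (hc : c ∈ (S36FI_act (M * p) H).fixK)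
    (hcA : c ∈ A) : S33NX_const M p H c hc ∈ S33NX_Lam' M p hp hpM A hgen H c₀ :=
  (S33NX_mem_Lam' M p hp hpM A hgen H c₀ _).2
    ⟨S33NT_const_mem_Os M p hp hpM A hgen H c hc hcA, (S33NX_B' M p c₀).algebraMap_mem c⟩

theorem S33NT_const_mem_LL (c₀ : Ω) (c : Ω) (hc : c ∈ (S36FI_act (M * p) H).fixK)
    (hcA : c ∈ A) :
    S33NX_const M p H c hc ∈
      S33NX_Lam M p hp hpM A hgen H ⊓ S33NX_Lam' M p hp hpM A hgen H c₀ :=
  ⟨S33NT_const_mem_Lam M p hp hpM A hgen H c hc hcA,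
    S33NT_const_mem_Lam' M p hp hpM A hgen H c₀ c hc hcA⟩

/-! ### `hτlam` -/

/-- **`hτlam`, general form**: for any subring `Λ` of `F''` containing `const ζ`, and `ϖ` with
`const (ζ − 1) = ϖ · t`, `t ∈ Λ`: `τ lam = lam · (c + ϖ m)`, `m ∈ Λ`. -/
theorem S33NT_hτlam_gen (Λ : Subring (S33NX_F M p H)) (τ₀ : Γ)
    (hnorm : ∀ σ ∈ H, τ₀⁻¹ * σ * τ₀ ∈ H)
    (ζ : Ω) (hζ : ζ ∈ (S36FI_act (M * p) H).fixK) (hζΛ : S33NX_const M p H ζ hζ ∈ Λ)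
    (c : ℕ) (hτζ : τ₀ ζ = ζ ^ c) (ϖ lam : S33NX_F M p H)
    (hlamζ : (lam : ↥(modularFunctionFieldBar (M * p))) =
      algebraMap Ω ↥(modularFunctionFieldBar (M * p)) (ζ - 1))
    (hlamϖ : ∃ t ∈ Λ, lam = ϖ * t) :
    ∃ m ∈ Λ, S33NT_tau M p H τ₀ hnorm lam = lam * ((c : S33NX_F M p H) + ϖ * m) := by
  have hlam : lam = S33NX_const M p H ζ hζ - 1 := by
    apply Subtype.ext
    rw [hlamζ, map_sub, map_one]
    rfl
  have hτ : S33NT_tau M p H τ₀ hnorm (S33NX_const M p H ζ hζ) = S33NX_const M p H ζ hζ ^ c := by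
    rw [S33NT_tau_const]
    apply Subtype.ext
    show algebraMap Ω ↥(modularFunctionFieldBar (M * p)) (τ₀ ζ) = _
    rw [hτζ, map_pow]
    rfl
  rw [hlam] at hlamϖ ⊢
  exact S33N2_tau_lambda' Λ (S33NT_tau M p H τ₀ hnorm) (S33NX_const M p H ζ hζ) ϖ hζΛ hlamϖ c hτ

/-- **`hτlam` = part 1 of `S33NX_TTau`**, with the constants in the shape of `S33NX_rat`:
`lam = const (ζ − 1) = ϖ ^ e₀ · ε`, `0 < e₀`, `ϖ, ε ∈ Λ''_U ⊓ Λ''_U'`, `ζ ^ p = 1`,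
`τ₀ ζ = ζ ^ c`. -/
theorem S33NT_hτlam (τ₀ : Γ) (hnorm : ∀ σ ∈ H, τ₀⁻¹ * σ * τ₀ ∈ H)
    (ζ : Ω) (hζp : ζ ^ p = 1) (hζ : ζ ∈ (S36FI_act (M * p) H).fixK)
    (c : ℕ) (hτζ : τ₀ ζ = ζ ^ c) (c₀ : Ω) (ϖ lam ε : S33NX_F M p H) (e₀ : ℕ) (he₀ : 0 < e₀)
    (hϖ : ϖ ∈ S33NX_Lam M p hp hpM A hgen H ⊓ S33NX_Lam' M p hp hpM A hgen H c₀)
    (hε : ε ∈ S33NX_Lam M p hp hpM A hgen H ⊓ S33NX_Lam' M p hp hpM A hgen H c₀)
    (hlamζ : (lam : ↥(modularFunctionFieldBar (M * p))) =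
      algebraMap Ω ↥(modularFunctionFieldBar (M * p)) (ζ - 1))
    (hlam : lam = ϖ ^ e₀ * ε) :
    ∃ m ∈ S33NX_Lam M p hp hpM A hgen H ⊓ S33NX_Lam' M p hp hpM A hgen H c₀,
      S33NT_tau M p H τ₀ hnorm lam = lam * ((c : S33NX_F M p H) + ϖ * m) := by
  have hζA : ζ ∈ A := S19TE_root_mem A hp.pos hζp
  obtain ⟨j, hj⟩ : ∃ j, e₀ = j + 1 := ⟨e₀ - 1, by omega⟩
  refine S33NT_hτlam_gen M p H _ τ₀ hnorm ζ hζ
    (S33NT_const_mem_LL M p hp hpM A hgen H c₀ ζ hζ hζA) c hτζ ϖ lam hlamζ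
    ⟨ϖ ^ j * ε, Subring.mul_mem _ (Subring.pow_mem _ hϖ _) hε, ?_⟩
  rw [hlam, hj, pow_succ]
  ring

/-- **`S33NX_TTau`** from `S33NT_hτlam` (TAU) and the three congruences (N-LA). -/
theorem S33NT_TTau (τ₀ : Γ) (hnorm : ∀ σ ∈ H, τ₀⁻¹ * σ * τ₀ ∈ H)
    (ζ : Ω) (hζp : ζ ^ p = 1) (hζ : ζ ∈ (S36FI_act (M * p) H).fixK)
    (c : ℕ) (hτζ : τ₀ ζ = ζ ^ c) (c₀ : Ω) (ϖ lam ε : S33NX_F M p H) (e₀ : ℕ) (he₀ : 0 < e₀)
    (hϖ : ϖ ∈ S33NX_Lam M p hp hpM A hgen H ⊓ S33NX_Lam' M p hp hpM A hgen H c₀)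
    (hε : ε ∈ S33NX_Lam M p hp hpM A hgen H ⊓ S33NX_Lam' M p hp hpM A hgen H c₀)
    (hlamζ : (lam : ↥(modularFunctionFieldBar (M * p))) =
      algebraMap Ω ↥(modularFunctionFieldBar (M * p)) (ζ - 1))
    (hlam : lam = ϖ ^ e₀ * ε)
    (hτOs : ∀ a ∈ S33NX_Os M p hp hpM A hgen H, ∃ l ∈ S33NX_Os M p hp hpM A hgen H,
      S33NT_tau M p H τ₀ hnorm a - a = ϖ * l)
    (hτΛ : ∀ a ∈ S33NX_Lam M p hp hpM A hgen H, ∃ l ∈ S33NX_Lam M p hp hpM A hgen H,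
      S33NT_tau M p H τ₀ hnorm a - a = ϖ * l)
    (hτΛ' : ∀ a ∈ S33NX_Lam' M p hp hpM A hgen H c₀,
      ∃ l ∈ S33NX_Lam' M p hp hpM A hgen H c₀, S33NT_tau M p H τ₀ hnorm a - a = ϖ * l) :
    S33NX_TTau M p hp hpM A hgen H ϖ lam c₀ (S33NT_tau M p H τ₀ hnorm) c :=
  ⟨S33NT_hτlam M p hp hpM A hgen H τ₀ hnorm ζ hζp hζ c hτζ c₀ ϖ lam ε e₀ he₀ hϖ hε hlamζ hlam,
    hτOs, hτΛ, hτΛ'⟩

end lattices

/-! ### the choice of `τ₀` -/

/-- **the choice of `τ₀`** (`p` odd): some `τ₀ ∈ I` acts on `ζ` by `ζ ↦ ζ ^ c`, `c = p − 1`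
(so `p ∤ c − 1`), and `c + 1 = p · 1`. -/
theorem S33NT_exists_tau0 {p : ℕ} [hp : Fact p.Prime] (hp2 : p ≠ 2)
    (A : ValuationSubring Ω) (hA : A.LiesOverPrime p) {ζ : Ω} (hprim : IsPrimitiveRoot ζ p) :
    ∃ τ₀ ∈ A.inertiaSubgroupIn ℚ, ∃ c c' k : ℕ, ¬ (p : ℤ) ∣ (c : ℤ) - 1 ∧ c + c' = p * k ∧
      τ₀ ζ = ζ ^ c := by
  haveI : NeZero p := ⟨hp.out.ne_zero⟩
  obtain ⟨τ, hτ⟩ := S36BL_chi_surjective A hA hprim (-1)
  have hspec := S36BL_chi_spec A hprim τ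
  rw [hτ] at hspec
  have h3 : 3 ≤ p := by
    have := hp.out.two_le
    omega
  have hval : (((-1 : (ZMod p)ˣ) : (ZMod p)ˣ) : ZMod p).val = p - 1 := by
    rw [Units.val_neg, Units.val_one]
    haveI : Fact (1 < p) := ⟨hp.out.one_lt⟩
    rw [ZMod.neg_val, ZMod.val_one]
    have h10 : (1 : ZMod p) ≠ 0 := one_ne_zero
    rw [if_neg h10]
  rw [hval] at hspec
  refine ⟨(τ : Γ), τ.2, p - 1, 1, 1, ?_, by omega, hspec.symm⟩
  rintro ⟨k, hk⟩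
  have h4 : ((p - 1 : ℕ) : ℤ) = (p : ℤ) - 1 := by
    rw [Nat.cast_sub hp.out.one_le]
    simp
  rw [h4] at hk
  have h5 : (p : ℤ) ∣ 2 := ⟨1 - k, by linear_combination -hk⟩
  have h6 : p ∣ 2 := by exact_mod_cast h5
  have := Nat.le_of_dvd (by norm_num) h6
  omega

end Fermat.Agent.S33
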