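import Fermat.Agent.S33.NewFront
import Fermat.Agent.S33.NewChoice
import Fermat.Agent.S33.NewGeoWire
import Fermat.Agent.S33.NewNormTriv
import Fermat.Agent.S33.NewTau
import Fermat.Agent.S33.NewLift
import Fermat.Agent.S33.NewFrobZ
import Fermat.Agent.S33.NewStartC0
import Fermat.Agent.S33.NewStartRat
import Fermat.Agent.S33.BaseDisc
import Fermat.Agent.S33.NewLatT
import Fermat.Agent.S33.NewLocNE

/-!
# TRACK 11 (S33), package BACK (helper16): the wire of NEW33 — CORE from the leaves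

Level `M * p` (`p ∤ M`, `p` odd), `A` a place of `ℚ̄` over `p`, `I` its inertia group, data
`(τ₀, c, c', k, ζ)` (`S33NFR_Data`).  Prefix `S33NW_`.

The wire: for a normalised Kummer generator `u` of exponent `p` with trivial norms,
1. NORM-TRIV (`S33NV_exists`): `N₁₂ u = h₁ ^ p`, `N₂₁ u = h₂ ^ p`;
2. GEO-WIRE (`S33GW_main'`) gives the finite set `bad` of residues, START (`S33NS_main_c₀`) the
   chart constant `c₀ ∈ A`, fixed by `I`, `c̄₀ ∉ bad`, and the trivialisations `f₁`, `f₁'` of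
   depth `1` on `U`, `U' = {j ≠ c₀}`;
3. CHOICE (`S33NC_exists`): `H ≤ I` fixing `u, f₁, f₁', h₁, h₂, ζ`, the uniformiser `ϖ₀`, `e₀`;
4. the targets: `TDV` (V-DISC), `TSat`, `TSat'`, `TTau` 2–4 (N-LA, leaf `S33NW_LeafLat`),
   `TFrob` (`S33LF_TFrob`), `TFrob'` (`S33NFZ_TFrob'`), `TN0` (`S33N0B_TN0_fin`, leaves
   `S33N0B_NE1`, `S33N0B_NE2`), `hstart`, `hstart'` (`S33NSR_hstart`, `S33NSR_hstart'`),
   `TTau` (`S33NT_TTau`);
5. the rational part `S33NC_rat` (= `S33NX_rat` with the constants plugged in);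
6. GEO-WIRE: `τ₀ u · (u ^ c)⁻¹` is a trivial Kummer generator.

* `S33NW_LeafLat`       : the leaf (N-LA) in the shape the wire consumes;
* `S33NW_leafLat`       : the leaf (N-LA) holds (helper7, `S33/NewLatT.lean`);
* `S33NW_core_of_leaves`: **CORE** (`S33NFR_Core`) from the leaves (N-LA), (NE₁), (NE₂);
* `S33NW_core_of_NE`    : **CORE** from the leaves (NE₁), (NE₂) only;
* `S33NW_core`          : **CORE**, unconditionally (`S33NEZ_NE1`, `S33NEZ_NE2`).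
-/

set_option autoImplicit false
set_option linter.style.haveILetI false
set_option linter.style.longLine false
set_option linter.unusedSectionVars false
set_option linter.unusedVariables false
set_option synthInstance.maxHeartbeats 400000
set_option maxHeartbeats 1000000

open AlgebraicCurve ModularCurve IntermediateField

noncomputable section

namespace Fermat.Agent.S33

open Fermat.Agent.S17 Fermat.Agent.S18 Fermat.Agent.S19 Fermat.Agent.S24 Fermat.Agent.S34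
  Fermat.Agent.S35 Fermat.Agent.S36 Fermat.Agent.S37 Fermat.Agent.GalRep

local notation "Ω" => AlgebraicClosure ℚ
local notation "Γ" => (AlgebraicClosure ℚ ≃ₐ[ℚ] AlgebraicClosure ℚ)

section leaf

variable (M p : ℕ) [NeZero (M * p)] (hp : p.Prime) (hpM : ¬ p ∣ M)
  (A : ValuationSubring Ω) (hA : A.LiesOverPrime p)
  (hgen : PrincipalGeneratedByIntegral A (IsLocalRing.residue A) (M * p))

/-- **the leaf (N-LA)** in the shape the wire consumes: for `H ≤ I` with a uniformiser `ϖ₀` of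
`A ∩ Ω^H` and a chart constant `c₀ ∈ A` fixed by `I`: saturation of `Λ''_U`, `Λ''_U'` and the
triviality modulo `ϖ` of every `τ` induced by an element of `I`. -/
def S33NW_LeafLat : Prop :=
  ∀ (H : Subgroup Γ), H ≤ A.inertiaSubgroupIn ℚ →
    ∀ (ϖ₀ : Ω) (_ : S33NL2_Unif A H ϖ₀) (hϖ : ϖ₀ ∈ (S36FI_act (M * p) H).fixK)
      (c₀ : Ω), c₀ ∈ A → (∀ τ ∈ A.inertiaSubgroupIn ℚ, τ c₀ = c₀) →
    S33NX_TSat M p hp hpM A hgen H (S33NX_const M p H ϖ₀ hϖ) ∧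
    S33NX_TSat' M p hp hpM A hgen H (S33NX_const M p H ϖ₀ hϖ) c₀ ∧
    ∀ (τ₀ : Γ), τ₀ ∈ A.inertiaSubgroupIn ℚ → ∀ (τ : S33NX_F M p H →+* S33NX_F M p H),
      (∀ x : S33NX_F M p H, ((τ x : S33NX_F M p H) : ↥(modularFunctionFieldBar (M * p))) =
        GR_gal (M * p) τ₀ (x : ↥(modularFunctionFieldBar (M * p)))) →
      (∀ a ∈ S33NX_Os M p hp hpM A hgen H, ∃ l ∈ S33NX_Os M p hp hpM A hgen H,
        τ a - a = S33NX_const M p H ϖ₀ hϖ * l) ∧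
      (∀ a ∈ S33NX_Lam M p hp hpM A hgen H, ∃ l ∈ S33NX_Lam M p hp hpM A hgen H,
        τ a - a = S33NX_const M p H ϖ₀ hϖ * l) ∧
      (∀ a ∈ S33NX_Lam' M p hp hpM A hgen H c₀, ∃ l ∈ S33NX_Lam' M p hp hpM A hgen H c₀,
        τ a - a = S33NX_const M p H ϖ₀ hϖ * l)

include hA in
/-- **the leaf (N-LA) holds** (helper7: `S33NL2_TSat`, `S33NL2_TSat'`, `S33NL2_TTau_Os`,
`S33NL2_TTau_Lam`, `S33NL2_TTau_Lam'`). -/
theorem S33NW_leafLat : S33NW_LeafLat M p hp hpM A hgen := by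
  intro H hH ϖ₀ hU hϖ c₀ hc₀A hc₀
  refine ⟨S33NL2_TSat M p hp hpM A hgen H ϖ₀ hϖ hU.ne_zero,
    S33NL2_TSat' M p hp hpM A hgen H ϖ₀ hϖ hU.ne_zero c₀, ?_⟩
  intro τ₀ hτ₀ τ hτ
  exact ⟨S33NL2_TTau_Os M p hp hpM A hgen H hA hU hϖ τ₀ hτ₀ τ hτ,
    S33NL2_TTau_Lam M p hp hpM A hgen H hA hU hϖ τ₀ hτ₀ τ hτ,
    S33NL2_TTau_Lam' M p hp hpM A hgen H hA hU hϖ τ₀ hτ₀ τ hτ c₀ (hc₀ τ₀ hτ₀)⟩

end leaf

section wire

variable (M p : ℕ) [NeZero M] [NeZero p] [NeZero (M * p)] (hp : p.Prime) (hpM : ¬ p ∣ M)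

/-- **the wire of NEW33, for one `u`**. -/
theorem S33NW_wire (hp2 : p ≠ 2) (A : ValuationSubring Ω) (hA : A.LiesOverPrime p)
    (hgen : PrincipalGeneratedByIntegral A (IsLocalRing.residue A) (M * p))
    (τ₀ : GQ) (c c' k : ℕ) (ζ : Ω) (hD : S33NFR_Data p A τ₀ c c' k ζ)
    (hNE₁ : S33N0B_NE1 M p hp hpM A hgen (S33N0B_N12 M p hp hpM))
    (hNE₂ : S33N0B_NE2 M p hp hpM A hgen (S33N0B_N21 M p hp))
    (hLat : S33NW_LeafLat M p hp hpM A hgen)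
    (u : ↥(modularFunctionFieldBar (M * p))) (hu : u ∈ S34M_Kp M p hp hpM A hgen p)
    (hα : GR_IsTriv M p (S35B_NA M p u)) (hβ : GR_IsTriv M p (S35B_NB M p u)) :
    GR_IsTriv (M * p) p (GR_gal (M * p) τ₀ u * (u ^ c)⁻¹) := by
  classical
  obtain ⟨hτ₀, hprim, hτζ, -, hcc⟩ := hD
  -- 1. NORM-TRIV
  obtain ⟨h₁, h₂, -, -, hh₁, hh₂⟩ := S33NV_exists M p hp hpM u hα hβ
  -- 2. the bad set of GEO-WIRE, the chart constant `c₀` and START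
  obtain ⟨bad, hbad⟩ := S33GW_main' M p hp hpM A hgen hA
  obtain ⟨c₀, hc₀fix, hc₀bad, hstart⟩ :=
    S33NS_main_c₀ M p hp hpM A hgen hA hp.pos 1 (pow_one p).symm bad
  obtain ⟨⟨f₁, hf₁1, hf₁2, hrf₁1, hrf₁2, hreg⟩, ⟨f₁', hf₁'1, hf₁'2, hrf₁'1, hrf₁'2, hreg'⟩⟩ :=
    hstart u hu
  -- 3. CHOICE
  obtain ⟨H, ϖ₀, e₀, hC⟩ := S33NC_exists M p hp A hA
    ({u, f₁, f₁', h₁, h₂} : Finset ↥(modularFunctionFieldBar (M * p))) ∅ hprim
  have huH : u ∈ (S36FI_act (M * p) H).fixF := hC.fs_mem u (by simp)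
  have hf₁H : f₁ ∈ (S36FI_act (M * p) H).fixF := hC.fs_mem f₁ (by simp)
  have hf₁'H : f₁' ∈ (S36FI_act (M * p) H).fixF := hC.fs_mem f₁' (by simp)
  have hh₁H : h₁ ∈ (S36FI_act (M * p) H).fixF := hC.fs_mem h₁ (by simp)
  have hh₂H : h₂ ∈ (S36FI_act (M * p) H).fixF := hC.fs_mem h₂ (by simp)
  -- the uniformiser as an element of `A`
  obtain ⟨ϖA, ε₀, hϖA, hϖnu, hϖ0, hpe⟩ :=
    S33BD_hpe A hC.varpi_ne hC.varpi_lt ((p - 1) * e₀) hC.val_p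
  subst hϖA
  -- 4. the targets
  have hDV := hC.TDV hp hpM hA hgen
  obtain ⟨hsat, hsat', hτ234⟩ := hLat H hC.le (ϖA : Ω) hC.unif hC.varpi_mem (c₀ : Ω) c₀.2 hc₀fix
  have hFrob := S33LF_TFrob M p hp hpM A hA hgen H hC.le _ hDV hsat
  have hFrob' := S33NFZ_TFrob' M p hp hpM A hA hgen H hC.le (c₀ : Ω) c₀.2 hc₀fix _ hDV hsat'
  have hN0 : S33NX_TN0 M p hp hpM A hgen H (S33NX_const M p H (ϖA : Ω) hC.varpi_mem) ⟨u, huH⟩ :=
    S33N0B_TN0_fin M p hp hpM A hgen H hA hNE₁ hNE₂ hC.unif ⟨u, huH⟩ ⟨h₁, hh₁H⟩ ⟨h₂, hh₂H⟩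
      hu.2 hh₁ hh₂
  -- `u` is integral with reduction `1` at both components
  obtain ⟨hu12, hured⟩ := hu.2
  have hur1 : (S34M_T1 M p A hgen).red ⟨u, hu12.1⟩ = 1 := by
    have := congrArg Prod.fst hured
    rwa [S34P_red_fst] at this
  have hur2 : (S34M_T2 M p hp hpM A hgen).red ⟨u, hu12.2⟩ = 1 := by
    have := congrArg Prod.snd hured
    rwa [S34P_red_snd] at this
  have hst := S33NSR_hstart M p hp hpM A hgen H _ hDV hsat ⟨u, huH⟩ ⟨f₁, hf₁H⟩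
    hf₁1 hf₁2 hu12.1 hu12.2 hreg hrf₁1 hrf₁2 hur1 hur2
  have hst' := S33NSR_hstart' M p hp hpM A hgen H _ (c₀ : Ω) hDV hsat' ⟨u, huH⟩ ⟨f₁', hf₁'H⟩
    hf₁'1 hf₁'2 hu12.1 hu12.2 hreg' hrf₁'1 hrf₁'2 hur1 hur2
  -- `τ` and `TTau`
  have hnorm : ∀ σ ∈ H, τ₀⁻¹ * σ * τ₀ ∈ H :=
    S33NT_hnorm_of (A.inertiaSubgroupIn ℚ) H hC.normal τ₀ hτ₀
  obtain ⟨hτOs, hτΛ, hτΛ'⟩ := hτ234 τ₀ hτ₀ (S33NT_tau M p H τ₀ hnorm)
    (fun x => S33NT_tau_coe M p H τ₀ hnorm x)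
  obtain ⟨ε, ε', hε, hε', hεε, hlam⟩ := hC.exists_eps hp hpM hgen
  have hTTau : S33NX_TTau M p hp hpM A hgen H (S33NX_const M p H (ϖA : Ω) hC.varpi_mem)
      (S33NX_const M p H (ζ - 1) hC.lam_mem) (c₀ : Ω) (S33NT_tau M p H τ₀ hnorm) c :=
    S33NT_TTau M p hp hpM A hgen H τ₀ hnorm ζ hprim.pow_eq_one hC.zeta_mem c hτζ (c₀ : Ω)
      _ _ ε e₀ hC.e_pos (hC.hϖ hp hpM hgen (c₀ : Ω)) (hε (c₀ : Ω)) rfl hlam hτOs hτΛ hτΛ'
  -- 5. the rational part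
  have hrat := S33NC_rat M p hp hpM A hA hgen hp2 hC (c₀ : Ω) hsat hsat' hFrob hFrob'
    ⟨u, huH⟩ hN0 hst hst' (S33NT_tau M p H τ₀ hnorm) c c' k hcc hTTau
  -- 6. GEO-WIRE
  exact hbad c₀ hc₀bad ϖA hϖnu hϖ0 e₀ ε₀ hpe H hC.varpi_mem
    (S33NX_const M p H (ϖA : Ω) hC.varpi_mem) rfl ⟨u, huH⟩ hu τ₀ hτ₀
    (S33NT_tau M p H τ₀ hnorm) (fun x => S33NT_tau_coe M p H τ₀ hnorm x) c c' k hcc hrat

/-- **CORE from the leaves** (N-LA), (NE₁), (NE₂). -/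
theorem S33NW_core_of_leaves (hp2 : p ≠ 2) (A : ValuationSubring Ω) (hA : A.LiesOverPrime p)
    (τ₀ : GQ) (c c' k : ℕ) (ζ : Ω) (hD : S33NFR_Data p A τ₀ c c' k ζ)
    (hNE₁ : ∀ hgen : PrincipalGeneratedByIntegral A (IsLocalRing.residue A) (M * p),
      S33N0B_NE1 M p hp hpM A hgen (S33N0B_N12 M p hp hpM))
    (hNE₂ : ∀ hgen : PrincipalGeneratedByIntegral A (IsLocalRing.residue A) (M * p),
      S33N0B_NE2 M p hp hpM A hgen (S33N0B_N21 M p hp))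
    (hLat : ∀ hgen : PrincipalGeneratedByIntegral A (IsLocalRing.residue A) (M * p),
      S33NW_LeafLat M p hp hpM A hgen) :
    S33NFR_Core M p hp hpM A τ₀ c := by
  intro hgen u hu hα hβ
  exact S33NW_wire M p hp hpM hp2 A hA hgen τ₀ c c' k ζ hD (hNE₁ hgen) (hNE₂ hgen) (hLat hgen)
    u hu hα hβ

/-- **CORE from the leaves** (NE₁), (NE₂) only. -/
theorem S33NW_core_of_NE (hp2 : p ≠ 2) (A : ValuationSubring Ω) (hA : A.LiesOverPrime p)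
    (τ₀ : GQ) (c c' k : ℕ) (ζ : Ω) (hD : S33NFR_Data p A τ₀ c c' k ζ)
    (hNE₁ : ∀ hgen : PrincipalGeneratedByIntegral A (IsLocalRing.residue A) (M * p),
      S33N0B_NE1 M p hp hpM A hgen (S33N0B_N12 M p hp hpM))
    (hNE₂ : ∀ hgen : PrincipalGeneratedByIntegral A (IsLocalRing.residue A) (M * p),
      S33N0B_NE2 M p hp hpM A hgen (S33N0B_N21 M p hp)) :
    S33NFR_Core M p hp hpM A τ₀ c :=
  S33NW_core_of_leaves M p hp hpM hp2 A hA τ₀ c c' k ζ hD hNE₁ hNE₂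
    (fun hgen => S33NW_leafLat M p hp hpM A hA hgen)

/-- **CORE**: for every place `A` of `ℚ̄` over `p` and all data `(τ₀, c, c', k, ζ)`, for every
normalised Kummer generator `u` of exponent `p` with trivial norms, `τ₀ u · (u ^ c)⁻¹` is a
trivial Kummer generator. -/
theorem S33NW_core (hp2 : p ≠ 2) (A : ValuationSubring Ω) (hA : A.LiesOverPrime p)
    (τ₀ : GQ) (c c' k : ℕ) (ζ : Ω) (hD : S33NFR_Data p A τ₀ c c' k ζ) :
    S33NFR_Core M p hp hpM A τ₀ c :=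
  S33NW_core_of_NE M p hp hpM hp2 A hA τ₀ c c' k ζ hD
    (fun hgen => S33NEZ_NE1 M p hp hpM A hA hgen)
    (fun hgen => S33NEZ_NE2 M p hp hpM A hA hgen)

end wire

end Fermat.Agent.S33
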