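import Mathlib

/-!
# TRACK 11 (S33), package ALG33, abstract core (helper18) — Mathlib only

`T` a Noetherian local ring, `V` a finite `T`-module with an action `ρ` of a group `G`,
`I ≤ G` ("inertia"), `τ₀ ∈ I` with `ρ τ₀ v₀ = a • v₀`, `ρ τ₀ v₁ = b • v₁`, `V = T v₀ + T v₁`,
`a - b` a unit.  `U := span {ρ σ v - v | σ ∈ I, v ∈ V}`.

* `S33A_core` : if `(σ - 1) V ⊆ T v₀ + 𝔪 V` for `σ ∈ I` (residual ordinarity) and **(JH')** holds at
  every finite level `K` (every `I`-stable submodule `Y` with `𝔪^K V ≤ Y ≤ U + 𝔪^K V` satisfies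
  `Y ≤ span {σ y - y | σ ∈ I, y ∈ Y} + 𝔪^K V`), then `(σ - 1) V ⊆ T v₀` for all `σ ∈ I`.
* `S33A_core_eq` : if moreover `a - 1` is a unit, then `U = T v₀`.
* `S33A_core_stable` : `U` is stable under every `δ` normalising `I`.
-/

set_option autoImplicit false
set_option linter.unusedSectionVars false

open IsLocalRing

namespace Fermat.Agent.S33

variable {T V G : Type*} [CommRing T] [AddCommGroup V] [Module T V] [Group G]
  (ρ : G →* Module.End T V) (I : Subgroup G)

/-- `U = Σ_{σ ∈ I} (σ - 1) V`. -/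
def S33A_U : Submodule T V :=
  Submodule.span T {w | ∃ σ ∈ I, ∃ v : V, w = ρ σ v - v}

/-- `Σ_{σ ∈ I} (σ - 1) Y`. -/
def S33A_UY (Y : Submodule T V) : Submodule T V :=
  Submodule.span T {w | ∃ σ ∈ I, ∃ y ∈ Y, w = ρ σ y - y}

theorem S33A_sub_mem_U {σ : G} (hσ : σ ∈ I) (v : V) : ρ σ v - v ∈ S33A_U ρ I :=
  Submodule.subset_span ⟨σ, hσ, v, rfl⟩

/-- `U` is stable under `I`. -/
theorem S33A_U_stable {τ : G} (hτ : τ ∈ I) {u : V} (hu : u ∈ S33A_U ρ I) :
    ρ τ u ∈ S33A_U ρ I := by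
  have h : ρ τ u = (ρ τ u - u) + u := by abel
  rw [h]
  exact add_mem (S33A_sub_mem_U ρ I hτ u) hu

/-- `U` is stable under every `δ` normalising `I`. -/
theorem S33A_core_stable {δ : G} (hδ : ∀ σ ∈ I, δ * σ * δ⁻¹ ∈ I) {u : V}
    (hu : u ∈ S33A_U ρ I) : ρ δ u ∈ S33A_U ρ I := by
  induction hu using Submodule.span_induction with
  | mem w hw =>
    obtain ⟨σ, hσ, v, rfl⟩ := hw
    have e : ρ δ (ρ σ v - v) = ρ (δ * σ * δ⁻¹) (ρ δ v) - ρ δ v := by
      rw [map_sub, ← Module.End.mul_apply, ← Module.End.mul_apply, ← map_mul, ← map_mul,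
        inv_mul_cancel_right]
    rw [e]
    exact S33A_sub_mem_U ρ I (hδ σ hσ) _
  | zero => rw [map_zero]; exact zero_mem _
  | add x y _ _ hx hy => rw [map_add]; exact add_mem hx hy
  | smul c x _ hx => rw [map_smul]; exact Submodule.smul_mem _ c hx

section core

variable [IsLocalRing T] [IsNoetherianRing T] [Module.Finite T V]

/-- a linear map sends `J • ⊤` into `J • ⊤`. -/
theorem S33A_map_smul_top (f : Module.End T V) (J : Ideal T) {x : V}
    (hx : x ∈ J • (⊤ : Submodule T V)) : f x ∈ J • (⊤ : Submodule T V) := by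
  induction hx using Submodule.smul_induction_on' with
  | smul r hr n _ =>
    rw [map_smul]
    exact Submodule.smul_mem_smul hr Submodule.mem_top
  | add x _ y _ hx hy =>
    rw [map_add]
    exact add_mem hx hy

/-- if `f V ⊆ J' V` then `f (J V) ⊆ (J * J') V`. -/
theorem S33A_map_smul_mul (f : Module.End T V) (J J' : Ideal T)
    (hf : ∀ v : V, f v ∈ J' • (⊤ : Submodule T V)) {x : V}
    (hx : x ∈ J • (⊤ : Submodule T V)) : f x ∈ (J * J') • (⊤ : Submodule T V) := by
  induction hx using Submodule.smul_induction_on' with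
  | smul r hr n _ =>
    rw [map_smul, mul_smul]
    exact Submodule.smul_mem_smul hr (hf n)
  | add x _ y _ hx hy =>
    rw [map_add]
    exact add_mem hx hy

/-- **the core of ALG33**. -/
theorem S33A_core (τ₀ : G) (hτ₀ : τ₀ ∈ I) (a b : T) (hab : IsUnit (a - b))
    (v₀ v₁ : V) (hspan : (⊤ : Submodule T V) ≤ Submodule.span T {v₀, v₁})
    (hv₀ : ρ τ₀ v₀ = a • v₀) (hv₁ : ρ τ₀ v₁ = b • v₁)
    (hres : ∀ σ ∈ I, ∀ v : V,
      ρ σ v - v ∈ Submodule.span T {v₀} ⊔ maximalIdeal T • (⊤ : Submodule T V))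
    (hJH : ∀ K : ℕ, ∀ Y : Submodule T V, (maximalIdeal T ^ K) • (⊤ : Submodule T V) ≤ Y →
      Y ≤ S33A_U ρ I ⊔ (maximalIdeal T ^ K) • (⊤ : Submodule T V) →
      (∀ σ ∈ I, ∀ y ∈ Y, ρ σ y ∈ Y) →
      Y ≤ S33A_UY ρ I Y ⊔ (maximalIdeal T ^ K) • (⊤ : Submodule T V)) :
    S33A_U ρ I ≤ Submodule.span T {v₀} := by
  obtain ⟨c, hc⟩ := hab.exists_left_inv
  -- the projector onto `T v₁` along `T v₀`
  set e : Module.End T V := c • (a • (1 : Module.End T V) - ρ τ₀) with he
  have he_apply : ∀ v, e v = c • (a • v - ρ τ₀ v) := fun v => rfl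
  have hdecomp : ∀ v : V, ∃ c₀ c₁ : T, v = c₀ • v₀ + c₁ • v₁ := by
    intro v
    obtain ⟨c₀, c₁, h⟩ := Submodule.mem_span_pair.mp (hspan (Submodule.mem_top : v ∈ ⊤))
    exact ⟨c₀, c₁, h.symm⟩
  have he0 : e v₀ = 0 := by
    rw [he_apply, hv₀, sub_self, smul_zero]
  have he1 : e v₁ = v₁ := by
    rw [he_apply, hv₁, ← sub_smul, smul_smul, hc, one_smul]
  have hee : ∀ v, e (e v) = e v := by
    intro v
    obtain ⟨c₀, c₁, rfl⟩ := hdecomp v
    simp only [map_add, map_smul, he0, he1, smul_zero, zero_add]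
  have hev : ∀ v, v - e v ∈ Submodule.span T {v₀} := by
    intro v
    obtain ⟨c₀, c₁, rfl⟩ := hdecomp v
    simp only [map_add, map_smul, he0, he1, smul_zero, zero_add, add_sub_cancel_right]
    exact Submodule.smul_mem _ _ (Submodule.mem_span_singleton_self v₀)
  have he_span : ∀ x ∈ Submodule.span T {v₀}, e x = 0 := by
    intro x hx
    obtain ⟨r, rfl⟩ := Submodule.mem_span_singleton.mp hx
    rw [map_smul, he0, smul_zero]
  have heU : ∀ u ∈ S33A_U ρ I, e u ∈ S33A_U ρ I := by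
    intro u hu
    rw [he_apply]
    exact Submodule.smul_mem _ _ (sub_mem (Submodule.smul_mem _ _ hu) (S33A_U_stable ρ I hτ₀ hu))
  -- `e ∘ (σ - 1)` maps `V` into `𝔪 V`
  have hg : ∀ σ ∈ I, ∀ v : V,
      (e ∘ₗ (ρ σ - 1)) v ∈ maximalIdeal T • (⊤ : Submodule T V) := by
    intro σ hσ v
    have h1 := hres σ hσ v
    obtain ⟨x, hx, y, hy, hxy⟩ := Submodule.mem_sup.mp h1
    show e ((ρ σ - 1) v) ∈ _
    rw [LinearMap.sub_apply, Module.End.one_apply, ← hxy, map_add, he_span x hx, zero_add]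
    exact S33A_map_smul_top e _ hy
  -- the induction
  have key : ∀ K i : ℕ, ∀ u ∈ S33A_U ρ I,
      e u ∈ (maximalIdeal T ^ i) • (⊤ : Submodule T V) ⊔
        (maximalIdeal T ^ K) • (⊤ : Submodule T V) := by
    intro K i
    induction i with
    | zero =>
      intro u _
      rw [pow_zero, Ideal.one_eq_top, Submodule.top_smul]
      exact Submodule.mem_sup_left Submodule.mem_top
    | succ i ih =>
      intro u hu
      set F : Submodule T V := (S33A_U ρ I ⊔ (maximalIdeal T ^ K) • (⊤ : Submodule T V)) ⊓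
        ((maximalIdeal T ^ i) • (⊤ : Submodule T V) ⊔
          (maximalIdeal T ^ K) • (⊤ : Submodule T V)) with hF
      have hstab : ∀ σ ∈ I, ∀ y ∈ F, ρ σ y ∈ F := by
        rintro σ hσ y ⟨hy1, hy2⟩
        refine ⟨?_, ?_⟩
        · obtain ⟨x, hx, z, hz, rfl⟩ := Submodule.mem_sup.mp hy1
          rw [map_add]
          exact Submodule.add_mem_sup (S33A_U_stable ρ I hσ hx) (S33A_map_smul_top _ _ hz)
        · obtain ⟨x, hx, z, hz, rfl⟩ := Submodule.mem_sup.mp hy2
          rw [map_add]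
          exact Submodule.add_mem_sup (S33A_map_smul_top _ _ hx) (S33A_map_smul_top _ _ hz)
      have hFy : e u ∈ F :=
        ⟨Submodule.mem_sup_left (heU u hu), ih u hu⟩
      have h2 := hJH K F (le_inf le_sup_right le_sup_right) inf_le_left hstab hFy
      -- `e` maps `UY F + 𝔪^K V` into `𝔪^(i+1) V + 𝔪^K V`
      have hmap1 : ∀ x₁ ∈ S33A_UY ρ I F,
          e x₁ ∈ (maximalIdeal T ^ (i + 1)) • (⊤ : Submodule T V) ⊔
            (maximalIdeal T ^ K) • (⊤ : Submodule T V) := by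
        intro x₁ hx₁
        induction hx₁ using Submodule.span_induction with
        | mem w hw =>
          obtain ⟨σ, hσ, y, hy, rfl⟩ := hw
          obtain ⟨y₁, hy₁, y₂, hy₂, rfl⟩ := Submodule.mem_sup.mp hy.2
          have e1 : e (ρ σ (y₁ + y₂) - (y₁ + y₂)) =
              (e ∘ₗ (ρ σ - 1)) y₁ + (e ∘ₗ (ρ σ - 1)) y₂ := by
            simp only [LinearMap.comp_apply, LinearMap.sub_apply, Module.End.one_apply, map_add,
              map_sub]
            abel
          rw [e1]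
          refine Submodule.add_mem_sup ?_ (S33A_map_smul_top _ _ hy₂)
          have h3 := S33A_map_smul_mul (e ∘ₗ (ρ σ - 1)) (maximalIdeal T ^ i) (maximalIdeal T)
            (hg σ hσ) hy₁
          rwa [← pow_succ] at h3
        | zero => rw [map_zero]; exact zero_mem _
        | add x y _ _ hx hy => rw [map_add]; exact add_mem hx hy
        | smul r x _ hx => rw [map_smul]; exact Submodule.smul_mem _ r hx
      have hmap : ∀ x ∈ S33A_UY ρ I F ⊔ (maximalIdeal T ^ K) • (⊤ : Submodule T V),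
          e x ∈ (maximalIdeal T ^ (i + 1)) • (⊤ : Submodule T V) ⊔
            (maximalIdeal T ^ K) • (⊤ : Submodule T V) := by
        intro x hx
        obtain ⟨x₁, hx₁, x₂, hx₂, rfl⟩ := Submodule.mem_sup.mp hx
        rw [map_add]
        exact add_mem (hmap1 x₁ hx₁) (Submodule.mem_sup_right (S33A_map_smul_top e _ hx₂))
      have h3 := hmap _ h2
      rwa [hee] at h3
  intro u hu
  have h0 : e u = 0 := by
    have h1 : e u ∈ (⨅ K : ℕ, (maximalIdeal T ^ K) • (⊤ : Submodule T V)) := by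
      rw [Submodule.mem_iInf]
      intro K
      have := key K K u hu
      rwa [sup_idem] at this
    rw [Ideal.iInf_pow_smul_eq_bot_of_isLocalRing (maximalIdeal T)
      (Ideal.IsMaximal.ne_top inferInstance)] at h1
    exact (Submodule.mem_bot T).mp h1
  have := hev u
  rwa [h0, sub_zero] at this

/-- if moreover `a - 1` is a unit, then `U = T v₀`. -/
theorem S33A_core_eq (τ₀ : G) (hτ₀ : τ₀ ∈ I) (a : T) (ha1 : IsUnit (a - 1))
    (v₀ : V) (hv₀ : ρ τ₀ v₀ = a • v₀) (hU : S33A_U ρ I ≤ Submodule.span T {v₀}) :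
    S33A_U ρ I = Submodule.span T {v₀} := by
  refine le_antisymm hU ?_
  rw [Submodule.span_singleton_le_iff_mem]
  obtain ⟨c, hc⟩ := ha1.exists_left_inv
  have h1 : ρ τ₀ v₀ - v₀ ∈ S33A_U ρ I := S33A_sub_mem_U ρ I hτ₀ v₀
  have h2 : c • (ρ τ₀ v₀ - v₀) = v₀ := by
    have h3 : a • v₀ - v₀ = (a - 1) • v₀ := by rw [sub_smul, one_smul]
    rw [hv₀, h3, smul_smul, hc, one_smul]
  rw [← h2]
  exact Submodule.smul_mem _ c h1

end core

end Fermat.Agent.S33
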