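import Fermat.Agent.S33.AlgCore

/-!
# TRACK 11 (S33), package ALG33, level step (helper18) — Mathlib only

Additive groups `X` with an action `a : G → X → X` of a group `G`, `I ≤ G`.
`S33A_aug a I Y = ⟨a σ y - y | σ ∈ I, y ∈ Y⟩`, `S33A_augTop a I = ⟨a σ x - x | σ ∈ I, x ∈ X⟩`.

`S33A_NT a I Z₀` : **(JH')** for `Z₀` — every `I`-stable subgroup `Y ≤ Z₀` satisfies `Y ≤ S33A_aug a I Y`
(equivalently: `Z₀` has no nonzero `I`-trivial subquotient).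

* `S33A_aug_ext`   : the extension step (one subgroup `Y`, an equivariant hom `f`).
* `S33A_NT_ext`    : (JH') is closed under extensions.
* `S33A_NT_pi`     : (JH') for `Z₀` implies (JH') for `Z₀^r ⊆ X^r`.
* `S33A_NT_comap`  : (JH') passes to sub-objects (injective equivariant hom).
* `S33A_NT_map`    : (JH') passes to quotients (equivariant hom, image of an `I`-stable `Z₀`).
* `S33A_level`     : F2-shape (`P ≤ X^r`, `φ : P ↠ V / 𝔞 V` equivariant) + (JH') for `S33A_augTop` on `X`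
                     ⇒ (JH') in `V`-terms at level `𝔞` (the hypothesis `hJH` of `S33A_core`/`S33A_mid`).
-/

set_option autoImplicit false
set_option linter.unusedSectionVars false

namespace Fermat.Agent.S33

section aug

variable {G X X' : Type*} [Group G] [AddCommGroup X] [AddCommGroup X']

/-- `⟨a σ y - y | σ ∈ I, y ∈ Y⟩`. -/
def S33A_aug (a : G → X → X) (I : Subgroup G) (Y : AddSubgroup X) : AddSubgroup X :=
  AddSubgroup.closure {w | ∃ σ ∈ I, ∃ y ∈ Y, w = a σ y - y}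

/-- `⟨a σ x - x | σ ∈ I, x ∈ X⟩`. -/
def S33A_augTop (a : G → X → X) (I : Subgroup G) : AddSubgroup X :=
  AddSubgroup.closure {w | ∃ σ ∈ I, ∃ x : X, w = a σ x - x}

/-- **(JH')** for `Z₀`. -/
def S33A_NT (a : G → X → X) (I : Subgroup G) (Z₀ : AddSubgroup X) : Prop :=
  ∀ Y : AddSubgroup X, Y ≤ Z₀ → (∀ σ ∈ I, ∀ y ∈ Y, a σ y ∈ Y) → Y ≤ S33A_aug a I Y

theorem S33A_aug_mono (a : G → X → X) (I : Subgroup G) {Y Y' : AddSubgroup X} (h : Y ≤ Y') :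
    S33A_aug a I Y ≤ S33A_aug a I Y' :=
  AddSubgroup.closure_mono (fun _ ⟨σ, hσ, y, hy, e⟩ => ⟨σ, hσ, y, h hy, e⟩)

theorem S33A_aug_le (a : G → X → X) (I : Subgroup G) {Y : AddSubgroup X}
    (hY : ∀ σ ∈ I, ∀ y ∈ Y, a σ y ∈ Y) : S33A_aug a I Y ≤ Y := by
  rw [S33A_aug, AddSubgroup.closure_le]
  rintro w ⟨σ, hσ, y, hy, rfl⟩
  exact Y.sub_mem (hY σ hσ y hy) hy

theorem S33A_aug_le_augTop (a : G → X → X) (I : Subgroup G) (Y : AddSubgroup X) :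
    S33A_aug a I Y ≤ S33A_augTop a I :=
  AddSubgroup.closure_mono (fun _ ⟨σ, hσ, y, _, e⟩ => ⟨σ, hσ, y, e⟩)

theorem S33A_augTop_stable (a : G → X → X) (I : Subgroup G) :
    ∀ σ ∈ I, ∀ u ∈ S33A_augTop a I, a σ u ∈ S33A_augTop a I := by
  intro σ hσ u hu
  have h : a σ u = (a σ u - u) + u := by abel
  rw [h]
  exact add_mem (AddSubgroup.subset_closure ⟨σ, hσ, u, rfl⟩) hu

theorem S33A_NT_mono (a : G → X → X) (I : Subgroup G) {Z₀ Z₁ : AddSubgroup X} (h : Z₁ ≤ Z₀)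
    (hNT : S33A_NT a I Z₀) : S33A_NT a I Z₁ :=
  fun Y hY hst => hNT Y (hY.trans h) hst

/-- the augmentation of an image is in the image of the augmentation. -/
theorem S33A_aug_map_le (a : G → X → X) (a' : G → X' → X') (I : Subgroup G) (f : X →+ X')
    (hf : ∀ σ ∈ I, ∀ x, f (a σ x) = a' σ (f x)) (Y : AddSubgroup X) :
    S33A_aug a' I (Y.map f) ≤ (S33A_aug a I Y).map f := by
  rw [S33A_aug, AddSubgroup.closure_le]
  rintro w ⟨σ, hσ, y', ⟨y, hy, rfl⟩, rfl⟩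
  exact ⟨a σ y - y, AddSubgroup.subset_closure ⟨σ, hσ, y, hy, rfl⟩, by rw [map_sub, hf σ hσ]⟩

/-- the image of the augmentation is in the augmentation of the image. -/
theorem S33A_map_aug_le (a : G → X → X) (a' : G → X' → X') (I : Subgroup G) (f : X →+ X')
    (hf : ∀ σ ∈ I, ∀ x, f (a σ x) = a' σ (f x)) (Y : AddSubgroup X) :
    (S33A_aug a I Y).map f ≤ S33A_aug a' I (Y.map f) := by
  rw [AddSubgroup.map_le_iff_le_comap, S33A_aug, AddSubgroup.closure_le]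
  rintro w ⟨σ, hσ, y, hy, rfl⟩
  show f (a σ y - y) ∈ S33A_aug a' I (Y.map f)
  rw [map_sub, hf σ hσ]
  exact AddSubgroup.subset_closure ⟨σ, hσ, f y, ⟨y, hy, rfl⟩, rfl⟩

/-- **extension step**: if `f Y` and `Y ∩ ker f` are their own augmentations, so is `Y`. -/
theorem S33A_aug_ext (a : G → X → X) (a' : G → X' → X') (I : Subgroup G) (f : X →+ X')
    (hf : ∀ σ ∈ I, ∀ x, f (a σ x) = a' σ (f x)) (Y : AddSubgroup X)
    (hY : ∀ σ ∈ I, ∀ y ∈ Y, a σ y ∈ Y)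
    (h1 : Y.map f ≤ S33A_aug a' I (Y.map f))
    (h2 : Y ⊓ f.ker ≤ S33A_aug a I (Y ⊓ f.ker)) : Y ≤ S33A_aug a I Y := by
  intro y hy
  obtain ⟨z, hz, hzy⟩ := S33A_aug_map_le a a' I f hf Y (h1 ⟨y, hy, rfl⟩)
  have hzY : z ∈ Y := S33A_aug_le a I hY hz
  have h3' : f (y - z) = 0 := by rw [map_sub, hzy, sub_self]
  have h3 : y - z ∈ Y ⊓ f.ker := ⟨Y.sub_mem hy hzY, h3'⟩
  have h4 := S33A_aug_mono a I (inf_le_left : Y ⊓ f.ker ≤ Y) (h2 h3)
  have e : y = z + (y - z) := by abel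
  rw [e]
  exact add_mem hz h4

/-- **(JH') is closed under extensions.** -/
theorem S33A_NT_ext (a : G → X → X) (a' : G → X' → X') (I : Subgroup G) (f : X →+ X')
    (hf : ∀ σ ∈ I, ∀ x, f (a σ x) = a' σ (f x)) (ha' : ∀ σ ∈ I, a' σ 0 = 0)
    (Z₀ : AddSubgroup X) (Z₀' : AddSubgroup X') (hZ : Z₀.map f ≤ Z₀')
    (h1 : S33A_NT a' I Z₀') (h2 : S33A_NT a I (Z₀ ⊓ f.ker)) : S33A_NT a I Z₀ := by
  intro Y hY hst
  refine S33A_aug_ext a a' I f hf Y hst ?_ ?_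
  · refine h1 _ ((AddSubgroup.map_mono hY).trans hZ) ?_
    rintro σ hσ _ ⟨y, hy, rfl⟩
    exact ⟨a σ y, hst σ hσ y hy, hf σ hσ y⟩
  · refine h2 _ (inf_le_inf_right _ hY) ?_
    rintro σ hσ y ⟨hy1, hy2⟩
    have hy3 : f y = 0 := hy2
    have hy4 : f (a σ y) = 0 := by rw [hf σ hσ, hy3, ha' σ hσ]
    exact ⟨hst σ hσ y hy1, hy4⟩

/-- **(JH') passes to sub-objects.** -/
theorem S33A_NT_comap (a' : G → X' → X') (a : G → X → X) (I : Subgroup G) (f : X' →+ X)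
    (hinj : Function.Injective f) (hf : ∀ σ ∈ I, ∀ x, f (a' σ x) = a σ (f x))
    (Z₀ : AddSubgroup X) (h : S33A_NT a I Z₀) (Z₀' : AddSubgroup X') (hZ : Z₀'.map f ≤ Z₀) :
    S33A_NT a' I Z₀' := by
  intro Y hY hst y hy
  have h1 : Y.map f ≤ S33A_aug a I (Y.map f) := by
    refine h _ ((AddSubgroup.map_mono hY).trans hZ) ?_
    rintro σ hσ _ ⟨y, hy, rfl⟩
    exact ⟨a' σ y, hst σ hσ y hy, hf σ hσ y⟩
  obtain ⟨z, hz, hzy⟩ := S33A_aug_map_le a' a I f hf Y (h1 ⟨y, hy, rfl⟩)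
  rwa [← hinj hzy]

/-- **(JH') passes to quotients.** -/
theorem S33A_NT_map (a : G → X → X) (a' : G → X' → X') (I : Subgroup G) (f : X →+ X')
    (hf : ∀ σ ∈ I, ∀ x, f (a σ x) = a' σ (f x))
    (Z₀ : AddSubgroup X) (hZ₀ : ∀ σ ∈ I, ∀ z ∈ Z₀, a σ z ∈ Z₀) (h : S33A_NT a I Z₀) :
    S33A_NT a' I (Z₀.map f) := by
  intro Y' hY' hst y' hy'
  have hYst : ∀ σ ∈ I, ∀ y ∈ Z₀ ⊓ Y'.comap f, a σ y ∈ Z₀ ⊓ Y'.comap f := by
    rintro σ hσ y ⟨hy1, hy2⟩
    refine ⟨hZ₀ σ hσ y hy1, ?_⟩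
    show f (a σ y) ∈ Y'
    rw [hf σ hσ]
    exact hst σ hσ _ hy2
  have hY := h (Z₀ ⊓ Y'.comap f) inf_le_left hYst
  obtain ⟨z, hz, rfl⟩ := hY' hy'
  have h1 : z ∈ Z₀ ⊓ Y'.comap f := ⟨hz, hy'⟩
  have h2 : f z ∈ (S33A_aug a I (Z₀ ⊓ Y'.comap f)).map f := ⟨z, hY h1, rfl⟩
  have h3 := S33A_map_aug_le a a' I f hf _ h2
  refine S33A_aug_mono a' I ?_ h3
  rintro _ ⟨y, ⟨_, hy2⟩, rfl⟩
  exact hy2

/-- **(JH') for `Z₀` implies (JH') for `Z₀^r`.** -/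
theorem S33A_NT_pi (a : G → X → X) (ha0 : ∀ σ, a σ 0 = 0) (I : Subgroup G)
    (Z₀ : AddSubgroup X) (h : S33A_NT a I Z₀) (r : ℕ) :
    S33A_NT (fun σ (x : Fin r → X) i => a σ (x i)) I
      (AddSubgroup.pi Set.univ (fun _ : Fin r => Z₀)) := by
  have key : ∀ j k : ℕ, k + j = r → ∀ Z : AddSubgroup (Fin r → X),
      Z ≤ AddSubgroup.pi Set.univ (fun _ : Fin r => Z₀) →
      (∀ σ ∈ I, ∀ z ∈ Z, (fun i => a σ (z i)) ∈ Z) →
      (∀ z ∈ Z, ∀ i : Fin r, i.val < k → z i = 0) →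
      Z ≤ S33A_aug (fun σ (x : Fin r → X) i => a σ (x i)) I Z := by
    intro j
    induction j with
    | zero =>
      intro k hk Z _ _ hz z hzZ
      have h0 : z = 0 := funext (fun i => hz z hzZ i (by have := i.2; omega))
      rw [h0]
      exact zero_mem _
    | succ j ih =>
      intro k hk Z hZle hZst hz
      have hkr : k < r := by omega
      refine S33A_aug_ext (fun σ (x : Fin r → X) i => a σ (x i)) a I
        (Pi.evalAddMonoidHom (fun _ : Fin r => X) ⟨k, hkr⟩) (fun σ _ x => rfl) Z hZst ?_ ?_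
      · refine h _ ?_ ?_
        · rintro _ ⟨z, hzZ, rfl⟩
          exact (AddSubgroup.mem_pi _).mp (hZle hzZ) ⟨k, hkr⟩ (Set.mem_univ _)
        · rintro σ hσ _ ⟨z, hzZ, rfl⟩
          exact ⟨fun i => a σ (z i), hZst σ hσ z hzZ, rfl⟩
      · refine ih (k + 1) (by omega) _ (inf_le_left.trans hZle) ?_ ?_
        · rintro σ hσ z ⟨hz1, hz2⟩
          have hz3 : z ⟨k, hkr⟩ = 0 := hz2
          have hz4 : a σ (z ⟨k, hkr⟩) = 0 := by rw [hz3, ha0]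
          exact ⟨hZst σ hσ z hz1, hz4⟩
        · rintro z ⟨hz1, hz2⟩ i hi
          rcases Nat.lt_succ_iff_lt_or_eq.mp hi with h' | h'
          · exact hz z hz1 i h'
          · have hi' : i = ⟨k, hkr⟩ := Fin.ext h'
            rw [hi']
            exact hz2
  exact fun Z hZ hst => key r 0 (by omega) Z hZ hst (fun z _ i hi => absurd hi (Nat.not_lt_zero _))

end aug

section level

variable {T V G X : Type*} [CommRing T] [AddCommGroup V] [Module T V] [Group G] [AddCommGroup X]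

/-- `ρ σ` preserves `𝔞 V`. -/
theorem S33A_le_comap (ρ : G →* Module.End T V) (𝔞 : Ideal T) (σ : G) :
    𝔞 • (⊤ : Submodule T V) ≤ (𝔞 • (⊤ : Submodule T V)).comap (ρ σ) := by
  rw [← Submodule.map_le_iff_le_comap, Submodule.map_smul'']
  exact Submodule.smul_mono le_rfl le_top

/-- **ALG33, level step**: F2-shape + (JH'-J) on `X` ⇒ (JH') in `V`-terms at level `𝔞`. -/
theorem S33A_level (ρ : G →* Module.End T V) (I : Subgroup G) (𝔞 : Ideal T)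
    (hρ : ∀ σ, 𝔞 • (⊤ : Submodule T V) ≤ (𝔞 • (⊤ : Submodule T V)).comap (ρ σ))
    (a : G → X → X) (ha0 : ∀ σ, a σ 0 = 0)
    (hJ : ∀ Y : AddSubgroup X, Y ≤ AddSubgroup.closure {w | ∃ σ ∈ I, ∃ x : X, w = a σ x - x} →
      (∀ σ ∈ I, ∀ y ∈ Y, a σ y ∈ Y) →
      Y ≤ AddSubgroup.closure {w | ∃ σ ∈ I, ∃ y ∈ Y, w = a σ y - y})
    {r : ℕ} (P : AddSubgroup (Fin r → X)) (hP : ∀ σ, ∀ x ∈ P, (fun i => a σ (x i)) ∈ P)
    (φ : ↥P →+ (V ⧸ (𝔞 • (⊤ : Submodule T V)))) (hφs : Function.Surjective φ)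
    (hφ : ∀ σ (x : ↥P), φ ⟨fun i => a σ (x.1 i), hP σ x.1 x.2⟩ =
      Submodule.mapQ _ _ (ρ σ) (hρ σ) (φ x)) :
    ∀ Y : Submodule T V, 𝔞 • (⊤ : Submodule T V) ≤ Y →
      Y ≤ S33A_U ρ I ⊔ 𝔞 • (⊤ : Submodule T V) →
      (∀ σ ∈ I, ∀ y ∈ Y, ρ σ y ∈ Y) →
      Y ≤ S33A_UY ρ I Y ⊔ 𝔞 • (⊤ : Submodule T V) := by
  -- the three actions
  set A : G → (Fin r → X) → (Fin r → X) := fun σ x i => a σ (x i) with hA
  set aP : G → ↥P → ↥P := fun σ x => ⟨fun i => a σ (x.1 i), hP σ x.1 x.2⟩ with haP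
  set aW : G → (V ⧸ (𝔞 • (⊤ : Submodule T V))) → (V ⧸ (𝔞 • (⊤ : Submodule T V))) :=
    fun σ w => Submodule.mapQ _ _ (ρ σ) (hρ σ) w with haW
  have hX : S33A_NT a I (S33A_augTop a I) := hJ
  have hXr : S33A_NT A I (AddSubgroup.pi Set.univ (fun _ : Fin r => S33A_augTop a I)) :=
    S33A_NT_pi a ha0 I _ hX r
  have hPle : (S33A_augTop aP I).map P.subtype ≤
      AddSubgroup.pi Set.univ (fun _ : Fin r => S33A_augTop a I) := by
    rw [AddSubgroup.map_le_iff_le_comap, S33A_augTop, AddSubgroup.closure_le]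
    rintro w ⟨σ, hσ, x, rfl⟩
    show (P.subtype (aP σ x - x)) ∈ AddSubgroup.pi Set.univ (fun _ : Fin r => S33A_augTop a I)
    rw [AddSubgroup.mem_pi]
    intro i _
    exact AddSubgroup.subset_closure ⟨σ, hσ, x.1 i, rfl⟩
  have hPNT : S33A_NT aP I (S33A_augTop aP I) :=
    S33A_NT_comap aP A I P.subtype Subtype.coe_injective (fun σ _ x => rfl) _ hXr _ hPle
  have hWNT0 : S33A_NT aW I ((S33A_augTop aP I).map φ) :=
    S33A_NT_map aP aW I φ (fun σ _ x => hφ σ x) _ (S33A_augTop_stable aP I) hPNT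
  have hWle : S33A_augTop aW I ≤ (S33A_augTop aP I).map φ := by
    rw [S33A_augTop, AddSubgroup.closure_le]
    rintro w ⟨σ, hσ, w', rfl⟩
    obtain ⟨x, rfl⟩ := hφs w'
    refine ⟨aP σ x - x, AddSubgroup.subset_closure ⟨σ, hσ, x, rfl⟩, ?_⟩
    rw [map_sub]
    exact congrArg (· - φ x) (hφ σ x)
  have hWNT : S33A_NT aW I (S33A_augTop aW I) := S33A_NT_mono aW I hWle hWNT0
  -- `augTop aW` is stable under scalars
  have hsmul : ∀ (t : T), ∀ w ∈ S33A_augTop aW I, t • w ∈ S33A_augTop aW I := by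
    intro t w hw
    induction hw using AddSubgroup.closure_induction with
    | mem w hw =>
      obtain ⟨σ, hσ, w', rfl⟩ := hw
      have e : t • (aW σ w' - w') = aW σ (t • w') - t • w' := by
        rw [smul_sub]
        show t • (Submodule.mapQ _ _ (ρ σ) (hρ σ) w') - t • w' =
          Submodule.mapQ _ _ (ρ σ) (hρ σ) (t • w') - t • w'
        rw [map_smul]
      rw [e]
      exact AddSubgroup.subset_closure ⟨σ, hσ, t • w', rfl⟩
    | zero => rw [smul_zero]; exact zero_mem _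
    | add x y _ _ hx hy => rw [smul_add]; exact add_mem hx hy
    | neg x _ hx => rw [smul_neg]; exact neg_mem hx
  have hqU : ∀ u ∈ S33A_U ρ I,
      (Submodule.Quotient.mk u : V ⧸ (𝔞 • (⊤ : Submodule T V))) ∈ S33A_augTop aW I := by
    intro u hu
    induction hu using Submodule.span_induction with
    | mem w hw =>
      obtain ⟨σ, hσ, v, rfl⟩ := hw
      exact AddSubgroup.subset_closure ⟨σ, hσ, Submodule.Quotient.mk v, rfl⟩
    | zero => exact zero_mem _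
    | add x y _ _ hx hy => exact add_mem hx hy
    | smul t x _ hx => exact hsmul t _ hx
  intro Y hY1 hY2 hYst y hy
  -- the image of `Y`
  set Y' : AddSubgroup (V ⧸ (𝔞 • (⊤ : Submodule T V))) :=
    (Y.map (Submodule.mkQ (𝔞 • (⊤ : Submodule T V)))).toAddSubgroup with hY'
  have hmemY' : ∀ y₁ ∈ Y, (Submodule.Quotient.mk y₁ : V ⧸ (𝔞 • (⊤ : Submodule T V))) ∈ Y' :=
    fun y₁ hy₁ => ⟨y₁, hy₁, rfl⟩
  have hY'le : Y' ≤ S33A_augTop aW I := by
    rintro _ ⟨y₁, hy₁, rfl⟩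
    obtain ⟨u, hu, m, hm, rfl⟩ := Submodule.mem_sup.mp (hY2 hy₁)
    have e : (Submodule.mkQ (𝔞 • (⊤ : Submodule T V))) (u + m) = Submodule.Quotient.mk u := by
      rw [map_add, Submodule.mkQ_apply, Submodule.mkQ_apply,
        (Submodule.Quotient.mk_eq_zero _).mpr hm, add_zero]
    rw [e]
    exact hqU u hu
  have hY'st : ∀ σ ∈ I, ∀ w ∈ Y', aW σ w ∈ Y' := by
    rintro σ hσ _ ⟨y₁, hy₁, rfl⟩
    exact hmemY' _ (hYst σ hσ y₁ hy₁)
  have h1 := hWNT Y' hY'le hY'st (hmemY' y hy)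
  have h2 : ∀ w ∈ S33A_aug aW I Y', ∃ u ∈ S33A_UY ρ I Y,
      (Submodule.Quotient.mk u : V ⧸ (𝔞 • (⊤ : Submodule T V))) = w := by
    intro w hw
    induction hw using AddSubgroup.closure_induction with
    | mem w hw =>
      obtain ⟨σ, hσ, _, ⟨y₁, hy₁, rfl⟩, rfl⟩ := hw
      exact ⟨ρ σ y₁ - y₁, Submodule.subset_span ⟨σ, hσ, y₁, hy₁, rfl⟩, rfl⟩
    | zero => exact ⟨0, zero_mem _, rfl⟩
    | add x y _ _ hx hy =>
      obtain ⟨u₁, hu₁, rfl⟩ := hx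
      obtain ⟨u₂, hu₂, rfl⟩ := hy
      exact ⟨u₁ + u₂, add_mem hu₁ hu₂, rfl⟩
    | neg x _ hx =>
      obtain ⟨u₁, hu₁, rfl⟩ := hx
      exact ⟨-u₁, neg_mem hu₁, rfl⟩
  obtain ⟨u, hu, huy⟩ := h2 _ h1
  have h3 : y - u ∈ 𝔞 • (⊤ : Submodule T V) := by
    rw [← Submodule.Quotient.mk_eq_zero, Submodule.Quotient.mk_sub, huy, sub_self]
  have e : y = u + (y - u) := by abel
  rw [e]
  exact Submodule.add_mem_sup hu h3

end level

end Fermat.Agent.S33
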