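import Fermat.Agent.S33.AlgCore

/-!
# TRACK 11 (S33), package ALG33, middle step (helper18) — Mathlib only

`T` a complete Noetherian local ring, `V` free of rank 2 with basis `x`, `I ≤ D ≤ G`, `I` normalised
by `D`.  If `(σ - 1) V ⊆ T x₀ + 𝔪 V` for `σ ∈ I`, some `τ₀ ∈ I` has `det (ρ τ₀) - 1` a unit, and (JH')
holds at every finite level, then there is a basis `b` of `V` with `T b₀` stable under `D` and
`(σ - 1) V ⊆ T b₀` for all `σ ∈ I`  (`S33A_mid`).
-/

set_option autoImplicit false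
set_option linter.unusedSectionVars false

open IsLocalRing Polynomial

namespace Fermat.Agent.S33

variable {T V G : Type*} [CommRing T] [AddCommGroup V] [Module T V] [Group G]

/-- the second coordinate of an element of `T x₀ + 𝔪 V` lies in `𝔪`. -/
theorem S33A_repr_one_mem [IsLocalRing T] (x : Module.Basis (Fin 2) T V) {w : V}
    (hw : w ∈ Submodule.span T {x 0} ⊔ maximalIdeal T • (⊤ : Submodule T V)) :
    x.repr w 1 ∈ maximalIdeal T := by
  have h2 : ∀ m ∈ maximalIdeal T • (⊤ : Submodule T V), x.repr m 1 ∈ maximalIdeal T := by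
    intro m hm
    induction hm using Submodule.smul_induction_on' with
    | smul r hr n _ =>
      rw [map_smul, Finsupp.smul_apply, smul_eq_mul]
      exact Ideal.mul_mem_right _ _ hr
    | add a _ b _ ha hb =>
      rw [map_add, Finsupp.add_apply]
      exact add_mem ha hb
  obtain ⟨u, hu, m, hm, rfl⟩ := Submodule.mem_sup.mp hw
  obtain ⟨c, rfl⟩ := Submodule.mem_span_singleton.mp hu
  have h1 : x.repr (c • x 0) 1 = 0 := by
    rw [map_smul, Module.Basis.repr_self, Finsupp.smul_apply, Finsupp.single_apply,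
      if_neg (by decide), smul_zero]
  rw [map_add, Finsupp.add_apply, h1, zero_add]
  exact h2 m hm

/-- unit plus element of the maximal ideal is a unit. -/
theorem S33A_isUnit_add [IsLocalRing T] {u m : T} (hu : IsUnit u) (hm : m ∈ maximalIdeal T) :
    IsUnit (u + m) := by
  by_contra h
  have h1 : u + m ∈ maximalIdeal T := (IsLocalRing.mem_maximalIdeal _).mpr h
  have h2 : u ∈ maximalIdeal T := by
    have := sub_mem h1 hm
    rwa [add_sub_cancel_right] at this
  exact ((IsLocalRing.mem_maximalIdeal _).mp h2) hu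

/-- **ALG33, middle step.** -/
theorem S33A_mid [IsLocalRing T] [IsNoetherianRing T] [IsAdicComplete (maximalIdeal T) T]
    (ρ : G →* Module.End T V) (I D : Subgroup G)
    (hnorm : ∀ δ ∈ D, ∀ σ ∈ I, δ * σ * δ⁻¹ ∈ I)
    (x : Module.Basis (Fin 2) T V)
    (hres : ∀ σ ∈ I, ∀ v : V,
      ρ σ v - v ∈ Submodule.span T {x 0} ⊔ maximalIdeal T • (⊤ : Submodule T V))
    (τ₀ : G) (hτ₀ : τ₀ ∈ I) (hdet : IsUnit (LinearMap.det (ρ τ₀) - 1))
    (hJH : ∀ K : ℕ, ∀ Y : Submodule T V, (maximalIdeal T ^ K) • (⊤ : Submodule T V) ≤ Y →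
      Y ≤ S33A_U ρ I ⊔ (maximalIdeal T ^ K) • (⊤ : Submodule T V) →
      (∀ σ ∈ I, ∀ y ∈ Y, ρ σ y ∈ Y) →
      Y ≤ S33A_UY ρ I Y ⊔ (maximalIdeal T ^ K) • (⊤ : Submodule T V)) :
    ∃ b : Module.Basis (Fin 2) T V,
      (∀ δ ∈ D, ∀ v ∈ Submodule.span T {b 0}, ρ δ v ∈ Submodule.span T {b 0}) ∧
      (∀ σ ∈ I, ∀ v : V, ρ σ v - v ∈ Submodule.span T {b 0}) := by
  classical
  have : Module.Finite T V := Module.Finite.of_basis x
  have : Module.Free T V := Module.Free.of_basis x
  set 𝔪 := maximalIdeal T with h𝔪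
  set φ : Module.End T V := ρ τ₀ with hφ
  set M : Matrix (Fin 2) (Fin 2) T := LinearMap.toMatrix x x φ with hM
  have hMij : ∀ i j, M i j = x.repr (φ (x j)) i := fun i j => LinearMap.toMatrix_apply x x φ i j
  have hφ0 : φ (x 0) = M 0 0 • x 0 + M 1 0 • x 1 := by
    conv_lhs => rw [← x.sum_repr (φ (x 0))]
    rw [Fin.sum_univ_two, hMij, hMij]
  have hφ1 : φ (x 1) = M 0 1 • x 0 + M 1 1 • x 1 := by
    conv_lhs => rw [← x.sum_repr (φ (x 1))]
    rw [Fin.sum_univ_two, hMij, hMij]
  have h10 : M 1 0 ∈ 𝔪 := by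
    have h := S33A_repr_one_mem x (hres τ₀ hτ₀ (x 0))
    rw [map_sub, Finsupp.sub_apply, x.repr_self, Finsupp.single_apply, if_neg (by decide),
      sub_zero] at h
    rw [hMij]
    exact h
  have h11 : M 1 1 - 1 ∈ 𝔪 := by
    have h := S33A_repr_one_mem x (hres τ₀ hτ₀ (x 1))
    rw [map_sub, Finsupp.sub_apply, x.repr_self, Finsupp.single_apply, if_pos rfl] at h
    rw [hMij]
    exact h
  set t : T := M 0 0 + M 1 1 with ht
  set d : T := M 0 0 * M 1 1 - M 0 1 * M 1 0 with hd
  have hdetd : LinearMap.det φ = d := by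
    rw [← LinearMap.det_toMatrix x, Matrix.det_fin_two]
  have hd1 : IsUnit (d - 1) := by rw [← hdetd]; exact hdet
  -- `d - t + 1 ∈ 𝔪`
  have hdt : d - t + 1 ∈ 𝔪 := by
    have e : d - t + 1 = (M 0 0 - 1) * (M 1 1 - 1) - M 0 1 * M 1 0 := by
      rw [hd, ht]; ring
    rw [e]
    exact sub_mem (Ideal.mul_mem_left _ _ h11) (Ideal.mul_mem_left _ _ h10)
  -- Cayley–Hamilton
  have hCH : ∀ v : V, φ (φ v) = t • φ v - d • v := by
    intro v
    have h : aeval φ M.charpoly = 0 := by
      rw [hM, LinearMap.charpoly_toMatrix]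
      exact LinearMap.aeval_self_charpoly φ
    rw [Matrix.charpoly_fin_two, Matrix.trace_fin_two, Matrix.det_fin_two] at h
    have h2 := LinearMap.congr_fun h v
    simp only [map_add, map_sub, map_mul, aeval_X, aeval_C, LinearMap.add_apply,
      LinearMap.sub_apply, LinearMap.zero_apply, Module.End.mul_apply, pow_two,
      Module.algebraMap_end_apply] at h2
    rw [ht, hd]
    linear_combination (norm := module) h2
  -- Hensel
  have hev : M.charpoly.eval d ∈ 𝔪 := by
    rw [Matrix.charpoly_fin_two, Matrix.trace_fin_two, Matrix.det_fin_two, ← ht, ← hd]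
    simp only [eval_add, eval_sub, eval_mul, eval_pow, eval_X, eval_C]
    have e : d ^ 2 - t * d + d = d * (d - t + 1) := by ring
    rw [e]
    exact Ideal.mul_mem_left _ _ hdt
  have hder : IsUnit (Ideal.Quotient.mk 𝔪 (M.charpoly.derivative.eval d)) := by
    refine IsUnit.map _ ?_
    rw [Matrix.charpoly_fin_two, Matrix.trace_fin_two, Matrix.det_fin_two, ← ht, ← hd]
    simp only [derivative_add, derivative_sub, derivative_mul, derivative_pow, derivative_X,
      derivative_C, eval_sub, eval_mul, eval_X, eval_C, zero_mul, mul_one,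
      zero_add, add_zero, Nat.cast_ofNat, pow_one, Nat.add_one_sub_one]
    have e : 2 * d - t = (d - 1) + (d - t + 1) := by ring
    rw [e]
    exact S33A_isUnit_add hd1 hdt
  obtain ⟨a, ha, had⟩ := HenselianRing.is_henselian (R := T) (I := 𝔪) M.charpoly
    (Matrix.charpoly_monic M) d hev hder
  have haroot : a * a - t * a + d = 0 := by
    have h := ha
    rw [IsRoot.def, Matrix.charpoly_fin_two, Matrix.trace_fin_two, Matrix.det_fin_two,
      ← ht, ← hd] at h
    simp only [eval_add, eval_sub, eval_mul, eval_pow, eval_X, eval_C] at h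
    rw [← h]; ring
  set b : T := t - a with hb
  have hab_mul : a * b = d := by
    rw [hb]
    linear_combination -haroot
  have ha1 : IsUnit (a - 1) := by
    have e : a - 1 = (d - 1) + (a - d) := by ring
    rw [e]
    exact S33A_isUnit_add hd1 had
  have hb1 : b - 1 ∈ 𝔪 := by
    have e : b - 1 = -(d - t + 1) - (a - d) := by rw [hb]; ring
    rw [e]
    exact sub_mem (neg_mem hdt) had
  have hab : IsUnit (a - b) := by
    have e : a - b = (a - 1) + -(b - 1) := by ring
    rw [e]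
    exact S33A_isUnit_add ha1 (neg_mem hb1)
  have hM00 : IsUnit (M 0 0 - b) := by
    have e : M 0 0 - b = (d - 1) + (-(M 0 0 * (M 1 1 - 1)) + M 0 1 * M 1 0 - (b - 1)) := by
      rw [hd]; ring
    rw [e]
    exact S33A_isUnit_add hd1
      (sub_mem (add_mem (neg_mem (Ideal.mul_mem_left _ _ h11)) (Ideal.mul_mem_left _ _ h10)) hb1)
  have haM11 : IsUnit (a - M 1 1) := by
    have e : a - M 1 1 = (a - 1) + -(M 1 1 - 1) := by ring
    rw [e]
    exact S33A_isUnit_add ha1 (neg_mem h11)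
  -- eigenvectors
  set v₀ : V := φ (x 0) - b • x 0 with hv₀
  set v₁ : V := a • x 1 - φ (x 1) with hv₁
  have hφv₀ : φ v₀ = a • v₀ := by
    rw [hv₀, map_sub, map_smul, hCH]
    have e1 : t = a + b := by rw [hb]; ring
    rw [e1, ← hab_mul]
    module
  have hφv₁ : φ v₁ = b • v₁ := by
    rw [hv₁, map_sub, map_smul, hCH]
    have e1 : t = a + b := by rw [hb]; ring
    rw [e1, ← hab_mul]
    module
  -- `x₀ ∈ T v₀ + 𝔪 V`
  obtain ⟨c₀, hc₀⟩ := hM00.exists_left_inv
  obtain ⟨c₁, hc₁⟩ := haM11.exists_left_inv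
  have hx0 : x 0 ∈ Submodule.span T {v₀} ⊔ 𝔪 • (⊤ : Submodule T V) := by
    have e : x 0 = c₀ • v₀ + (-(c₀ * M 1 0)) • x 1 := by
      have e2 : x 0 = (c₀ * (M 0 0 - b)) • x 0 := by rw [hc₀, one_smul]
      rw [hv₀, hφ0]
      conv_lhs => rw [e2]
      module
    rw [e]
    refine Submodule.add_mem_sup (Submodule.smul_mem _ _ (Submodule.mem_span_singleton_self _))
      (Submodule.smul_mem_smul (neg_mem (Ideal.mul_mem_left _ _ h10)) Submodule.mem_top)
  have hsub0 : Submodule.span T {v₀} ≤ Submodule.span T {v₀, v₁} :=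
    Submodule.span_mono (by intro y hy; rw [Set.mem_singleton_iff] at hy; rw [hy]; simp)
  have hx0' : x 0 ∈ Submodule.span T {v₀, v₁} ⊔ 𝔪 • (⊤ : Submodule T V) :=
    (sup_le_sup_right hsub0 _) hx0
  have hx1' : x 1 ∈ Submodule.span T {v₀, v₁} ⊔ 𝔪 • (⊤ : Submodule T V) := by
    have e : x 1 = c₁ • v₁ + (c₁ * M 0 1) • x 0 := by
      have e2 : x 1 = (c₁ * (a - M 1 1)) • x 1 := by rw [hc₁, one_smul]
      rw [hv₁, hφ1]
      conv_lhs => rw [e2]
      module
    rw [e]
    refine add_mem (Submodule.mem_sup_left (Submodule.smul_mem _ _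
      (Submodule.subset_span (by simp)))) (Submodule.smul_mem _ _ hx0')
  have hspan : (⊤ : Submodule T V) ≤ Submodule.span T {v₀, v₁} := by
    refine Submodule.le_of_le_smul_of_le_jacobson_bot (Module.Finite.fg_top)
      (IsLocalRing.maximalIdeal_le_jacobson ⊥) ?_
    rw [← x.span_eq, Submodule.span_le]
    rintro _ ⟨i, rfl⟩
    have hx : x i ∈ Submodule.span T {v₀, v₁} ⊔ 𝔪 • (⊤ : Submodule T V) := by
      fin_cases i
      · exact hx0'
      · exact hx1'
    rw [x.span_eq]
    exact hx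
  have hres' : ∀ σ ∈ I, ∀ v : V,
      ρ σ v - v ∈ Submodule.span T {v₀} ⊔ 𝔪 • (⊤ : Submodule T V) := by
    intro σ hσ v
    have hle : Submodule.span T {x 0} ⊔ 𝔪 • (⊤ : Submodule T V) ≤
        Submodule.span T {v₀} ⊔ 𝔪 • (⊤ : Submodule T V) :=
      sup_le ((Submodule.span_singleton_le_iff_mem _ _).mpr hx0) le_sup_right
    exact hle (hres σ hσ v)
  have hU := S33A_core ρ I τ₀ hτ₀ a b hab v₀ v₁ hspan hφv₀ hφv₁ hres' hJH
  have hUeq := S33A_core_eq ρ I τ₀ hτ₀ a ha1 v₀ hφv₀ hU
  -- the basis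
  have hrange : Set.range ![v₀, v₁] = {v₀, v₁} := by
    ext y
    simp only [Set.mem_range, Set.mem_insert_iff, Set.mem_singleton_iff]
    constructor
    · rintro ⟨i, rfl⟩
      fin_cases i
      · left; rfl
      · right; rfl
    · rintro (rfl | rfl)
      · exact ⟨0, rfl⟩
      · exact ⟨1, rfl⟩
  have hcard : Fintype.card (Fin 2) = Module.finrank T V := by
    rw [Module.finrank_eq_card_basis x]
  set bb : Module.Basis (Fin 2) T V :=
    basisOfTopLeSpanOfCardEqFinrank ![v₀, v₁] (by rw [hrange]; exact hspan) hcard with hbb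
  have hbb0 : bb 0 = v₀ := by
    rw [hbb, coe_basisOfTopLeSpanOfCardEqFinrank]
    rfl
  refine ⟨bb, ?_, ?_⟩
  · intro δ hδ v hv
    rw [hbb0, ← hUeq] at hv ⊢
    exact S33A_core_stable ρ I (hnorm δ hδ) hv
  · intro σ hσ v
    rw [hbb0, ← hUeq]
    exact S33A_sub_mem_U ρ I hσ v

end Fermat.Agent.S33
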