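import Mathlib

/-!
# TRACK 11 (S33), package ALG33, residual step (helper18) — Mathlib only

`T` local, `V` finite free, `k = T/𝔪`.  If `b̄` is a basis of `k ⊗ V` such that
`(σ - 1)(k ⊗ V) ⊆ k b̄₀` for `σ ∈ I`, then `V` has a basis `x` with `(σ - 1) V ⊆ T x₀ + 𝔪 V`
(`S33A_res`).  Also: inertia is normalised by the decomposition group (`S33A_inertia_conj`),
and `T/𝔪^K` is finite when `T/𝔪` is (`S33A_finite_quot_pow`).
-/

set_option autoImplicit false

open IsLocalRing TensorProduct

namespace Fermat.Agent.S33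

/-- **ALG33, residual step.** -/
theorem S33A_res {T V G : Type*} [CommRing T] [IsLocalRing T] [AddCommGroup V] [Module T V]
    [Module.Finite T V] [Module.Free T V] [Group G]
    (ρ : G →* Module.End T V) (I : Subgroup G)
    (bbar : Module.Basis (Fin 2) (ResidueField T) (ResidueField T ⊗[T] V))
    (h : ∀ σ ∈ I, ∀ w : ResidueField T ⊗[T] V,
      (ρ σ).baseChange (ResidueField T) w - w ∈ Submodule.span (ResidueField T) {bbar 0}) :
    ∃ x : Module.Basis (Fin 2) T V, ∀ σ ∈ I, ∀ v : V,
      ρ σ v - v ∈ Submodule.span T {x 0} ⊔ maximalIdeal T • (⊤ : Submodule T V) := by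
  have hsurj : Function.Surjective (TensorProduct.mk T (ResidueField T) V 1) :=
    TensorProduct.mk_surjective T V (ResidueField T) residue_surjective
  choose f hf using fun i => hsurj (bbar i)
  have hli : LinearIndependent T f := by
    apply Module.IsLocalRing.linearIndependent_of_flat
    have : (TensorProduct.mk T (ResidueField T) V 1 ∘ f) = bbar := funext hf
    rw [this]
    exact bbar.linearIndependent
  have hsp : ⊤ ≤ Submodule.span T (Set.range f) :=
    (IsLocalRing.span_eq_top_of_tmul_eq_basis f bbar hf).ge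
  let x : Module.Basis (Fin 2) T V := Module.Basis.mk hli hsp
  have hx : ∀ i, x i = f i := fun i => by simp [x]
  refine ⟨x, fun σ hσ v => ?_⟩
  have h1 := h σ hσ ((1 : ResidueField T) ⊗ₜ[T] v)
  rw [LinearMap.baseChange_tmul, ← TensorProduct.tmul_sub] at h1
  obtain ⟨cbar, hc⟩ := Submodule.mem_span_singleton.mp h1
  obtain ⟨c, rfl⟩ := residue_surjective cbar
  have hf0 : bbar 0 = (1 : ResidueField T) ⊗ₜ[T] f 0 := (hf 0).symm
  have h2 : (TensorProduct.mk T (ResidueField T) V 1) (ρ σ v - v - c • x 0) = 0 := by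
    rw [map_sub, TensorProduct.mk_apply, TensorProduct.mk_apply, ← hc, hx, hf0,
      TensorProduct.smul_tmul', TensorProduct.tmul_smul, TensorProduct.smul_tmul',
      smul_eq_mul, mul_one, Algebra.smul_def, mul_one, ResidueField.algebraMap_eq, sub_self]
  have h3 : ρ σ v - v - c • x 0 ∈ maximalIdeal T • (⊤ : Submodule T V) := by
    rw [← LinearMap.ker_tensorProductMk]
    exact h2
  have e : ρ σ v - v = c • x 0 + (ρ σ v - v - c • x 0) := by abel
  rw [e]
  exact Submodule.add_mem_sup (Submodule.smul_mem _ _ (Submodule.mem_span_singleton_self _)) h3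

/-- inertia is normalised by the decomposition group. -/
theorem S33A_inertia_conj {K L : Type*} [Field K] [Field L] [Algebra K L]
    (P : ValuationSubring L) (δ : L ≃ₐ[K] L) (hδ : δ ∈ P.decompositionSubgroup K)
    (σ : L ≃ₐ[K] L)
    (hσ : σ ∈ (P.inertiaSubgroup K).map (P.decompositionSubgroup K).subtype) :
    δ * σ * δ⁻¹ ∈ (P.inertiaSubgroup K).map (P.decompositionSubgroup K).subtype := by
  obtain ⟨g, hg, rfl⟩ := hσ
  have hn : (P.inertiaSubgroup K).Normal :=
    MonoidHom.normal_ker
      (MulSemiringAction.toRingAut (P.decompositionSubgroup K) (IsLocalRing.ResidueField P))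
  set d : ↥(P.decompositionSubgroup K) := ⟨δ, hδ⟩ with hd
  have h1 : d * g * d⁻¹ ∈ P.inertiaSubgroup K := hn.conj_mem g hg d
  refine ⟨d * g * d⁻¹, h1, ?_⟩
  rw [map_mul, map_mul, map_inv]
  rfl

/-- `T/𝔪^K` is finite when the residue field is. -/
theorem S33A_finite_quot_pow {T : Type*} [CommRing T] [IsLocalRing T] [IsNoetherianRing T]
    (h : Finite (ResidueField T)) (K : ℕ) : Finite (T ⧸ maximalIdeal T ^ K) := by
  have : Finite (T ⧸ maximalIdeal T) := h
  exact Ideal.finite_quotient_pow (IsNoetherian.noetherian _) K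

end Fermat.Agent.S33
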