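import Mathlib
import Fermat.Prelude.Def_CuspForm_HeckeGaloisRepDatum
import Fermat.Agent.S31.FrobElt
import Fermat.Agent.S31.Lucas
import Fermat.Agent.GalRep.Cyc
import Fermat.Agent.S36.BaseLCyc

/-!
# TRACK 11 (S33), package T2 = DET33 (helper6): an inertia element at `p` with `det ρ(τ₀) - 1`
a unit — prefix `S33D_`

`H : CuspForm.HeckeGaloisRepDatum N S 𝒪 θ T`, `p` odd with `(p : 𝒪) ∈ 𝔪`.

* `S33D_frob_zeta`, `S33D_frob_pow_zeta` : a Frobenius element `σ` at `ℓ ≠ p` acts on a primitive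
  `p`-th root of unity by `ζ ↦ ζ ^ ℓ`, and `σ ^ m` by `ζ ↦ ζ ^ (ℓ ^ m)`;
* `S33D_det_residue` : if `τ ζ = ζ ^ a` for a primitive `p`-th root of unity `ζ`, then
  `det ρ(τ) ≡ a` modulo `𝔪_T` (`det ρ̄ = ε̄`; elementwise Frobenius density `FDE_exists` of S31 +
  `charpoly_frob` + the finite level of `ρ̄`);
* `S33D_hdet` : **`hdet` of `S33A_main` verbatim**: for every place `P` of `ℚ̄` over `p` there is
  `τ₀ ∈ I_P` with `det ρ(τ₀) - 1` a unit of `T` (take `τ₀ ζ = ζ ^ 2`: `det ρ(τ₀) - 1 ≡ 1`).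
-/

set_option autoImplicit false
set_option linter.unusedSectionVars false
set_option linter.style.haveILetI false

open Polynomial IsLocalRing

namespace Fermat.Agent.S33

open Fermat.Agent.GalRep Fermat.Agent.S31 Fermat.Agent.S36

local notation "Ω" => AlgebraicClosure ℚ

/-! ### Frobenius elements and roots of unity -/

/-- a Frobenius element at `ℓ ≠ p` acts on the `p`-th roots of unity by `ζ ↦ ζ ^ ℓ`. -/
theorem S33D_frob_zeta {p ℓ : ℕ} (hp : p.Prime) (hℓ : ℓ.Prime) (hℓp : ℓ ≠ p) {σ : GQ}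
    (hσ : GR_IsFrob ℓ σ) {ζ : Ω} (hζ : ζ ^ p = 1) : σ ζ = ζ ^ ℓ := by
  obtain ⟨A, hA, hdec, hfrob⟩ := hσ
  have hζA : ζ ∈ A := GR_cyc_mem_of_pow_eq_one A hp.ne_zero hζ
  have h1 : σ ζ - ζ ^ ℓ ∈ A.nonunits := GR_cyc_sub_mem_of_residue A σ hdec ℓ hfrob hζA
  have hpA : (p : Ω) ∉ A.nonunits :=
    GR_cyc_coprime_not_mem A hA ((Nat.coprime_primes hp hℓ).mpr (Ne.symm hℓp))
  -- `η = σ ζ * (ζ ^ ℓ)⁻¹` is a `p`-th root of unity congruent to `1`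
  have hζ0 : ζ ≠ 0 := by
    rintro rfl
    rw [zero_pow hp.ne_zero] at hζ
    exact zero_ne_one hζ
  have hζℓ : (ζ ^ ℓ) ^ p = 1 := by rw [← pow_mul, mul_comm, pow_mul, hζ, one_pow]
  have hσζ : (σ ζ) ^ p = 1 := by rw [← map_pow, hζ, map_one]
  have hinvA : (ζ ^ ℓ)⁻¹ ∈ A := by
    have : ((ζ ^ ℓ)⁻¹) ^ p = 1 := by rw [inv_pow, hζℓ, inv_one]
    exact GR_cyc_mem_of_pow_eq_one A hp.ne_zero this
  have hη : (σ ζ * (ζ ^ ℓ)⁻¹) ^ p = 1 := by rw [mul_pow, hσζ, inv_pow, hζℓ, inv_one, mul_one]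
  have hη1 : σ ζ * (ζ ^ ℓ)⁻¹ - 1 ∈ A.nonunits := by
    have e : σ ζ * (ζ ^ ℓ)⁻¹ - 1 = (σ ζ - ζ ^ ℓ) * (ζ ^ ℓ)⁻¹ := by
      field_simp
    rw [e]
    rw [A.mem_nonunits_iff, map_mul] at *
    exact lt_of_le_of_lt (mul_le_of_le_one_right' ((A.valuation_le_one_iff _).mpr hinvA)) h1
  have h2 := GR_cyc_eq_one_of_sub_mem A hη hpA hη1
  have h3 : σ ζ = (σ ζ * (ζ ^ ℓ)⁻¹) * ζ ^ ℓ := by
    rw [mul_assoc, inv_mul_cancel₀ (pow_ne_zero _ hζ0), mul_one]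
  rw [h3, h2, one_mul]

/-- powers of a Frobenius element on the `p`-th roots of unity. -/
theorem S33D_frob_pow_zeta {p ℓ : ℕ} (hp : p.Prime) (hℓ : ℓ.Prime) (hℓp : ℓ ≠ p) {σ : GQ}
    (hσ : GR_IsFrob ℓ σ) {ζ : Ω} (hζ : ζ ^ p = 1) (m : ℕ) : (σ ^ m) ζ = ζ ^ (ℓ ^ m) := by
  induction m generalizing ζ with
  | zero => simp
  | succ m ih =>
    have h1 : (σ ^ (m + 1)) ζ = (σ ^ m) (σ ζ) := by
      rw [pow_succ]
      rfl
    have hζℓ : (ζ ^ ℓ) ^ p = 1 := by rw [← pow_mul, mul_comm, pow_mul, hζ, one_pow]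
    rw [h1, S33D_frob_zeta hp hℓ hℓp hσ hζ, ih hζℓ, ← pow_mul, pow_succ, mul_comm]

/-! ### the determinant modulo the maximal ideal -/

variable {p : ℕ} {N : ℕ} [NeZero N] {S : Finset ℕ}
  {𝒪 : Type} [CommRing 𝒪] [IsDomain 𝒪] [IsDiscreteValuationRing 𝒪]
  [IsAdicComplete (IsLocalRing.maximalIdeal 𝒪) 𝒪]
  {θ : CuspForm.heckeAlgebra N 2 (↑S : Set ℕ) →+* IsLocalRing.ResidueField 𝒪}
  {T : Type} [CommRing T] [IsLocalRing T] [IsNoetherianRing T]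
  [IsAdicComplete (IsLocalRing.maximalIdeal T) T] [Algebra 𝒪 T] [IsLocalHom (algebraMap 𝒪 T)]
  [Module.Finite 𝒪 T] [Module.Free 𝒪 T]

/-- `p ∈ 𝔪_T`. -/
theorem S33D_p_mem (hp𝒪 : (p : 𝒪) ∈ IsLocalRing.maximalIdeal 𝒪) :
    (p : T) ∈ IsLocalRing.maximalIdeal T := by
  have h := map_nonunit (algebraMap 𝒪 T) (p : 𝒪) hp𝒪
  rwa [map_natCast] at h

/-- the residue of the determinant is the determinant of the residual representation. -/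
theorem S33D_residue_det (ρ : GaloisRepAdic T) (σ : GQ) :
    IsLocalRing.residue T (LinearMap.det (ρ.ρ σ)) = LinearMap.det (ρ.residual.ρ σ) := by
  have h := LinearMap.det_baseChange (A := IsLocalRing.ResidueField T) (ρ.ρ σ)
  exact h.symm

/-- **`det ρ̄ = ε̄`**, elementwise: if `τ ζ = ζ ^ a` for a primitive `p`-th root of unity `ζ`,
then `det ρ(τ) - a ∈ 𝔪_T`. -/
theorem S33D_det_residue (hp : p.Prime) (hp𝒪 : (p : 𝒪) ∈ IsLocalRing.maximalIdeal 𝒪)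
    (H : CuspForm.HeckeGaloisRepDatum N (↑S : Set ℕ) 𝒪 θ T) (τ : GQ) {ζ : Ω}
    (hζ : IsPrimitiveRoot ζ p) (a : ℕ) (hτ : τ ζ = ζ ^ a) :
    LinearMap.det (H.ρ.ρ τ) - (a : T) ∈ IsLocalRing.maximalIdeal T := by
  classical
  obtain ⟨L, hL, hLρ⟩ := H.ρ.residual.factorsThroughFiniteLevel
  haveI := hL
  have hint : IsIntegral ℚ ζ := (hζ.isIntegral hp.pos).tower_top
  haveI : FiniteDimensional ℚ (IntermediateField.adjoin ℚ {ζ}) :=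
    IntermediateField.adjoin.finiteDimensional hint
  haveI : FiniteDimensional ℚ ↥(L ⊔ IntermediateField.adjoin ℚ {ζ}) :=
    IntermediateField.finiteDimensional_sup L (IntermediateField.adjoin ℚ {ζ})
  obtain ⟨ℓ, σ, m, hℓ, hℓT, hσ, hg⟩ :=
    FDE_exists τ (L ⊔ IntermediateField.adjoin ℚ {ζ}) (S ∪ N.primeFactors ∪ {p})
  have hℓS : ℓ ∉ (↑S : Set ℕ) := fun h => hℓT (by
    rw [Finset.mem_union, Finset.mem_union]
    exact Or.inl (Or.inl (Finset.mem_coe.mp h)))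
  have hℓN : ¬ ℓ ∣ N := fun h => hℓT (by
    rw [Finset.mem_union, Finset.mem_union]
    exact Or.inl (Or.inr (Nat.mem_primeFactors.mpr ⟨hℓ, h, NeZero.ne N⟩)))
  have hℓp : ℓ ≠ p := fun h => hℓT (by
    rw [Finset.mem_union]
    exact Or.inr (Finset.mem_singleton.mpr h))
  -- `τ = σ ^ m` on `ζ`
  have hζmem : ζ ∈ L ⊔ IntermediateField.adjoin ℚ {ζ} :=
    (le_sup_right : IntermediateField.adjoin ℚ {ζ} ≤ _) (IntermediateField.mem_adjoin_simple_self ℚ ζ)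
  have h1 : ζ ^ a = ζ ^ (ℓ ^ m) := by
    rw [← hτ, hg ζ hζmem, S33D_frob_pow_zeta hp hℓ hℓp hσ hζ.pow_eq_one m]
  have hmod : a ≡ ℓ ^ m [MOD p] := by
    have h2 : ζ ^ (a % p) = ζ ^ (ℓ ^ m % p) := by
      rw [← pow_eq_pow_mod a hζ.pow_eq_one, ← pow_eq_pow_mod (ℓ ^ m) hζ.pow_eq_one, h1]
    exact hζ.pow_inj (Nat.mod_lt _ hp.pos) (Nat.mod_lt _ hp.pos) h2
  -- `ρ̄ τ = (ρ̄ σ) ^ m`
  have hfix : ∀ x ∈ L, (τ⁻¹ * σ ^ m) x = x := by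
    intro x hx
    show (τ⁻¹ : GQ) ((σ ^ m) x) = x
    rw [← hg x ((le_sup_left : L ≤ _) hx)]
    show (τ⁻¹ * τ) x = x
    rw [inv_mul_cancel]
    rfl
  have h2 : H.ρ.residual.ρ τ = H.ρ.residual.ρ σ ^ m := by
    have h3 := hLρ _ hfix
    rw [map_mul, map_pow] at h3
    have h4 : H.ρ.residual.ρ τ * H.ρ.residual.ρ τ⁻¹ = 1 := by
      rw [← map_mul, mul_inv_cancel, map_one]
    calc H.ρ.residual.ρ τ = H.ρ.residual.ρ τ * (H.ρ.residual.ρ τ⁻¹ * H.ρ.residual.ρ σ ^ m) := by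
          rw [h3, mul_one]
      _ = H.ρ.residual.ρ σ ^ m := by rw [← mul_assoc, h4, one_mul]
  -- the determinant of Frobenius
  obtain ⟨A, hA, hfrob⟩ := hσ
  have hdetσ : LinearMap.det (H.ρ.ρ σ) = (ℓ : T) :=
    LUC_det_of_charpoly H.ρ.finrank_eq (H.ρ.ρ σ) _ _ (H.charpoly_frob ℓ hℓ hℓN hℓS A hA σ hfrob)
  have hres : IsLocalRing.residue T (LinearMap.det (H.ρ.ρ τ)) =
      IsLocalRing.residue T ((ℓ ^ m : ℕ) : T) := by
    rw [S33D_residue_det, h2, map_pow, ← S33D_residue_det, hdetσ, Nat.cast_pow, map_pow]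
  -- `a ≡ ℓ ^ m` modulo `p`
  have hcast : ((ℓ ^ m : ℕ) : T) - (a : T) ∈ IsLocalRing.maximalIdeal T := by
    have h5 : (p : ℤ) ∣ ((ℓ ^ m : ℕ) : ℤ) - (a : ℤ) := (Nat.modEq_iff_dvd.mp hmod)
    obtain ⟨c, hc⟩ := h5
    have h6 : ((ℓ ^ m : ℕ) : T) - (a : T) = (p : T) * (c : T) := by
      have := congrArg (Int.cast : ℤ → T) hc
      push_cast at this
      push_cast
      exact this
    rw [h6]
    exact Ideal.mul_mem_right _ _ (S33D_p_mem hp𝒪)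
  have h7 : LinearMap.det (H.ρ.ρ τ) - ((ℓ ^ m : ℕ) : T) ∈ IsLocalRing.maximalIdeal T := by
    rw [← IsLocalRing.residue_eq_zero_iff, map_sub, hres, sub_self]
  have h8 : LinearMap.det (H.ρ.ρ τ) - (a : T)
      = (LinearMap.det (H.ρ.ρ τ) - ((ℓ ^ m : ℕ) : T)) + (((ℓ ^ m : ℕ) : T) - (a : T)) := by ring
  rw [h8]
  exact Ideal.add_mem _ h7 hcast

/-- **DET33 = `hdet` of `S33A_main`**: for every place `P` over `p` (odd) there is an inertia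
element `τ₀` with `det ρ(τ₀) - 1` a unit. -/
theorem S33D_hdet (hp : p.Prime) (hp2 : p ≠ 2)
    (hp𝒪 : (p : 𝒪) ∈ IsLocalRing.maximalIdeal 𝒪)
    (H : CuspForm.HeckeGaloisRepDatum N (↑S : Set ℕ) 𝒪 θ T) :
    ∀ P : ValuationSubring (AlgebraicClosure ℚ), P.LiesOverPrime p →
      ∃ τ₀ ∈ P.inertiaSubgroupIn ℚ, IsUnit (LinearMap.det (H.ρ.ρ τ₀) - 1) := by
  intro P hP
  haveI : Fact p.Prime := ⟨hp⟩
  haveI : NeZero p := ⟨hp.ne_zero⟩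
  obtain ⟨ζ, hζ⟩ := HasEnoughRootsOfUnity.exists_primitiveRoot (AlgebraicClosure ℚ) p
  have hcop : Nat.Coprime 2 p := (Nat.coprime_primes Nat.prime_two hp).mpr (Ne.symm hp2)
  have hζ2 : IsPrimitiveRoot (ζ ^ 2) p := hζ.pow_of_coprime 2 hcop
  obtain ⟨τ₀, hτ₀, hτζ⟩ := S36BL_inertia_transitive P hP hζ hζ2
  refine ⟨τ₀, hτ₀, ?_⟩
  have h1 := S33D_det_residue hp hp𝒪 H τ₀ hζ 2 hτζ
  rw [← IsLocalRing.notMem_maximalIdeal]
  intro h2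
  have h3 : (1 : T) ∈ IsLocalRing.maximalIdeal T := by
    have e : (1 : T) = (LinearMap.det (H.ρ.ρ τ₀) - 1) - (LinearMap.det (H.ρ.ρ τ₀) - ((2 : ℕ) : T)) := by
      push_cast
      ring
    rw [e]
    exact Ideal.sub_mem _ h2 h1
  exact (Ideal.ne_top_iff_one _).mp (IsLocalRing.maximalIdeal.isMaximal T).ne_top h3

end Fermat.Agent.S33
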