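import Mathlib
import Fermat.Prelude.Def_CuspForm_HeckeGaloisRepDatum
import Fermat.Prelude.Def_GaloisRep_LocalConditions
import Fermat.Agent.S32.SubQMain
import Fermat.Agent.S32.Wire
import Fermat.Agent.S33.AlgCore
import Fermat.Agent.S33.AlgMid
import Fermat.Agent.S33.AlgLevel
import Fermat.Agent.S33.AlgRes
import Fermat.Agent.S33.Det33

/-!
# TRACK 11 (S33), package ALG33, final wiring (helper18) — prefix `S33A_`

* `S33A_main` : frozen S33 from `hdet` (∃ `τ₀ ∈ I_P` with `det ρ(τ₀) - 1` a unit) and **(JH'-J)**: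
  for every place `P` over `p` and every `K`, every `I_P`-stable subgroup `Y` of
  `Σ_{σ ∈ I_P} (σ - 1) J₀(N)[p^K]` satisfies `Y ≤ ⟨σ y - y | σ ∈ I_P, y ∈ Y⟩`.
  Inputs: F2 = `S32Q_main` (no hypothesis `p ∤ N`), `S33A_res`, `S33A_level`, `S33A_mid`.
* `S33A_of_hJH` : the same with `hdet` discharged by helper6's `S33D_hdet`.
-/

set_option autoImplicit false
set_option linter.unusedSectionVars false
set_option linter.unusedVariables false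
set_option linter.style.haveILetI false

open ModularCurve IsLocalRing

namespace Fermat.Agent.S33

open Fermat.Agent.S19 Fermat.Agent.S32 CuspForm

variable {p : ℕ} {N : ℕ} [NeZero N] {S : Finset ℕ}
  {𝒪 : Type} [CommRing 𝒪] [IsDomain 𝒪] [IsDiscreteValuationRing 𝒪]
  [IsAdicComplete (IsLocalRing.maximalIdeal 𝒪) 𝒪]
  {θ : CuspForm.heckeAlgebra N 2 (↑S : Set ℕ) →+* IsLocalRing.ResidueField 𝒪}
  {T : Type} [CommRing T] [IsLocalRing T] [IsNoetherianRing T]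
  [IsAdicComplete (IsLocalRing.maximalIdeal T) T] [Algebra 𝒪 T] [IsLocalHom (algebraMap 𝒪 T)]
  [Module.Finite 𝒪 T] [Module.Free 𝒪 T]

/-- **ALG33**: frozen S33 from `hdet` and (JH'-J). -/
theorem S33A_main [Finite (IsLocalRing.ResidueField 𝒪)] [CharZero 𝒪]
    (hp : p.Prime) (hp2 : p ≠ 2) (hp𝒪 : (p : 𝒪) ∈ IsLocalRing.maximalIdeal 𝒪)
    (hN : p ∣ N ∧ ¬ p ^ 2 ∣ N)
    (hNS : ∀ q : ℕ, q.Prime → q ∣ N → q ∈ S)
    (H : CuspForm.HeckeGaloisRepDatum N (↑S : Set ℕ) 𝒪 θ T)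
    (hres : (GaloisRepAdic.ofResidualGaloisRep H.ρ.residual).IsOrdinaryAt p)
    (hdet : ∀ P : ValuationSubring (AlgebraicClosure ℚ), P.LiesOverPrime p →
      ∃ τ₀ ∈ P.inertiaSubgroupIn ℚ, IsUnit (LinearMap.det (H.ρ.ρ τ₀) - 1))
    (hJH : ∀ P : ValuationSubring (AlgebraicClosure ℚ), P.LiesOverPrime p → ∀ K : ℕ,
      ∀ Y : AddSubgroup ↥(Submodule.torsionBy ℤ (JZero N) ((p : ℤ) ^ K)),
        Y ≤ AddSubgroup.closure
          {w | ∃ σ ∈ P.inertiaSubgroupIn ℚ, ∃ x, w = S19F_act N p K σ x - x} →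
        (∀ σ ∈ P.inertiaSubgroupIn ℚ, ∀ y ∈ Y, S19F_act N p K σ y ∈ Y) →
        Y ≤ AddSubgroup.closure
          {w | ∃ σ ∈ P.inertiaSubgroupIn ℚ, ∃ y ∈ Y, w = S19F_act N p K σ y - y}) :
    H.ρ.IsOrdinaryAt p := by
  intro P hP
  obtain ⟨Lbar, ⟨bbar, hL⟩, -, hI⟩ := hres P hP
  have hpS : p ∈ S := hNS p hp hN.1
  -- a basis of `V` lifting the residual one
  obtain ⟨x, hx⟩ := S33A_res H.ρ.ρ (P.inertiaSubgroupIn ℚ) bbar
    (fun σ hσ w => by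
      have h1 := hI σ hσ w
      rw [hL] at h1
      exact h1)
  obtain ⟨τ₀, hτ₀, hdetτ⟩ := hdet P hP
  -- (JH') in `V`-terms from F2 and (JH'-J)
  have hfin : Finite (IsLocalRing.ResidueField T) := S32W_residue_finite H
  have hJHV : ∀ K : ℕ, ∀ Y : Submodule T H.ρ.V,
      (maximalIdeal T ^ K) • (⊤ : Submodule T H.ρ.V) ≤ Y →
      Y ≤ S33A_U H.ρ.ρ (P.inertiaSubgroupIn ℚ) ⊔ (maximalIdeal T ^ K) • (⊤ : Submodule T H.ρ.V) →
      (∀ σ ∈ P.inertiaSubgroupIn ℚ, ∀ y ∈ Y, H.ρ.ρ σ y ∈ Y) →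
      Y ≤ S33A_UY H.ρ.ρ (P.inertiaSubgroupIn ℚ) Y ⊔
        (maximalIdeal T ^ K) • (⊤ : Submodule T H.ρ.V) := by
    intro K
    obtain ⟨K', r, PP, hPP, φ, hφs, hφ⟩ :=
      S32Q_main hp hp2 hp𝒪 hpS hNS H (maximalIdeal T ^ K) (S33A_finite_quot_pow hfin K)
    exact S33A_level H.ρ.ρ (P.inertiaSubgroupIn ℚ) (maximalIdeal T ^ K)
      (S33A_le_comap H.ρ.ρ (maximalIdeal T ^ K)) (S19F_act N p K') (S19F_act_zero N p K')
      (hJH P hP K') PP hPP φ hφs hφ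
  obtain ⟨b, hbD, hbI⟩ := S33A_mid H.ρ.ρ (P.inertiaSubgroupIn ℚ) (P.decompositionSubgroup ℚ)
    (fun δ hδ σ hσ => S33A_inertia_conj P δ hδ σ hσ) x hx τ₀ hτ₀ hdetτ hJHV
  exact ⟨Submodule.span T {b 0}, ⟨b, rfl⟩, hbD, hbI⟩

/-- **ALG33 + DET33**: frozen S33 from (JH'-J) alone. -/
theorem S33A_of_hJH [Finite (IsLocalRing.ResidueField 𝒪)] [CharZero 𝒪]
    (hp : p.Prime) (hp2 : p ≠ 2) (hp𝒪 : (p : 𝒪) ∈ IsLocalRing.maximalIdeal 𝒪)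
    (hN : p ∣ N ∧ ¬ p ^ 2 ∣ N)
    (hNS : ∀ q : ℕ, q.Prime → q ∣ N → q ∈ S)
    (H : CuspForm.HeckeGaloisRepDatum N (↑S : Set ℕ) 𝒪 θ T)
    (hres : (GaloisRepAdic.ofResidualGaloisRep H.ρ.residual).IsOrdinaryAt p)
    (hJH : ∀ P : ValuationSubring (AlgebraicClosure ℚ), P.LiesOverPrime p → ∀ K : ℕ,
      ∀ Y : AddSubgroup ↥(Submodule.torsionBy ℤ (JZero N) ((p : ℤ) ^ K)),
        Y ≤ AddSubgroup.closure
          {w | ∃ σ ∈ P.inertiaSubgroupIn ℚ, ∃ x, w = S19F_act N p K σ x - x} →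
        (∀ σ ∈ P.inertiaSubgroupIn ℚ, ∀ y ∈ Y, S19F_act N p K σ y ∈ Y) →
        Y ≤ AddSubgroup.closure
          {w | ∃ σ ∈ P.inertiaSubgroupIn ℚ, ∃ y ∈ Y, w = S19F_act N p K σ y - y}) :
    H.ρ.IsOrdinaryAt p :=
  S33A_main hp hp2 hp𝒪 hN hNS H hres (S33D_hdet hp hp2 hp𝒪 H) hJH

end Fermat.Agent.S33
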