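import Fermat.Agent.S37.HeckeP
import Fermat.Agent.S19.HopfJZero
import Fermat.Agent.S35.BridgeA
import Fermat.Agent.S17.Stab
import Fermat.Agent.GalRep.Geom

/-!
# TRACK 11 (S33), package T8 DEGEN33 (helper1): the two degeneracy maps on torsion

`α = heckeAlphaBar : F_M → F_{Mp}` (inclusion), `β = heckeBetaBar` (`f(t) ↦ f(t^p)`).

* `S33DG_IsGen n x u` : `u` is a Kummer generator of exponent `n` of the class `x`
  (`x = [D]`, `n D = div u`); existence, uniqueness of the class, products, inverses, powers,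
  Galois (`S33DG_isGen_smul`), triviality (`S33DG_isGen_zero_iff`);
* `S33DG_push φ` : the push-forward `Pic0 K F' →+ Pic0 K F` along `φ : F →ₐ[K] F'`,
  `S33DG_isGen_push` : `N_φ u` is a Kummer generator of `φ_* x`;
* `S33DG_push_smul` : `φ_*` commutes with compatible semilinear automorphisms on torsion classes;
* `S33DG_a M p K`, `S33DG_b M p K : J₀(Mp)[p^K] →+ J₀(M)[p^K]`, `S33DG_a_act`, `S33DG_b_act`
  (equivariance for `S19F_act`, all of `G_ℚ`);
* `S33DG_a_kum`, `S33DG_b_kum` : **Kummer form**: `a x = 0 ⇒ GR_IsTriv M n (S35B_NA M p u)` for every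
  Kummer generator `u` of exponent `n` of `x`.
-/

set_option autoImplicit false
set_option linter.style.haveILetI false
set_option linter.unusedSectionVars false
set_option synthInstance.maxHeartbeats 400000
set_option maxHeartbeats 1000000

open AlgebraicCurve ModularCurve IntermediateField

noncomputable section

namespace Fermat.Agent.S33

open Fermat.Agent.S17 Fermat.Agent.S18 Fermat.Agent.S19 Fermat.Agent.S24 Fermat.Agent.S35
  Fermat.Agent.S37 Fermat.Agent.GalRep

/-! ### Kummer generators of torsion classes -/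

section generic

variable {K F F' : Type*} [Field K] [Field F] [Field F'] [Algebra K F] [Algebra K F']

theorem S33DG_ord_algebraMap (P : Place K F) (a : K) : P.ord (algebraMap K F a) = 0 := by
  rcases eq_or_ne a 0 with rfl | ha
  · simp
  · have hu : IsUnit (algebraMap K P.toValuationSubring a) :=
      (IsUnit.mk0 a ha).map (algebraMap K P.toValuationSubring)
    have := P.ord_coe_unit hu.unit
    simpa using this

/-- `u` is a Kummer generator of exponent `n` of the class `x`: `x = [D]`, `n D = div u`. -/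
def S33DG_IsGen (n : ℕ) (x : Pic0 K F) (u : F) : Prop :=
  ∃ D : Divisor.degZero (K := K) (F := F), Pic0.mk D = x ∧ u ≠ 0 ∧
    ∀ v : Place K F, (n : ℤ) * (D : Divisor K F) v = v.ord u

theorem S33DG_isGen_ne_zero {n : ℕ} {x : Pic0 K F} {u : F} (h : S33DG_IsGen n x u) : u ≠ 0 := by
  obtain ⟨D, -, hu, -⟩ := h
  exact hu

/-- existence. -/
theorem S33DG_isGen_exists (n : ℕ) (x : Pic0 K F) (hx : n • x = 0) :
    ∃ u : F, S33DG_IsGen n x u := by
  obtain ⟨D, rfl⟩ := Pic0.mk_surjective x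
  obtain ⟨f, hf0, hf⟩ := S17ST_exists_gen n D hx
  exact ⟨f, D, rfl, hf0, hf⟩

/-- the class is determined by the generator. -/
theorem S33DG_isGen_unique {n : ℕ} (hn : 0 < n) {x x' : Pic0 K F} {u : F}
    (h : S33DG_IsGen n x u) (h' : S33DG_IsGen n x' u) : x = x' := by
  obtain ⟨D, rfl, -, hD⟩ := h
  obtain ⟨D', rfl, -, hD'⟩ := h'
  have : D = D' := by
    apply Subtype.ext
    apply Finsupp.ext
    intro v
    have h1 := (hD v).trans (hD' v).symm
    have hn' : (n : ℤ) ≠ 0 := by exact_mod_cast hn.ne'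
    exact mul_left_cancel₀ hn' h1
  rw [this]

/-- a class with a Kummer generator of exponent `n` is killed by `n`. -/
theorem S33DG_isGen_tors {n : ℕ} {x : Pic0 K F} {u : F} (h : S33DG_IsGen n x u) : n • x = 0 := by
  obtain ⟨D, rfl, hu, hD⟩ := h
  have h1 : Pic0.mk (n • D) = 0 := by
    refine S17ST_mk_eq_zero (n • D) u hu (fun v => ?_)
    rw [← hD v]
    simp
  exact h1

theorem S33DG_isGen_mul {n : ℕ} {x x' : Pic0 K F} {u u' : F}
    (h : S33DG_IsGen n x u) (h' : S33DG_IsGen n x' u') : S33DG_IsGen n (x + x') (u * u') := by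
  obtain ⟨D, rfl, hu, hD⟩ := h
  obtain ⟨D', rfl, hu', hD'⟩ := h'
  refine ⟨D + D', Pic0.mk_add D D', mul_ne_zero hu hu', fun v => ?_⟩
  rw [v.ord_mul hu hu', ← hD v, ← hD' v]
  have : ((D + D' : Divisor.degZero (K := K) (F := F)) : Divisor K F) v
        = (D : Divisor K F) v + (D' : Divisor K F) v := rfl
  rw [this]
  ring

theorem S33DG_isGen_inv {n : ℕ} {x : Pic0 K F} {u : F}
    (h : S33DG_IsGen n x u) : S33DG_IsGen n (-x) u⁻¹ := by
  obtain ⟨D, rfl, hu, hD⟩ := h
  refine ⟨-D, rfl, inv_ne_zero hu, fun v => ?_⟩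
  rw [v.ord_inv, ← hD v]
  have : ((-D : Divisor.degZero (K := K) (F := F)) : Divisor K F) v
        = - (D : Divisor K F) v := rfl
  rw [this]
  ring

theorem S33DG_isGen_one (n : ℕ) : S33DG_IsGen n (0 : Pic0 K F) (1 : F) :=
  ⟨0, rfl, one_ne_zero, fun v => by rw [v.ord_one]; simp⟩

theorem S33DG_isGen_pow {n : ℕ} {x : Pic0 K F} {u : F}
    (h : S33DG_IsGen n x u) (c : ℕ) : S33DG_IsGen n (c • x) (u ^ c) := by
  induction c with
  | zero => rw [zero_nsmul, pow_zero]; exact S33DG_isGen_one n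
  | succ c ih => rw [succ_nsmul, pow_succ]; exact S33DG_isGen_mul ih h

/-- a trivial generator `c · g ^ n` generates the zero class. -/
theorem S33DG_isGen_of_triv {n : ℕ} (hn : 0 < n) {x : Pic0 K F} {u : F}
    (h : S33DG_IsGen n x u) (c : K) (g : F) (hg : g ≠ 0)
    (hu : u = algebraMap K F c * g ^ n) : x = 0 := by
  obtain ⟨D, rfl, hu0, hD⟩ := h
  have hc : algebraMap K F c ≠ 0 := by
    intro h0
    rw [hu, h0, zero_mul] at hu0
    exact hu0 rfl
  refine S17ST_mk_eq_zero D g hg (fun v => ?_)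
  have h1 := hD v
  rw [hu, v.ord_mul hc (pow_ne_zero n hg), S33DG_ord_algebraMap, zero_add, S17ST_ord_pow] at h1
  have hn' : (n : ℤ) ≠ 0 := by exact_mod_cast hn.ne'
  exact mul_left_cancel₀ hn' h1

/-- a generator of the zero class is trivial (`hconst`: functions without zeros and poles are
constant). -/
theorem S33DG_triv_of_isGen_zero
    (hconst : ∀ f : F, f ≠ 0 → (∀ v : Place K F, v.ord f = 0) → ∃ c : K, f = algebraMap K F c)
    {n : ℕ} {u : F} (h : S33DG_IsGen n (0 : Pic0 K F) u) :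
    ∃ (c : K) (g : F), c ≠ 0 ∧ g ≠ 0 ∧ u = algebraMap K F c * g ^ n := by
  obtain ⟨D, hD0, hu0, hD⟩ := h
  have h1 : ((D : Divisor.degZero (K := K) (F := F)) : Pic0 K F) = 0 := hD0
  rw [QuotientAddGroup.eq_zero_iff, AddSubgroup.mem_addSubgroupOf, Divisor.mem_principal] at h1
  obtain ⟨g, hg0, hg⟩ := h1
  have hgn : g ^ n ≠ 0 := pow_ne_zero n hg0
  obtain ⟨c, hc⟩ := hconst (u * (g ^ n)⁻¹) (mul_ne_zero hu0 (inv_ne_zero hgn)) (fun v => by
    rw [v.ord_mul hu0 (inv_ne_zero hgn), v.ord_inv, S17ST_ord_pow, ← hD v, hg v]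
    ring)
  refine ⟨c, g, ?_, hg0, ?_⟩
  · rintro rfl
    rw [map_zero] at hc
    exact mul_ne_zero hu0 (inv_ne_zero hgn) hc
  · rw [← hc, mul_assoc, inv_mul_cancel₀ hgn, mul_one]

/-- Galois: `g • u` is a Kummer generator of `g • x`. -/
theorem S33DG_isGen_smul {n : ℕ} {x : Pic0 K F} {u : F} (h : S33DG_IsGen n x u)
    (g : SemilinearAut K F) : S33DG_IsGen n (g • x) (g • u) := by
  obtain ⟨D, rfl, hu, hD⟩ := h
  refine ⟨SemilinearAut.degZeroSMulHom g D, (SemilinearAut.pic0_smul_mk g D).symm, ?_,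
    fun w => ?_⟩
  · rw [SemilinearAut.smul_def]
    exact (map_ne_zero_iff _ (SemilinearAut.toRingAut g).injective).mpr hu
  · rw [SemilinearAut.coe_degZeroSMulHom, SemilinearAut.divisor_smul_apply, hD]
    have h1 := SemilinearAut.ord_smul g (g⁻¹ • w) u
    rw [smul_inv_smul] at h1
    exact h1.symm

/-! ### push-forward along `φ` -/

section push

variable [HasPrincipalDivisors K F']
variable (φ : F →ₐ[K] F') (hφ : φ.toRingHom.IsIntegral) (hfin : FiniteAlong K φ)
  (hN : NormFormulaAlong K φ hfin)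

/-- the push-forward `φ_* : Pic0 K F' →+ Pic0 K F`. -/
def S33DG_push : Pic0 K F' →+ Pic0 K F :=
  letI := algebraAlong φ
  haveI := isScalarTower_along φ
  haveI := isIntegral_along φ hφ
  haveI : Module.Finite F F' := hfin
  Pic0.pushforwardHom K F F' hN

/-- the norm along `φ`. -/
def S33DG_norm (u : F') : F :=
  @Algebra.norm F F' _ _ (algebraAlong φ) u

/-- **Kummer form of the push-forward**: `N_φ u` is a Kummer generator of `φ_* x`. -/
theorem S33DG_isGen_push {n : ℕ} {x : Pic0 K F'} {u : F'} (h : S33DG_IsGen n x u) :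
    S33DG_IsGen n (S33DG_push φ hφ hfin hN x) (S33DG_norm φ u) := by
  letI := algebraAlong φ
  haveI := isScalarTower_along φ
  haveI := isIntegral_along φ hφ
  haveI : Module.Finite F F' := hfin
  obtain ⟨D, rfl, hu, hD⟩ := h
  refine ⟨Pic0.pushforwardDegZeroHom F D, rfl, ?_, fun v => ?_⟩
  · exact (Algebra.norm_ne_zero_iff (R := F)).mpr hu
  · have h1 := hN u hu ((n : ℤ) • (D : Divisor K F')) (fun w => by
      rw [← hD w]; simp) v
    rw [map_zsmul] at h1
    rw [Pic0.coe_pushforwardDegZeroHom]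
    show _ = v.ord (Algebra.norm F u)
    rw [← h1]
    simp

/-- `φ_*` commutes with compatible semilinear automorphisms, on torsion classes. -/
theorem S33DG_push_smul (g : SemilinearAut K F) (g' : SemilinearAut K F')
    (hg : ∀ f : F, φ (g • f) = g' • φ f) {n : ℕ} (hn : 0 < n) (x : Pic0 K F')
    (hx : n • x = 0) :
    S33DG_push φ hφ hfin hN (g' • x) = g • S33DG_push φ hφ hfin hN x := by
  obtain ⟨u, hu⟩ := S33DG_isGen_exists n x hx
  have h1 := S33DG_isGen_push φ hφ hfin hN (S33DG_isGen_smul hu g')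
  have h2 := S33DG_isGen_smul (S33DG_isGen_push φ hφ hfin hN hu) g
  have h3 : S33DG_norm φ (g' • u) = g • S33DG_norm φ u := by
    letI := algebraAlong φ
    have e := Algebra.norm_eq_of_equiv_equiv (SemilinearAut.toRingAut g)
      (SemilinearAut.toRingAut g') (by
        ext f
        exact hg f) u
    show Algebra.norm F (SemilinearAut.toRingAut g' u) = SemilinearAut.toRingAut g (Algebra.norm F u)
    rw [e, RingEquiv.apply_symm_apply]
  rw [h3] at h1
  exact S33DG_isGen_unique hn h1 h2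

end push

end generic

/-! ### restriction of an additive map to torsion -/

section tors

variable {A B : Type*} [AddCommGroup A] [AddCommGroup B]

/-- the restriction of an additive map to the `c`-torsion. -/
def S33DG_tors (f : A →+ B) (c : ℤ) :
    ↥(Submodule.torsionBy ℤ A c) →+ ↥(Submodule.torsionBy ℤ B c) where
  toFun x := ⟨f (x : A), by
    rw [Submodule.mem_torsionBy_iff, ← map_zsmul, (Submodule.mem_torsionBy_iff _ _).mp x.2,
      map_zero]⟩
  map_zero' := Subtype.ext (map_zero f)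
  map_add' x y := Subtype.ext (map_add f _ _)

@[simp] theorem S33DG_tors_coe (f : A →+ B) (c : ℤ) (x : ↥(Submodule.torsionBy ℤ A c)) :
    ((S33DG_tors f c x : ↥(Submodule.torsionBy ℤ B c)) : B) = f (x : A) := rfl

theorem S33DG_tors_nsmul (p K : ℕ) (x : ↥(Submodule.torsionBy ℤ A ((p : ℤ) ^ K))) :
    (p ^ K) • (x : A) = 0 := by
  have h := (Submodule.mem_torsionBy_iff _ _).mp x.2
  rw [← natCast_zsmul, Nat.cast_pow]
  exact h

end tors

/-! ### the concrete degeneracy maps -/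

section concrete

variable (M p : ℕ) [NeZero M] [NeZero p]

local notation "Kb" => AlgebraicClosure ℚ

/-- `α_* : J₀(Mp) →+ J₀(M)` (push-forward along the inclusion `F_M ⊂ F_{Mp}`). -/
def S33DG_aJ : JZero (M * p) →+ JZero M :=
  haveI := S18_hPD (M * p)
  S33DG_push (heckeAlphaBar Kb M p) (S37P_alpha_integral M p) (S37P_finiteAlong_alpha M p)
    (S37P_normFormula_alpha M p)

/-- `β_* : J₀(Mp) →+ J₀(M)` (push-forward along `f(t) ↦ f(t^p)`). -/
def S33DG_bJ : JZero (M * p) →+ JZero M :=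
  haveI := S18_hPD (M * p)
  S33DG_push (heckeBetaBar Kb M p) (S37P_beta_integral M p) (S37P_finiteAlong_beta M p)
    (S37P_normFormula_beta M p)

/-- `α` commutes with the Galois action on coefficients. -/
theorem S33DG_alpha_gal (σ : GQ) (f : ↥(modularFunctionFieldBar M)) :
    heckeAlphaBar Kb M p (arithmeticGalois (modularFunctionFieldFull M) σ • f) =
      arithmeticGalois (modularFunctionFieldFull (M * p)) σ • heckeAlphaBar Kb M p f := by
  apply Subtype.ext
  rw [coe_heckeAlphaBar, coe_arithmeticGalois_smul, coe_arithmeticGalois_smul, coe_heckeAlphaBar]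

/-- `β` commutes with the Galois action on coefficients. -/
theorem S33DG_beta_gal (σ : GQ) (f : ↥(modularFunctionFieldBar M)) :
    heckeBetaBar Kb M p (arithmeticGalois (modularFunctionFieldFull M) σ • f) =
      arithmeticGalois (modularFunctionFieldFull (M * p)) σ • heckeBetaBar Kb M p f := by
  apply Subtype.ext
  rw [coe_heckeBetaBar, coe_arithmeticGalois_smul, coe_arithmeticGalois_smul, coe_heckeBetaBar]
  exact (Fermat.Agent.S24.coeffMap_qExpand _ p _).symm

/-- Galois equivariance of `α_*` on torsion classes. -/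
theorem S33DG_aJ_smul {n : ℕ} (hn : 0 < n) (σ : GQ) (x : JZero (M * p)) (hx : n • x = 0) :
    S33DG_aJ M p (σ • x) = σ • S33DG_aJ M p x := by
  haveI := S18_hPD (M * p)
  exact S33DG_push_smul (heckeAlphaBar Kb M p) (S37P_alpha_integral M p)
    (S37P_finiteAlong_alpha M p) (S37P_normFormula_alpha M p)
    (arithmeticGalois (modularFunctionFieldFull M) σ)
    (arithmeticGalois (modularFunctionFieldFull (M * p)) σ) (S33DG_alpha_gal M p σ) hn x hx

/-- Galois equivariance of `β_*` on torsion classes. -/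
theorem S33DG_bJ_smul {n : ℕ} (hn : 0 < n) (σ : GQ) (x : JZero (M * p)) (hx : n • x = 0) :
    S33DG_bJ M p (σ • x) = σ • S33DG_bJ M p x := by
  haveI := S18_hPD (M * p)
  exact S33DG_push_smul (heckeBetaBar Kb M p) (S37P_beta_integral M p)
    (S37P_finiteAlong_beta M p) (S37P_normFormula_beta M p)
    (arithmeticGalois (modularFunctionFieldFull M) σ)
    (arithmeticGalois (modularFunctionFieldFull (M * p)) σ) (S33DG_beta_gal M p σ) hn x hx

/-- **(D)** `a = α_* : J₀(Mp)[p^K] →+ J₀(M)[p^K]`. -/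
def S33DG_a (K : ℕ) : ↥(Submodule.torsionBy ℤ (JZero (M * p)) ((p : ℤ) ^ K)) →+
    ↥(Submodule.torsionBy ℤ (JZero M) ((p : ℤ) ^ K)) :=
  S33DG_tors (S33DG_aJ M p) ((p : ℤ) ^ K)

/-- **(D)** `b = β_* : J₀(Mp)[p^K] →+ J₀(M)[p^K]`. -/
def S33DG_b (K : ℕ) : ↥(Submodule.torsionBy ℤ (JZero (M * p)) ((p : ℤ) ^ K)) →+
    ↥(Submodule.torsionBy ℤ (JZero M) ((p : ℤ) ^ K)) :=
  S33DG_tors (S33DG_bJ M p) ((p : ℤ) ^ K)

theorem S33DG_a_coe (K : ℕ) (x : ↥(Submodule.torsionBy ℤ (JZero (M * p)) ((p : ℤ) ^ K))) :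
    ((S33DG_a M p K x : ↥(Submodule.torsionBy ℤ (JZero M) ((p : ℤ) ^ K))) : JZero M) =
      S33DG_aJ M p (x : JZero (M * p)) := rfl

theorem S33DG_b_coe (K : ℕ) (x : ↥(Submodule.torsionBy ℤ (JZero (M * p)) ((p : ℤ) ^ K))) :
    ((S33DG_b M p K x : ↥(Submodule.torsionBy ℤ (JZero M) ((p : ℤ) ^ K))) : JZero M) =
      S33DG_bJ M p (x : JZero (M * p)) := rfl

/-- **(D)** `a` is equivariant for the action of all of `G_ℚ`. -/
theorem S33DG_a_act (K : ℕ) (σ : GQ)
    (x : ↥(Submodule.torsionBy ℤ (JZero (M * p)) ((p : ℤ) ^ K))) :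
    S33DG_a M p K (S19F_act (M * p) p K σ x) = S19F_act M p K σ (S33DG_a M p K x) := by
  apply Subtype.ext
  rw [S33DG_a_coe, S19F_act_coe, S19F_act_coe, S33DG_a_coe]
  exact S33DG_aJ_smul M p (pos_of_ne_zero (pow_ne_zero K (NeZero.ne p))) σ _
    (S33DG_tors_nsmul p K x)

/-- **(D)** `b` is equivariant for the action of all of `G_ℚ`. -/
theorem S33DG_b_act (K : ℕ) (σ : GQ)
    (x : ↥(Submodule.torsionBy ℤ (JZero (M * p)) ((p : ℤ) ^ K))) :
    S33DG_b M p K (S19F_act (M * p) p K σ x) = S19F_act M p K σ (S33DG_b M p K x) := by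
  apply Subtype.ext
  rw [S33DG_b_coe, S19F_act_coe, S19F_act_coe, S33DG_b_coe]
  exact S33DG_bJ_smul M p (pos_of_ne_zero (pow_ne_zero K (NeZero.ne p))) σ _
    (S33DG_tors_nsmul p K x)

/-! ### the Kummer form -/

/-- a Kummer generator in the sense of `S33DG_IsGen` is one in the sense of `KM_IsKum`. -/
theorem S33DG_isKum {N n : ℕ} {x : JZero N} {u : ↥(modularFunctionFieldBar N)}
    (h : S33DG_IsGen n x u) : KM_IsKum Kb ↥(modularFunctionFieldBar N) n u := by
  obtain ⟨D, -, hu, hD⟩ := h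
  exact ⟨hu, fun v => ⟨_, (hD v).symm⟩⟩

/-- **Kummer form of `α_*`**: the norm `N_α u` of a Kummer generator of `x` is one of `α_* x`. -/
theorem S33DG_aJ_gen {n : ℕ} {x : JZero (M * p)} {u : ↥(modularFunctionFieldBar (M * p))}
    (h : S33DG_IsGen n x u) : S33DG_IsGen n (S33DG_aJ M p x) (S35B_NA M p u) := by
  haveI := S18_hPD (M * p)
  exact S33DG_isGen_push (heckeAlphaBar Kb M p) (S37P_alpha_integral M p)
    (S37P_finiteAlong_alpha M p) (S37P_normFormula_alpha M p) h

/-- **Kummer form of `β_*`**. -/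
theorem S33DG_bJ_gen {n : ℕ} {x : JZero (M * p)} {u : ↥(modularFunctionFieldBar (M * p))}
    (h : S33DG_IsGen n x u) : S33DG_IsGen n (S33DG_bJ M p x) (S35B_NB M p u) := by
  haveI := S18_hPD (M * p)
  exact S33DG_isGen_push (heckeBetaBar Kb M p) (S37P_beta_integral M p)
    (S37P_finiteAlong_beta M p) (S37P_normFormula_beta M p) h

/-- a generator of the zero class of `J₀(N)` is a trivial Kummer generator. -/
theorem S33DG_isTriv_of_zero {N n : ℕ} [NeZero N] {u : ↥(modularFunctionFieldBar N)}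
    (h : S33DG_IsGen n (0 : JZero N) u) : GR_IsTriv N n u :=
  S33DG_triv_of_isGen_zero (S18_hconst N) h

/-- a class with a trivial Kummer generator is zero. -/
theorem S33DG_zero_of_isTriv {N n : ℕ} (hn : 0 < n) {x : JZero N}
    {u : ↥(modularFunctionFieldBar N)} (h : S33DG_IsGen n x u) (ht : GR_IsTriv N n u) :
    x = 0 := by
  obtain ⟨c, g, -, hg, e⟩ := ht
  exact S33DG_isGen_of_triv hn h c g hg e

/-- **(D), Kummer form**: `α_* x = 0 ⇒ N_α u` is trivial, for every Kummer generator `u` of `x`. -/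
theorem S33DG_aJ_kum {n : ℕ} {x : JZero (M * p)} {u : ↥(modularFunctionFieldBar (M * p))}
    (h : S33DG_IsGen n x u) (hx : S33DG_aJ M p x = 0) : GR_IsTriv M n (S35B_NA M p u) := by
  have h1 := S33DG_aJ_gen M p h
  rw [hx] at h1
  exact S33DG_isTriv_of_zero h1

/-- **(D), Kummer form**: `β_* x = 0 ⇒ N_β u` is trivial. -/
theorem S33DG_bJ_kum {n : ℕ} {x : JZero (M * p)} {u : ↥(modularFunctionFieldBar (M * p))}
    (h : S33DG_IsGen n x u) (hx : S33DG_bJ M p x = 0) : GR_IsTriv M n (S35B_NB M p u) := by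
  have h1 := S33DG_bJ_gen M p h
  rw [hx] at h1
  exact S33DG_isTriv_of_zero h1

/-- the same on `J₀(Mp)[p^K]`. -/
theorem S33DG_a_kum (K : ℕ) {n : ℕ}
    (x : ↥(Submodule.torsionBy ℤ (JZero (M * p)) ((p : ℤ) ^ K)))
    {u : ↥(modularFunctionFieldBar (M * p))} (h : S33DG_IsGen n (x : JZero (M * p)) u)
    (hx : S33DG_a M p K x = 0) : GR_IsTriv M n (S35B_NA M p u) :=
  S33DG_aJ_kum M p h (by rw [← S33DG_a_coe, hx]; rfl)

theorem S33DG_b_kum (K : ℕ) {n : ℕ}
    (x : ↥(Submodule.torsionBy ℤ (JZero (M * p)) ((p : ℤ) ^ K)))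
    {u : ↥(modularFunctionFieldBar (M * p))} (h : S33DG_IsGen n (x : JZero (M * p)) u)
    (hx : S33DG_b M p K x = 0) : GR_IsTriv M n (S35B_NB M p u) :=
  S33DG_bJ_kum M p h (by rw [← S33DG_b_coe, hx]; rfl)

end concrete

/-! ### KUM-BRIDGE helpers: the Galois action in Kummer form -/

section bridge

variable (N : ℕ) [NeZero N]

/-- `GR_gal N σ u` is a Kummer generator of `σ • x`. -/
theorem S33DG_isGen_gal {n : ℕ} {x : JZero N} {u : ↥(modularFunctionFieldBar N)}
    (h : S33DG_IsGen n x u) (σ : GQ) : S33DG_IsGen n (σ • x) (GR_gal N σ u) :=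
  S33DG_isGen_smul h (arithmeticGalois (modularFunctionFieldFull N) σ)

/-- **(4) of KUM-BRIDGE**: if `σ u · (u ^ c)⁻¹` is a trivial Kummer generator, then
`σ • x = c • x`. -/
theorem S33DG_smul_eq_of_isTriv {n : ℕ} (hn : 0 < n) {x : JZero N}
    {u : ↥(modularFunctionFieldBar N)} (h : S33DG_IsGen n x u) (σ : GQ) (c : ℕ)
    (ht : GR_IsTriv N n (GR_gal N σ u * (u ^ c)⁻¹)) : σ • x = c • x := by
  have h1 := S33DG_isGen_mul (S33DG_isGen_gal N h σ) (S33DG_isGen_inv (S33DG_isGen_pow h c))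
  have h2 := S33DG_zero_of_isTriv hn h1 ht
  rw [← sub_eq_add_neg] at h2
  exact sub_eq_zero.mp h2

/-- the converse: if `σ • x = c • x` then `σ u · (u ^ c)⁻¹` is a trivial Kummer generator. -/
theorem S33DG_isTriv_of_smul_eq {n : ℕ} {x : JZero N}
    {u : ↥(modularFunctionFieldBar N)} (h : S33DG_IsGen n x u) (σ : GQ) (c : ℕ)
    (hx : σ • x = c • x) : GR_IsTriv N n (GR_gal N σ u * (u ^ c)⁻¹) := by
  have h1 := S33DG_isGen_mul (S33DG_isGen_gal N h σ) (S33DG_isGen_inv (S33DG_isGen_pow h c))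
  rw [hx, add_neg_cancel] at h1
  exact S33DG_isTriv_of_zero h1

/-- **(4) on `J₀(N)[p^K]`**. -/
theorem S33DG_act_eq_of_isTriv (p K : ℕ) {n : ℕ} (hn : 0 < n)
    (x : ↥(Submodule.torsionBy ℤ (JZero N) ((p : ℤ) ^ K)))
    {u : ↥(modularFunctionFieldBar N)} (h : S33DG_IsGen n (x : JZero N) u) (σ : GQ) (c : ℕ)
    (ht : GR_IsTriv N n (GR_gal N σ u * (u ^ c)⁻¹)) : S19F_act N p K σ x = c • x := by
  apply Subtype.ext
  rw [S19F_act_coe, S33DG_smul_eq_of_isTriv N hn h σ c ht]
  rfl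

/-- **(1) of KUM-BRIDGE**: a class of `J₀(N)[p^K]` killed by `n` has a Kummer generator of
exponent `n`. -/
theorem S33DG_gen_exists (p K n : ℕ)
    (x : ↥(Submodule.torsionBy ℤ (JZero N) ((p : ℤ) ^ K))) (hx : n • x = 0) :
    ∃ u : ↥(modularFunctionFieldBar N), S33DG_IsGen n (x : JZero N) u ∧
      KM_IsKum (AlgebraicClosure ℚ) ↥(modularFunctionFieldBar N) n u := by
  have hx' : n • (x : JZero N) = 0 := by
    have := congrArg Subtype.val hx
    simpa using this
  obtain ⟨u, hu⟩ := S33DG_isGen_exists n (x : JZero N) hx'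
  exact ⟨u, hu, S33DG_isKum hu⟩

end bridge

end Fermat.Agent.S33
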