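import Fermat.Agent.S33.NewWire
import Fermat.Agent.S33.NewLatT

/-!
# TRACK 11 (S33), INTEGRATION (helper18): the leaf (N-LA) in the shape of the wire, and CORE from
the two leaves (NE₁), (NE₂)

* `S33FW_leafLat`  : `S33NW_LeafLat M p hp hpM A hgen` for every place `A` over `p` (helper7's
  `S33NL2_TSat`, `S33NL2_TSat'`, `S33NL2_TTau_Os`, `S33NL2_TTau_Lam`, `S33NL2_TTau_Lam'`);
* `S33FW_core_of_NE` : `S33NFR_Core M p hp hpM A τ₀ c` from (NE₁), (NE₂) alone;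
* `S33FW_final_of_NE` : the statement of S33 verbatim from (NE₁), (NE₂) alone.
-/

set_option autoImplicit false
set_option linter.style.haveILetI false
set_option linter.style.longLine false
set_option linter.unusedSectionVars false
set_option linter.unusedVariables false
set_option synthInstance.maxHeartbeats 400000
set_option maxHeartbeats 1000000

open AlgebraicCurve ModularCurve IntermediateField

noncomputable section

namespace Fermat.Agent.S33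

open Fermat.Agent.S17 Fermat.Agent.S18 Fermat.Agent.S19 Fermat.Agent.S24 Fermat.Agent.S34
  Fermat.Agent.S35 Fermat.Agent.S36 Fermat.Agent.S37 Fermat.Agent.GalRep

section leaf

variable (M p : ℕ) [NeZero (M * p)] (hp : p.Prime) (hpM : ¬ p ∣ M)
  (A : ValuationSubring (AlgebraicClosure ℚ))
  (hgen : PrincipalGeneratedByIntegral A (IsLocalRing.residue A) (M * p))

/-- **the leaf (N-LA)** in the shape the wire consumes. -/
theorem S33FW_leafLat (hA : A.LiesOverPrime p) : S33NW_LeafLat M p hp hpM A hgen := by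
  intro H _ ϖ₀ hU hϖ c₀ _ hc₀
  refine ⟨S33NL2_TSat M p hp hpM A hgen H ϖ₀ hϖ hU.ne_zero,
    S33NL2_TSat' M p hp hpM A hgen H ϖ₀ hϖ hU.ne_zero c₀, ?_⟩
  intro τ₀ hτ₀ τ hτ
  exact ⟨S33NL2_TTau_Os M p hp hpM A hgen H hA hU hϖ τ₀ hτ₀ τ hτ,
    S33NL2_TTau_Lam M p hp hpM A hgen H hA hU hϖ τ₀ hτ₀ τ hτ,
    S33NL2_TTau_Lam' M p hp hpM A hgen H hA hU hϖ τ₀ hτ₀ τ hτ c₀ (hc₀ τ₀ hτ₀)⟩

end leaf

section core

variable (M p : ℕ) [NeZero M] [NeZero p] [NeZero (M * p)] (hp : p.Prime) (hpM : ¬ p ∣ M)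

/-- **CORE from the two leaves** (NE₁), (NE₂). -/
theorem S33FW_core_of_NE (hp2 : p ≠ 2) (A : ValuationSubring (AlgebraicClosure ℚ))
    (hA : A.LiesOverPrime p)
    (τ₀ : GQ) (c c' k : ℕ) (ζ : AlgebraicClosure ℚ) (hD : S33NFR_Data p A τ₀ c c' k ζ)
    (hNE₁ : ∀ hgen : PrincipalGeneratedByIntegral A (IsLocalRing.residue A) (M * p),
      S33N0B_NE1 M p hp hpM A hgen (S33N0B_N12 M p hp hpM))
    (hNE₂ : ∀ hgen : PrincipalGeneratedByIntegral A (IsLocalRing.residue A) (M * p),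
      S33N0B_NE2 M p hp hpM A hgen (S33N0B_N21 M p hp)) :
    S33NFR_Core M p hp hpM A τ₀ c :=
  S33NW_core_of_leaves M p hp hpM hp2 A hA τ₀ c c' k ζ hD hNE₁ hNE₂
    (fun hgen => S33FW_leafLat M p hp hpM A hgen hA)

end core

section final

variable {p : ℕ} {N : ℕ} [NeZero N] {S : Finset ℕ}
  {𝒪 : Type} [CommRing 𝒪] [IsDomain 𝒪] [IsDiscreteValuationRing 𝒪]
  [IsAdicComplete (IsLocalRing.maximalIdeal 𝒪) 𝒪]
  {θ : CuspForm.heckeAlgebra N 2 (↑S : Set ℕ) →+* IsLocalRing.ResidueField 𝒪}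
  {T : Type} [CommRing T] [IsLocalRing T] [IsNoetherianRing T]
  [IsAdicComplete (IsLocalRing.maximalIdeal T) T] [Algebra 𝒪 T] [IsLocalHom (algebraMap 𝒪 T)]
  [Module.Finite 𝒪 T] [Module.Free 𝒪 T]

/-- **frozen S33 from the two leaves** (NE₁), (NE₂). -/
theorem S33FW_final_of_NE [Finite (IsLocalRing.ResidueField 𝒪)] [CharZero 𝒪]
    (hp : p.Prime) (hp2 : p ≠ 2) (hp𝒪 : (p : 𝒪) ∈ IsLocalRing.maximalIdeal 𝒪)
    (hN : p ∣ N ∧ ¬ p ^ 2 ∣ N)
    (hNS : ∀ q : ℕ, q.Prime → q ∣ N → q ∈ S)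
    (H : CuspForm.HeckeGaloisRepDatum N (↑S : Set ℕ) 𝒪 θ T)
    (hres : (GaloisRepAdic.ofResidualGaloisRep H.ρ.residual).IsOrdinaryAt p)
    (hNE₁ : ∀ (M : ℕ) [NeZero M] [NeZero p] [NeZero (M * p)] (hpM : ¬ p ∣ M)
      (A : ValuationSubring (AlgebraicClosure ℚ)), A.LiesOverPrime p →
      ∀ hgen : PrincipalGeneratedByIntegral A (IsLocalRing.residue A) (M * p),
        S33N0B_NE1 M p hp hpM A hgen (S33N0B_N12 M p hp hpM))
    (hNE₂ : ∀ (M : ℕ) [NeZero M] [NeZero p] [NeZero (M * p)] (hpM : ¬ p ∣ M)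
      (A : ValuationSubring (AlgebraicClosure ℚ)), A.LiesOverPrime p →
      ∀ hgen : PrincipalGeneratedByIntegral A (IsLocalRing.residue A) (M * p),
        S33N0B_NE2 M p hp hpM A hgen (S33N0B_N21 M p hp)) :
    H.ρ.IsOrdinaryAt p :=
  S33NFR_final hp hp2 hp𝒪 hN hNS H hres
    (fun M _ _ _ hpM P hP τ₀ c c' k ζ hD =>
      S33FW_core_of_NE M p hp hpM hp2 P hP τ₀ c c' k ζ hD
        (fun hgen => hNE₁ M hpM P hP hgen) (fun hgen => hNE₂ M hpM P hP hgen))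

end final

end Fermat.Agent.S33
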