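import Mathlib

/-!
# TRACK 11 (S33), package GLUE33 (lead): (JH'-J) from OLD33 + NEW33  — pure group theory

`J` a finite abelian `p`-group with an action of a group `Γ`, `I ≤ Γ` (inertia),
`a b : J →+ G` two `I`-equivariant additive maps (the two degeneracy maps `α_*`, `β_*`).

* (O) = OLD33: every `I`-stable subgroup `Y'` of `U_G = ⟨σ g − g⟩` satisfies `Y' ≤ ⟨σ y − y | y ∈ Y'⟩`;
* (N) = NEW33: one `τ₀ ∈ I` acts on the `p`-torsion elements of `U_J ∩ ker a ∩ ker b` as the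
  scalar `c`, with `c ≢ 1 mod p`.

Then every `I`-stable subgroup `Y` of `U_J = ⟨σ x − x⟩` satisfies `Y ≤ ⟨σ y − y | y ∈ Y⟩`
(`S33G_glue`): this is the hypothesis `hJH` of ALG33.
-/

set_option autoImplicit false
set_option linter.unusedSectionVars false

namespace Fermat.Agent.S33

section

variable {Γ : Type*} [Group Γ] {J G : Type*} [AddCommGroup J] [AddCommGroup G]

/-- an additive action fixes `0`. -/
theorem S33G_act_zero (act : Γ → J → J)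
    (hadd : ∀ σ x y, act σ (x + y) = act σ x + act σ y) (σ : Γ) : act σ 0 = 0 := by
  have h := hadd σ 0 0
  rw [add_zero] at h
  exact left_eq_add.mp h

/-- an additive action commutes with natural multiples. -/
theorem S33G_act_nsmul (act : Γ → J → J)
    (hadd : ∀ σ x y, act σ (x + y) = act σ x + act σ y) (σ : Γ) (n : ℕ) (x : J) :
    act σ (n • x) = n • act σ x := by
  induction n with
  | zero => simp [S33G_act_zero act hadd σ]
  | succ n ih => rw [succ_nsmul, hadd, ih, succ_nsmul]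

/-- the augmentation subgroup `⟨σ y − y | σ ∈ I, y ∈ Y⟩` of an `I`-stable subgroup lies in it. -/
theorem S33G_aug_le (I : Subgroup Γ) (act : Γ → J → J) (Y : AddSubgroup J)
    (hY : ∀ σ ∈ I, ∀ y ∈ Y, act σ y ∈ Y) :
    AddSubgroup.closure {w | ∃ σ ∈ I, ∃ y ∈ Y, w = act σ y - y} ≤ Y := by
  rw [AddSubgroup.closure_le]
  rintro w ⟨σ, hσ, y, hy, rfl⟩
  exact Y.sub_mem (hY σ hσ y hy) hy

/-- monotonicity of the augmentation subgroup. -/
theorem S33G_aug_mono (I : Subgroup Γ) (act : Γ → J → J) {Y₁ Y : AddSubgroup J} (h : Y₁ ≤ Y) :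
    AddSubgroup.closure {w | ∃ σ ∈ I, ∃ y ∈ Y₁, w = act σ y - y} ≤
      AddSubgroup.closure {w | ∃ σ ∈ I, ∃ y ∈ Y, w = act σ y - y} := by
  apply AddSubgroup.closure_mono
  rintro w ⟨σ, hσ, y, hy, rfl⟩
  exact ⟨σ, hσ, y, h hy, rfl⟩

/-- **one step**: if (O) holds on `G` and `a : J →+ G` is `I`-equivariant, then every `I`-stable
`Y ≤ U_J` is `⟨σ y − y⟩ + (Y ∩ ker a)`. -/
theorem S33G_step (I : Subgroup Γ) (actJ : Γ → J → J) (actG : Γ → G → G)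
    (a : J →+ G) (ha : ∀ σ ∈ I, ∀ x, a (actJ σ x) = actG σ (a x))
    (hO : ∀ Y' : AddSubgroup G,
      Y' ≤ AddSubgroup.closure {w | ∃ σ ∈ I, ∃ x, w = actG σ x - x} →
      (∀ σ ∈ I, ∀ y ∈ Y', actG σ y ∈ Y') →
      Y' ≤ AddSubgroup.closure {w | ∃ σ ∈ I, ∃ y ∈ Y', w = actG σ y - y})
    (Y : AddSubgroup J)
    (hYU : Y ≤ AddSubgroup.closure {w | ∃ σ ∈ I, ∃ x, w = actJ σ x - x})
    (hY : ∀ σ ∈ I, ∀ y ∈ Y, actJ σ y ∈ Y) (y : J) (hy : y ∈ Y) :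
    ∃ y' ∈ AddSubgroup.closure {w | ∃ σ ∈ I, ∃ z ∈ Y, w = actJ σ z - z},
      y - y' ∈ Y ∧ a (y - y') = 0 := by
  -- the image of `Y`
  have h1 : Y.map a ≤ AddSubgroup.closure {w | ∃ σ ∈ I, ∃ x, w = actG σ x - x} := by
    rintro g ⟨z, hz, rfl⟩
    have hz' := hYU hz
    -- `a` maps `U_J` into `U_G`
    have : AddSubgroup.closure {w | ∃ σ ∈ I, ∃ x, w = actJ σ x - x} ≤
        (AddSubgroup.closure {w | ∃ σ ∈ I, ∃ x, w = actG σ x - x}).comap a := by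
      rw [AddSubgroup.closure_le]
      rintro w ⟨σ, hσ, x, rfl⟩
      rw [SetLike.mem_coe, AddSubgroup.mem_comap, map_sub, ha σ hσ]
      exact AddSubgroup.subset_closure ⟨σ, hσ, a x, rfl⟩
    exact this hz'
  have h2 : ∀ σ ∈ I, ∀ g ∈ Y.map a, actG σ g ∈ Y.map a := by
    rintro σ hσ g ⟨z, hz, rfl⟩
    exact ⟨actJ σ z, hY σ hσ z hz, ha σ hσ z⟩
  have h3 := hO (Y.map a) h1 h2
  -- the augmentation of the image is the image of the augmentation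
  have h4 : AddSubgroup.closure {w | ∃ σ ∈ I, ∃ g ∈ Y.map a, w = actG σ g - g} ≤
      (AddSubgroup.closure {w | ∃ σ ∈ I, ∃ z ∈ Y, w = actJ σ z - z}).map a := by
    rw [AddSubgroup.closure_le]
    rintro w ⟨σ, hσ, g, ⟨z, hz, rfl⟩, rfl⟩
    refine ⟨actJ σ z - z, AddSubgroup.subset_closure ⟨σ, hσ, z, hz, rfl⟩, ?_⟩
    rw [map_sub, ha σ hσ]
  obtain ⟨y', hy', hay'⟩ := h4 (h3 ⟨y, hy, rfl⟩)
  refine ⟨y', hy', Y.sub_mem hy (S33G_aug_le I actJ Y hY hy'), ?_⟩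
  rw [map_sub, hay', sub_self]

/-- **GLUE33**: (JH'-J) for `J` from (O) on `G` (twice) and the scalar action (N) on the
`p`-torsion of `U_J ∩ ker a ∩ ker b`. -/
theorem S33G_glue [Finite J] (I : Subgroup Γ) (p : ℕ) (hp : p.Prime)
    (actJ : Γ → J → J) (actG : Γ → G → G)
    (hJadd : ∀ σ x y, actJ σ (x + y) = actJ σ x + actJ σ y)
    (hGadd : ∀ σ x y, actG σ (x + y) = actG σ x + actG σ y)
    (a b : J →+ G)
    (ha : ∀ σ ∈ I, ∀ x, a (actJ σ x) = actG σ (a x))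
    (hb : ∀ σ ∈ I, ∀ x, b (actJ σ x) = actG σ (b x))
    (hpow : ∀ x : J, ∃ K : ℕ, p ^ K • x = 0)
    (hO : ∀ Y' : AddSubgroup G,
      Y' ≤ AddSubgroup.closure {w | ∃ σ ∈ I, ∃ x, w = actG σ x - x} →
      (∀ σ ∈ I, ∀ y ∈ Y', actG σ y ∈ Y') →
      Y' ≤ AddSubgroup.closure {w | ∃ σ ∈ I, ∃ y ∈ Y', w = actG σ y - y})
    (τ₀ : Γ) (hτ₀ : τ₀ ∈ I) (c : ℕ) (hc : ¬ (p : ℤ) ∣ (c : ℤ) - 1)
    (hN : ∀ x : J, p • x = 0 →
      x ∈ AddSubgroup.closure {w | ∃ σ ∈ I, ∃ x, w = actJ σ x - x} →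
      a x = 0 → b x = 0 → actJ τ₀ x = c • x)
    (Y : AddSubgroup J)
    (hYU : Y ≤ AddSubgroup.closure {w | ∃ σ ∈ I, ∃ x, w = actJ σ x - x})
    (hY : ∀ σ ∈ I, ∀ y ∈ Y, actJ σ y ∈ Y) :
    Y ≤ AddSubgroup.closure {w | ∃ σ ∈ I, ∃ y ∈ Y, w = actJ σ y - y} := by
  classical
  have hG0 : ∀ σ, actG σ 0 = 0 := S33G_act_zero actG hGadd
  -- Y₁ = Y ∩ ker a
  set Y₁ : AddSubgroup J := Y ⊓ a.ker with hY₁def
  have hY₁Y : Y₁ ≤ Y := inf_le_left
  have hY₁ : ∀ σ ∈ I, ∀ y ∈ Y₁, actJ σ y ∈ Y₁ := by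
    intro σ hσ y hy
    rw [hY₁def, AddSubgroup.mem_inf, AddMonoidHom.mem_ker] at hy ⊢
    exact ⟨hY σ hσ y hy.1, by rw [ha σ hσ, hy.2, hG0]⟩
  -- Y₂ = Y ∩ ker a ∩ ker b
  set Y₂ : AddSubgroup J := Y₁ ⊓ b.ker with hY₂def
  have hY₂Y : Y₂ ≤ Y := inf_le_left.trans hY₁Y
  have hY₂ : ∀ σ ∈ I, ∀ y ∈ Y₂, actJ σ y ∈ Y₂ := by
    intro σ hσ y hy
    rw [hY₂def, AddSubgroup.mem_inf, AddMonoidHom.mem_ker] at hy ⊢
    exact ⟨hY₁ σ hσ y hy.1, by rw [hb σ hσ, hy.2, hG0]⟩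
  -- step 3: `τ₀ − 1` is injective on `Y₂`, hence onto
  have hinj : ∀ z ∈ Y₂, actJ τ₀ z = z → z = 0 := by
    intro z hz hfix
    by_contra hz0
    obtain ⟨K, hK⟩ := hpow z
    -- minimal exponent
    have hex : ∃ K : ℕ, p ^ K • z = 0 := ⟨K, hK⟩
    set K₀ := Nat.find hex with hK₀def
    have hK₀ : p ^ K₀ • z = 0 := Nat.find_spec hex
    have hK₀pos : K₀ ≠ 0 := by
      intro h0
      rw [h0, pow_zero, one_smul] at hK₀
      exact hz0 hK₀
    obtain ⟨m, hm⟩ := Nat.exists_eq_succ_of_ne_zero hK₀pos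
    have hmin : p ^ m • z ≠ 0 := by
      intro h
      have : K₀ ≤ m := Nat.find_min' hex h
      omega
    set z' := p ^ m • z with hz'def
    have hpz' : p • z' = 0 := by
      rw [hz'def, smul_smul, ← pow_succ', ← Nat.succ_eq_add_one, ← hm]
      exact hK₀
    have hz'Y₂ : z' ∈ Y₂ := Y₂.nsmul_mem hz _
    have hz'U := hYU (hY₂Y hz'Y₂)
    have hmem := hz'Y₂
    rw [hY₂def, AddSubgroup.mem_inf, AddMonoidHom.mem_ker, hY₁def, AddSubgroup.mem_inf,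
      AddMonoidHom.mem_ker] at hmem
    have haz' : a z' = 0 := hmem.1.2
    have hbz' : b z' = 0 := hmem.2
    have h1 := hN z' hpz' hz'U haz' hbz'
    have h2 : actJ τ₀ z' = z' := by
      rw [hz'def, S33G_act_nsmul actJ hJadd, hfix]
    rw [h2] at h1
    -- `(c − 1) z' = 0` and `p z' = 0` with `p ∤ c − 1`
    have h3 : ((c : ℤ) - 1) • z' = 0 := by
      rw [sub_smul, one_smul, natCast_zsmul, ← h1, sub_self]
    have h4 : ((p : ℤ)) • z' = 0 := by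
      rw [natCast_zsmul]; exact hpz'
    have hcop : IsCoprime ((c : ℤ) - 1) (p : ℤ) := by
      rw [isCoprime_comm]
      exact (Prime.coprime_iff_not_dvd (Nat.prime_iff_prime_int.mp hp)).mpr hc
    obtain ⟨r, s, hrs⟩ := hcop
    have h5 : z' = 0 := by
      have : (1 : ℤ) • z' = 0 := by
        rw [← hrs, add_smul, mul_smul, mul_smul, h3, h4, smul_zero, smul_zero, add_zero]
      rwa [one_smul] at this
    exact hmin h5
  -- the additive map `z ↦ τ₀ z − z` on `Y₂`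
  let φ : Y₂ →+ Y₂ :=
    { toFun := fun z => ⟨actJ τ₀ z - z, Y₂.sub_mem (hY₂ τ₀ hτ₀ z z.2) z.2⟩
      map_zero' := by
        apply Subtype.ext
        simp [S33G_act_zero actJ hJadd τ₀]
      map_add' := by
        intro x y
        apply Subtype.ext
        simp only [AddSubgroup.coe_add, hJadd]
        abel }
  have hφinj : Function.Injective φ := by
    rw [injective_iff_map_eq_zero]
    intro z hz
    have hz' : actJ τ₀ (z : J) - (z : J) = 0 := congrArg Subtype.val hz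
    have := hinj z z.2 (sub_eq_zero.mp hz')
    exact Subtype.ext this
  have : Finite Y₂ := Finite.of_injective (fun z : Y₂ => (z : J)) Subtype.val_injective
  have hφsurj : Function.Surjective φ := Finite.surjective_of_injective hφinj
  have hY₂aug : Y₂ ≤ AddSubgroup.closure {w | ∃ σ ∈ I, ∃ y ∈ Y, w = actJ σ y - y} := by
    intro z hz
    obtain ⟨w, hw⟩ := hφsurj ⟨z, hz⟩
    have hw' : actJ τ₀ (w : J) - (w : J) = z := congrArg Subtype.val hw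
    rw [← hw']
    exact AddSubgroup.subset_closure ⟨τ₀, hτ₀, w, hY₂Y w.2, rfl⟩
  -- assemble
  intro y hy
  obtain ⟨y', hy', hyy'Y, hay⟩ := S33G_step I actJ actG a ha hO Y hYU hY y hy
  have hy₁ : y - y' ∈ Y₁ := by
    rw [hY₁def, AddSubgroup.mem_inf, AddMonoidHom.mem_ker]; exact ⟨hyy'Y, hay⟩
  obtain ⟨y'', hy'', hyy''Y, hby⟩ :=
    S33G_step I actJ actG b hb hO Y₁ (hY₁Y.trans hYU) hY₁ (y - y') hy₁
  have hy₂ : y - y' - y'' ∈ Y₂ := by
    rw [hY₂def, AddSubgroup.mem_inf, AddMonoidHom.mem_ker]; exact ⟨hyy''Y, hby⟩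
  have e : y = y' + y'' + (y - y' - y'') := by abel
  rw [e]
  exact AddSubgroup.add_mem _ (AddSubgroup.add_mem _ hy' (S33G_aug_mono I actJ hY₁Y hy''))
    (hY₂aug hy₂)

end

end Fermat.Agent.S33
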