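import Mathlib

/-!
# TRACK 11 (S33), package OLD33-LOC (helper10), abstract part (Mathlib only)

* `S33LQ_retraction` : a saturated submodule of a finite module over a local Bezout domain is a
  direct summand (retraction `π`);
* `S33LQ_li_prod`    : the product family of two linearly independent families of functions is
  linearly independent;
* `S33LQ_ident`      : **the trace trick**: `e` a linearly independent family of functions on `G`,
  `K ⊂ G` a finite subgroup with `|K| ≠ 0` in `Ω`, `τ` the matrix of the trace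
  `T h = ∑_{k ∈ K} h (· + k)` in the family `e`, `p` a family with `T e_j = ∑ τ_jl p_l`
  (`p = π e` for a retraction `π` onto the invariants).  If `f` is `K`-invariant and
  `f (x + y) = ∑ c_jk e_j x e_k y` then `f (x + y) = ∑ c_jk p_j x p_k y`.
-/

set_option autoImplicit false

namespace Fermat.Agent.S33

open Matrix

/-- a saturated submodule of a finite module over a local Bezout domain is a direct summand. -/
theorem S33LQ_retraction {R M : Type*} [CommRing R] [IsDomain R] [IsBezout R] [IsLocalRing R]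
    [AddCommGroup M] [Module R M] [Module.Finite R M]
    (N : Submodule R M) (hsat : ∀ (r : R) (m : M), r ≠ 0 → r • m ∈ N → m ∈ N) :
    ∃ π : M →ₗ[R] M, (∀ m, π m ∈ N) ∧ ∀ m ∈ N, π m = m := by
  have htors : Submodule.torsion R (M ⧸ N) = ⊥ := by
    rw [eq_bot_iff]
    rintro m ⟨⟨r, hr⟩, h⟩
    obtain ⟨m, rfl⟩ := Submodule.Quotient.mk_surjective N m
    have h1 : r • m ∈ N := by
      have h2 : (Submodule.Quotient.mk (r • m) : M ⧸ N) = 0 := by
        rw [Submodule.Quotient.mk_smul]
        exact h
      exact (Submodule.Quotient.mk_eq_zero N).mp h2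
    have h3 := hsat r m (nonZeroDivisors.ne_zero hr) h1
    exact (Submodule.Quotient.mk_eq_zero N).mpr h3
  have hflat : Module.Flat R (M ⧸ N) :=
    Module.Flat.flat_iff_torsion_eq_bot_of_isBezout.mpr htors
  have hfree : Module.Free R (M ⧸ N) := Module.free_of_flat_of_isLocalRing
  obtain ⟨s, hs⟩ := Module.projective_lifting_property N.mkQ LinearMap.id
    (Submodule.mkQ_surjective N)
  refine ⟨LinearMap.id - s.comp N.mkQ, ?_, ?_⟩
  · intro h
    rw [← Submodule.Quotient.mk_eq_zero N]
    have h1 : N.mkQ (s (N.mkQ h)) = N.mkQ h := by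
      have := LinearMap.congr_fun hs (N.mkQ h)
      simpa using this
    simp only [LinearMap.sub_apply, LinearMap.id_coe, id_eq, LinearMap.coe_comp,
      Function.comp_apply, Submodule.Quotient.mk_sub]
    rw [sub_eq_zero]
    exact h1.symm
  · intro h hh
    have h1 : N.mkQ h = 0 := (Submodule.Quotient.mk_eq_zero N).mpr hh
    simp only [LinearMap.sub_apply, LinearMap.id_coe, id_eq, LinearMap.coe_comp,
      Function.comp_apply, h1, map_zero, sub_zero]

/-- The product family of two linearly independent families of functions is linearly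
independent. -/
theorem S33LQ_li_prod {K : Type*} [Field K] {X Y : Type*} {ι κ : Type*} [Fintype ι] [Fintype κ]
    (v : ι → X → K) (u : κ → Y → K) (hv : LinearIndependent K v) (hu : LinearIndependent K u) :
    LinearIndependent K (fun p : ι × κ => fun z : X × Y => v p.1 z.1 * u p.2 z.2) := by
  classical
  rw [Fintype.linearIndependent_iff] at hv hu ⊢
  intro c hc
  have h1 : ∀ y : Y, ∀ i, ∑ k, c (i, k) * u k y = 0 := by
    intro y
    apply hv
    funext x
    have h := congrFun hc (x, y)
    simp only [Finset.sum_apply, Pi.smul_apply, smul_eq_mul, Pi.zero_apply] at h ⊢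
    rw [← h, Fintype.sum_prod_type]
    refine Finset.sum_congr rfl fun i _ => ?_
    rw [Finset.sum_mul]
    exact Finset.sum_congr rfl fun k _ => by ring
  rintro ⟨i, k⟩
  refine hu (fun k => c (i, k)) ?_ k
  funext y
  simpa using h1 y i

section ident

variable {Ω : Type*} [Field Ω] {G : Type*} {ι : Type*} [Fintype ι]

/-- `(τ a) · c (τ b) = a · (τᵀ c τ) b`. -/
theorem S33LQ_form_conj (c τ : Matrix ι ι Ω) (a b : ι → Ω) :
    (τ *ᵥ a) ⬝ᵥ (c *ᵥ (τ *ᵥ b)) = a ⬝ᵥ ((τᵀ * c * τ) *ᵥ b) := by
  classical
  rw [← Matrix.mulVec_mulVec, ← Matrix.mulVec_mulVec, dotProduct_comm (τ *ᵥ a),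
    Matrix.dotProduct_mulVec, ← Matrix.mulVec_transpose, dotProduct_comm]

/-- a bilinear form is determined by its values on a linearly independent family of
functions. -/
theorem S33LQ_form_ext (e : ι → G → Ω) (he : LinearIndependent Ω e) (d d' : Matrix ι ι Ω)
    (h : ∀ x y, (fun j => e j x) ⬝ᵥ (d *ᵥ fun k => e k y)
      = (fun j => e j x) ⬝ᵥ (d' *ᵥ fun k => e k y)) : d = d' := by
  classical
  have hli := S33LQ_li_prod e e he he
  rw [Fintype.linearIndependent_iff] at hli
  have key := hli (fun q : ι × ι => d q.1 q.2 - d' q.1 q.2) (by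
    funext z
    obtain ⟨x, y⟩ := z
    have hxy := h x y
    simp only [dotProduct, Matrix.mulVec, Finset.mul_sum] at hxy
    simp only [Finset.sum_apply, Pi.smul_apply, smul_eq_mul, Pi.zero_apply]
    rw [Fintype.sum_prod_type]
    have : ∀ j k : ι, (d j k - d' j k) * (e j x * e k y)
        = e j x * (d j k * e k y) - e j x * (d' j k * e k y) := fun j k => by ring
    simp only [this, Finset.sum_sub_distrib]
    rw [hxy, sub_self])
  ext j k
  exact sub_eq_zero.mp (key (j, k))

variable [AddCommGroup G]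

/-- **the trace trick**. -/
theorem S33LQ_ident (e p : ι → G → Ω) (he : LinearIndependent Ω e) (K : AddSubgroup G)
    [Fintype K] (hK : (Fintype.card K : Ω) ≠ 0) (τ c : Matrix ι ι Ω)
    (hT : ∀ x, (fun j => ∑ k : K, e j (x + k)) = τ *ᵥ (fun l => e l x))
    (hTp : ∀ x, (fun j => ∑ k : K, e j (x + k)) = τ *ᵥ (fun l => p l x))
    (f : G → Ω) (hf_inv : ∀ x, ∀ k ∈ K, f (x + k) = f x)
    (hf : ∀ x y, f (x + y) = (fun j => e j x) ⬝ᵥ (c *ᵥ fun k => e k y)) :
    ∀ x y, f (x + y) = (fun j => p j x) ⬝ᵥ (c *ᵥ fun k => p k y) := by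
  classical
  -- (3)
  have h3 : ∀ x y, (fun j => ∑ k : K, e j (x + k)) ⬝ᵥ (c *ᵥ fun j => ∑ k : K, e j (y + k))
      = (Fintype.card K : Ω) ^ 2 * f (x + y) := by
    intro x y
    have e1 : ∀ z, (fun j => ∑ k : K, e j (z + k)) = ∑ k : K, fun j => e j (z + k) := by
      intro z
      funext j
      rw [Finset.sum_apply]
    rw [e1 x, e1 y, Matrix.mulVec_sum, sum_dotProduct]
    simp only [dotProduct_sum]
    have e2 : ∀ k k' : K, (fun j => e j (x + k)) ⬝ᵥ (c *ᵥ fun j => e j (y + k')) = f (x + y) := by
      intro k k'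
      rw [← hf, show x + ↑k + (y + ↑k') = x + y + (k + k' : K) by push_cast; abel]
      exact hf_inv _ _ (k + k').2
    simp only [e2, Finset.sum_const, Finset.card_univ, nsmul_eq_mul]
    ring
  -- (5)
  have h5 : τᵀ * c * τ = (Fintype.card K : Ω) ^ 2 • c := by
    apply S33LQ_form_ext e he
    intro x y
    rw [← S33LQ_form_conj, ← hT x, ← hT y, h3, hf, Matrix.smul_mulVec, dotProduct_smul,
      smul_eq_mul]
  intro x y
  have h6 : (fun j => p j x) ⬝ᵥ ((τᵀ * c * τ) *ᵥ fun k => p k y)
      = (Fintype.card K : Ω) ^ 2 * f (x + y) := by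
    rw [← S33LQ_form_conj, ← hTp x, ← hTp y, h3]
  rw [h5, Matrix.smul_mulVec, dotProduct_smul, smul_eq_mul] at h6
  exact (mul_left_cancel₀ (pow_ne_zero 2 hK) h6).symm

end ident

end Fermat.Agent.S33
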