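import Mathlib

/-!
# TRACK 11 (S33), package OT-LITE (helper10): "the kernel of reduction has no `p`-torsion"

Mathlib only.  `p` an odd prime, `A` a commutative ring in which `p` is regular and
`⋂ pⁿ A = 0` (e.g. a discrete valuation ring with uniformiser `p`: `e = 1 < p - 1`).

* `S33OT_binom`    : `(1 + p e)^p - 1 = p² (1 + p w) e` in every commutative ring;
* `S33OT_op`       : an endomorphism `E` of a `p`-torsion free, `p`-adically separated module
                     with `(1 + p E)^p = 1` vanishes;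
* `S33OT_main`     : **function form** (language of `S19FO_HasOrder`): `H ⊂ Map(G, A)` a
                     submodule closed under the comultiplication, `g₀ ∈ G`, `p g₀ = 0`,
                     `f g₀ ≡ f 0` mod `p` for all `f ∈ H`  ⇒  `f (x + g₀) = f x` for all `f ∈ H`;
* `S33OT_exists_unit` : a Hopf order separating `g₀` from `0` has `f` with `f g₀ ≢ f 0` mod `p`;
* `S33OT_main_set` : the same for a set of functions (no module structure);
* `S33OT_main_sub` : the same for `Ω`-valued functions with values in a subring `A ⊂ Ω`.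

Proof: `T f = f (· + g₀)`, `E = (T - 1)/p` maps `H` to `H` (Hopf property + `g₀ ≡ 0`),
`T^p = 1`, and `(1 + p X)^p - 1 = p² (1 + p W) X` gives `E = - p W(E) E`, so `E H ⊂ ⋂ pⁿ H = 0`.
-/

set_option autoImplicit false

namespace Fermat.Agent.S33

/-- the binomial identity behind "no `p`-torsion in the kernel of reduction for `e = 1 < p - 1`":
`(1 + p e)^p - 1 = p² (1 + p w) e`. -/
theorem S33OT_binom {B : Type*} [CommRing B] (p : ℕ) (hp : p.Prime) (hp2 : p ≠ 2) (e : B) :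
    ∃ w : B, (1 + (p : B) * e) ^ p - 1 = (p : B) ^ 2 * (1 + (p : B) * w) * e := by
  have hp3 : 3 ≤ p := by
    have := hp.two_le
    omega
  obtain ⟨q, hq⟩ : ∃ q, p = q + 3 := ⟨p - 3, by omega⟩
  generalize hP : (p : B) = P
  -- the terms of index `≥ 2`
  have key : ∀ i ∈ Finset.range (q + 2), ∃ c : B,
      (P * e) ^ (i + 2) * 1 ^ (p - (i + 2)) * (p.choose (i + 2) : B) = P ^ 3 * e * c := by
    intro i hi
    rw [Finset.mem_range] at hi
    rcases Nat.lt_or_ge (i + 2) p with h | h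
    · obtain ⟨c, hc⟩ := hp.dvd_choose_self (by omega : i + 2 ≠ 0) h
      refine ⟨P ^ i * e ^ (i + 1) * (c : B), ?_⟩
      rw [hc, Nat.cast_mul, hP]
      ring
    · have hi' : i + 2 = p := by omega
      refine ⟨P ^ q * e ^ (q + 2), ?_⟩
      rw [hi', Nat.choose_self]
      simp only [Nat.cast_one, one_pow, mul_one]
      rw [hq]
      ring
  choose! c hc using key
  refine ⟨∑ i ∈ Finset.range (q + 2), c i, ?_⟩
  rw [add_comm (1 : B), add_pow]
  have hr : p + 1 = q + 2 + 1 + 1 := by omega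
  rw [hr, Finset.sum_range_succ', Finset.sum_range_succ', Finset.sum_congr rfl hc,
    ← Finset.mul_sum]
  simp only [Nat.choose_zero_right, Nat.choose_one_right, pow_zero, pow_one, one_pow, mul_one,
    Nat.cast_one, zero_add, hP]
  ring

/-- **operator form**: on a `p`-torsion free, `p`-adically separated module, an endomorphism `E`
with `(1 + p E)^p = 1` vanishes (`p` odd). -/
theorem S33OT_op {A M : Type*} [CommRing A] [AddCommGroup M] [Module A M] (p : ℕ)
    (hp : p.Prime) (hp2 : p ≠ 2)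
    (hreg : ∀ m : M, (p : A) • m = 0 → m = 0)
    (hsep : ∀ m : M, (∀ n : ℕ, ∃ m' : M, m = (p : A) ^ n • m') → m = 0)
    (E : Module.End A M) (hE : (1 + (p : A) • E) ^ p = 1) : E = 0 := by
  -- the identity in the commutative ring `A[X]`, evaluated at `E`
  obtain ⟨W, hW⟩ := S33OT_binom (B := Polynomial A) p hp hp2 Polynomial.X
  have h1 := congrArg (Polynomial.aeval E) hW
  simp only [map_sub, map_pow, map_add, map_mul, map_one, map_natCast, Polynomial.aeval_X]
    at h1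
  have hcast : ((p : Module.End A M)) = (p : A) • (1 : Module.End A M) := by
    rw [Nat.cast_smul_eq_nsmul, nsmul_eq_mul, mul_one]
  have hT : (1 + (p : Module.End A M) * E) = 1 + (p : A) • E := by
    rw [hcast, smul_mul_assoc, one_mul]
  rw [hT, hE, sub_self] at h1
  set w : Module.End A M := Polynomial.aeval E W with hw
  -- `E m = - p • w (E m)`
  have h2 : ∀ m : M, E m = -((p : A) • w (E m)) := by
    intro m
    have h3 := congrArg (fun φ : Module.End A M => φ m) h1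
    simp only [LinearMap.zero_apply, Module.End.mul_apply, hcast, pow_two,
      LinearMap.smul_apply, Module.End.one_apply, LinearMap.add_apply, smul_mul_assoc,
      one_mul] at h3
    have h4 : E m + (p : A) • w (E m) = 0 := hreg _ (hreg _ h3.symm)
    exact eq_neg_of_add_eq_zero_left h4
  have h5 : ∀ (n : ℕ) (m : M), ∃ m' : M, E m = (p : A) ^ n • m' := by
    intro n
    induction n with
    | zero => exact fun m => ⟨E m, by rw [pow_zero, one_smul]⟩
    | succ n ih =>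
      intro m
      obtain ⟨m', hm'⟩ := ih m
      -- E m = - p w (E m) = - p w (p^n m') = p^(n+1) (- w m')
      refine ⟨-(w m'), ?_⟩
      have := h2 m
      rw [hm'] at this
      rw [hm', this, map_smul, smul_smul, smul_neg, pow_succ']
  ext m
  exact hsep _ (fun n => h5 n m)

section functions

variable {A : Type*} [CommRing A] {G : Type*} [AddCommGroup G]

/-- **(hE) from the Hopf property**: if `H ⊂ Map(G, A)` is closed under the comultiplication
(`f (x + y) = ∑ a_i x * b_i y`, `a_i, b_i ∈ H`) and `g₀ ≡ 0` modulo `p` on `H`, then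
`f (· + g₀) - f ∈ p H` for all `f ∈ H`. -/
theorem S33OT_hE (p : ℕ) (g₀ : G) (H : Submodule A (G → A))
    (hΔ : ∀ f ∈ H, ∃ (n : ℕ) (a b : Fin n → G → A), (∀ i, a i ∈ H) ∧ (∀ i, b i ∈ H) ∧
      ∀ x y, f (x + y) = ∑ i, a i x * b i y)
    (hconn : ∀ f ∈ H, (p : A) ∣ f g₀ - f 0) :
    ∀ f ∈ H, ∃ u ∈ H, ∀ x, f (x + g₀) - f x = (p : A) * u x := by
  intro f hf
  obtain ⟨n, a, b, ha, hb, hab⟩ := hΔ f hf
  choose c hc using fun i => hconn (b i) (hb i)
  refine ⟨∑ i, c i • a i, H.sum_mem fun i _ => H.smul_mem _ (ha i), fun x => ?_⟩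
  have h1 := hab x g₀
  have h2 := hab x 0
  rw [add_zero] at h2
  rw [h1, h2, ← Finset.sum_sub_distrib, Finset.sum_apply, Finset.mul_sum]
  refine Finset.sum_congr rfl fun i _ => ?_
  rw [← mul_sub, hc i, Pi.smul_apply, smul_eq_mul]
  ring

/-- **translation form**: if `f (· + g₀) - f ∈ p H` for all `f ∈ H` and `p g₀ = 0`, then every
`f ∈ H` is invariant under translation by `g₀`  (`p` odd, `p` regular, `⋂ pⁿ A = 0`). -/
theorem S33OT_transl_inv (p : ℕ) (hp : p.Prime) (hp2 : p ≠ 2)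
    (hreg : ∀ a : A, (p : A) * a = 0 → a = 0)
    (hsep : ∀ a : A, (∀ n : ℕ, (p : A) ^ n ∣ a) → a = 0)
    (g₀ : G) (H : Submodule A (G → A))
    (hinv : ∀ f ∈ H, ∀ x, f (x + p • g₀) = f x)
    (hE : ∀ f ∈ H, ∃ u ∈ H, ∀ x, f (x + g₀) - f x = (p : A) * u x) :
    ∀ f ∈ H, ∀ x, f (x + g₀) = f x := by
  have hE' : ∀ f : H, ∃ u : H, ∀ x, (f : G → A) (x + g₀) - (f : G → A) x
      = (p : A) * (u : G → A) x := fun f => by
    obtain ⟨u, hu, h⟩ := hE f f.2
    exact ⟨⟨u, hu⟩, h⟩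
  choose E hEq using hE'
  have hext : ∀ u v : H, (∀ x, (p : A) * (u : G → A) x = (p : A) * (v : G → A) x) → u = v := by
    intro u v h
    apply Subtype.ext
    funext x
    have := hreg ((u : G → A) x - (v : G → A) x) (by rw [mul_sub, h x, sub_self])
    exact sub_eq_zero.mp this
  let El : Module.End A H :=
    { toFun := E
      map_add' := fun f f' => hext _ _ fun x => by
        rw [← hEq]
        show (f : G → A) (x + g₀) + (f' : G → A) (x + g₀) - ((f : G → A) x + (f' : G → A) x)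
          = (p : A) * ((E f : G → A) x + (E f' : G → A) x)
        rw [mul_add, ← hEq, ← hEq]
        ring
      map_smul' := fun c f => hext _ _ fun x => by
        rw [← hEq]
        show c * (f : G → A) (x + g₀) - c * (f : G → A) x = (p : A) * (c * (E f : G → A) x)
        rw [mul_left_comm, ← hEq]
        ring }
  have hEl : ∀ f : H, El f = E f := fun _ => rfl
  have hT1 : ∀ (f : H) (x : G), (((1 + (p : A) • El) f : H) : G → A) x
      = (f : G → A) (x + g₀) := by
    intro f x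
    show (f : G → A) x + (p : A) * (E f : G → A) x = _
    rw [← hEq]
    ring
  have hT : ∀ (k : ℕ) (f : H) (x : G), ((((1 + (p : A) • El) ^ k) f : H) : G → A) x
      = (f : G → A) (x + k • g₀) := by
    intro k
    induction k with
    | zero => intro f x; rw [pow_zero, zero_smul, add_zero]; rfl
    | succ k ih =>
      intro f x
      rw [pow_succ, Module.End.mul_apply, ih, hT1, succ_nsmul, add_assoc]
  have hTp : (1 + (p : A) • El) ^ p = 1 := by
    ext f x
    rw [hT]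
    exact hinv f f.2 x
  have h0 : El = 0 := by
    refine S33OT_op p hp hp2 ?_ ?_ El hTp
    · intro m hm
      apply Subtype.ext
      funext x
      have := congrArg (fun u : H => (u : G → A) x) hm
      exact hreg _ this
    · intro m hm
      apply Subtype.ext
      funext x
      refine hsep _ fun n => ?_
      obtain ⟨m', hm'⟩ := hm n
      exact ⟨(m' : G → A) x, congrArg (fun u : H => (u : G → A) x) hm'⟩
  intro f hf x
  have h1 := hEq ⟨f, hf⟩ x
  have h2 : E ⟨f, hf⟩ = 0 := by rw [← hEl, h0]; rfl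
  rw [h2] at h1
  have h3 : f (x + g₀) - f x = 0 := by
    rw [show f (x + g₀) - f x = (p : A) * ((0 : H) : G → A) x from h1]
    show (p : A) * 0 = 0
    rw [mul_zero]
  exact sub_eq_zero.mp h3

/-- **translation form**, for `p g₀ = 0`. -/
theorem S33OT_transl (p : ℕ) (hp : p.Prime) (hp2 : p ≠ 2)
    (hreg : ∀ a : A, (p : A) * a = 0 → a = 0)
    (hsep : ∀ a : A, (∀ n : ℕ, (p : A) ^ n ∣ a) → a = 0)
    (g₀ : G) (hg₀ : p • g₀ = 0) (H : Submodule A (G → A))
    (hE : ∀ f ∈ H, ∃ u ∈ H, ∀ x, f (x + g₀) - f x = (p : A) * u x) :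
    ∀ f ∈ H, ∀ x, f (x + g₀) = f x :=
  S33OT_transl_inv p hp hp2 hreg hsep g₀ H
    (fun f _ x => by rw [hg₀, add_zero]) hE

/-- **OT-lite, function form** ("the kernel of reduction has no `p`-torsion for `e = 1`,
`p` odd"): let `H ⊂ Map(G, A)` be closed under the comultiplication, `g₀ ∈ G` with `p g₀ = 0`
and `f g₀ ≡ f 0` modulo `p` for all `f ∈ H`.  Then every `f ∈ H` is invariant under translation
by `g₀`; in particular `H` does not separate `g₀` from `0`. -/
theorem S33OT_main (p : ℕ) (hp : p.Prime) (hp2 : p ≠ 2)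
    (hreg : ∀ a : A, (p : A) * a = 0 → a = 0)
    (hsep : ∀ a : A, (∀ n : ℕ, (p : A) ^ n ∣ a) → a = 0)
    (g₀ : G) (hg₀ : p • g₀ = 0) (H : Submodule A (G → A))
    (hΔ : ∀ f ∈ H, ∃ (n : ℕ) (a b : Fin n → G → A), (∀ i, a i ∈ H) ∧ (∀ i, b i ∈ H) ∧
      ∀ x y, f (x + y) = ∑ i, a i x * b i y)
    (hconn : ∀ f ∈ H, (p : A) ∣ f g₀ - f 0) :
    ∀ f ∈ H, ∀ x, f (x + g₀) = f x :=
  S33OT_transl p hp hp2 hreg hsep g₀ hg₀ H (S33OT_hE p g₀ H hΔ hconn)

/-- consequence: a Hopf order of functions which separates `g₀ ≠ 0` (of order `p`) from `0`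
is not connected at `g₀`: some `f ∈ H` has `f g₀ ≢ f 0` modulo `p`. -/
theorem S33OT_exists_unit (p : ℕ) (hp : p.Prime) (hp2 : p ≠ 2)
    (hreg : ∀ a : A, (p : A) * a = 0 → a = 0)
    (hsep : ∀ a : A, (∀ n : ℕ, (p : A) ^ n ∣ a) → a = 0)
    (g₀ : G) (hg₀ : p • g₀ = 0) (H : Submodule A (G → A))
    (hΔ : ∀ f ∈ H, ∃ (n : ℕ) (a b : Fin n → G → A), (∀ i, a i ∈ H) ∧ (∀ i, b i ∈ H) ∧
      ∀ x y, f (x + y) = ∑ i, a i x * b i y)
    (hsepar : ∃ f ∈ H, f g₀ ≠ f 0) :
    ∃ f ∈ H, ¬ (p : A) ∣ f g₀ - f 0 := by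
  by_contra hcon
  have hconn : ∀ f ∈ H, (p : A) ∣ f g₀ - f 0 := by
    intro f hf
    by_contra h
    exact hcon ⟨f, hf, h⟩
  obtain ⟨f, hf, hne⟩ := hsepar
  apply hne
  have := S33OT_main p hp hp2 hreg hsep g₀ hg₀ H hΔ hconn f hf 0
  rwa [zero_add] at this

/-- **(hE) for the span of a set of functions** closed under the comultiplication. -/
theorem S33OT_hE_span (p : ℕ) (g₀ : G) (S : Set (G → A))
    (hΔ : ∀ f ∈ S, ∃ (n : ℕ) (a b : Fin n → G → A), (∀ i, a i ∈ S) ∧ (∀ i, b i ∈ S) ∧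
      ∀ x y, f (x + y) = ∑ i, a i x * b i y)
    (hconn : ∀ f ∈ S, (p : A) ∣ f g₀ - f 0) :
    ∀ f ∈ Submodule.span A S, ∃ u ∈ Submodule.span A S,
      ∀ x, f (x + g₀) - f x = (p : A) * u x := by
  intro f hf
  induction hf using Submodule.span_induction with
  | mem f hf =>
    obtain ⟨n, a, b, ha, hb, hab⟩ := hΔ f hf
    choose c hc using fun i => hconn (b i) (hb i)
    refine ⟨∑ i, c i • a i, Submodule.sum_mem _ fun i _ =>
      Submodule.smul_mem _ _ (Submodule.subset_span (ha i)), fun x => ?_⟩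
    have h1 := hab x g₀
    have h2 := hab x 0
    rw [add_zero] at h2
    rw [h1, h2, ← Finset.sum_sub_distrib, Finset.sum_apply, Finset.mul_sum]
    refine Finset.sum_congr rfl fun i _ => ?_
    rw [← mul_sub, hc i, Pi.smul_apply, smul_eq_mul]
    ring
  | zero => exact ⟨0, Submodule.zero_mem _, fun x => by simp⟩
  | add f f' _ _ ih ih' =>
    obtain ⟨u, hu, h⟩ := ih
    obtain ⟨u', hu', h'⟩ := ih'
    refine ⟨u + u', Submodule.add_mem _ hu hu', fun x => ?_⟩
    rw [Pi.add_apply, Pi.add_apply, Pi.add_apply, mul_add, ← h, ← h']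
    ring
  | smul c f _ ih =>
    obtain ⟨u, hu, h⟩ := ih
    refine ⟨c • u, Submodule.smul_mem _ _ hu, fun x => ?_⟩
    rw [Pi.smul_apply, Pi.smul_apply, Pi.smul_apply, smul_eq_mul, smul_eq_mul, smul_eq_mul,
      mul_left_comm, ← h]
    ring

/-- **OT-lite for a set of functions** closed under the comultiplication (no module structure
required). -/
theorem S33OT_main_set (p : ℕ) (hp : p.Prime) (hp2 : p ≠ 2)
    (hreg : ∀ a : A, (p : A) * a = 0 → a = 0)
    (hsep : ∀ a : A, (∀ n : ℕ, (p : A) ^ n ∣ a) → a = 0)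
    (g₀ : G) (hg₀ : p • g₀ = 0) (S : Set (G → A))
    (hΔ : ∀ f ∈ S, ∃ (n : ℕ) (a b : Fin n → G → A), (∀ i, a i ∈ S) ∧ (∀ i, b i ∈ S) ∧
      ∀ x y, f (x + y) = ∑ i, a i x * b i y)
    (hconn : ∀ f ∈ S, (p : A) ∣ f g₀ - f 0) :
    ∀ f ∈ S, ∀ x, f (x + g₀) = f x := fun f hf =>
  S33OT_transl p hp hp2 hreg hsep g₀ hg₀ (Submodule.span A S)
    (S33OT_hE_span p g₀ S hΔ hconn) f (Submodule.subset_span hf)

/-- **OT-lite for a set of functions**, variant: instead of `p g₀ = 0` the functions are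
invariant under translation by `p g₀`. -/
theorem S33OT_main_set_inv (p : ℕ) (hp : p.Prime) (hp2 : p ≠ 2)
    (hreg : ∀ a : A, (p : A) * a = 0 → a = 0)
    (hsep : ∀ a : A, (∀ n : ℕ, (p : A) ^ n ∣ a) → a = 0)
    (g₀ : G) (S : Set (G → A))
    (hinv : ∀ f ∈ S, ∀ x, f (x + p • g₀) = f x)
    (hΔ : ∀ f ∈ S, ∃ (n : ℕ) (a b : Fin n → G → A), (∀ i, a i ∈ S) ∧ (∀ i, b i ∈ S) ∧
      ∀ x y, f (x + y) = ∑ i, a i x * b i y)
    (hconn : ∀ f ∈ S, (p : A) ∣ f g₀ - f 0) :
    ∀ f ∈ S, ∀ x, f (x + g₀) = f x := by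
  have hinv' : ∀ f ∈ Submodule.span A S, ∀ x, f (x + p • g₀) = f x := by
    intro f hf
    induction hf using Submodule.span_induction with
    | mem f hf => exact hinv f hf
    | zero => intro x; rfl
    | add f f' _ _ ih ih' => intro x; rw [Pi.add_apply, Pi.add_apply, ih, ih']
    | smul c f _ ih => intro x; rw [Pi.smul_apply, Pi.smul_apply, ih]
  exact fun f hf =>
    S33OT_transl_inv p hp hp2 hreg hsep g₀ (Submodule.span A S) hinv'
      (S33OT_hE_span p g₀ S hΔ hconn) f (Submodule.subset_span hf)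

end functions

section subring

variable {Ω : Type*} [CommRing Ω] {G : Type*} [AddCommGroup G]

/-- **OT-lite for `Ω`-valued functions with values in a subring `A ⊂ Ω`** (the shape of
`S19FO_HasOrder`): `H` a set of functions `G → Ω` with values in `A`, closed under the
comultiplication, `g₀` of order `p` with `f g₀ - f 0 ∈ p A` for all `f ∈ H`.  Then every
`f ∈ H` is invariant under translation by `g₀`. -/
theorem S33OT_main_sub_inv (A : Subring Ω) (p : ℕ) (hp : p.Prime) (hp2 : p ≠ 2)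
    (hreg : ∀ a ∈ A, (p : Ω) * a = 0 → a = 0)
    (hsep : ∀ a ∈ A, (∀ n : ℕ, ∃ b ∈ A, a = (p : Ω) ^ n * b) → a = 0)
    (g₀ : G) (H : Set (G → Ω))
    (hinv : ∀ f ∈ H, ∀ x, f (x + p • g₀) = f x)
    (hval : ∀ f ∈ H, ∀ x, f x ∈ A)
    (hΔ : ∀ f ∈ H, ∃ (n : ℕ) (a b : Fin n → G → Ω), (∀ i, a i ∈ H) ∧ (∀ i, b i ∈ H) ∧
      ∀ x y, f (x + y) = ∑ i, a i x * b i y)
    (hconn : ∀ f ∈ H, ∃ c ∈ A, f g₀ - f 0 = (p : Ω) * c) :
    ∀ f ∈ H, ∀ x, f (x + g₀) = f x := by
  -- the functions of `H` as `A`-valued functions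
  let S : Set (G → A) := {f' | (fun x => ((f' x : A) : Ω)) ∈ H}
  have hlift : ∀ (f : G → Ω) (hf : f ∈ H), (fun x => (⟨f x, hval f hf x⟩ : A)) ∈ S :=
    fun f hf => hf
  have hregA : ∀ a : A, (p : A) * a = 0 → a = 0 := by
    intro a ha
    apply Subtype.ext
    refine hreg a a.2 ?_
    have := congrArg (fun u : A => (u : Ω)) ha
    simpa using this
  have hsepA : ∀ a : A, (∀ n : ℕ, (p : A) ^ n ∣ a) → a = 0 := by
    intro a ha
    apply Subtype.ext
    refine hsep a a.2 fun n => ?_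
    obtain ⟨b, hb⟩ := ha n
    refine ⟨b, b.2, ?_⟩
    have := congrArg (fun u : A => (u : Ω)) hb
    simpa using this
  have hΔS : ∀ f ∈ S, ∃ (n : ℕ) (a b : Fin n → G → A), (∀ i, a i ∈ S) ∧ (∀ i, b i ∈ S) ∧
      ∀ x y, f (x + y) = ∑ i, a i x * b i y := by
    intro f hf
    obtain ⟨n, a, b, ha, hb, hab⟩ := hΔ _ hf
    refine ⟨n, fun i x => ⟨a i x, hval _ (ha i) x⟩, fun i x => ⟨b i x, hval _ (hb i) x⟩,
      fun i => ha i, fun i => hb i, fun x y => ?_⟩
    apply Subtype.ext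
    have := hab x y
    push_cast
    exact this
  have hconnS : ∀ f ∈ S, (p : A) ∣ f g₀ - f 0 := by
    intro f hf
    obtain ⟨c, hc, h⟩ := hconn _ hf
    refine ⟨⟨c, hc⟩, ?_⟩
    apply Subtype.ext
    simpa using h
  intro f hf x
  have hinvS : ∀ f ∈ S, ∀ x, f (x + p • g₀) = f x := by
    intro f hf x
    apply Subtype.ext
    exact hinv _ hf x
  have := S33OT_main_set_inv p hp hp2 hregA hsepA g₀ S hinvS hΔS hconnS _ (hlift f hf) x
  exact congrArg (fun u : A => (u : Ω)) this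

/-- **OT-lite for `Ω`-valued functions with values in a subring `A ⊂ Ω`**, for `p g₀ = 0`. -/
theorem S33OT_main_sub (A : Subring Ω) (p : ℕ) (hp : p.Prime) (hp2 : p ≠ 2)
    (hreg : ∀ a ∈ A, (p : Ω) * a = 0 → a = 0)
    (hsep : ∀ a ∈ A, (∀ n : ℕ, ∃ b ∈ A, a = (p : Ω) ^ n * b) → a = 0)
    (g₀ : G) (hg₀ : p • g₀ = 0) (H : Set (G → Ω))
    (hval : ∀ f ∈ H, ∀ x, f x ∈ A)
    (hΔ : ∀ f ∈ H, ∃ (n : ℕ) (a b : Fin n → G → Ω), (∀ i, a i ∈ H) ∧ (∀ i, b i ∈ H) ∧
      ∀ x y, f (x + y) = ∑ i, a i x * b i y)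
    (hconn : ∀ f ∈ H, ∃ c ∈ A, f g₀ - f 0 = (p : Ω) * c) :
    ∀ f ∈ H, ∀ x, f (x + g₀) = f x :=
  S33OT_main_sub_inv A p hp hp2 hreg hsep g₀ H (fun f _ x => by rw [hg₀, add_zero]) hval hΔ hconn

end subring

end Fermat.Agent.S33
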