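import Mathlib
import Fermat.Agent.S33.OtLite
import Fermat.Agent.S36.BaseLDvr

/-!
# TRACK 11 (S33), package NO-LOCAL (helper10): OT-LITE over the ring of integers of `ℚ̄^I`

`Ω = ℚ̄`, `p` an odd prime, `A` a valuation subring of `Ω` over `p`, `I` its inertia group.

* `S33NL_OL A`      : the subring `O_L = {a ∈ A | τ a = a for all τ ∈ I}` of `Ω`;
* `S33NL_sep`       : `⋂ pⁿ O_L = 0`;
* `S33NL_div`       : an `I`-fixed non-unit of `A` is `p · c` with `c ∈ O_L` (`e = 1`);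
* `S33NL_noLocal`   : **NO-LOCAL**: a set `H` of functions `G → Ω` with integral, `I`-fixed values,
  closed under the comultiplication, and `g₀ ∈ G` with `p g₀ = 0` and `f g₀ ≡ f 0` modulo the
  maximal ideal of `A` for all `f ∈ H`: then `f (x + g₀) = f x` for all `f ∈ H`
  (so `H` does not separate `g₀` from `0`).
-/

set_option autoImplicit false
set_option linter.unusedSectionVars false
set_option linter.style.haveILetI false

namespace Fermat.Agent.S33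

open Fermat.Agent.S36

noncomputable section

local notation "Ω" => AlgebraicClosure ℚ

variable {p : ℕ} [hp : Fact p.Prime] (A : ValuationSubring Ω)

/-- the ring of integers `O_L` of the inertia field, as a subring of `Ω`. -/
def S33NL_OL : Subring Ω where
  carrier := {a | a ∈ A ∧ ∀ τ ∈ A.inertiaSubgroupIn ℚ, τ a = a}
  mul_mem' := fun ha hb => ⟨A.mul_mem _ _ ha.1 hb.1, fun τ hτ => by
    rw [map_mul, ha.2 τ hτ, hb.2 τ hτ]⟩
  one_mem' := ⟨A.one_mem, fun τ _ => map_one τ⟩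
  add_mem' := fun ha hb => ⟨A.add_mem _ _ ha.1 hb.1, fun τ hτ => by
    rw [map_add, ha.2 τ hτ, hb.2 τ hτ]⟩
  zero_mem' := ⟨A.zero_mem, fun τ _ => map_zero τ⟩
  neg_mem' := fun ha => ⟨A.neg_mem _ ha.1, fun τ hτ => by rw [map_neg, ha.2 τ hτ]⟩

theorem S33NL_mem_OL {a : Ω} :
    a ∈ S33NL_OL A ↔ a ∈ A ∧ ∀ τ ∈ A.inertiaSubgroupIn ℚ, τ a = a := Iff.rfl

/-- `⋂ pⁿ O_L = 0`. -/
theorem S33NL_sep (hA : A.LiesOverPrime p) (a : Ω) (ha : a ∈ S33NL_OL A)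
    (h : ∀ n : ℕ, ∃ b ∈ S33NL_OL A, a = (p : Ω) ^ n * b) : a = 0 := by
  by_contra ha0
  obtain ⟨m, hm⟩ := S36BL_val_eq A hA ha0 ha.2
  obtain ⟨b, hb, hab⟩ := h (m.toNat + 1)
  have h1 : A.valuation a ≤ A.valuation (p : Ω) ^ (m.toNat + 1) := by
    rw [hab, map_mul, map_pow]
    exact mul_le_of_le_one_right' ((A.valuation_le_one_iff b).mpr hb.1)
  rw [hm, ← zpow_natCast] at h1
  have hv0 := S36BL_vq_ne_zero (q := p) A
  have h2 : A.valuation (p : Ω) ^ (m - ((m.toNat + 1 : ℕ) : ℤ)) ≤ 1 := by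
    rw [zpow_sub₀ hv0]
    exact div_le_one_of_le₀ h1 zero_le
  have h3 := (S36BL_zpow_le_one_iff A hA).mp h2
  have h4 : m ≤ (m.toNat : ℤ) := Int.self_le_toNat m
  push_cast at h3
  omega

/-- an `I`-fixed element of the maximal ideal of `A` is divisible by `p` in `O_L`. -/
theorem S33NL_div (hA : A.LiesOverPrime p) (x : Ω)
    (hfix : ∀ τ ∈ A.inertiaSubgroupIn ℚ, τ x = x) (hx : A.valuation x < 1) :
    ∃ c ∈ S33NL_OL A, x = (p : Ω) * c := by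
  have hp0 : (p : Ω) ≠ 0 := S36BL_q_ne_zero
  by_cases hx0 : x = 0
  · exact ⟨0, (S33NL_OL A).zero_mem, by rw [hx0, mul_zero]⟩
  obtain ⟨m, hm⟩ := S36BL_val_eq A hA hx0 hfix
  rw [hm] at hx
  have hm1 : 0 < m := (S36BL_zpow_lt_one_iff A hA).mp hx
  refine ⟨x / (p : Ω), ⟨?_, fun τ hτ => ?_⟩, by field_simp⟩
  · rw [← A.valuation_le_one_iff, map_div₀, hm]
    have hv0 := S36BL_vq_ne_zero (q := p) A
    have : A.valuation (p : Ω) ^ m / A.valuation (p : Ω) = A.valuation (p : Ω) ^ (m - 1) := by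
      rw [zpow_sub₀ hv0, zpow_one]
    rw [this]
    exact (S36BL_zpow_le_one_iff A hA).mpr (by omega)
  · rw [map_div₀, hfix τ hτ, map_natCast]

/-- **NO-LOCAL**: a Hopf order of functions with integral `I`-fixed values which is local at
`g₀` (`f g₀ ≡ f 0` modulo the maximal ideal of `A`), `p g₀ = 0`, `p` odd, is invariant under
translation by `g₀`. -/
theorem S33NL_noLocal_inv (hp2 : p ≠ 2) (hA : A.LiesOverPrime p) {G : Type*} [AddCommGroup G]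
    (g₀ : G) (H : Set (G → Ω))
    (hinv : ∀ f ∈ H, ∀ x, f (x + p • g₀) = f x)
    (hint : ∀ f ∈ H, ∀ x, f x ∈ A)
    (hfix : ∀ f ∈ H, ∀ x, ∀ τ ∈ A.inertiaSubgroupIn ℚ, τ (f x) = f x)
    (hΔ : ∀ f ∈ H, ∃ (n : ℕ) (a b : Fin n → G → Ω), (∀ i, a i ∈ H) ∧ (∀ i, b i ∈ H) ∧
      ∀ x y, f (x + y) = ∑ i, a i x * b i y)
    (hloc : ∀ f ∈ H, A.valuation (f g₀ - f 0) < 1) :
    ∀ f ∈ H, ∀ x, f (x + g₀) = f x := by
  have hp0 : (p : Ω) ≠ 0 := S36BL_q_ne_zero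
  refine S33OT_main_sub_inv (S33NL_OL A) p hp.out hp2 ?_ (S33NL_sep A hA) g₀ H hinv
    (fun f hf x => ⟨hint f hf x, hfix f hf x⟩) hΔ ?_
  · intro a _ h
    rcases mul_eq_zero.mp h with h | h
    · exact absurd h hp0
    · exact h
  · intro f hf
    refine S33NL_div A hA _ (fun τ hτ => ?_) (hloc f hf)
    rw [map_sub, hfix f hf _ τ hτ, hfix f hf _ τ hτ]

/-- **NO-LOCAL** for `p g₀ = 0`. -/
theorem S33NL_noLocal (hp2 : p ≠ 2) (hA : A.LiesOverPrime p) {G : Type*} [AddCommGroup G]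
    (g₀ : G) (hg₀ : p • g₀ = 0) (H : Set (G → Ω))
    (hint : ∀ f ∈ H, ∀ x, f x ∈ A)
    (hfix : ∀ f ∈ H, ∀ x, ∀ τ ∈ A.inertiaSubgroupIn ℚ, τ (f x) = f x)
    (hΔ : ∀ f ∈ H, ∃ (n : ℕ) (a b : Fin n → G → Ω), (∀ i, a i ∈ H) ∧ (∀ i, b i ∈ H) ∧
      ∀ x y, f (x + y) = ∑ i, a i x * b i y)
    (hloc : ∀ f ∈ H, A.valuation (f g₀ - f 0) < 1) :
    ∀ f ∈ H, ∀ x, f (x + g₀) = f x :=
  S33NL_noLocal_inv A hp2 hA g₀ H (fun f _ x => by rw [hg₀, add_zero]) hint hfix hΔ hloc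

/-- **NO-LOCAL, separation form**: such an order cannot separate `g₀` from `0`. -/
theorem S33NL_false (hp2 : p ≠ 2) (hA : A.LiesOverPrime p) {G : Type*} [AddCommGroup G]
    (g₀ : G) (hg₀ : p • g₀ = 0) (H : Set (G → Ω))
    (hint : ∀ f ∈ H, ∀ x, f x ∈ A)
    (hfix : ∀ f ∈ H, ∀ x, ∀ τ ∈ A.inertiaSubgroupIn ℚ, τ (f x) = f x)
    (hΔ : ∀ f ∈ H, ∃ (n : ℕ) (a b : Fin n → G → Ω), (∀ i, a i ∈ H) ∧ (∀ i, b i ∈ H) ∧
      ∀ x y, f (x + y) = ∑ i, a i x * b i y)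
    (hloc : ∀ f ∈ H, A.valuation (f g₀ - f 0) < 1)
    (hsepar : ∃ f ∈ H, f g₀ ≠ f 0) : False := by
  obtain ⟨f, hf, hne⟩ := hsepar
  apply hne
  have := S33NL_noLocal A hp2 hA g₀ hg₀ H hint hfix hΔ hloc f hf 0
  rwa [zero_add] at this

end

end Fermat.Agent.S33
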