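import Mathlib
import Fermat.Agent.S33.NoLocal
import Fermat.Agent.S33.LocQuotAbs
import Fermat.Agent.S19.HopfLD
import Fermat.Agent.S19.PwBase

/-!
# TRACK 11 (S33), package OLD33-LOC (helper10): no `I`-trivial subquotient of order `p` in the
kernel of reduction of a Hopf order

`Ω = ℚ̄`, `p` odd, `A` a valuation subring of `Ω` over `p`, `I` its inertia group,
`R = ℤ_(p)`, `O = O_L = S33NL_OL A`.  `G` a finite Galois module with a Hopf order `H₀`
(the data of `S19FO_HasOrder`, witness exposed).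

* `S33LQ_valuationRing` : `O_L` is a valuation ring;
* `S33LQ_main` : if `Y₂ ⊂ G` is `I`-stable, `Y₁ ⊂ G` lies in the kernel of reduction
  (`f y ≡ f 0` modulo the maximal ideal of `A` for `f ∈ H₀`, `y ∈ Y₁`), `I` acts trivially on
  `Y₁` modulo `Y₂`, then there is no `y₀ ∈ Y₁ ∖ Y₂` with `p y₀ ∈ Y₂`.

Proof: `H₁ = O_L`-span of `H₀` (free on the `Ω`-independent `R`-basis of `H₀`), trace over `Y₂`,
retraction onto the `Y₂`-invariants `N`, comultiplication of `N` by the trace trick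
(`S33LQ_ident`), separation by Dedekind independence, then NO-LOCAL (`S33NL_noLocal_inv`) on the
group `Y₁`.
-/

set_option autoImplicit false
set_option linter.unusedSectionVars false
set_option linter.style.haveILetI false
set_option maxHeartbeats 1000000

namespace Fermat.Agent.S33

open Fermat.Agent.S19 Fermat.Agent.S36 Matrix

noncomputable section

local notation "Ω" => AlgebraicClosure ℚ
local notation "Γ" => (AlgebraicClosure ℚ ≃ₐ[ℚ] AlgebraicClosure ℚ)

variable {p : ℕ} [hp : Fact p.Prime] (A : ValuationSubring Ω)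

/-- `O_L` is a valuation ring. -/
theorem S33LQ_valuationRing : ValuationRing ↥(S33NL_OL A) := by
  haveI : PreValuationRing ↥(S33NL_OL A) := by
    constructor
    intro a b
    by_cases ha : (a : Ω) = 0
    · refine ⟨0, Or.inr ?_⟩
      apply Subtype.ext
      simp [ha]
    by_cases hb : (b : Ω) = 0
    · refine ⟨0, Or.inl ?_⟩
      apply Subtype.ext
      simp [hb]
    have hfix : ∀ (u v : ↥(S33NL_OL A)), ∀ τ ∈ A.inertiaSubgroupIn ℚ,
        τ ((u : Ω) / (v : Ω)) = (u : Ω) / (v : Ω) := by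
      intro u v τ hτ
      rw [map_div₀, u.2.2 τ hτ, v.2.2 τ hτ]
    rcases A.mem_or_inv_mem ((b : Ω) / (a : Ω)) with h | h
    · refine ⟨⟨(b : Ω) / (a : Ω), h, hfix b a⟩, Or.inl ?_⟩
      apply Subtype.ext
      show (a : Ω) * ((b : Ω) / (a : Ω)) = b
      field_simp
    · rw [inv_div] at h
      refine ⟨⟨(a : Ω) / (b : Ω), h, hfix a b⟩, Or.inr ?_⟩
      apply Subtype.ext
      show (b : Ω) * ((a : Ω) / (b : Ω)) = a
      field_simp
  exact ValuationRing.mk

/-- `ℤ_(p) ⊂ O_L`. -/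
theorem S33LQ_R_mem (hA : A.LiesOverPrime p) (r : ↥(GaloisRep.ratLocalizedAt p)) :
    algebraMap ↥(GaloisRep.ratLocalizedAt p) Ω r ∈ S33NL_OL A := by
  refine ⟨S19PW_R_le_A A hA r, fun τ _ => ?_⟩
  exact τ.commutes (r : ℚ)

/-- an element of `Ω` which is integral over `ℤ_(p)` lies in `A`. -/
theorem S33LQ_mem_of_isIntegral (hA : A.LiesOverPrime p) {z : Ω}
    (hz : IsIntegral ↥(GaloisRep.ratLocalizedAt p) z) : z ∈ A := by
  obtain ⟨P, hP, hPz⟩ := hz
  let incl : ↥(GaloisRep.ratLocalizedAt p) →+* A :=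
    { toFun := fun r => ⟨algebraMap ↥(GaloisRep.ratLocalizedAt p) Ω r, S19PW_R_le_A A hA r⟩
      map_one' := Subtype.ext (map_one _)
      map_mul' := fun _ _ => Subtype.ext (map_mul _ _ _)
      map_zero' := Subtype.ext (map_zero _)
      map_add' := fun _ _ => Subtype.ext (map_add _ _ _) }
  have hint : IsIntegral A z := by
    refine ⟨P.map incl, hP.map incl, ?_⟩
    rw [Polynomial.eval₂_map]
    exact hPz
  obtain ⟨y, hy⟩ := (IsIntegrallyClosed.isIntegral_iff (R := A) (K := Ω)).1 hint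
  rw [← hy]
  exact y.2

/-- a sum over a coset. -/
theorem S33LQ_sum_coset {G : Type} [AddCommGroup G] [Fintype G] (K : AddSubgroup G) [Fintype ↥K]
    [DecidablePred (· ∈ K)] (x : G) (h : G → Ω) :
    ∑ y : G, (if y - x ∈ K then h y else 0) = ∑ k : ↥K, h (x + k) := by
  rw [← Equiv.sum_comp (Equiv.addLeft x) (fun y => if y - x ∈ K then h y else 0)]
  simp only [Equiv.coe_addLeft, add_sub_cancel_left]
  rw [← Finset.sum_filter]
  exact Finset.sum_subtype (Finset.univ.filter (· ∈ K)) (fun z => by simp) (fun z => h (x + z))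

section core

variable {G : Type} [AddCommGroup G] {ι : Type} [Fintype ι]

/-- the function with coordinates `c` in the family `e`. -/
def S33LQ_Phi (e : ι → G → Ω) : (ι → ↥(S33NL_OL A)) →ₗ[↥(S33NL_OL A)] (G → Ω) :=
  Fintype.linearCombination ↥(S33NL_OL A) e

theorem S33LQ_Phi_apply (e : ι → G → Ω) (c : ι → ↥(S33NL_OL A)) (x : G) :
    S33LQ_Phi A e c x = ∑ i, (c i : Ω) * e i x := by
  rw [S33LQ_Phi, Fintype.linearCombination_apply, Finset.sum_apply]
  rfl

theorem S33LQ_Phi_single [DecidableEq ι] (e : ι → G → Ω) (j : ι) :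
    S33LQ_Phi A e (Pi.single j 1) = e j := by
  funext x
  rw [S33LQ_Phi_apply]
  rw [Finset.sum_eq_single j]
  · simp
  · intro i _ hij
    rw [Pi.single_eq_of_ne hij]
    simp
  · intro h
    exact absurd (Finset.mem_univ j) h

/-- the values of `Φ c` lie in `A` if those of the `e i` do. -/
theorem S33LQ_Phi_mem (e : ι → G → Ω) (hint : ∀ i x, e i x ∈ A) (c : ι → ↥(S33NL_OL A))
    (x : G) : S33LQ_Phi A e c x ∈ A := by
  rw [S33LQ_Phi_apply]
  exact A.toSubring.sum_mem fun i _ => A.mul_mem _ _ (c i).2.1 (hint i x)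

/-- `Φ c` is `I`-equivariant if the `e i` are. -/
theorem S33LQ_Phi_eq (act : Γ → G → G) (e : ι → G → Ω)
    (heq : ∀ i σ x, e i (act σ x) = σ (e i x)) (c : ι → ↥(S33NL_OL A))
    (σ : Γ) (hσ : σ ∈ A.inertiaSubgroupIn ℚ) (x : G) :
    S33LQ_Phi A e c (act σ x) = σ (S33LQ_Phi A e c x) := by
  rw [S33LQ_Phi_apply, S33LQ_Phi_apply, map_sum]
  refine Finset.sum_congr rfl fun i _ => ?_
  rw [map_mul, heq, (c i).2.2 σ hσ]

/-- `Φ c` is local at `y` if the `e i` are. -/
theorem S33LQ_Phi_loc (e : ι → G → Ω) (y : G)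
    (hloc : ∀ i, A.valuation (e i y - e i 0) < 1) (c : ι → ↥(S33NL_OL A)) :
    A.valuation (S33LQ_Phi A e c y - S33LQ_Phi A e c 0) < 1 := by
  rw [S33LQ_Phi_apply, S33LQ_Phi_apply, ← Finset.sum_sub_distrib]
  refine Valuation.map_sum_lt _ one_ne_zero fun i _ => ?_
  rw [← mul_sub, map_mul]
  calc A.valuation (c i : Ω) * A.valuation (e i y - e i 0)
      ≤ 1 * A.valuation (e i y - e i 0) :=
        mul_le_mul_left ((A.valuation_le_one_iff _).mpr (c i).2.1) _
    _ < 1 := by rw [one_mul]; exact hloc i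

/-- **the comultiplication in coordinates**: if every `e j (x + y)` is a bilinear expression in
the `e l x`, `e m y` with coefficients in `O_L`, the same holds for every `Φ c`. -/
theorem S33LQ_Phi_comul (e : ι → G → Ω)
    (C : ι → Matrix ι ι Ω) (hC : ∀ j l m, C j l m ∈ S33NL_OL A)
    (hCe : ∀ j x y, e j (x + y) = (fun l => e l x) ⬝ᵥ (C j *ᵥ fun m => e m y))
    (c : ι → ↥(S33NL_OL A)) :
    ∃ D : Matrix ι ι Ω, (∀ l m, D l m ∈ S33NL_OL A) ∧
      ∀ x y, S33LQ_Phi A e c (x + y) = (fun l => e l x) ⬝ᵥ (D *ᵥ fun m => e m y) := by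
  refine ⟨∑ j, (c j : Ω) • C j, fun l m => ?_, fun x y => ?_⟩
  · rw [Matrix.sum_apply]
    exact (S33NL_OL A).sum_mem fun j _ => (S33NL_OL A).mul_mem (c j).2 (hC j l m)
  · rw [S33LQ_Phi_apply, Matrix.sum_mulVec, dotProduct_sum]
    refine Finset.sum_congr rfl fun j _ => ?_
    rw [hCe, Matrix.smul_mulVec, dotProduct_smul, smul_eq_mul]

end core

/-- **OLD33-LOC**: a Hopf order has no `I`-trivial subquotient of order `p` inside the kernel
of reduction (`p` odd). -/
theorem S33LQ_main (hp2 : p ≠ 2) (hA : A.LiesOverPrime p)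
    {G : Type} [AddCommGroup G] [Finite G] (act : Γ → G → G)
    (hsurj : ∀ σ, Function.Surjective (act σ))
    (H₀ : Subalgebra ↥(GaloisRep.ratLocalizedAt p) (G → Ω))
    (heq : ∀ f ∈ H₀, ∀ σ x, f (act σ x) = σ (f x))
    (hfin : (Subalgebra.toSubmodule H₀).FG)
    (hsep : ∀ x y, x ≠ y → ∃ f ∈ H₀, f x ≠ f y)
    (hcomul : ∀ f ∈ H₀, ∃ (n : ℕ) (a b : Fin n → G → Ω),
      (∀ i, a i ∈ H₀) ∧ (∀ i, b i ∈ H₀) ∧ ∀ x y, f (x + y) = ∑ i, a i x * b i y)
    (Y₁ Y₂ : AddSubgroup G)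
    (hY₂ : ∀ σ ∈ A.inertiaSubgroupIn ℚ, ∀ y ∈ Y₂, act σ y ∈ Y₂)
    (htriv : ∀ σ ∈ A.inertiaSubgroupIn ℚ, ∀ y ∈ Y₁, act σ y - y ∈ Y₂)
    (hloc : ∀ y ∈ Y₁, ∀ f ∈ H₀, A.valuation (f y - f 0) < 1)
    (y₀ : G) (hy₀ : y₀ ∈ Y₁) (hy₀' : y₀ ∉ Y₂) (hpy₀ : p • y₀ ∈ Y₂) : False := by
  classical
  let _ : Fintype G := Fintype.ofFinite G
  let _ : Fintype ↥Y₂ := Fintype.ofFinite _
  haveI hVR : ValuationRing ↥(S33NL_OL A) := S33LQ_valuationRing A
  obtain ⟨ι, _, b, hb⟩ := S19F_good_of_equivariant act hsurj H₀ heq hfin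
  -- the basis functions
  obtain ⟨e, he⟩ : ∃ e : ι → G → Ω, e = fun i => ((b i : ↥H₀) : G → Ω) := ⟨_, rfl⟩
  have heH : ∀ i, e i ∈ H₀ := fun i => by rw [he]; exact (b i).2
  have heLI : LinearIndependent Ω e := by rw [he]; exact hb
  have hinj : ∀ σ, Function.Injective (act σ) :=
    fun σ => Finite.injective_iff_surjective.mpr (hsurj σ)
  have heint : ∀ i x, e i x ∈ A := fun i x =>
    S33LQ_mem_of_isIntegral A hA ((IsIntegral.of_mem_of_fg H₀ hfin (e i) (heH i)).map
      (Pi.evalAlgHom ↥(GaloisRep.ratLocalizedAt p) (fun _ : G => Ω) x))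
  -- (A) coordinates of the elements of `H₀`
  have hcoord : ∀ f ∈ H₀, ∃ c : ι → ↥(S33NL_OL A), S33LQ_Phi A e c = f := by
    intro f hf
    refine ⟨fun i => ⟨algebraMap ↥(GaloisRep.ratLocalizedAt p) Ω (b.repr ⟨f, hf⟩ i),
      S33LQ_R_mem A hA _⟩, ?_⟩
    funext x
    rw [S33LQ_Phi_apply]
    have h1 := congrArg (fun g : ↥H₀ => (g : G → Ω) x) (b.sum_repr ⟨f, hf⟩)
    simp only [AddSubmonoidClass.coe_finsetSum, Finset.sum_apply] at h1
    rw [← h1, he]
    refine Finset.sum_congr rfl fun i _ => ?_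
    rw [Subalgebra.coe_smul, Pi.smul_apply, Algebra.smul_def]
  -- (C) the comultiplication of the basis functions
  have hC : ∀ j, ∃ C : Matrix ι ι Ω, (∀ l m, C l m ∈ S33NL_OL A) ∧
      ∀ x y, e j (x + y) = (fun l => e l x) ⬝ᵥ (C *ᵥ fun m => e m y) := by
    intro j
    obtain ⟨n, a, b', ha, hb', hab⟩ := hcomul (e j) (heH j)
    choose α hα using fun i => hcoord (a i) (ha i)
    choose β hβ using fun i => hcoord (b' i) (hb' i)
    refine ⟨fun l m => ∑ i, (α i l : Ω) * (β i m : Ω), fun l m => ?_, fun x y => ?_⟩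
    · exact (S33NL_OL A).sum_mem fun i _ => (S33NL_OL A).mul_mem (α i l).2 (β i m).2
    · rw [hab]
      simp only [dotProduct, Matrix.mulVec]
      calc ∑ i, a i x * b' i y
          = ∑ i, ∑ l, ∑ m, ((α i l : Ω) * (β i m : Ω)) * (e l x * e m y) := by
            refine Finset.sum_congr rfl fun i _ => ?_
            rw [← hα i, ← hβ i, S33LQ_Phi_apply, S33LQ_Phi_apply, Finset.sum_mul_sum]
            refine Finset.sum_congr rfl fun l _ => Finset.sum_congr rfl fun m _ => ?_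
            ring
        _ = ∑ l, ∑ m, ∑ i, ((α i l : Ω) * (β i m : Ω)) * (e l x * e m y) := by
            rw [Finset.sum_comm]
            exact Finset.sum_congr rfl fun l _ => Finset.sum_comm
        _ = ∑ l, e l x * ∑ m, (∑ i, (α i l : Ω) * (β i m : Ω)) * e m y := by
            refine Finset.sum_congr rfl fun l _ => ?_
            rw [Finset.mul_sum]
            refine Finset.sum_congr rfl fun m _ => ?_
            rw [Finset.sum_mul, Finset.mul_sum]
            exact Finset.sum_congr rfl fun i _ => by ring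
  choose C hCO hCe using hC
  -- (E) the trace coefficients
  have hs : ∀ m, ∑ k : ↥Y₂, e m (k : G) ∈ S33NL_OL A := by
    intro m
    refine ⟨A.toSubring.sum_mem fun k _ => heint m k, fun σ hσ => ?_⟩
    have hbij : Function.Bijective (fun k : ↥Y₂ => (⟨act σ k, hY₂ σ hσ k k.2⟩ : ↥Y₂)) := by
      apply Function.Injective.bijective_of_finite
      intro k k' hkk
      exact Subtype.ext (hinj σ (congrArg Subtype.val hkk))
    rw [map_sum]
    have h1 : ∀ k : ↥Y₂, σ (e m k) = e m ((Equiv.ofBijective _ hbij k : ↥Y₂) : G) := by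
      intro k
      rw [← heq (e m) (heH m) σ k]
      rfl
    rw [Finset.sum_congr rfl (fun k _ => h1 k)]
    exact Equiv.sum_comp (Equiv.ofBijective _ hbij) (fun k : ↥Y₂ => e m (k : G))
  obtain ⟨τ, hτ⟩ : ∃ τ : Matrix ι ι Ω, τ = fun j l => ∑ m, C j l m * ∑ k : ↥Y₂, e m (k : G) :=
    ⟨_, rfl⟩
  have hτO : ∀ j l, τ j l ∈ S33NL_OL A := by
    intro j l
    rw [hτ]
    exact (S33NL_OL A).sum_mem fun m _ => (S33NL_OL A).mul_mem (hCO j l m) (hs m)
  have hT : ∀ x, (fun j => ∑ k : ↥Y₂, e j (x + k)) = τ *ᵥ (fun l => e l x) := by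
    intro x
    funext j
    simp only [hCe, dotProduct, Matrix.mulVec, hτ]
    rw [Finset.sum_comm]
    refine Finset.sum_congr rfl fun l _ => ?_
    rw [← Finset.mul_sum, mul_comm]
    congr 1
    rw [Finset.sum_comm]
    refine Finset.sum_congr rfl fun m _ => ?_
    rw [Finset.mul_sum]
  -- (F) the invariant coordinates and the retraction
  let N : Submodule ↥(S33NL_OL A) (ι → ↥(S33NL_OL A)) :=
    { carrier := {c | ∀ x, ∀ k ∈ Y₂, S33LQ_Phi A e c (x + k) = S33LQ_Phi A e c x}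
      add_mem' := by
        intro c c' h h' x k hk
        rw [map_add, Pi.add_apply, Pi.add_apply, h x k hk, h' x k hk]
      zero_mem' := by
        intro x k _
        rw [map_zero]
        rfl
      smul_mem' := by
        intro r c h x k hk
        rw [map_smul, Pi.smul_apply, Pi.smul_apply, h x k hk] }
  have hNmem : ∀ c, c ∈ N ↔ ∀ x, ∀ k ∈ Y₂, S33LQ_Phi A e c (x + k) = S33LQ_Phi A e c x :=
    fun _ => Iff.rfl
  have hsat : ∀ (r : ↥(S33NL_OL A)) (c : ι → ↥(S33NL_OL A)), r ≠ 0 → r • c ∈ N → c ∈ N := by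
    intro r c hr hrc x k hk
    have h1 := hrc x k hk
    rw [map_smul, Pi.smul_apply, Pi.smul_apply] at h1
    have hr' : (r : Ω) ≠ 0 := fun h0 => hr (Subtype.ext h0)
    exact mul_left_cancel₀ hr' h1
  obtain ⟨π, hπN, hπid⟩ := S33LQ_retraction N hsat
  -- the trace of a sum is invariant
  have hTinv : ∀ (h : G → Ω) (x : G), ∀ k₀ ∈ Y₂,
      ∑ k : ↥Y₂, h (x + k₀ + k) = ∑ k : ↥Y₂, h (x + k) := by
    intro h x k₀ hk₀
    rw [← Equiv.sum_comp (Equiv.addLeft (⟨k₀, hk₀⟩ : ↥Y₂)) (fun k : ↥Y₂ => h (x + k))]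
    refine Finset.sum_congr rfl fun k _ => ?_
    congr 1
    simp only [Equiv.coe_addLeft, AddSubgroup.coe_add]
    abel
  -- the coordinates of the trace
  have hTc : ∀ c : ι → ↥(S33NL_OL A), ∃ c' ∈ N, ∀ x,
      S33LQ_Phi A e c' x = ∑ k : ↥Y₂, S33LQ_Phi A e c (x + k) := by
    intro c
    have hfun : ∀ x, S33LQ_Phi A e (fun l => ∑ j, c j * ⟨τ j l, hτO j l⟩) x
        = ∑ k : ↥Y₂, S33LQ_Phi A e c (x + k) := by
      intro x
      simp only [S33LQ_Phi_apply]
      rw [Finset.sum_comm]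
      have h1 : ∀ j, ∑ k : ↥Y₂, (c j : Ω) * e j (x + k)
          = (c j : Ω) * ∑ l, τ j l * e l x := by
        intro j
        rw [← Finset.mul_sum]
        congr 1
        exact congrFun (hT x) j
      rw [Finset.sum_congr rfl (fun j _ => h1 j)]
      push_cast
      simp only [Finset.sum_mul, Finset.mul_sum]
      rw [Finset.sum_comm]
      exact Finset.sum_congr rfl fun j _ => Finset.sum_congr rfl fun l _ => by ring
    refine ⟨_, ?_, hfun⟩
    intro x k hk
    rw [hfun, hfun]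
    exact hTinv _ x k hk
  -- (G) the retracted basis
  obtain ⟨q, hq⟩ : ∃ q : ι → ι → ↥(S33NL_OL A), q = fun j => π (Pi.single j 1) := ⟨_, rfl⟩
  have hqN : ∀ j, q j ∈ N := fun j => by rw [hq]; exact hπN _
  have hπlin : ∀ c : ι → ↥(S33NL_OL A), π c = ∑ l, c l • q l := by
    intro c
    have h1 : c = ∑ l, c l • (Pi.single l 1 : ι → ↥(S33NL_OL A)) := by
      funext i
      rw [Finset.sum_apply, Finset.sum_eq_single i]
      · simp
      · intro l _ hli
        rw [Pi.smul_apply, Pi.single_eq_of_ne hli.symm, smul_zero]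
      · intro h
        exact absurd (Finset.mem_univ i) h
    conv_lhs => rw [h1]
    rw [map_sum]
    refine Finset.sum_congr rfl fun l _ => ?_
    rw [map_smul, hq]
  have hTp : ∀ x, (fun j => ∑ k : ↥Y₂, e j (x + k))
      = τ *ᵥ (fun l => S33LQ_Phi A e (q l) x) := by
    intro x
    funext j
    -- the coordinates `τ j` of `T e_j` are invariant
    obtain ⟨c', hc'N, hc'⟩ := hTc (Pi.single j 1)
    have h1 : ∀ y, S33LQ_Phi A e c' y = ∑ k : ↥Y₂, e j (y + k) := by
      intro y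
      rw [hc', S33LQ_Phi_single]
    have h2 : S33LQ_Phi A e (π c') x = ∑ k : ↥Y₂, e j (x + k) := by
      rw [hπid c' hc'N, h1]
    have h3 : S33LQ_Phi A e c' = S33LQ_Phi A e (fun l => ⟨τ j l, hτO j l⟩) := by
      funext y
      rw [h1, S33LQ_Phi_apply]
      exact congrFun (hT y) j
    have h4 : c' = fun l => ⟨τ j l, hτO j l⟩ := by
      have hinjΦ : Function.Injective (S33LQ_Phi A e) := by
        rw [injective_iff_map_eq_zero]
        intro c hc
        have h5 : ∑ i, (c i : Ω) • e i = 0 := by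
          funext y
          have := congrFun hc y
          rw [S33LQ_Phi_apply] at this
          simpa [Finset.sum_apply] using this
        have h6 := Fintype.linearIndependent_iff.mp heLI _ h5
        funext i
        exact Subtype.ext (h6 i)
      exact hinjΦ h3
    rw [← h2, hπlin, map_sum, Finset.sum_apply, h4]
    simp only [Matrix.mulVec, dotProduct, map_smul, Pi.smul_apply]
    rfl
  -- the comultiplication of the invariant functions
  have hΔN : ∀ c ∈ N, ∃ D : Matrix ι ι Ω, (∀ l m, D l m ∈ S33NL_OL A) ∧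
      ∀ x y, S33LQ_Phi A e c (x + y)
        = (fun l => S33LQ_Phi A e (q l) x) ⬝ᵥ (D *ᵥ fun m => S33LQ_Phi A e (q m) y) := by
    intro c hc
    obtain ⟨D, hDO, hD⟩ := S33LQ_Phi_comul A e C hCO hCe c
    refine ⟨D, hDO, ?_⟩
    have hK : ((Fintype.card ↥Y₂ : ℕ) : Ω) ≠ 0 := by
      exact_mod_cast Fintype.card_ne_zero
    exact S33LQ_ident e (fun l => S33LQ_Phi A e (q l)) heLI Y₂ hK τ D hT hTp
      (S33LQ_Phi A e c) hc hD
  -- (I) separation of `y₀` from `0` by an invariant function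
  have hsepN : ∃ c ∈ N, S33LQ_Phi A e c y₀ ≠ S33LQ_Phi A e c 0 := by
    by_contra hcon
    push Not at hcon
    have hTx : ∀ h ∈ H₀, ∑ k : ↥Y₂, h (y₀ + k) = ∑ k : ↥Y₂, h (0 + k) := by
      intro h hh
      obtain ⟨c, hc⟩ := hcoord h hh
      obtain ⟨c', hc'N, hc'⟩ := hTc c
      have := hcon c' hc'N
      rw [hc', hc', hc] at this
      exact this
    have hli : LinearIndependent Ω (fun y : G => (fun h : ↥H₀ => (h : G → Ω) y)) := by
      have h1 := linearIndependent_monoidHom ↥H₀ Ω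
      let ev : G → (↥H₀ →* Ω) := fun y =>
        (((Pi.evalAlgHom ↥(GaloisRep.ratLocalizedAt p) (fun _ : G => Ω) y).comp H₀.val :
          ↥H₀ →ₐ[↥(GaloisRep.ratLocalizedAt p)] Ω) : ↥H₀ →* Ω)
      have hev : Function.Injective ev := by
        intro y z hyz
        by_contra hne
        obtain ⟨f, hf, hfy⟩ := hsep y z hne
        exact hfy (DFunLike.congr_fun hyz ⟨f, hf⟩)
      exact h1.comp ev hev
    rw [Fintype.linearIndependent_iff] at hli
    let c : G → Ω := fun y => (if y - y₀ ∈ Y₂ then 1 else 0) - (if y - 0 ∈ Y₂ then 1 else 0)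
    have hc : ∑ y, c y • (fun h : ↥H₀ => (h : G → Ω) y) = 0 := by
      funext h
      simp only [Finset.sum_apply, Pi.smul_apply, smul_eq_mul, Pi.zero_apply, c, sub_mul,
        Finset.sum_sub_distrib, ite_mul, one_mul, zero_mul]
      rw [S33LQ_sum_coset Y₂ y₀, S33LQ_sum_coset Y₂ 0, hTx _ h.2, sub_self]
    have h2 := hli c hc y₀
    simp only [c, sub_self, Y₂.zero_mem, if_true, sub_zero, hy₀', if_false] at h2
    exact one_ne_zero h2
  obtain ⟨c₁, hc₁N, hc₁⟩ := hsepN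
  -- (H) NO-LOCAL on the group `Y₁`
  let H : Set (↥Y₁ → Ω) := {h | ∃ c ∈ N, ∀ y : ↥Y₁, h y = S33LQ_Phi A e c (y : G)}
  have key := S33NL_noLocal_inv A hp2 hA (⟨y₀, hy₀⟩ : ↥Y₁) H ?hinv ?hint ?hfix ?hΔ ?hloc
  · apply hc₁
    have h1 := key (fun y : ↥Y₁ => S33LQ_Phi A e c₁ (y : G)) ⟨c₁, hc₁N, fun _ => rfl⟩ 0
    simpa using h1
  case hinv =>
    rintro h ⟨c, hc, hh⟩ x
    rw [hh, hh]
    have : ((x + p • (⟨y₀, hy₀⟩ : ↥Y₁) : ↥Y₁) : G) = (x : G) + p • y₀ := by
      push_cast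
      rfl
    rw [this]
    exact hc _ _ hpy₀
  case hint =>
    rintro h ⟨c, hc, hh⟩ x
    rw [hh]
    exact S33LQ_Phi_mem A e heint c _
  case hfix =>
    rintro h ⟨c, hc, hh⟩ x σ hσ
    rw [hh, ← S33LQ_Phi_eq A act e (fun i σ x => heq _ (heH i) σ x) c σ hσ]
    have : act σ (x : G) = (x : G) + (act σ (x : G) - (x : G)) := by abel
    rw [this]
    exact hc _ _ (htriv σ hσ x x.2)
  case hloc =>
    rintro h ⟨c, hc, hh⟩
    rw [hh, hh]
    exact S33LQ_Phi_loc A e y₀ (fun i => hloc y₀ hy₀ (e i) (heH i)) c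
  case hΔ =>
    rintro h ⟨c, hc, hh⟩
    obtain ⟨D, hDO, hD⟩ := hΔN c hc
    let eqv : Fin (Fintype.card (ι × ι)) ≃ ι × ι := (Fintype.equivFin (ι × ι)).symm
    refine ⟨Fintype.card (ι × ι),
      fun i y => D (eqv i).1 (eqv i).2 * S33LQ_Phi A e (q (eqv i).1) (y : G),
      fun i y => S33LQ_Phi A e (q (eqv i).2) (y : G), fun i => ?_, fun i => ?_, fun x y => ?_⟩
    · refine ⟨(⟨D (eqv i).1 (eqv i).2, hDO _ _⟩ : ↥(S33NL_OL A)) • q (eqv i).1,
        N.smul_mem _ (hqN _), fun y => ?_⟩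
      rw [map_smul, Pi.smul_apply]
      rfl
    · exact ⟨q (eqv i).2, hqN _, fun _ => rfl⟩
    · rw [hh, AddSubgroup.coe_add, hD]
      simp only [dotProduct, Matrix.mulVec]
      rw [Equiv.sum_comp eqv (fun z : ι × ι => D z.1 z.2 * S33LQ_Phi A e (q z.1) (x : G)
        * S33LQ_Phi A e (q z.2) (y : G)), Fintype.sum_prod_type]
      refine Finset.sum_congr rfl fun l _ => ?_
      rw [Finset.mul_sum]
      exact Finset.sum_congr rfl fun m _ => by ring

end

end Fermat.Agent.S33
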