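import Mathlib
import Fermat.Agent.S33.LocQuot
import Fermat.Agent.S19.Teich
import Fermat.Agent.S19.OrdOps
import Fermat.Agent.S19.Final4

/-!
# TRACK 11 (S33), package T7 = OLD33 (helper10): the old part of (JH'-J)

`Ω = ℚ̄`, `p` odd, `A` a valuation subring of `Ω` over `p`, `I` its inertia group.
`G` a finite Galois module of `p`-power order with a Hopf order (`S19FO_HasOrder p act`).

* `S33OL_G0` : the kernel of reduction `G⁰ = {x | f x ≡ f 0 mod 𝔪_A for all f ∈ H₀}`;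
  it contains `0`, is closed under addition and negation, and contains `σ x - x` for `σ ∈ I`;
* `S33OL_jh_order` : (JH') for `G` with the order exposed;
* `S33OL_jh` : (JH') for `G` with `S19FO_HasOrder p act`: every `I`-stable subgroup `Y` of
  `U_G = ∑_{σ ∈ I} (σ - 1) G` satisfies `Y = I_aug · Y` (in helper18's shape (JH'-J));
* `S33OL_jzero` : (JH') for `J₀(M)[p^K]`, `p ∤ M` (order of S19) = input (O) of GLUE33.
-/

set_option autoImplicit false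
set_option linter.unusedSectionVars false
set_option linter.style.haveILetI false

namespace Fermat.Agent.S33

open Fermat.Agent.S19 ModularCurve

noncomputable section

local notation "Ω" => AlgebraicClosure ℚ
local notation "Γ" => (AlgebraicClosure ℚ ≃ₐ[ℚ] AlgebraicClosure ℚ)

variable {p : ℕ} [hp : Fact p.Prime] (A : ValuationSubring Ω)

section abs

variable {G : Type} [AddCommGroup G] (act : Γ → G → G)
  (H₀ : Subalgebra ↥(GaloisRep.ratLocalizedAt p) (G → Ω))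

/-- the values of the functions of a finite order lie in `A`. -/
theorem S33OL_val_mem (hA : A.LiesOverPrime p) (hfin : (Subalgebra.toSubmodule H₀).FG)
    {f : G → Ω} (hf : f ∈ H₀) (x : G) : f x ∈ A :=
  S33LQ_mem_of_isIntegral A hA ((IsIntegral.of_mem_of_fg H₀ hfin f hf).map
    (Pi.evalAlgHom ↥(GaloisRep.ratLocalizedAt p) (fun _ : G => Ω) x))

/-- the kernel of reduction of `G` with respect to the order `H₀`. -/
def S33OL_G0 : Set G := {x | ∀ f ∈ H₀, A.valuation (f x - f 0) < 1}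

theorem S33OL_mem_G0 (x : G) :
    x ∈ S33OL_G0 A H₀ ↔ ∀ f ∈ H₀, A.valuation (f x - f 0) < 1 := Iff.rfl

theorem S33OL_G0_zero : (0 : G) ∈ S33OL_G0 A H₀ := by
  intro f _
  rw [sub_self, map_zero]
  exact zero_lt_one

theorem S33OL_mul_lt_left {u w : Ω} (hu : A.valuation u < 1) (hw : w ∈ A) :
    A.valuation (u * w) < 1 := by
  rw [map_mul]
  exact lt_of_le_of_lt (mul_le_of_le_one_right' ((A.valuation_le_one_iff w).2 hw)) hu

theorem S33OL_mul_lt_right {u w : Ω} (hu : u ∈ A) (hw : A.valuation w < 1) :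
    A.valuation (u * w) < 1 := by
  rw [mul_comm]
  exact S33OL_mul_lt_left A hw hu

/-- `G⁰` is closed under addition. -/
theorem S33OL_G0_add (hA : A.LiesOverPrime p) (hfin : (Subalgebra.toSubmodule H₀).FG)
    (hcomul : ∀ f ∈ H₀, ∃ (n : ℕ) (a b : Fin n → G → Ω),
      (∀ i, a i ∈ H₀) ∧ (∀ i, b i ∈ H₀) ∧ ∀ x y, f (x + y) = ∑ i, a i x * b i y)
    {x y : G} (hx : x ∈ S33OL_G0 A H₀) (hy : y ∈ S33OL_G0 A H₀) : x + y ∈ S33OL_G0 A H₀ := by
  intro f hf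
  obtain ⟨n, a, b, ha, hb, hab⟩ := hcomul f hf
  have h0 : f 0 = ∑ i, a i 0 * b i 0 := by
    have := hab 0 0
    rwa [add_zero] at this
  have hsum : f (x + y) - f 0 =
      ∑ i, ((a i x - a i 0) * b i y + a i 0 * (b i y - b i 0)) := by
    rw [hab, h0, ← Finset.sum_sub_distrib]
    refine Finset.sum_congr rfl fun i _ => ?_
    ring
  rw [hsum]
  refine Valuation.map_sum_lt _ one_ne_zero fun i _ => ?_
  refine Valuation.map_add_lt _ ?_ ?_
  · exact S33OL_mul_lt_left A (hx (a i) (ha i)) (S33OL_val_mem A H₀ hA hfin (hb i) y)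
  · exact S33OL_mul_lt_right A (S33OL_val_mem A H₀ hA hfin (ha i) 0) (hy (b i) (hb i))

/-- `G⁰` is closed under multiples. -/
theorem S33OL_G0_nsmul (hA : A.LiesOverPrime p) (hfin : (Subalgebra.toSubmodule H₀).FG)
    (hcomul : ∀ f ∈ H₀, ∃ (n : ℕ) (a b : Fin n → G → Ω),
      (∀ i, a i ∈ H₀) ∧ (∀ i, b i ∈ H₀) ∧ ∀ x y, f (x + y) = ∑ i, a i x * b i y)
    {x : G} (hx : x ∈ S33OL_G0 A H₀) (n : ℕ) : n • x ∈ S33OL_G0 A H₀ := by
  induction n with
  | zero => rw [zero_smul]; exact S33OL_G0_zero A H₀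
  | succ n ih => rw [succ_nsmul]; exact S33OL_G0_add A H₀ hA hfin hcomul ih hx

/-- `G⁰` is closed under negation (`G` finite). -/
theorem S33OL_G0_neg [Finite G] (hA : A.LiesOverPrime p)
    (hfin : (Subalgebra.toSubmodule H₀).FG)
    (hcomul : ∀ f ∈ H₀, ∃ (n : ℕ) (a b : Fin n → G → Ω),
      (∀ i, a i ∈ H₀) ∧ (∀ i, b i ∈ H₀) ∧ ∀ x y, f (x + y) = ∑ i, a i x * b i y)
    {x : G} (hx : x ∈ S33OL_G0 A H₀) : -x ∈ S33OL_G0 A H₀ := by
  have hpos : 0 < addOrderOf x := addOrderOf_pos x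
  have h1 : (addOrderOf x - 1) • x = -x := by
    have h2 : (addOrderOf x - 1) • x + x = 0 := by
      rw [← succ_nsmul, Nat.sub_add_cancel hpos, addOrderOf_nsmul_eq_zero]
    exact eq_neg_of_add_eq_zero_left h2
  rw [← h1]
  exact S33OL_G0_nsmul A H₀ hA hfin hcomul hx _

/-- `σ x - x` lies in `G⁰` for `σ` in the inertia group. -/
theorem S33OL_G0_inertia (hA : A.LiesOverPrime p) (hfin : (Subalgebra.toSubmodule H₀).FG)
    (heq : ∀ f ∈ H₀, ∀ σ x, f (act σ x) = σ (f x))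
    (hcomul : ∀ f ∈ H₀, ∃ (n : ℕ) (a b : Fin n → G → Ω),
      (∀ i, a i ∈ H₀) ∧ (∀ i, b i ∈ H₀) ∧ ∀ x y, f (x + y) = ∑ i, a i x * b i y)
    {σ : Γ} (hσ : σ ∈ A.inertiaSubgroupIn ℚ) (x : G) : act σ x - x ∈ S33OL_G0 A H₀ := by
  intro f hf
  obtain ⟨n, a, b, ha, hb, hab⟩ := hcomul f hf
  have h0 : f 0 = ∑ i, a i x * b i (-x) := by
    have := hab x (-x)
    rwa [add_neg_cancel] at this
  have hsum : f (act σ x - x) - f 0 = ∑ i, (σ (a i x) - a i x) * b i (-x) := by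
    rw [sub_eq_add_neg (act σ x) x, hab, h0, ← Finset.sum_sub_distrib]
    refine Finset.sum_congr rfl fun i _ => ?_
    rw [heq (a i) (ha i)]
    ring
  rw [hsum]
  refine Valuation.map_sum_lt _ one_ne_zero fun i _ => ?_
  refine S33OL_mul_lt_left A ?_ (S33OL_val_mem A H₀ hA hfin (hb i) (-x))
  exact (ValuationSubring.mem_nonunits_iff (A := A)).1
    (S19TE_inertia_sub_mem A hσ (S33OL_val_mem A H₀ hA hfin (ha i) x))

/-- `U_G = ∑ (σ - 1) G ⊂ G⁰`. -/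
theorem S33OL_closure_le [Finite G] (hA : A.LiesOverPrime p)
    (hfin : (Subalgebra.toSubmodule H₀).FG)
    (heq : ∀ f ∈ H₀, ∀ σ x, f (act σ x) = σ (f x))
    (hcomul : ∀ f ∈ H₀, ∃ (n : ℕ) (a b : Fin n → G → Ω),
      (∀ i, a i ∈ H₀) ∧ (∀ i, b i ∈ H₀) ∧ ∀ x y, f (x + y) = ∑ i, a i x * b i y)
    {w : G} (hw : w ∈ AddSubgroup.closure
      {w | ∃ σ ∈ A.inertiaSubgroupIn ℚ, ∃ x, w = act σ x - x}) : w ∈ S33OL_G0 A H₀ := by
  induction hw using AddSubgroup.closure_induction with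
  | mem w hw =>
    obtain ⟨σ, hσ, x, rfl⟩ := hw
    exact S33OL_G0_inertia A act H₀ hA hfin heq hcomul hσ x
  | zero => exact S33OL_G0_zero A H₀
  | add x y _ _ hx hy => exact S33OL_G0_add A H₀ hA hfin hcomul hx hy
  | neg x _ hx => exact S33OL_G0_neg A H₀ hA hfin hcomul hx

/-- **(JH') for a module with an exposed order.** -/
theorem S33OL_jh_order [Finite G] (hp2 : p ≠ 2) (hA : A.LiesOverPrime p)
    (hsurj : ∀ σ, Function.Surjective (act σ))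
    (hpow : ∀ x : G, ∃ k : ℕ, p ^ k • x = 0)
    (heq : ∀ f ∈ H₀, ∀ σ x, f (act σ x) = σ (f x))
    (hfin : (Subalgebra.toSubmodule H₀).FG)
    (hsep : ∀ x y, x ≠ y → ∃ f ∈ H₀, f x ≠ f y)
    (hcomul : ∀ f ∈ H₀, ∃ (n : ℕ) (a b : Fin n → G → Ω),
      (∀ i, a i ∈ H₀) ∧ (∀ i, b i ∈ H₀) ∧ ∀ x y, f (x + y) = ∑ i, a i x * b i y)
    (Y : AddSubgroup G)
    (hYU : Y ≤ AddSubgroup.closure {w | ∃ σ ∈ A.inertiaSubgroupIn ℚ, ∃ x, w = act σ x - x})
    (hY : ∀ σ ∈ A.inertiaSubgroupIn ℚ, ∀ y ∈ Y, act σ y ∈ Y) :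
    Y ≤ AddSubgroup.closure
      {w | ∃ σ ∈ A.inertiaSubgroupIn ℚ, ∃ y ∈ Y, w = act σ y - y} := by
  classical
  obtain ⟨Y', hY'⟩ : ∃ Y' : AddSubgroup G, Y' = AddSubgroup.closure
      {w | ∃ σ ∈ A.inertiaSubgroupIn ℚ, ∃ y ∈ Y, w = act σ y - y} := ⟨_, rfl⟩
  rw [← hY']
  have hY'Y : Y' ≤ Y := by
    rw [hY']
    refine (AddSubgroup.closure_le _).2 ?_
    rintro w ⟨σ, hσ, y, hy, rfl⟩
    exact Y.sub_mem (hY σ hσ y hy) hy
  have hsub : ∀ σ ∈ A.inertiaSubgroupIn ℚ, ∀ y ∈ Y, act σ y - y ∈ Y' := by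
    intro σ hσ y hy
    rw [hY']
    exact AddSubgroup.subset_closure ⟨σ, hσ, y, hy, rfl⟩
  by_contra hne
  obtain ⟨y, hy, hy'⟩ := SetLike.not_le_iff_exists.1 hne
  obtain ⟨k, hk⟩ := hpow y
  have hex : ∃ k, p ^ k • y ∈ Y' := ⟨k, by rw [hk]; exact Y'.zero_mem⟩
  have hk₀ : p ^ Nat.find hex • y ∈ Y' := Nat.find_spec hex
  have hk₀pos : Nat.find hex ≠ 0 := by
    intro h0
    rw [h0, pow_zero, one_smul] at hk₀
    exact hy' hk₀
  obtain ⟨m, hm⟩ := Nat.exists_eq_succ_of_ne_zero hk₀pos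
  have hmin : p ^ m • y ∉ Y' := Nat.find_min hex (by rw [hm]; exact Nat.lt_succ_self m)
  refine S33LQ_main A hp2 hA act hsurj H₀ heq hfin hsep hcomul Y Y' ?_ hsub ?_ (p ^ m • y)
    (Y.nsmul_mem hy _) hmin ?_
  · intro σ hσ w hw
    have h1 : act σ w = (act σ w - w) + w := by abel
    rw [h1]
    exact Y'.add_mem (hsub σ hσ w (hY'Y hw)) hw
  · intro w hw f hf
    exact S33OL_closure_le A act H₀ hA hfin heq hcomul (hYU hw) f hf
  · rw [smul_smul, ← pow_succ']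
    rw [hm] at hk₀
    exact hk₀

/-- **(JH') for a Galois module with a Hopf order** (helper18's shape (JH'-J)): every `I`-stable
subgroup of `∑ (σ - 1) G` is generated by the `σ y - y`, `y ∈ Y`, `σ ∈ I`. -/
theorem S33OL_jh [Finite G] (hp2 : p ≠ 2) (hA : A.LiesOverPrime p)
    (hsurj : ∀ σ, Function.Surjective (act σ))
    (hpow : ∀ x : G, ∃ k : ℕ, p ^ k • x = 0)
    (h : S19FO_HasOrder p act)
    (Y : AddSubgroup G)
    (hYU : Y ≤ AddSubgroup.closure {w | ∃ σ ∈ A.inertiaSubgroupIn ℚ, ∃ x, w = act σ x - x})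
    (hY : ∀ σ ∈ A.inertiaSubgroupIn ℚ, ∀ y ∈ Y, act σ y ∈ Y) :
    Y ≤ AddSubgroup.closure
      {w | ∃ σ ∈ A.inertiaSubgroupIn ℚ, ∃ y ∈ Y, w = act σ y - y} := by
  obtain ⟨H₀, heq, hfin, hsep, hcomul⟩ := h
  exact S33OL_jh_order A act H₀ hp2 hA hsurj hpow heq hfin hsep hcomul Y hYU hY

end abs

/-! ### the instance `J₀(M)[p^K]`, `p ∤ M` -/

section inst

variable (M : ℕ) [NeZero M] (K : ℕ)

theorem S33OL_jzero_pow (x : ↥(Submodule.torsionBy ℤ (JZero M) ((p : ℤ) ^ K))) :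
    ∃ k : ℕ, p ^ k • x = 0 := by
  refine ⟨K, ?_⟩
  have h := Submodule.smul_torsionBy (R := ℤ) (M := JZero M) ((p : ℤ) ^ K) x
  rw [← natCast_zsmul, Nat.cast_pow]
  exact h

/-- **OLD33**: (JH'-J) at the level `M` prime to `p`. -/
theorem S33OL_jzero (hp2 : p ≠ 2) (hA : A.LiesOverPrime p) (hpM : ¬ p ∣ M)
    (Y : AddSubgroup ↥(Submodule.torsionBy ℤ (JZero M) ((p : ℤ) ^ K)))
    (hYU : Y ≤ AddSubgroup.closure
      {w | ∃ σ ∈ A.inertiaSubgroupIn ℚ, ∃ x, w = S19F_act M p K σ x - x})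
    (hY : ∀ σ ∈ A.inertiaSubgroupIn ℚ, ∀ y ∈ Y, S19F_act M p K σ y ∈ Y) :
    Y ≤ AddSubgroup.closure
      {w | ∃ σ ∈ A.inertiaSubgroupIn ℚ, ∃ y ∈ Y, w = S19F_act M p K σ y - y} := by
  haveI := S19F_jzero_finite M p K
  exact S33OL_jh A (S19F_act M p K) hp2 hA (S19F_act_surj M p K) (S33OL_jzero_pow M K)
    (S19FIN_main M p hpM K) Y hYU hY

end inst

end

end Fermat.Agent.S33
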