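import Mathlib
import Fermat.Agent.S33.Glue33
import Fermat.Agent.S33.Old33
import Fermat.Agent.S33.Alg33

/-!
# TRACK 11 (S33), INTEGRATION (helper18): GLUE33 instantiated, and frozen S33 from (D) + (N)
— prefix `S33GI_`

Level `N = M * p`, `p ∤ M`, `p` odd, `P` a place of `ℚ̄` over `p`, `I = I_P`,
`J_K = J₀(M * p)[p^K]`, `G_K = J₀(M)[p^K]`.

* `S33GI_hJH` : **(JH'-J)** at level `M * p` (= `hJH` of `S33A_main` at one `P`, `K`) from
  - (D) two additive `I`-equivariant maps `a b : J_K →+ G_K` (DEGEN33),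
  - (O) OLD33 = `S33OL_jzero` (helper10, no hypothesis left),
  - (N) NEW33, `p`-torsion only: one `τ₀ ∈ I`, `c` with `p ∤ c - 1`, and `τ₀ x = c • x` for every
        `x ∈ U_J` with `p x = 0`, `a x = 0`, `b x = 0`;
  by lead's `S33G_glue`.
* `S33GI_Input p M` : the statement (D) + (N) for all `P`, `K` (what DEGEN33 + NEW33 have to deliver).
* `S33GI_main` : frozen S33 from `S33GI_Input p M` for the `M` with `N = M * p`.
-/

set_option autoImplicit false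
set_option linter.unusedSectionVars false
set_option linter.unusedVariables false
set_option linter.style.haveILetI false

open ModularCurve IsLocalRing

namespace Fermat.Agent.S33

open Fermat.Agent.S19 Fermat.Agent.S32 CuspForm

local notation "Γ" => (AlgebraicClosure ℚ ≃ₐ[ℚ] AlgebraicClosure ℚ)

/-- **GLUE33 instantiated**: (JH'-J) at level `M * p` from (D) and (N). -/
theorem S33GI_hJH {p M : ℕ} [hp : Fact p.Prime] [NeZero M] [NeZero (M * p)]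
    (hp2 : p ≠ 2) (hpM : ¬ p ∣ M)
    (P : ValuationSubring (AlgebraicClosure ℚ)) (hP : P.LiesOverPrime p) (K : ℕ)
    (a b : ↥(Submodule.torsionBy ℤ (JZero (M * p)) ((p : ℤ) ^ K)) →+
      ↥(Submodule.torsionBy ℤ (JZero M) ((p : ℤ) ^ K)))
    (ha : ∀ σ ∈ P.inertiaSubgroupIn ℚ, ∀ x,
      a (S19F_act (M * p) p K σ x) = S19F_act M p K σ (a x))
    (hb : ∀ σ ∈ P.inertiaSubgroupIn ℚ, ∀ x,
      b (S19F_act (M * p) p K σ x) = S19F_act M p K σ (b x))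
    (τ₀ : Γ) (hτ₀ : τ₀ ∈ P.inertiaSubgroupIn ℚ) (c : ℕ) (hc : ¬ (p : ℤ) ∣ (c : ℤ) - 1)
    (hN : ∀ x : ↥(Submodule.torsionBy ℤ (JZero (M * p)) ((p : ℤ) ^ K)), p • x = 0 →
      x ∈ AddSubgroup.closure
        {w | ∃ σ ∈ P.inertiaSubgroupIn ℚ, ∃ x, w = S19F_act (M * p) p K σ x - x} →
      a x = 0 → b x = 0 → S19F_act (M * p) p K τ₀ x = c • x)
    (Y : AddSubgroup ↥(Submodule.torsionBy ℤ (JZero (M * p)) ((p : ℤ) ^ K)))
    (hYU : Y ≤ AddSubgroup.closure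
      {w | ∃ σ ∈ P.inertiaSubgroupIn ℚ, ∃ x, w = S19F_act (M * p) p K σ x - x})
    (hY : ∀ σ ∈ P.inertiaSubgroupIn ℚ, ∀ y ∈ Y, S19F_act (M * p) p K σ y ∈ Y) :
    Y ≤ AddSubgroup.closure
      {w | ∃ σ ∈ P.inertiaSubgroupIn ℚ, ∃ y ∈ Y, w = S19F_act (M * p) p K σ y - y} := by
  haveI := S19F_jzero_finite (M * p) p K
  exact S33G_glue (P.inertiaSubgroupIn ℚ) p hp.out (S19F_act (M * p) p K) (S19F_act M p K)
    (S19F_act_add (M * p) p K) (S19F_act_add M p K) a b ha hb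
    (S33OL_jzero_pow (M * p) K)
    (fun Y' hY'U hY' => S33OL_jzero P M K hp2 hP hpM Y' hY'U hY')
    τ₀ hτ₀ c hc hN Y hYU hY

/-- **what DEGEN33 + NEW33 have to deliver** at level `M * p`: for every place `P` over `p` and
every `K`, two additive `I_P`-equivariant maps `a, b : J₀(M p)[p^K] → J₀(M)[p^K]`, and one
`τ₀ ∈ I_P`, `c` with `p ∤ c - 1`, such that `τ₀ x = c • x` for all `x ∈ U_J` killed by `p`, `a`, `b`. -/
def S33GI_Input (p M : ℕ) [NeZero M] [NeZero (M * p)] : Prop :=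
  ∀ P : ValuationSubring (AlgebraicClosure ℚ), P.LiesOverPrime p → ∀ K : ℕ,
    ∃ (a b : ↥(Submodule.torsionBy ℤ (JZero (M * p)) ((p : ℤ) ^ K)) →+
        ↥(Submodule.torsionBy ℤ (JZero M) ((p : ℤ) ^ K))),
      (∀ σ ∈ P.inertiaSubgroupIn ℚ, ∀ x,
        a (S19F_act (M * p) p K σ x) = S19F_act M p K σ (a x)) ∧
      (∀ σ ∈ P.inertiaSubgroupIn ℚ, ∀ x,
        b (S19F_act (M * p) p K σ x) = S19F_act M p K σ (b x)) ∧
      ∃ τ₀ ∈ P.inertiaSubgroupIn ℚ, ∃ c : ℕ, ¬ (p : ℤ) ∣ (c : ℤ) - 1 ∧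
        ∀ x : ↥(Submodule.torsionBy ℤ (JZero (M * p)) ((p : ℤ) ^ K)), p • x = 0 →
          x ∈ AddSubgroup.closure
            {w | ∃ σ ∈ P.inertiaSubgroupIn ℚ, ∃ x, w = S19F_act (M * p) p K σ x - x} →
          a x = 0 → b x = 0 → S19F_act (M * p) p K τ₀ x = c • x

variable {p : ℕ} {N : ℕ} [NeZero N] {S : Finset ℕ}
  {𝒪 : Type} [CommRing 𝒪] [IsDomain 𝒪] [IsDiscreteValuationRing 𝒪]
  [IsAdicComplete (IsLocalRing.maximalIdeal 𝒪) 𝒪]
  {θ : CuspForm.heckeAlgebra N 2 (↑S : Set ℕ) →+* IsLocalRing.ResidueField 𝒪}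
  {T : Type} [CommRing T] [IsLocalRing T] [IsNoetherianRing T]
  [IsAdicComplete (IsLocalRing.maximalIdeal T) T] [Algebra 𝒪 T] [IsLocalHom (algebraMap 𝒪 T)]
  [Module.Finite 𝒪 T] [Module.Free 𝒪 T]

/-- **frozen S33 from (D) + (N)**. -/
theorem S33GI_main [Finite (IsLocalRing.ResidueField 𝒪)] [CharZero 𝒪]
    (hp : p.Prime) (hp2 : p ≠ 2) (hp𝒪 : (p : 𝒪) ∈ IsLocalRing.maximalIdeal 𝒪)
    (hN : p ∣ N ∧ ¬ p ^ 2 ∣ N)
    (hNS : ∀ q : ℕ, q.Prime → q ∣ N → q ∈ S)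
    (H : CuspForm.HeckeGaloisRepDatum N (↑S : Set ℕ) 𝒪 θ T)
    (hres : (GaloisRepAdic.ofResidualGaloisRep H.ρ.residual).IsOrdinaryAt p)
    (hin : ∀ (M : ℕ) [NeZero M] [NeZero (M * p)], ¬ p ∣ M → S33GI_Input p M) :
    H.ρ.IsOrdinaryAt p := by
  haveI : Fact p.Prime := ⟨hp⟩
  obtain ⟨M, hM⟩ : ∃ M, N = M * p := by
    obtain ⟨M, hM⟩ := hN.1
    exact ⟨M, by rw [hM, mul_comm]⟩
  subst hM
  have hM0 : M ≠ 0 := by
    rintro rfl
    exact (NeZero.ne (0 * p)) (zero_mul p)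
  haveI : NeZero M := ⟨hM0⟩
  have hpM : ¬ p ∣ M := by
    rintro ⟨M', rfl⟩
    exact hN.2 ⟨M', by ring⟩
  refine S33A_of_hJH hp hp2 hp𝒪 hN hNS H hres ?_
  intro P hP K Y hYU hY
  obtain ⟨a, b, ha, hb, τ₀, hτ₀, c, hc, hNew⟩ := hin M hpM P hP K
  exact S33GI_hJH hp2 hpM P hP K a b ha hb τ₀ hτ₀ c hc hNew Y hYU hY

end Fermat.Agent.S33
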