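import Fermat.Agent.S33.Degen
import Fermat.Agent.S33.GlueInst
import Fermat.Agent.S34.Asm5

/-!
# TRACK 11 (S33), package KUM-BRIDGE (helper1): the J-form (N) from the Kummer form NEW33-K

Level `M * p`, `p ∤ M`, `P` a place of `ℚ̄` over `p`, `I = I_P`, `V₁`, `V₂` the two Gauss valuations
(`S34DF_O1`, `S34DF_O2`), `F = modularFunctionFieldBar (M * p)`.

* `S33KB_N1 O a` : `a ≡ 1` at the valuation ring `O` (`O.valuation (a - 1) < 1`); products, inverses;
* `S33KB_root` : `r ^ (p ^ m) ≡ 1 ⇒ r ≡ 1` at a valuation ring of residue characteristic `p`;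
* `S33KB_NT M p hp hpM P hgen n W` : `W` is normalised of exponent `n`:
  `∃ c h, c ≠ 0 ∧ h ≠ 0 ∧ V₁(W c hⁿ − 1) < 1 ∧ V₂(W c hⁿ − 1) < 1`;
* `S33KB_aug_gen` : every `x ∈ U_J = ⟨σ y − y⟩` has a normalised Kummer generator of exponent `p^K`
  (RED1 = `S34M_red1`);
* `S33KB_normalised` : **(2)** every Kummer generator of exponent `p` of `x ∈ U_J`, `p x = 0`, is
  normalised of exponent `p`;
* `S33KB_NewK p M hp hpM` : **NEW33-K**, the Kummer form of (N);
* `S33KB_input` : `S33KB_NewK p M hp hpM → S33GI_Input p M`.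
-/

set_option autoImplicit false
set_option linter.style.haveILetI false
set_option linter.unusedSectionVars false
set_option linter.unusedVariables false
set_option synthInstance.maxHeartbeats 400000
set_option maxHeartbeats 1000000

open AlgebraicCurve ModularCurve IntermediateField

noncomputable section

namespace Fermat.Agent.S33

open Fermat.Agent.S17 Fermat.Agent.S18 Fermat.Agent.S19 Fermat.Agent.S24 Fermat.Agent.S34
  Fermat.Agent.S35 Fermat.Agent.S37 Fermat.Agent.GalRep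

/-! ### elements `≡ 1` at a valuation ring -/

section val

variable {F : Type*} [Field F] (O : ValuationSubring F)

/-- `a ≡ 1` at `O`. -/
def S33KB_N1 (a : F) : Prop := O.valuation (a - 1) < 1

theorem S33KB_N1_one : S33KB_N1 O (1 : F) := by
  unfold S33KB_N1
  rw [sub_self, map_zero]
  exact zero_lt_one

theorem S33KB_N1_val {a : F} (h : S33KB_N1 O a) : O.valuation a = 1 := by
  have h1 : O.valuation ((a - 1) + 1) = O.valuation (1 : F) :=
    Valuation.map_add_eq_of_lt_right (v := O.valuation) (x := a - 1) (y := 1)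
      (by rw [map_one]; exact h)
  rwa [sub_add_cancel, map_one] at h1

theorem S33KB_N1_ne_zero {a : F} (h : S33KB_N1 O a) : a ≠ 0 := by
  rintro rfl
  have := S33KB_N1_val O h
  rw [map_zero] at this
  exact zero_ne_one this

theorem S33KB_N1_mul {a b : F} (ha : S33KB_N1 O a) (hb : S33KB_N1 O b) : S33KB_N1 O (a * b) := by
  unfold S33KB_N1
  have e : a * b - 1 = (a - 1) * b + (b - 1) := by ring
  rw [e]
  refine Valuation.map_add_lt _ ?_ hb
  rw [map_mul, S33KB_N1_val O hb, mul_one]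
  exact ha

theorem S33KB_N1_inv {a : F} (ha : S33KB_N1 O a) : S33KB_N1 O a⁻¹ := by
  unfold S33KB_N1
  have ha0 := S33KB_N1_ne_zero O ha
  have e : a⁻¹ - 1 = -((a - 1) * a⁻¹) := by field_simp; ring
  rw [e, Valuation.map_neg, map_mul, map_inv₀, S33KB_N1_val O ha, inv_one, mul_one]
  exact ha

/-- **ROOT**: at a valuation ring of residue characteristic `p`, `r ^ (p ^ m) ≡ 1 ⇒ r ≡ 1`. -/
theorem S33KB_root (p : ℕ) (hp : p.Prime) (hO : O.LiesOverPrime p) (m : ℕ) (r : F)
    (h : S33KB_N1 O (r ^ (p ^ m))) : S33KB_N1 O r := by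
  haveI : Fact p.Prime := ⟨hp⟩
  haveI := S18_residue_charP O p hp hO
  have h1 := S33KB_N1_val O h
  rw [map_pow] at h1
  have hr1 : O.valuation r = 1 := by
    rcases lt_trichotomy (O.valuation r) 1 with hlt | heq | hgt
    · exfalso
      have : O.valuation r ^ (p ^ m) < 1 :=
        pow_lt_one₀ zero_le hlt (pow_ne_zero m hp.ne_zero)
      rw [h1] at this
      exact lt_irrefl _ this
    · exact heq
    · exfalso
      have : 1 < O.valuation r ^ (p ^ m) :=
        one_lt_pow₀ hgt (pow_ne_zero m hp.ne_zero)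
      rw [h1] at this
      exact lt_irrefl _ this
  have hrO : r ∈ O := (O.valuation_le_one_iff r).mp hr1.le
  let rO : O := ⟨r, hrO⟩
  have h2 : rO ^ (p ^ m) - 1 ∈ IsLocalRing.maximalIdeal O := by
    rw [O.valuation_lt_one_iff]
    exact h
  have h3 : (IsLocalRing.residue O rO - 1) ^ (p ^ m) = 0 := by
    rw [sub_pow_char_pow, one_pow, ← map_pow, ← map_one (IsLocalRing.residue O), ← map_sub]
    exact (IsLocalRing.residue_eq_zero_iff _).mpr h2
  have h4 : IsLocalRing.residue O (rO - 1) = 0 := by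
    rw [map_sub, map_one]
    exact pow_eq_zero_iff (pow_ne_zero m hp.ne_zero) |>.mp h3
  have h5 : rO - 1 ∈ IsLocalRing.maximalIdeal O := (IsLocalRing.residue_eq_zero_iff _).mp h4
  rw [O.valuation_lt_one_iff] at h5
  exact h5

end val

/-! ### constants of the maximal ideal -/

section const

variable {L F k Fk : Type*} [Field L] [Field F] [Algebra L F] [Field k] [Field Fk]
  [Algebra k Fk]

/-- a non-unit constant of `A` is a non-unit of `O`. -/
theorem S33KB_const_nonunit (T : S18_Val L F k Fk) (a : L) (ha : a ∈ T.A.nonunits) :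
    algebraMap L F a ∈ T.O.nonunits := by
  rw [ValuationSubring.mem_nonunits_iff] at ha ⊢
  have haA : a ∈ T.A := (T.A.valuation_le_one_iff a).mp ha.le
  have haO : algebraMap L F a ∈ T.O := (T.algebraMap_mem_iff a).mpr haA
  rcases lt_or_eq_of_le ((T.O.valuation_le_one_iff _).mpr haO) with h | h
  · exact h
  · exfalso
    have h1 : T.O.valuation (algebraMap L F a⁻¹) = 1 := by
      rw [map_inv₀, map_inv₀, h, inv_one]
    have h2 : a⁻¹ ∈ T.A :=
      (T.algebraMap_mem_iff a⁻¹).mp ((T.O.valuation_le_one_iff _).mp h1.le)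
    have h3 : T.A.valuation a⁻¹ ≤ 1 := (T.A.valuation_le_one_iff _).mpr h2
    rw [map_inv₀] at h3
    have h0 : T.A.valuation a ≠ 0 := by
      intro h0
      rw [map_eq_zero] at h0
      rw [h0, map_zero, map_zero] at h
      exact zero_ne_one h
    have h4 : (1 : T.A.ValueGroup) ≤ T.A.valuation a :=
      (inv_le_one₀ (zero_lt_iff.mpr h0)).mp h3
    exact absurd ha (not_lt.mpr h4)

theorem S33KB_liesOver (T : S18_Val L F k Fk) (p : ℕ) (hp : T.A.LiesOverPrime p) :
    T.O.LiesOverPrime p := by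
  have h := S33KB_const_nonunit T (p : L) hp
  rwa [map_natCast] at h

end const

/-! ### two more entries of the Kummer dictionary -/

section dict

variable {K F : Type*} [Field K] [Field F] [Algebra K F]

/-- a generator of exponent `n` gives the generator `u ^ c` of exponent `n * c` (same class). -/
theorem S33KB_isGen_exp {n : ℕ} {x : Pic0 K F} {u : F} (h : S33DG_IsGen n x u) (c : ℕ) :
    S33DG_IsGen (n * c) x (u ^ c) := by
  obtain ⟨D, rfl, hu, hD⟩ := h
  refine ⟨D, rfl, pow_ne_zero c hu, fun v => ?_⟩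
  rw [S17ST_ord_pow, ← hD v]
  push_cast
  ring

/-- `c · g ^ n` is a Kummer generator of exponent `n` of the zero class. -/
theorem S33KB_isGen_triv [HasPrincipalDivisors K F] (n : ℕ) (c : K) (g : F) (hc : c ≠ 0)
    (hg : g ≠ 0) : S33DG_IsGen n (0 : Pic0 K F) (algebraMap K F c * g ^ n) := by
  obtain ⟨D, hD, hdeg⟩ := HasPrincipalDivisors.exists_divisor (K := K) g hg
  have hc' : algebraMap K F c ≠ 0 := (map_ne_zero _).mpr hc
  refine ⟨⟨D, Divisor.mem_degZero.mpr hdeg⟩, S17ST_mk_eq_zero _ g hg hD,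
    mul_ne_zero hc' (pow_ne_zero n hg), fun v => ?_⟩
  rw [v.ord_mul hc' (pow_ne_zero n hg), S33DG_ord_algebraMap, zero_add, S17ST_ord_pow]
  exact congrArg (fun t => (n : ℤ) * t) (hD v)

end dict

/-! ### normalised Kummer generators at level `M * p` -/

section level

variable (M p : ℕ) [NeZero M] [NeZero p] [NeZero (M * p)] (hp : p.Prime) (hpM : ¬ p ∣ M)
  (P : ValuationSubring (AlgebraicClosure ℚ))
  (hgen : PrincipalGeneratedByIntegral P (IsLocalRing.residue P) (M * p))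

/-- `a ≡ 1` at `V₁` and at `V₂`. -/
def S33KB_N2 (a : ↥(modularFunctionFieldBar (M * p))) : Prop :=
  (S34DF_O1 M p P hgen).valuation (a - 1) < 1 ∧
    (S34DF_O2 M p hp hpM P hgen).valuation (a - 1) < 1

theorem S33KB_N2_one : S33KB_N2 M p hp hpM P hgen 1 :=
  ⟨S33KB_N1_one _, S33KB_N1_one _⟩

theorem S33KB_N2_mul {a b : ↥(modularFunctionFieldBar (M * p))}
    (ha : S33KB_N2 M p hp hpM P hgen a) (hb : S33KB_N2 M p hp hpM P hgen b) :
    S33KB_N2 M p hp hpM P hgen (a * b) :=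
  ⟨S33KB_N1_mul _ ha.1 hb.1, S33KB_N1_mul _ ha.2 hb.2⟩

theorem S33KB_N2_inv {a : ↥(modularFunctionFieldBar (M * p))}
    (ha : S33KB_N2 M p hp hpM P hgen a) : S33KB_N2 M p hp hpM P hgen a⁻¹ :=
  ⟨S33KB_N1_inv _ ha.1, S33KB_N1_inv _ ha.2⟩

/-- `V₁`, `V₂` have residue characteristic `p`. -/
theorem S33KB_O1_liesOver (hP : P.LiesOverPrime p) : (S34DF_O1 M p P hgen).LiesOverPrime p := by
  have h := S33KB_liesOver (S34M_T1 M p P hgen) p hP
  rwa [S34M_T1_O] at h

theorem S33KB_O2_liesOver (hP : P.LiesOverPrime p) :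
    (S34DF_O2 M p hp hpM P hgen).LiesOverPrime p := by
  have hA : (S34M_T2 M p hp hpM P hgen).A.LiesOverPrime p := by
    rw [← (S34M_same M p hp hpM P hgen).A_eq]
    exact hP
  have h := S33KB_liesOver (S34M_T2 M p hp hpM P hgen) p hA
  rwa [S34M_T2_O] at h

/-- **ROOT** at `V₁` and `V₂`. -/
theorem S33KB_N2_root (hP : P.LiesOverPrime p) (m : ℕ) (r : ↥(modularFunctionFieldBar (M * p)))
    (h : S33KB_N2 M p hp hpM P hgen (r ^ (p ^ m))) : S33KB_N2 M p hp hpM P hgen r :=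
  ⟨S33KB_root _ p hp (S33KB_O1_liesOver M p P hgen hP) m r h.1,
    S33KB_root _ p hp (S33KB_O2_liesOver M p hp hpM P hgen hP) m r h.2⟩

/-- `W` is normalised of exponent `n`, up to a trivial factor `c · hⁿ`. -/
def S33KB_NT (n : ℕ) (W : ↥(modularFunctionFieldBar (M * p))) : Prop :=
  ∃ (c : AlgebraicClosure ℚ) (h : ↥(modularFunctionFieldBar (M * p))), c ≠ 0 ∧ h ≠ 0 ∧
    S33KB_N2 M p hp hpM P hgen
      (W * algebraMap (AlgebraicClosure ℚ) ↥(modularFunctionFieldBar (M * p)) c * h ^ n)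

theorem S33KB_NT_one (n : ℕ) : S33KB_NT M p hp hpM P hgen n 1 :=
  ⟨1, 1, one_ne_zero, one_ne_zero, by
    rw [map_one, one_pow, one_mul, one_mul]
    exact S33KB_N2_one M p hp hpM P hgen⟩

theorem S33KB_NT_mul {n : ℕ} {W W' : ↥(modularFunctionFieldBar (M * p))}
    (h : S33KB_NT M p hp hpM P hgen n W) (h' : S33KB_NT M p hp hpM P hgen n W') :
    S33KB_NT M p hp hpM P hgen n (W * W') := by
  obtain ⟨c, g, hc, hg, hN⟩ := h
  obtain ⟨c', g', hc', hg', hN'⟩ := h'
  refine ⟨c * c', g * g', mul_ne_zero hc hc', mul_ne_zero hg hg', ?_⟩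
  have e : W * W' * algebraMap (AlgebraicClosure ℚ) ↥(modularFunctionFieldBar (M * p)) (c * c')
      * (g * g') ^ n =
      (W * algebraMap (AlgebraicClosure ℚ) ↥(modularFunctionFieldBar (M * p)) c * g ^ n) *
      (W' * algebraMap (AlgebraicClosure ℚ) ↥(modularFunctionFieldBar (M * p)) c' * g' ^ n) := by
    rw [map_mul, mul_pow]; ring
  rw [e]
  exact S33KB_N2_mul M p hp hpM P hgen hN hN'

theorem S33KB_NT_inv {n : ℕ} {W : ↥(modularFunctionFieldBar (M * p))}
    (h : S33KB_NT M p hp hpM P hgen n W) : S33KB_NT M p hp hpM P hgen n W⁻¹ := by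
  obtain ⟨c, g, hc, hg, hN⟩ := h
  refine ⟨c⁻¹, g⁻¹, inv_ne_zero hc, inv_ne_zero hg, ?_⟩
  have e : W⁻¹ * algebraMap (AlgebraicClosure ℚ) ↥(modularFunctionFieldBar (M * p)) c⁻¹
      * g⁻¹ ^ n =
      (W * algebraMap (AlgebraicClosure ℚ) ↥(modularFunctionFieldBar (M * p)) c * g ^ n)⁻¹ := by
    rw [map_inv₀, inv_pow, mul_inv, mul_inv]
  rw [e]
  exact S33KB_N2_inv M p hp hpM P hgen hN

/-- **RED1**: `τ u · u⁻¹` is normalised, `τ` in the inertia group. -/
theorem S33KB_NT_red1 (hP : P.LiesOverPrime p) (n : ℕ) (hn : 0 < n)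
    (τ : GQ) (hτ : τ ∈ P.inertiaSubgroupIn ℚ)
    (u : ↥(modularFunctionFieldBar (M * p))) (hu : u ≠ 0) :
    S33KB_NT M p hp hpM P hgen n (GR_gal (M * p) τ u * u⁻¹) :=
  S34M_red1 M p hp hpM (S34M_incomp M p hp hpM) n hn P hP hgen τ hτ u hu

/-- every `x ∈ U_J = ⟨σ y − y | σ ∈ I⟩` has a normalised Kummer generator of exponent `p ^ K`. -/
theorem S33KB_aug_gen (hP : P.LiesOverPrime p) (K : ℕ)
    (x : ↥(Submodule.torsionBy ℤ (JZero (M * p)) ((p : ℤ) ^ K)))
    (hx : x ∈ AddSubgroup.closure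
      {w | ∃ σ ∈ P.inertiaSubgroupIn ℚ, ∃ y, w = S19F_act (M * p) p K σ y - y}) :
    ∃ W : ↥(modularFunctionFieldBar (M * p)),
      S33DG_IsGen (p ^ K) (x : JZero (M * p)) W ∧ S33KB_NT M p hp hpM P hgen (p ^ K) W := by
  have hn : 0 < p ^ K := pos_of_ne_zero (pow_ne_zero K hp.ne_zero)
  induction hx using AddSubgroup.closure_induction with
  | mem w hw =>
    obtain ⟨σ, hσ, y, rfl⟩ := hw
    obtain ⟨v, hv⟩ := S33DG_isGen_exists (p ^ K) (y : JZero (M * p)) (S33DG_tors_nsmul p K y)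
    refine ⟨GR_gal (M * p) σ v * v⁻¹, ?_, S33KB_NT_red1 M p hp hpM P hgen hP (p ^ K) hn σ hσ v
      (S33DG_isGen_ne_zero hv)⟩
    have h1 := S33DG_isGen_mul (S33DG_isGen_gal (M * p) hv σ) (S33DG_isGen_inv hv)
    rw [← sub_eq_add_neg] at h1
    exact h1
  | zero => exact ⟨1, S33DG_isGen_one _, S33KB_NT_one M p hp hpM P hgen _⟩
  | add a b _ _ iha ihb =>
    obtain ⟨Wa, hWa, hNa⟩ := iha
    obtain ⟨Wb, hWb, hNb⟩ := ihb
    exact ⟨Wa * Wb, S33DG_isGen_mul hWa hWb, S33KB_NT_mul M p hp hpM P hgen hNa hNb⟩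
  | neg a _ iha =>
    obtain ⟨Wa, hWa, hNa⟩ := iha
    exact ⟨Wa⁻¹, S33DG_isGen_inv hWa, S33KB_NT_inv M p hp hpM P hgen hNa⟩

/-- **(2) of KUM-BRIDGE**: every Kummer generator of exponent `p` of a class `x ∈ U_J` is
normalised of exponent `p` (up to a trivial factor). -/
theorem S33KB_normalised (hP : P.LiesOverPrime p) (K : ℕ)
    (x : ↥(Submodule.torsionBy ℤ (JZero (M * p)) ((p : ℤ) ^ K)))
    (hx : x ∈ AddSubgroup.closure
      {w | ∃ σ ∈ P.inertiaSubgroupIn ℚ, ∃ y, w = S19F_act (M * p) p K σ y - y})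
    (u : ↥(modularFunctionFieldBar (M * p))) (hu : S33DG_IsGen p (x : JZero (M * p)) u) :
    S33KB_NT M p hp hpM P hgen p u := by
  obtain ⟨W, hW, c, h, hc, hh, hN⟩ := S33KB_aug_gen M p hp hpM P hgen hP K x hx
  cases K with
  | zero =>
    have hx0 : (x : JZero (M * p)) = 0 := by
      have h0 := S33DG_tors_nsmul p 0 x
      rw [pow_zero, one_smul] at h0
      exact h0
    rw [hx0] at hu
    obtain ⟨c', g, hc', hg, e⟩ := S33DG_isTriv_of_zero hu
    refine ⟨c'⁻¹, g⁻¹, inv_ne_zero hc', inv_ne_zero hg, ?_⟩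
    have hc'' : algebraMap (AlgebraicClosure ℚ) ↥(modularFunctionFieldBar (M * p)) c' ≠ 0 :=
      (map_ne_zero _).mpr hc'
    have e1 : u * algebraMap (AlgebraicClosure ℚ) ↥(modularFunctionFieldBar (M * p)) c'⁻¹
        * g⁻¹ ^ p = 1 := by
      rw [e, map_inv₀, inv_pow]
      have hgp : g ^ p ≠ 0 := pow_ne_zero p hg
      field_simp
    rw [e1]
    exact S33KB_N2_one M p hp hpM P hgen
  | succ m =>
    have hW0 : W ≠ 0 := S33DG_isGen_ne_zero hW
    have h1 : S33DG_IsGen (p ^ (m + 1)) (x : JZero (M * p)) (u ^ (p ^ m)) := by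
      have := S33KB_isGen_exp hu (p ^ m)
      rwa [← pow_succ'] at this
    have h2 := S33DG_isGen_mul h1 (S33DG_isGen_inv hW)
    rw [add_neg_cancel] at h2
    obtain ⟨c', g, hc', hg, e⟩ := S33DG_isTriv_of_zero h2
    have hpm : 0 < p ^ m := pos_of_ne_zero (pow_ne_zero m hp.ne_zero)
    obtain ⟨c₁, hc₁⟩ := IsAlgClosed.exists_pow_nat_eq (c / c') hpm
    have hc₁0 : c₁ ≠ 0 := by
      rintro rfl
      rw [zero_pow hpm.ne'] at hc₁
      exact (div_ne_zero hc hc') hc₁.symm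
    refine ⟨c₁, h / g, hc₁0, div_ne_zero hh hg, ?_⟩
    apply S33KB_N2_root M p hp hpM P hgen hP m
    have hc'' : algebraMap (AlgebraicClosure ℚ) ↥(modularFunctionFieldBar (M * p)) c' ≠ 0 :=
      (map_ne_zero _).mpr hc'
    have hgn : g ^ (p ^ (m + 1)) ≠ 0 := pow_ne_zero _ hg
    have e2 : u ^ (p ^ m) = W *
        (algebraMap (AlgebraicClosure ℚ) ↥(modularFunctionFieldBar (M * p)) c' *
          g ^ (p ^ (m + 1))) := by
      rw [← e]
      field_simp
    have e3 : (u * algebraMap (AlgebraicClosure ℚ) ↥(modularFunctionFieldBar (M * p)) c₁ *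
        (h / g) ^ p) ^ (p ^ m) =
        W * algebraMap (AlgebraicClosure ℚ) ↥(modularFunctionFieldBar (M * p)) c *
          h ^ (p ^ (m + 1)) := by
      rw [mul_pow, mul_pow, e2, ← map_pow, hc₁, ← pow_mul, ← pow_succ', map_div₀, div_pow]
      field_simp
    rw [e3]
    exact hN

end level

/-! ### NEW33-K and the bridge -/

section bridge

variable (M p : ℕ) [NeZero M] [NeZero p] [NeZero (M * p)] (hp : p.Prime) (hpM : ¬ p ∣ M)

/-- **NEW33-K**: the Kummer form of (N).  For every place `P` over `p` there are `τ₀ ∈ I_P` and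
`c` with `p ∤ c − 1` such that for every Kummer generator `u` of exponent `p`, normalised at `V₁`
and `V₂`, with trivial norms `N_α u`, `N_β u`:  `τ₀ u · (u ^ c)⁻¹` is trivial. -/
def S33KB_NewK : Prop :=
  ∀ (P : ValuationSubring (AlgebraicClosure ℚ)), P.LiesOverPrime p →
    ∃ τ₀ ∈ P.inertiaSubgroupIn ℚ, ∃ c : ℕ, ¬ (p : ℤ) ∣ (c : ℤ) - 1 ∧
      ∀ (hgen : PrincipalGeneratedByIntegral P (IsLocalRing.residue P) (M * p))
        (u : ↥(modularFunctionFieldBar (M * p))),
        KM_IsKum (AlgebraicClosure ℚ) ↥(modularFunctionFieldBar (M * p)) p u →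
        (S34DF_O1 M p P hgen).valuation (u - 1) < 1 →
        (S34DF_O2 M p hp hpM P hgen).valuation (u - 1) < 1 →
        GR_IsTriv M p (S35B_NA M p u) → GR_IsTriv M p (S35B_NB M p u) →
        GR_IsTriv (M * p) p (GR_gal (M * p) τ₀ u * (u ^ c)⁻¹)

/-- **KUM-BRIDGE**: the input of `S33GI_main` from NEW33-K (with DEGEN33 = `S33DG_a`, `S33DG_b`). -/
theorem S33KB_input (h : S33KB_NewK M p hp hpM) : S33GI_Input p M := by
  intro P hP K
  obtain ⟨τ₀, hτ₀, c, hc, hK⟩ := h P hP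
  refine ⟨S33DG_a M p K, S33DG_b M p K, fun σ _ x => S33DG_a_act M p K σ x,
    fun σ _ x => S33DG_b_act M p K σ x, τ₀, hτ₀, c, hc, ?_⟩
  intro x hpx hxU hax hbx
  have hgen := S34VH_hgen M p hp hpM P hP
  obtain ⟨u, hu, -⟩ := S33DG_gen_exists (M * p) p K p x hpx
  obtain ⟨c', g, hc', hg, hN⟩ := S33KB_normalised M p hp hpM P hgen hP K x hxU u hu
  haveI := S18_hPD (M * p)
  have hu' : S33DG_IsGen p (x : JZero (M * p))
      (u * algebraMap (AlgebraicClosure ℚ) ↥(modularFunctionFieldBar (M * p)) c' * g ^ p) := by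
    have := S33DG_isGen_mul hu (S33KB_isGen_triv (K := AlgebraicClosure ℚ) p c' g hc' hg)
    rwa [add_zero, ← mul_assoc] at this
  exact S33DG_act_eq_of_isTriv (M * p) p K hp.pos x hu' τ₀ c
    (hK hgen _ (S33DG_isKum hu') hN.1 hN.2 (S33DG_a_kum M p K x hu' hax)
      (S33DG_b_kum M p K x hu' hbx))

end bridge

end Fermat.Agent.S33
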