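import Fermat.Agent.S33.KumBridge

/-!
# TRACK 11 (S33), KUM-BRIDGE, final form (helper1): frozen S33 from NEW33-K

`S33KB_final` : the statement of S33 verbatim from `S33KB_NewK M p hp hpM` for every `M` prime to `p`
(`S33GI_main` ∘ `S33KB_input`).  So `Fermat/Agent/S33.lean` is
`S33KB_final hp hp2 hp𝒪 hN hNS H hres (fun M _ _ hpM => <NEW33-K>)`.
-/

set_option autoImplicit false
set_option linter.unusedSectionVars false
set_option linter.unusedVariables false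
set_option linter.style.haveILetI false

open ModularCurve IsLocalRing

namespace Fermat.Agent.S33

variable {p : ℕ} {N : ℕ} [NeZero N] {S : Finset ℕ}
  {𝒪 : Type} [CommRing 𝒪] [IsDomain 𝒪] [IsDiscreteValuationRing 𝒪]
  [IsAdicComplete (IsLocalRing.maximalIdeal 𝒪) 𝒪]
  {θ : CuspForm.heckeAlgebra N 2 (↑S : Set ℕ) →+* IsLocalRing.ResidueField 𝒪}
  {T : Type} [CommRing T] [IsLocalRing T] [IsNoetherianRing T]
  [IsAdicComplete (IsLocalRing.maximalIdeal T) T] [Algebra 𝒪 T] [IsLocalHom (algebraMap 𝒪 T)]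
  [Module.Finite 𝒪 T] [Module.Free 𝒪 T]

/-- **frozen S33 from NEW33-K**. -/
theorem S33KB_final [Finite (IsLocalRing.ResidueField 𝒪)] [CharZero 𝒪]
    (hp : p.Prime) (hp2 : p ≠ 2) (hp𝒪 : (p : 𝒪) ∈ IsLocalRing.maximalIdeal 𝒪)
    (hN : p ∣ N ∧ ¬ p ^ 2 ∣ N)
    (hNS : ∀ q : ℕ, q.Prime → q ∣ N → q ∈ S)
    (H : CuspForm.HeckeGaloisRepDatum N (↑S : Set ℕ) 𝒪 θ T)
    (hres : (GaloisRepAdic.ofResidualGaloisRep H.ρ.residual).IsOrdinaryAt p)
    (hK : ∀ (M : ℕ) [NeZero M] [NeZero p] [NeZero (M * p)] (hpM : ¬ p ∣ M),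
      S33KB_NewK M p hp hpM) :
    H.ρ.IsOrdinaryAt p := by
  haveI : NeZero p := ⟨hp.ne_zero⟩
  exact S33GI_main hp hp2 hp𝒪 hN hNS H hres
    (fun M _ _ hpM => S33KB_input M p hp hpM (hK M hpM))

end Fermat.Agent.S33
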