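import Mathlib

/-!
# TRACK 11 (S33), package T10 NEW-DEPTH (helper16): step (N1) of the design note, abstract form

Pure algebra over Mathlib.  `F` is a field (the function field of `X₀(pM)` over a finite
extension `L''` of `L(ζ_p)`), `π ∈ F` a uniformiser of the base, `p` an odd prime with
`p ∈ π^((p-1)e₀)·O` (so `λ^p ∼ π^(p e₀)` for `λ = 1 - ζ_p`), `u : F` a Kummer generator
(`div u = p·D`), `Λ` the integral functions on a chart, `M` the integral sections of `O(D)`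
(`{f | f^p u ∈ Λ}`), `O i` the (discrete) valuation rings of the components of the special fibre.

* `S33N1_local_ring` / `S33N1_local` : THE LOCAL LEMMA.  In a discrete valuation ring with
  uniformiser `π`: if `v = 1 + π^m w`, `w` a unit, `0 < m < p e₀` and `v·y^p ≡ 1 mod π^(m+1)`,
  then `p ∣ m` and `w ≡ z^p mod π`.
* `S33N1_depth` : THE INDUCTION.  From a trivialisation modulo `π` to one modulo `π^(p e₀)`
  (`= λ^p` up to a unit), one Frobenius descent at a time.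
* `S33N1_step` : the step hypothesis of `S33N1_depth` from (N0) (`u` is locally a `p`-th power
  to any precision at every component), saturation of `Λ` and Frobenius-closedness of
  `W = Λ/πΛ` in `∏ κ_i`.
* `S33N1_base` : the base case (trivialisation modulo `π`) from a unit trivialisation.
* `S33N1_main` : (N1) = all of the above.
* `S33N1_frob_closed` : Frobenius-closedness of a fibre product `W ⊂ R₁ × R₂` over a reduced
  ring when `R₁`, `R₂` are closed under `p`-th roots.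
-/

set_option autoImplicit false

namespace Fermat.Agent.S33

section LocalRing

variable {R : Type*} [CommRing R] [IsDomain R]

omit [IsDomain R] in
/-- in a local domain with maximal ideal `(π)`, `(π)` is radical. -/
theorem S33N1_rad (π : R) (hπu : ¬ IsUnit π) (hloc : ∀ x : R, π ∣ x ∨ IsUnit x) (n : ℕ) (z : R)
    (h : π ∣ z ^ n) : π ∣ z := by
  rcases hloc z with h1 | h1
  · exact h1
  · exact absurd (isUnit_of_dvd_unit h (h1.pow n)) hπu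

omit [IsDomain R] in
/-- `(1 + Y)^p = 1 + Y^p + p·Y·r`. -/
theorem S33N1_binom {p : ℕ} (hp : p.Prime) (Y : R) :
    ∃ r : R, (1 + Y) ^ p = 1 + Y ^ p + (p : R) * Y * r := by
  obtain ⟨r, hr⟩ := exists_add_pow_prime_eq hp (1 : R) Y
  exact ⟨r, by rw [hr]; ring⟩

omit [IsDomain R] in
/-- expansion below the critical depth: `(1 + π^s z)^p = 1 + π^(ps) z^p + π^(ps+1) c`. -/
theorem S33N1_expand_lt {p : ℕ} (hp : p.Prime) (π : R) (e₀ : ℕ) (a : R)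
    (hpπ : (p : R) = π ^ ((p - 1) * e₀) * a) (s : ℕ) (hs : s < e₀) (z : R) :
    ∃ c : R, (1 + π ^ s * z) ^ p = 1 + π ^ (p * s) * z ^ p + π ^ (p * s + 1) * c := by
  obtain ⟨r, hr⟩ := S33N1_binom hp (π ^ s * z)
  obtain ⟨d, hd⟩ : ∃ d, e₀ = s + 1 + d := ⟨e₀ - s - 1, by omega⟩
  obtain ⟨p', hp'⟩ : ∃ p', p = p' + 2 := ⟨p - 2, by have := hp.two_le; omega⟩
  have hexp : (p - 1) * e₀ + s = p * s + 1 + (p' + (p - 1) * d) := by
    subst hd hp'
    have : p' + 2 - 1 = p' + 1 := by omega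
    rw [this]; ring
  refine ⟨π ^ (p' + (p - 1) * d) * a * z * r, ?_⟩
  rw [hr, hpπ]
  have h1 : π ^ ((p - 1) * e₀) * a * (π ^ s * z) * r =
      π ^ ((p - 1) * e₀ + s) * (a * z * r) := by rw [pow_add]; ring
  rw [h1, hexp, mul_pow, ← pow_mul, mul_comm s p]
  rw [pow_add (π) (p * s + 1)]
  ring

omit [IsDomain R] in
/-- expansion up to the critical depth: `(1 + π^s z)^p = 1 + π^(ps) c`. -/
theorem S33N1_expand_le {p : ℕ} (hp : p.Prime) (π : R) (e₀ : ℕ) (a : R)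
    (hpπ : (p : R) = π ^ ((p - 1) * e₀) * a) (s : ℕ) (hs : s ≤ e₀) (z : R) :
    ∃ c : R, (1 + π ^ s * z) ^ p = 1 + π ^ (p * s) * c := by
  obtain ⟨r, hr⟩ := S33N1_binom hp (π ^ s * z)
  obtain ⟨d, hd⟩ : ∃ d, e₀ = s + d := ⟨e₀ - s, by omega⟩
  obtain ⟨p', hp'⟩ : ∃ p', p = p' + 1 := ⟨p - 1, by have := hp.two_le; omega⟩
  have hexp : (p - 1) * e₀ + s = p * s + (p - 1) * d := by
    subst hd hp'
    have : p' + 1 - 1 = p' := by omega
    rw [this]; ring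
  refine ⟨z ^ p + π ^ ((p - 1) * d) * a * z * r, ?_⟩
  rw [hr, hpπ]
  have h1 : π ^ ((p - 1) * e₀) * a * (π ^ s * z) * r =
      π ^ ((p - 1) * e₀ + s) * (a * z * r) := by rw [pow_add]; ring
  rw [h1, hexp, mul_pow, ← pow_mul, mul_comm s p]
  rw [pow_add (π) (p * s)]
  ring

/-- climbing: `y ≡ 1 mod π^s` as long as `p (s - 1) < m`. -/
theorem S33N1_climb {p : ℕ} (hp : p.Prime) (π : R) (hπ0 : π ≠ 0) (hπu : ¬ IsUnit π)
    (hloc : ∀ x : R, π ∣ x ∨ IsUnit x) (e₀ : ℕ) (a : R)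
    (hpπ : (p : R) = π ^ ((p - 1) * e₀) * a) (m : ℕ) (hm' : m < p * e₀) (w y t : R)
    (hy : (1 + π ^ m * w) * y ^ p - 1 = π ^ (m + 1) * t) :
    ∀ s : ℕ, p * s < m + p → ∃ z : R, y = 1 + π ^ s * z := by
  intro s
  induction s with
  | zero => intro _; exact ⟨y - 1, by ring⟩
  | succ s ih =>
    intro hs
    have hps : p * s < m := by
      have : p * (s + 1) = p * s + p := by ring
      omega
    obtain ⟨z, hz⟩ := ih (by omega)
    have hse : s < e₀ := by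
      by_contra hcon
      have : p * e₀ ≤ p * s := Nat.mul_le_mul_left p (by omega)
      omega
    obtain ⟨c, hc⟩ := S33N1_expand_lt hp π e₀ a hpπ s hse z
    obtain ⟨k, hk⟩ : ∃ k, m = p * s + 1 + k := ⟨m - p * s - 1, by omega⟩
    rw [← hz] at hc
    have key : π ^ (p * s) * z ^ p =
        π ^ (p * s) * (π * (π ^ (k + 1) * t - π ^ k * w * y ^ p - c)) := by
      subst hk
      linear_combination hy - hc
    have hdiv : π ∣ z ^ p := ⟨_, mul_left_cancel₀ (pow_ne_zero _ hπ0) key⟩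
    obtain ⟨z', hz'⟩ := S33N1_rad π hπu hloc p z hdiv
    exact ⟨z', by rw [hz, hz']; ring⟩

/-- **THE LOCAL LEMMA** (ring form).  `R` a local domain with maximal ideal `(π)`,
`p ∈ π^((p-1)e₀) R`, `0 < m < p e₀`, `w` a unit, `(1 + π^m w)·y^p ≡ 1 mod π^(m+1)`.  Then
`p ∣ m` and `w` is a `p`-th power modulo `π`. -/
theorem S33N1_local_ring {p : ℕ} (hp : p.Prime) (hp2 : p ≠ 2) (π : R) (hπ0 : π ≠ 0)
    (hπu : ¬ IsUnit π) (hloc : ∀ x : R, π ∣ x ∨ IsUnit x) (e₀ : ℕ)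
    (hpπ : π ^ ((p - 1) * e₀) ∣ (p : R)) (m : ℕ) (hm : 0 < m) (hm' : m < p * e₀) (w y : R)
    (hw : ¬ π ∣ w) (hy : π ^ (m + 1) ∣ (1 + π ^ m * w) * y ^ p - 1) :
    ∃ s : ℕ, m = p * s ∧ ∃ z : R, π ∣ w - z ^ p := by
  obtain ⟨a, ha⟩ := hpπ
  obtain ⟨t, ht⟩ := hy
  have hp0 : 0 < p := hp.pos
  -- the least `s₀` with `m ≤ p s₀`
  have hex : ∃ s, m ≤ p * s := ⟨m, Nat.le_mul_of_pos_left m hp0⟩
  classical
  set s₀ := Nat.find hex with hs₀
  have h1 : m ≤ p * s₀ := Nat.find_spec hex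
  have hs₀pos : 0 < s₀ := by
    rcases Nat.eq_zero_or_pos s₀ with h | h
    · rw [h] at h1; omega
    · exact h
  have h2 : p * (s₀ - 1) < m := by
    have := Nat.find_min hex (m := s₀ - 1) (by omega)
    omega
  have h3 : p * s₀ < m + p := by
    have : p * s₀ = p * (s₀ - 1) + p := by
      obtain ⟨j, hj⟩ : ∃ j, s₀ = j + 1 := ⟨s₀ - 1, by omega⟩
      rw [hj]; simp; ring
    omega
  have hse : s₀ ≤ e₀ := by
    by_contra hcon
    have : p * e₀ ≤ p * (s₀ - 1) := Nat.mul_le_mul_left p (by omega)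
    omega
  obtain ⟨z, hz⟩ := S33N1_climb hp π hπ0 hπu hloc e₀ a ha m hm' w y t ht s₀ h3
  rcases Nat.lt_or_ge m (p * s₀) with hlt | hge
  · -- `p s₀ > m`: then `π ∣ w`, contradiction
    exfalso
    obtain ⟨c, hc⟩ := S33N1_expand_le hp π e₀ a ha s₀ hse z
    rw [← hz] at hc
    obtain ⟨k, hk⟩ : ∃ k, p * s₀ = m + 1 + k := ⟨p * s₀ - m - 1, by omega⟩
    rw [hk] at hc
    apply hw
    have key : π ^ m * w = π ^ m * (π * (t - π ^ k * c - π ^ m * w * π ^ k * c)) := by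
      linear_combination ht - (1 + π ^ m * w) * hc
    exact ⟨_, mul_left_cancel₀ (pow_ne_zero _ hπ0) key⟩
  · -- `p s₀ = m`
    have hm_eq : m = p * s₀ := le_antisymm h1 hge
    have hse' : s₀ < e₀ := by
      by_contra hcon
      have : p * e₀ ≤ p * s₀ := Nat.mul_le_mul_left p (by omega)
      omega
    obtain ⟨c, hc⟩ := S33N1_expand_lt hp π e₀ a ha s₀ hse' z
    rw [← hz, ← hm_eq] at hc
    refine ⟨s₀, hm_eq, -z, ?_⟩
    have hodd : Odd p := hp.odd_of_ne_two hp2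
    rw [hodd.neg_pow, sub_neg_eq_add]
    obtain ⟨j, hj⟩ : ∃ j, m = j + 1 := ⟨m - 1, by omega⟩
    have key : π ^ m * (w + z ^ p) =
        π ^ m * (π * (t - c - π ^ j * w * z ^ p - π ^ m * w * c)) := by
      have e1 : π ^ m * π ^ m = π ^ m * (π * π ^ j) := by
        congr 1; rw [hj, pow_succ]; ring
      linear_combination ht - (1 + π ^ m * w) * hc - w * z ^ p * e1
    exact ⟨_, mul_left_cancel₀ (pow_ne_zero _ hπ0) key⟩

/-- a `p`-th root of `1` modulo `π^(p e₀)` (`= λ^p`) is `1` modulo `π^e₀` (`= λ`). -/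
theorem S33N1_root_ring {p : ℕ} (hp : p.Prime) (π : R) (hπ0 : π ≠ 0) (hπu : ¬ IsUnit π)
    (hloc : ∀ x : R, π ∣ x ∨ IsUnit x) (e₀ : ℕ) (he₀ : 0 < e₀)
    (hpπ : π ^ ((p - 1) * e₀) ∣ (p : R)) (y : R) (hy : π ^ (p * e₀) ∣ y ^ p - 1) :
    π ^ e₀ ∣ y - 1 := by
  obtain ⟨a, ha⟩ := hpπ
  obtain ⟨t, ht⟩ := hy
  have hp2 := hp.two_le
  have hpos : 0 < p * e₀ := Nat.mul_pos hp.pos he₀
  obtain ⟨m, hm⟩ : ∃ m, p * e₀ = m + 1 := ⟨p * e₀ - 1, by omega⟩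
  have h := S33N1_climb hp π hπ0 hπu hloc e₀ a ha m (by omega) 0 y t
    (by rw [mul_zero, add_zero, one_mul, ← hm]; exact ht) e₀ (by omega)
  obtain ⟨z, hz⟩ := h
  exact ⟨z, by rw [hz]; ring⟩

end LocalRing

section Field

variable {F : Type*} [Field F]

/-- `x ∈ π^n·O`. -/
def S33N1_Div (O : Subring F) (π : F) (n : ℕ) (x : F) : Prop := ∃ t ∈ O, x = π ^ n * t

theorem S33N1_Div_mono (O : Subring F) (π : F) (hπ : π ∈ O) {n n' : ℕ} (h : n ≤ n') {x : F}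
    (hx : S33N1_Div O π n' x) : S33N1_Div O π n x := by
  obtain ⟨t, ht, rfl⟩ := hx
  obtain ⟨d, rfl⟩ := Nat.exists_eq_add_of_le h
  exact ⟨π ^ d * t, O.mul_mem (O.pow_mem hπ d) ht, by rw [pow_add]; ring⟩

theorem S33N1_Div_le {O O' : Subring F} (h : O ≤ O') (π : F) {n : ℕ} {x : F}
    (hx : S33N1_Div O π n x) : S33N1_Div O' π n x := by
  obtain ⟨t, ht, rfl⟩ := hx
  exact ⟨t, h ht, rfl⟩

/-- the hypotheses "`O` is a discrete valuation ring of `F` with uniformiser `π`" in the form used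
here: `O` is a valuation ring of `F` and every non-unit of `O` is divisible by `π`. -/
structure S33N1_IsDV (O : Subring F) (π : F) : Prop where
  π_mem : π ∈ O
  π_ne : π ≠ 0
  π_inv : π⁻¹ ∉ O
  val : ∀ x : F, x ∈ O ∨ x⁻¹ ∈ O
  loc : ∀ x ∈ O, (∃ t ∈ O, x = π * t) ∨ x⁻¹ ∈ O

namespace S33N1_IsDV

variable {O : Subring F} {π : F} (h : S33N1_IsDV O π)
include h

theorem one_not_div : ¬ ∃ t ∈ O, (1 : F) = π * t := by
  rintro ⟨t, ht, h1⟩
  apply h.π_inv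
  have : π⁻¹ = t := inv_eq_of_mul_eq_one_right h1.symm
  rw [this]; exact ht

/-- the uniformiser as an element of `O`. -/
def pi : O := ⟨π, h.π_mem⟩

theorem pi_ne : h.pi ≠ 0 := fun h0 => h.π_ne (congrArg Subtype.val h0)

theorem pi_not_unit : ¬ IsUnit h.pi := by
  rintro ⟨u, hu⟩
  apply h.π_inv
  have h1 : (u : O) * ((u⁻¹ : Oˣ) : O) = 1 := u.mul_inv
  have h2 : π * (((u⁻¹ : Oˣ) : O) : F) = 1 := by
    have := congrArg Subtype.val h1
    rw [hu] at this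
    simpa [pi] using this
  have h3 : π⁻¹ = (((u⁻¹ : Oˣ) : O) : F) := inv_eq_of_mul_eq_one_right h2
  rw [h3]; exact Subtype.mem _

theorem dvd_or_unit (x : O) : h.pi ∣ x ∨ IsUnit x := by
  rcases h.loc x x.2 with ⟨t, ht, hxt⟩ | hx
  · left; exact ⟨⟨t, ht⟩, Subtype.ext (by simpa [pi] using hxt)⟩
  · by_cases hx0 : (x : F) = 0
    · left; exact ⟨0, Subtype.ext (by simpa using hx0)⟩
    · right
      refine ⟨⟨x, ⟨(x : F)⁻¹, hx⟩, Subtype.ext ?_, Subtype.ext ?_⟩, rfl⟩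
      · simp [mul_inv_cancel₀ hx0]
      · simp [inv_mul_cancel₀ hx0]

theorem dvd_iff (n : ℕ) (x : O) : h.pi ^ n ∣ x ↔ S33N1_Div O π n (x : F) := by
  constructor
  · rintro ⟨t, rfl⟩
    exact ⟨t, t.2, by simp [pi]⟩
  · rintro ⟨t, ht, hx⟩
    exact ⟨⟨t, ht⟩, Subtype.ext (by simpa [pi] using hx)⟩

/-- `O` is integrally closed for `p`-th roots: `y^n ∈ O ⇒ y ∈ O` (`n ≥ 1`). -/
theorem mem_of_pow_mem {n : ℕ} (hn : 0 < n) {y : F} (hy : y ^ n ∈ O) : y ∈ O := by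
  rcases h.val y with h1 | h1
  · exact h1
  · by_cases hy0 : y = 0
    · rw [hy0]; exact O.zero_mem
    · -- `y⁻¹ ∈ O`; then `y = y^n · (y⁻¹)^(n-1)`
      obtain ⟨j, rfl⟩ : ∃ j, n = j + 1 := ⟨n - 1, by omega⟩
      have : y = y ^ (j + 1) * (y⁻¹) ^ j := by
        rw [pow_succ, inv_pow]
        field_simp
      rw [this]
      exact O.mul_mem hy (O.pow_mem h1 j)

/-- `1 + π t` is a unit of `O`. -/
theorem one_add_inv_mem {t : F} (ht : t ∈ O) : (1 + π * t)⁻¹ ∈ O := by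
  have hmem : 1 + π * t ∈ O := O.add_mem O.one_mem (O.mul_mem h.π_mem ht)
  rcases h.loc _ hmem with ⟨s, hs, hst⟩ | h1
  · exfalso
    apply h.one_not_div
    exact ⟨s - t, O.sub_mem hs ht, by linear_combination hst⟩
  · exact h1

end S33N1_IsDV

/-- **THE LOCAL LEMMA** (field form).  `O ⊂ F` a discrete valuation ring with uniformiser `π`,
`p ∈ π^((p-1)e₀)·O`, `0 < m < p e₀`, `v = 1 + π^m w` with `w ∈ O ∖ πO`, `y ∈ F` with
`v·y^p ≡ 1 mod π^(m+1)`.  Then `p ∣ m` and `w ≡ z^p mod π` for some `z ∈ O`. -/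
theorem S33N1_local {p : ℕ} (hp : p.Prime) (hp2 : p ≠ 2) (O : Subring F) (π : F)
    (hO : S33N1_IsDV O π) (e₀ : ℕ) (hpπ : S33N1_Div O π ((p - 1) * e₀) (p : F))
    (m : ℕ) (hm : 0 < m) (hm' : m < p * e₀) (w y : F) (hw : w ∈ O)
    (hwu : ¬ S33N1_Div O π 1 w)
    (hy : S33N1_Div O π (m + 1) ((1 + π ^ m * w) * y ^ p - 1)) :
    ∃ s : ℕ, m = p * s ∧ ∃ z ∈ O, S33N1_Div O π 1 (w - z ^ p) := by
  obtain ⟨t₀, ht₀, hyt⟩ := hy
  -- `y ∈ O`
  have hv : 1 + π ^ m * w ∈ O := O.add_mem O.one_mem (O.mul_mem (O.pow_mem hO.π_mem m) hw)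
  have hvinv : (1 + π ^ m * w)⁻¹ ∈ O := by
    obtain ⟨j, rfl⟩ : ∃ j, m = j + 1 := ⟨m - 1, by omega⟩
    have := hO.one_add_inv_mem (t := π ^ j * w) (O.mul_mem (O.pow_mem hO.π_mem j) hw)
    have e : 1 + π * (π ^ j * w) = 1 + π ^ (j + 1) * w := by rw [pow_succ]; ring
    rwa [e] at this
  have hv0 : 1 + π ^ m * w ≠ 0 := by
    intro h0
    apply hO.one_not_div
    obtain ⟨j, rfl⟩ : ∃ j, m = j + 1 := ⟨m - 1, by omega⟩
    exact ⟨-(π ^ j * w), O.neg_mem (O.mul_mem (O.pow_mem hO.π_mem j) hw), by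
      rw [pow_succ] at h0; linear_combination h0⟩
  have hyp : y ^ p ∈ O := by
    have e : y ^ p = (1 + π ^ m * w)⁻¹ * (1 + π ^ (m + 1) * t₀) := by
      rw [eq_inv_mul_iff_mul_eq₀ hv0]; linear_combination hyt
    rw [e]
    exact O.mul_mem hvinv (O.add_mem O.one_mem (O.mul_mem (O.pow_mem hO.π_mem _) ht₀))
  have hyO : y ∈ O := hO.mem_of_pow_mem hp.pos hyp
  -- transfer to the ring `O`
  have hπR : hO.pi ^ ((p - 1) * e₀) ∣ ((p : ℕ) : O) := by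
    rw [hO.dvd_iff]; simpa using hpπ
  have hwR : ¬ hO.pi ∣ (⟨w, hw⟩ : O) := by
    intro hdiv
    apply hwu
    have := (hO.dvd_iff 1 ⟨w, hw⟩).1 (by simpa using hdiv)
    simpa using this
  have hyR : hO.pi ^ (m + 1) ∣ (1 + hO.pi ^ m * (⟨w, hw⟩ : O)) * (⟨y, hyO⟩ : O) ^ p - 1 := by
    rw [hO.dvd_iff]
    exact ⟨t₀, ht₀, by simpa [S33N1_IsDV.pi] using hyt⟩
  obtain ⟨s, hs, z, hz⟩ := S33N1_local_ring hp hp2 hO.pi hO.pi_ne hO.pi_not_unit hO.dvd_or_unit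
    e₀ hπR m hm hm' ⟨w, hw⟩ ⟨y, hyO⟩ hwR hyR
  refine ⟨s, hs, z, z.2, ?_⟩
  have := (hO.dvd_iff 1 (⟨w, hw⟩ - z ^ p)).1 (by simpa using hz)
  simpa using this

/-- a `p`-th root of `1` modulo `π^(p e₀)` is `1` modulo `π^e₀` (field form). -/
theorem S33N1_root {p : ℕ} (hp : p.Prime) (O : Subring F) (π : F)
    (hO : S33N1_IsDV O π) (e₀ : ℕ) (he₀ : 0 < e₀) (hpπ : S33N1_Div O π ((p - 1) * e₀) (p : F))
    (y : F) (hy : S33N1_Div O π (p * e₀) (y ^ p - 1)) :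
    S33N1_Div O π e₀ (y - 1) := by
  obtain ⟨t₀, ht₀, hyt⟩ := hy
  have hyp : y ^ p ∈ O := by
    have e : y ^ p = 1 + π ^ (p * e₀) * t₀ := by linear_combination hyt
    rw [e]
    exact O.add_mem O.one_mem (O.mul_mem (O.pow_mem hO.π_mem _) ht₀)
  have hyO : y ∈ O := hO.mem_of_pow_mem hp.pos hyp
  have hπR : hO.pi ^ ((p - 1) * e₀) ∣ ((p : ℕ) : O) := by
    rw [hO.dvd_iff]; simpa using hpπ
  have hyR : hO.pi ^ (p * e₀) ∣ (⟨y, hyO⟩ : O) ^ p - 1 := by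
    rw [hO.dvd_iff]
    exact ⟨t₀, ht₀, by simpa [S33N1_IsDV.pi] using hyt⟩
  have := S33N1_root_ring hp hO.pi hO.pi_ne hO.pi_not_unit hO.dvd_or_unit e₀ he₀ hπR
    ⟨y, hyO⟩ hyR
  have := (hO.dvd_iff e₀ (⟨y, hyO⟩ - 1)).1 this
  simpa using this

/-- **one Frobenius descent**: a trivialisation of depth `m = p·s < p e₀` whose leading term is a
`p`-th power modulo `π` improves to depth `m + 1`. -/
theorem S33N1_improve {p : ℕ} (hp : p.Prime) (hp2 : p ≠ 2) (Λ : Subring F) (π : F) (hπ : π ∈ Λ)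
    (e₀ : ℕ) (hpπ : S33N1_Div Λ π ((p - 1) * e₀) (p : F)) (u : F) (s : ℕ) (hs0 : 0 < s)
    (hs : s < e₀) (φ w g : F) (hw : w ∈ Λ) (hg : g ∈ Λ)
    (hE : φ ^ p * u = 1 + π ^ (p * s) * w) (hwg : S33N1_Div Λ π 1 (w - g ^ p)) :
    ∃ w' ∈ Λ, ((1 - π ^ s * g) * φ) ^ p * u = 1 + π ^ (p * s + 1) * w' := by
  obtain ⟨a, ha, hpa⟩ := hpπ
  obtain ⟨w₁, hw₁, hwg⟩ := hwg
  have hpR : ((p : ℕ) : Λ) = (⟨π, hπ⟩ : Λ) ^ ((p - 1) * e₀) * ⟨a, ha⟩ :=
    Subtype.ext (by simpa using hpa)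
  obtain ⟨c, hc⟩ := S33N1_expand_lt hp (⟨π, hπ⟩ : Λ) e₀ ⟨a, ha⟩ hpR s hs (-⟨g, hg⟩)
  have hc' : (1 + π ^ s * (-g)) ^ p = 1 + π ^ (p * s) * (-g) ^ p + π ^ (p * s + 1) * (c : F) := by
    have := congrArg (fun z : Λ => (z : F)) hc
    simpa using this
  have hodd : Odd p := hp.odd_of_ne_two hp2
  rw [hodd.neg_pow] at hc'
  have hps : 0 < p * s := Nat.mul_pos hp.pos hs0
  obtain ⟨j, hj⟩ : ∃ j, p * s = j + 1 := ⟨p * s - 1, by omega⟩
  refine ⟨w₁ + (c : F) * (1 + π ^ (p * s) * w) - π ^ j * (g ^ p * w), ?_, ?_⟩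
  · refine Λ.sub_mem (Λ.add_mem hw₁ (Λ.mul_mem c.2 (Λ.add_mem Λ.one_mem
      (Λ.mul_mem (Λ.pow_mem hπ _) hw)))) (Λ.mul_mem (Λ.pow_mem hπ _) (Λ.mul_mem (Λ.pow_mem hg _) hw))
  · have e1 : (1 - π ^ s * g) = 1 + π ^ s * (-g) := by ring
    have e2 : π ^ (p * s) * π ^ (p * s) = π ^ (p * s + 1) * π ^ j := by
      rw [← pow_add, ← pow_add]; congr 1; omega
    rw [mul_pow, mul_assoc, hE, e1, hc']
    rw [pow_one] at hwg
    linear_combination (π ^ (p * s)) * hwg - (g ^ p * w) * e2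

/-- **THE DEPTH INDUCTION** (N1, abstract).  `Λ` the integral functions on a chart, `M` the
integral sections (`Λ·M ⊆ M`), `p ∈ π^((p-1)e₀)Λ`.  If at every depth `0 < m < p e₀` the leading
term of a trivialisation is `0` or (`p ∣ m` and) a `p`-th power modulo `π` (`hstep`), then a
trivialisation of depth `1` improves to one of depth `p e₀`. -/
theorem S33N1_depth {p : ℕ} (hp : p.Prime) (hp2 : p ≠ 2) (Λ : Subring F) (π : F) (hπ : π ∈ Λ)
    (e₀ : ℕ) (hpπ : S33N1_Div Λ π ((p - 1) * e₀) (p : F))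
    (M : Set F) (hΛM : ∀ a ∈ Λ, ∀ f ∈ M, a * f ∈ M) (u : F)
    (hstep : ∀ m : ℕ, 0 < m → m < p * e₀ → ∀ φ ∈ M, ∀ w ∈ Λ, φ ^ p * u = 1 + π ^ m * w →
      S33N1_Div Λ π 1 w ∨ ∃ s : ℕ, m = p * s ∧ ∃ g ∈ Λ, S33N1_Div Λ π 1 (w - g ^ p))
    (hbase : ∃ φ ∈ M, ∃ w ∈ Λ, φ ^ p * u = 1 + π * w) :
    ∀ m : ℕ, 0 < m → m ≤ p * e₀ → ∃ φ ∈ M, ∃ w ∈ Λ, φ ^ p * u = 1 + π ^ m * w := by
  intro m
  induction m with
  | zero => intro h; omega
  | succ m ih =>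
    intro _ hm
    rcases Nat.eq_zero_or_pos m with h0 | hpos
    · subst h0
      obtain ⟨φ, hφ, w, hw, hE⟩ := hbase
      exact ⟨φ, hφ, w, hw, by rw [hE]; ring⟩
    obtain ⟨φ, hφ, w, hw, hE⟩ := ih hpos (by omega)
    rcases hstep m hpos (by omega) φ hφ w hw hE with ⟨w', hw', hww⟩ | ⟨s, hs, g, hg, hwg⟩
    · exact ⟨φ, hφ, w', hw', by rw [hE, hww, pow_succ]; ring⟩
    · have hs0 : 0 < s := by
        rcases Nat.eq_zero_or_pos s with h | h
        · rw [h, mul_zero] at hs; omega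
        · exact h
      have hse : s < e₀ := by
        by_contra hcon
        have : p * e₀ ≤ p * s := Nat.mul_le_mul_left p (by omega)
        omega
      rw [hs] at hE
      obtain ⟨w', hw', hE'⟩ := S33N1_improve hp hp2 Λ π hπ e₀ hpπ u s hs0 hse φ w g hw hg hE hwg
      refine ⟨(1 - π ^ s * g) * φ, hΛM _ (Λ.sub_mem Λ.one_mem (Λ.mul_mem (Λ.pow_mem hπ s) hg)) _ hφ,
        w', hw', ?_⟩
      rw [hE', hs]

/-- **the step hypothesis from (N0)**: `O i` the discrete valuation rings of the components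
(uniformiser `π`), `Λ ≤ O i` saturated (`hsat`) and Frobenius-closed modulo `π` (`hFrob`), and
`u` locally a `p`-th power to any precision at every component (`hN0`).  Then the hypothesis
`hstep` of `S33N1_depth` holds. -/
theorem S33N1_step {p : ℕ} (hp : p.Prime) (hp2 : p ≠ 2) {ι : Type*} (O : ι → Subring F) (π : F)
    (hO : ∀ i, S33N1_IsDV (O i) π) (e₀ : ℕ)
    (hpπ : ∀ i, S33N1_Div (O i) π ((p - 1) * e₀) (p : F))
    (Λ : Subring F) (hΛO : ∀ i, Λ ≤ O i)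
    (hsat : ∀ w ∈ Λ, (∀ i, S33N1_Div (O i) π 1 w) → S33N1_Div Λ π 1 w)
    (hFrob : ∀ w ∈ Λ, (∀ i, ∃ z ∈ O i, S33N1_Div (O i) π 1 (w - z ^ p)) →
      ∃ g ∈ Λ, S33N1_Div Λ π 1 (w - g ^ p))
    (u : F) (hN0 : ∀ i, ∀ n : ℕ, ∃ y : F, S33N1_Div (O i) π n (u * y ^ p - 1))
    (m : ℕ) (hm : 0 < m) (hm' : m < p * e₀) (φ w : F) (hw : w ∈ Λ)
    (hE : φ ^ p * u = 1 + π ^ m * w) :
    S33N1_Div Λ π 1 w ∨ ∃ s : ℕ, m = p * s ∧ ∃ g ∈ Λ, S33N1_Div Λ π 1 (w - g ^ p) := by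
  classical
  by_cases hall : ∀ i, S33N1_Div (O i) π 1 w
  · exact Or.inl (hsat w hw hall)
  right
  -- the local lemma at every component where `w` is a unit
  have hloc : ∀ i, ¬ S33N1_Div (O i) π 1 w →
      ∃ s : ℕ, m = p * s ∧ ∃ z ∈ O i, S33N1_Div (O i) π 1 (w - z ^ p) := by
    intro i hi
    have hφ0 : φ ≠ 0 := by
      rintro rfl
      rw [zero_pow hp.ne_zero, zero_mul] at hE
      apply (hO i).one_not_div
      obtain ⟨j, rfl⟩ : ∃ j, m = j + 1 := ⟨m - 1, by omega⟩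
      exact ⟨-(π ^ j * w), (O i).neg_mem ((O i).mul_mem ((O i).pow_mem (hO i).π_mem j)
        (hΛO i hw)), by rw [pow_succ] at hE; linear_combination -hE⟩
    obtain ⟨y₀, t, ht, hy₀⟩ := hN0 i (m + 1)
    refine S33N1_local hp hp2 (O i) π (hO i) e₀ (hpπ i) m hm hm' w (y₀ / φ) (hΛO i hw) hi
      ⟨t, ht, ?_⟩
    rw [← hE, div_pow, ← hy₀]
    field_simp
  push Not at hall
  obtain ⟨i₀, hi₀⟩ := hall
  obtain ⟨s, hs, -⟩ := hloc i₀ hi₀
  refine ⟨s, hs, hFrob w hw ?_⟩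
  intro i
  by_cases hi : S33N1_Div (O i) π 1 w
  · exact ⟨0, (O i).zero_mem, by rwa [zero_pow hp.ne_zero, sub_zero]⟩
  · obtain ⟨_, _, z, hz, hwz⟩ := hloc i hi
    exact ⟨z, hz, hwz⟩

/-- **(N1)**: from a trivialisation of depth `1` to a trivialisation of depth `p e₀` (`= λ^p`),
under (N0), saturation and Frobenius-closedness. -/
theorem S33N1_main {p : ℕ} (hp : p.Prime) (hp2 : p ≠ 2) {ι : Type*} (O : ι → Subring F) (π : F)
    (hO : ∀ i, S33N1_IsDV (O i) π) (e₀ : ℕ) (he₀ : 0 < e₀)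
    (Λ : Subring F) (hπ : π ∈ Λ) (hpπ : S33N1_Div Λ π ((p - 1) * e₀) (p : F))
    (hΛO : ∀ i, Λ ≤ O i)
    (hsat : ∀ w ∈ Λ, (∀ i, S33N1_Div (O i) π 1 w) → S33N1_Div Λ π 1 w)
    (hFrob : ∀ w ∈ Λ, (∀ i, ∃ z ∈ O i, S33N1_Div (O i) π 1 (w - z ^ p)) →
      ∃ g ∈ Λ, S33N1_Div Λ π 1 (w - g ^ p))
    (M : Set F) (hΛM : ∀ a ∈ Λ, ∀ f ∈ M, a * f ∈ M)
    (u : F) (hN0 : ∀ i, ∀ n : ℕ, ∃ y : F, S33N1_Div (O i) π n (u * y ^ p - 1))
    (hbase : ∃ φ ∈ M, ∃ w ∈ Λ, φ ^ p * u = 1 + π * w) :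
    ∃ φ ∈ M, ∃ w ∈ Λ, φ ^ p * u = 1 + π ^ (p * e₀) * w :=
  S33N1_depth hp hp2 Λ π hπ e₀ hpπ M hΛM u
    (fun m hm hm' φ _ w hw hE =>
      S33N1_step hp hp2 O π hO e₀ (fun i => S33N1_Div_le (hΛO i) π hpπ) Λ hΛO hsat hFrob u hN0
        m hm hm' φ w hw hE)
    hbase (p * e₀) (Nat.mul_pos hp.pos he₀) le_rfl

/-- **overlap**: two trivialisations of depth `p e₀` (on two charts) differ by a factor
`1 + π^e₀·g` with `g` integral at every component. -/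
theorem S33N1_overlap {p : ℕ} (hp : p.Prime) {ι : Type*} [Nonempty ι] (O : ι → Subring F) (π : F)
    (hO : ∀ i, S33N1_IsDV (O i) π) (e₀ : ℕ) (he₀ : 0 < e₀)
    (hpπ : ∀ i, S33N1_Div (O i) π ((p - 1) * e₀) (p : F))
    (u φ φ' w w' : F) (hw : ∀ i, w ∈ O i) (hw' : ∀ i, w' ∈ O i)
    (hE : φ ^ p * u = 1 + π ^ (p * e₀) * w) (hE' : φ' ^ p * u = 1 + π ^ (p * e₀) * w') :
    ∃ g : F, (∀ i, g ∈ O i) ∧ φ = φ' * (1 + π ^ e₀ * g) := by
  have hpos : 0 < p * e₀ := Nat.mul_pos hp.pos he₀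
  obtain ⟨j, hj⟩ : ∃ j, p * e₀ = j + 1 := ⟨p * e₀ - 1, by omega⟩
  have hι : Nonempty ι := inferInstance
  obtain ⟨i₀⟩ := hι
  have hπ0 : π ≠ 0 := (hO i₀).π_ne
  have hne : ∀ x : F, (∀ i, x ∈ O i) → 1 + π ^ (p * e₀) * x ≠ 0 := by
    intro x hx h0
    apply (hO i₀).one_not_div
    exact ⟨-(π ^ j * x), (O i₀).neg_mem ((O i₀).mul_mem ((O i₀).pow_mem (hO i₀).π_mem j) (hx i₀)),
      by rw [hj, pow_succ] at h0; linear_combination h0⟩
  have hφ' : φ' ≠ 0 := by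
    rintro rfl
    rw [zero_pow hp.ne_zero, zero_mul] at hE'
    exact hne w' hw' hE'.symm
  have hu : u ≠ 0 := by
    rintro rfl
    rw [mul_zero] at hE'
    exact hne w' hw' hE'.symm
  set r : F := φ / φ' with hr
  have hrp : r ^ p * (1 + π ^ (p * e₀) * w') = 1 + π ^ (p * e₀) * w := by
    rw [← hE, ← hE', hr, div_pow]
    field_simp
  have hdiv : ∀ i, S33N1_Div (O i) π e₀ (r - 1) := by
    intro i
    apply S33N1_root hp (O i) π (hO i) e₀ he₀ (hpπ i) r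
    have hinv : (1 + π ^ (p * e₀) * w')⁻¹ ∈ O i := by
      have := (hO i).one_add_inv_mem (t := π ^ j * w')
        ((O i).mul_mem ((O i).pow_mem (hO i).π_mem j) (hw' i))
      have e : 1 + π * (π ^ j * w') = 1 + π ^ (p * e₀) * w' := by rw [hj, pow_succ]; ring
      rwa [e] at this
    refine ⟨(w - w') * (1 + π ^ (p * e₀) * w')⁻¹,
      (O i).mul_mem ((O i).sub_mem (hw i) (hw' i)) hinv, ?_⟩
    have h1 := hne w' hw'
    field_simp
    linear_combination hrp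
  choose g hg hgr using hdiv
  refine ⟨g i₀, fun i => ?_, ?_⟩
  · have : g i = g i₀ := by
      have h1 := hgr i
      have h2 := hgr i₀
      rw [h2] at h1
      exact (mul_left_cancel₀ (pow_ne_zero _ hπ0) h1).symm
    rw [← this]; exact hg i
  · have h2 := hgr i₀
    rw [hr] at h2
    field_simp at h2
    linear_combination h2

end Field

end Fermat.Agent.S33
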