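import Fermat.Agent.S33.NewInj
import Fermat.Agent.S34.InjInst

/-!
# TRACK 11 (S33), package N3-INST part 1 (helper20): `S33N3_false` on a lattice datum

Port of TRACK 7's `S34IC_inj` (`S34/InjInst.lean`, helper25) to the Kummer exponent `n = p`
(the residue characteristic): `S : S34L_Lat L F k R`, three charts `B, B' ≤ B''`
(`L`-subalgebras of `F`, `p`-root closed, `B ⊓ B' = L`), a Kummer generator `u ∈ O`, `u ≠ 0`,
and the integral sections `S34IC_M S B p hroot u = {f ∈ O | f^p · u ∈ B}`.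

Instead of `(n : k) ≠ 0` and `red f₁ = red f₁' = 1` the inputs are a non-unit `c ≠ 0` of `A`
with `p = c ^ e · ε` and the three congruences

* `ht  : f₁  ^ p * u - 1 ∈ c ^ r₀ · Λ_U`,   `p e < r₀ (p - 1)`  (beyond the depth `c*`),
* `ht' : f₁' ^ p * u - 1 ∈ c ^ r₀ · Λ_U'`,
* `htt : f₁ - f₁' ∈ c ^ s₀ · M_U''`,         `e < s₀ (p - 1)`.

* `S33NI_inj`     : then `u = c' · g ^ p` is a trivial Kummer generator;
* `S33NI_inj_mul` : the same with the congruences in the multiplicative shape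
  `f₁ ^ p * u = 1 + π ^ r₀ * l`, `f₁ = f₁' + π ^ s₀ * m` (`π = algebraMap c`).
-/

set_option autoImplicit false

namespace Fermat.Agent.S33

open Fermat.Agent.S34

variable {L F k R : Type*} [Field L] [Field F] [Algebra L F] [Field k] [CommRing R]
  [Algebra k R]

/-- **N3-INST, part 1**: `S33N3_false` on a lattice datum.  A Kummer generator `u ∈ O` (exponent
`p`) with trivialisations `f₁` on `U`, `f₁'` on `U'` modulo `c ^ r₀` (`p e < r₀ (p - 1)`) which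
agree modulo `c ^ s₀` (`e < s₀ (p - 1)`) is a trivial Kummer generator, if `H¹` has bounded
torsion. -/
theorem S33NI_inj [Nontrivial R] (S : S34L_Lat L F k R)
    (hrank : ∀ c : S.A, ¬ IsUnit c → c ≠ 0 → ∀ a : S.A, a ≠ 0 → ∃ N : ℕ, a ∣ c ^ N)
    {p : ℕ} (hp : p.Prime)
    (c : S.A) (hc : ¬ IsUnit c) (hc0 : c ≠ 0) (e : ℕ) (ε : S.Aˣ)
    (hpe : ((p : ℕ) : S.A) = c ^ e * ε)
    (B B' B'' : Subalgebra L F) (hB : B ≤ B'') (hB' : B' ≤ B'')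
    (hroot : ∀ y : F, y ^ p ∈ B → y ∈ B) (hroot' : ∀ y : F, y ^ p ∈ B' → y ∈ B')
    (hroot'' : ∀ y : F, y ^ p ∈ B'' → y ∈ B'')
    (hconst : ∀ f : F, f ∈ B → f ∈ B' → ∃ a : L, f = algebraMap L F a)
    (u : F) (huO : u ∈ S.O) (hu0 : u ≠ 0)
    (htors : ∃ c₀ : S.A, c₀ ≠ 0 ∧ ∀ h ∈ S34IC_M S B'' p hroot'' u, ∀ a : S.A, a ≠ 0 →
      a • h ∈ S34IC_M S B p hroot u ⊔ S34IC_M S B' p hroot' u →
      c₀ • h ∈ S34IC_M S B p hroot u ⊔ S34IC_M S B' p hroot' u)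
    (f₁ f₁' : F) (hf₁ : f₁ ∈ S34IC_M S B p hroot u) (hf₁' : f₁' ∈ S34IC_M S B' p hroot' u)
    (r₀ : ℕ) (hr₀ : p * e < r₀ * (p - 1))
    (ht : ∃ l ∈ S34IC_Lam S B, f₁ ^ p * u - 1 = c ^ r₀ • l)
    (ht' : ∃ l ∈ S34IC_Lam S B', f₁' ^ p * u - 1 = c ^ r₀ • l)
    (s₀ : ℕ) (hs₀ : e < s₀ * (p - 1))
    (htt : ∃ m ∈ S34IC_M S B'' p hroot'' u, f₁ - f₁' = c ^ s₀ • m) :
    ∃ (c' : L) (g : F), c' ≠ 0 ∧ g ≠ 0 ∧ u = algebraMap L F c' * g ^ p := by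
  classical
  by_contra hnt
  -- a nonzero section `f` with `f^p u` constant makes `u` trivial
  have htriv : ∀ f : F, f ≠ 0 → ∀ a : L, f ^ p * u = algebraMap L F a → False := by
    intro f hf a ha
    apply hnt
    have ha0 : a ≠ 0 := by
      rintro rfl
      rw [map_zero] at ha
      exact mul_ne_zero (pow_ne_zero _ hf) hu0 ha
    refine ⟨a, f⁻¹, ha0, inv_ne_zero hf, ?_⟩
    rw [← ha, inv_pow]
    field_simp
  -- the three charts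
  set Λ := S34IC_Lam S B with hΛ
  set Λ' := S34IC_Lam S B' with hΛ'
  set Λ'' := S34IC_Lam S B'' with hΛ''
  set M := S34IC_M S B p hroot u with hMdef
  set M' := S34IC_M S B' p hroot' u with hM'def
  set M'' := S34IC_M S B'' p hroot'' u with hM''def
  have hMle : M ≤ M'' := fun f hf => ⟨hf.1, hB hf.2⟩
  have hM'le : M' ≤ M'' := fun f hf => ⟨hf.1, hB' hf.2⟩
  -- global sections vanish
  have hglob : ∀ f, f ∈ M → f ∈ M' → f = 0 := by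
    intro f hf hf'
    by_contra hf0
    obtain ⟨a, ha⟩ := hconst _ hf.2 hf'.2
    exact htriv f hf0 a ha
  refine S33N3_false (A := S.A) (F := F) hp u c hc0 e ε hpe (hrank c hc hc0) Λ Λ''
    (fun f hf => ⟨hf.1, hB hf.2⟩) Λ' (fun f hf => ⟨hf.1, hB' hf.2⟩) M M' M'' hMle hM'le
    ?_ ?_ ?_ ?_ ?_ hglob htors f₁ f₁' hf₁ hf₁' r₀ hr₀ ht ht' s₀ hs₀ htt ?_
  · -- Λ·M ⊂ M
    rintro a ⟨haO, haB⟩ f ⟨hfO, hf⟩
    refine ⟨S.O.mul_mem haO hfO, ?_⟩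
    rw [mul_pow, mul_assoc]
    exact B.mul_mem (B.pow_mem haB p) hf
  · rintro a ⟨haO, haB⟩ f ⟨hfO, hf⟩
    refine ⟨S.O.mul_mem haO hfO, ?_⟩
    rw [mul_pow, mul_assoc]
    exact B'.mul_mem (B'.pow_mem haB p) hf
  · rintro a ⟨haO, haB⟩ f ⟨hfO, hf⟩
    refine ⟨S.O.mul_mem haO hfO, ?_⟩
    rw [mul_pow, mul_assoc]
    exact B''.mul_mem (B''.pow_mem haB p) hf
  · -- hpow
    intro t ht h
    refine ⟨S.O.mul_mem (S.O.multiset_prod_mem t fun f hf => (h f hf).1) huO, ?_⟩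
    exact S34IC_prod_mem B p hroot u t ht fun f hf => (h f hf).2
  · intro t ht h
    refine ⟨S.O.mul_mem (S.O.multiset_prod_mem t fun f hf => (h f hf).1) huO, ?_⟩
    exact S34IC_prod_mem B'' p hroot'' u t ht fun f hf => (h f hf).2
  · -- hprim
    rintro l ⟨hlO, -⟩ h1l
    have h : S.red (1 : S.O) = S.red (S.const c * ⟨l, hlO⟩) := by
      congr 1
      apply Subtype.ext
      show (1 : F) = algebraMap L F (c : L) * l
      rw [h1l, Algebra.smul_def]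
      rfl
    rw [map_one, map_mul, S.red_const, (S.res_eq_zero_iff c).2 hc, map_zero, zero_mul] at h
    exact one_ne_zero h

/-- a constant multiple of an integral function of a chart is in the chart lattice as soon as
it is integral: division by a nonzero constant keeps the chart. -/
theorem S33NI_mem_Lam_of_mul (S : S34L_Lat L F k R) (B : Subalgebra L F) (d : S.A) (hd : d ≠ 0)
    (x l : F) (hx : x ∈ B) (hl : l ∈ S.O) (h : x = algebraMap L F (d : L) * l) :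
    l ∈ S34IC_Lam S B := by
  refine ⟨hl, ?_⟩
  have hdL : (d : L) ≠ 0 := fun h0 => hd (Subtype.ext h0)
  have : l = algebraMap L F ((d : L)⁻¹) * x := by
    rw [h, ← mul_assoc, ← map_mul, inv_mul_cancel₀ hdL, map_one, one_mul]
  rw [this]
  exact B.mul_mem (B.algebraMap_mem _) hx

/-- the same for the sections. -/
theorem S33NI_mem_M_of_mul (S : S34L_Lat L F k R) (B : Subalgebra L F) (n : ℕ)
    (hroot : ∀ y : F, y ^ n ∈ B → y ∈ B) (u : F) (d : S.A) (hd : d ≠ 0)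
    (x m : F) (hx : x ∈ S34IC_M S B n hroot u) (hm : m ∈ S.O)
    (h : x = algebraMap L F (d : L) * m) :
    m ∈ S34IC_M S B n hroot u := by
  refine ⟨hm, ?_⟩
  have hdL : (d : L) ≠ 0 := fun h0 => hd (Subtype.ext h0)
  have : m ^ n * u = algebraMap L F (((d : L)⁻¹) ^ n) * (x ^ n * u) := by
    rw [h, mul_pow, map_pow, ← mul_assoc, ← mul_assoc, ← mul_pow, ← map_mul,
      inv_mul_cancel₀ hdL, map_one, one_pow, one_mul]
  rw [this]
  exact B.mul_mem (B.algebraMap_mem _) hx.2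

/-- **N3-INST, part 1, consumer shape**: the congruences are given with arbitrary moduli
`d, d' ∈ A` divisible by `c ^ r₀`, `c ^ s₀` and with quotients which are only known to be
INTEGRAL (in `O`):  `f₁ ^ p * u = 1 + d * l`, `f₁' ^ p * u = 1 + d * l'`, `f₁ = f₁' + d' * m`
(`l, l', m ∈ O`).  For `O'' ∋ ϖ` a uniformiser, `λ = ζ_p - 1 = ϖ ^ e₀ · unit`:
`c = ϖ`, `e = (p - 1) e₀`, `d = λ ^ p · ϖ`, `r₀ = p e₀ + 1`, `d' = λ · ϖ`, `s₀ = e₀ + 1`. -/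
theorem S33NI_inj_O [Nontrivial R] (S : S34L_Lat L F k R)
    (hrank : ∀ c : S.A, ¬ IsUnit c → c ≠ 0 → ∀ a : S.A, a ≠ 0 → ∃ N : ℕ, a ∣ c ^ N)
    {p : ℕ} (hp : p.Prime)
    (c : S.A) (hc : ¬ IsUnit c) (hc0 : c ≠ 0) (e : ℕ) (ε : S.Aˣ)
    (hpe : ((p : ℕ) : S.A) = c ^ e * ε)
    (B B' B'' : Subalgebra L F) (hB : B ≤ B'') (hB' : B' ≤ B'')
    (hroot : ∀ y : F, y ^ p ∈ B → y ∈ B) (hroot' : ∀ y : F, y ^ p ∈ B' → y ∈ B')
    (hroot'' : ∀ y : F, y ^ p ∈ B'' → y ∈ B'')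
    (hconst : ∀ f : F, f ∈ B → f ∈ B' → ∃ a : L, f = algebraMap L F a)
    (u : F) (huO : u ∈ S.O) (hu0 : u ≠ 0)
    (htors : ∃ c₀ : S.A, c₀ ≠ 0 ∧ ∀ h ∈ S34IC_M S B'' p hroot'' u, ∀ a : S.A, a ≠ 0 →
      a • h ∈ S34IC_M S B p hroot u ⊔ S34IC_M S B' p hroot' u →
      c₀ • h ∈ S34IC_M S B p hroot u ⊔ S34IC_M S B' p hroot' u)
    (f₁ f₁' : F) (hf₁O : f₁ ∈ S.O) (hf₁ : f₁ ^ p * u ∈ B)
    (hf₁'O : f₁' ∈ S.O) (hf₁' : f₁' ^ p * u ∈ B')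
    (r₀ : ℕ) (hr₀ : p * e < r₀ * (p - 1)) (d : S.A) (hd0 : d ≠ 0) (hd : c ^ r₀ ∣ d)
    (ht : ∃ l ∈ S.O, f₁ ^ p * u = 1 + algebraMap L F (d : L) * l)
    (ht' : ∃ l ∈ S.O, f₁' ^ p * u = 1 + algebraMap L F (d : L) * l)
    (s₀ : ℕ) (hs₀ : e < s₀ * (p - 1)) (d' : S.A) (hd'0 : d' ≠ 0) (hd' : c ^ s₀ ∣ d')
    (htt : ∃ m ∈ S.O, f₁ = f₁' + algebraMap L F (d' : L) * m) :
    ∃ (c' : L) (g : F), c' ≠ 0 ∧ g ≠ 0 ∧ u = algebraMap L F c' * g ^ p := by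
  have hf₁M : f₁ ∈ S34IC_M S B p hroot u := ⟨hf₁O, hf₁⟩
  have hf₁'M : f₁' ∈ S34IC_M S B' p hroot' u := ⟨hf₁'O, hf₁'⟩
  have hMle : S34IC_M S B p hroot u ≤ S34IC_M S B'' p hroot'' u := fun f hf => ⟨hf.1, hB hf.2⟩
  have hM'le : S34IC_M S B' p hroot' u ≤ S34IC_M S B'' p hroot'' u :=
    fun f hf => ⟨hf.1, hB' hf.2⟩
  obtain ⟨t, rfl⟩ := hd
  obtain ⟨t', rfl⟩ := hd'
  refine S33NI_inj S hrank hp c hc hc0 e ε hpe B B' B'' hB hB' hroot hroot' hroot'' hconst u huO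
    hu0 htors f₁ f₁' hf₁M hf₁'M r₀ hr₀ ?_ ?_ s₀ hs₀ ?_
  · obtain ⟨l, hl, h⟩ := ht
    have h1 : f₁ ^ p * u - 1 = algebraMap L F ((c ^ r₀ * t : S.A) : L) * l := by
      rw [h]; ring
    have hlΛ : l ∈ S34IC_Lam S B :=
      S33NI_mem_Lam_of_mul S B (c ^ r₀ * t) hd0 _ l (B.sub_mem hf₁ B.one_mem) hl h1
    refine ⟨t • l, (S34IC_Lam S B).smul_mem hlΛ t, ?_⟩
    rw [h1, smul_smul, Algebra.smul_def]
    rfl
  · obtain ⟨l, hl, h⟩ := ht'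
    have h1 : f₁' ^ p * u - 1 = algebraMap L F ((c ^ r₀ * t : S.A) : L) * l := by
      rw [h]; ring
    have hlΛ : l ∈ S34IC_Lam S B' :=
      S33NI_mem_Lam_of_mul S B' (c ^ r₀ * t) hd0 _ l (B'.sub_mem hf₁' B'.one_mem) hl h1
    refine ⟨t • l, (S34IC_Lam S B').smul_mem hlΛ t, ?_⟩
    rw [h1, smul_smul, Algebra.smul_def]
    rfl
  · obtain ⟨m, hm, h⟩ := htt
    have h1 : f₁ - f₁' = algebraMap L F ((c ^ s₀ * t' : S.A) : L) * m := by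
      rw [h]; ring
    have hsub : f₁ - f₁' ∈ S34IC_M S B'' p hroot'' u :=
      (S34IC_M S B'' p hroot'' u).sub_mem (hMle hf₁M) (hM'le hf₁'M)
    have hmM : m ∈ S34IC_M S B'' p hroot'' u :=
      S33NI_mem_M_of_mul S B'' p hroot'' u (c ^ s₀ * t') hd'0 _ m hsub hm h1
    refine ⟨t' • m, (S34IC_M S B'' p hroot'' u).smul_mem t' hmM, ?_⟩
    rw [h1, smul_smul, Algebra.smul_def]
    rfl

end Fermat.Agent.S33
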