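import Fermat.Agent.S33.NewDefs
import Fermat.Agent.S33.NewInjInst
import Fermat.Agent.S34.RankOne

/-!
# TRACK 11 (S33), package N3-FIN (helper25): the image in `F` of the rational trivialisations

The conclusion of `S33NX_rat` (`S33/NewDefs.lean`) lives in the rational function field
`F'' = fixF(H)`: trivialisations `φ`, `φ'` of `u_y` of depth `ϖ^(p e₀ + 1)` on the charts `U`,
`U'` which agree to the depth `ϖ^(e₀ + 1)`.  Here: its image in `F = ℚ̄(X₀(M p))`, in the exact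
shape of the inputs of NEW-INJ on a lattice datum (`S33NI_inj_O`, `S33/NewInjInst.lean`) for
`S = S34P_lat (S34M_same …)`, `B = S33NX_B`, `B' = S33NX_B' c₀`, `c = ϖ₀`,
`d = ϖ₀^(p e₀ + 1)`, `d' = ϖ₀^(e₀ + 1)`.  Prefix `S33NF_`.

* `S33NF_arith`  : `p · ((p − 1) e₀) < (p e₀ + 1)(p − 1)` and `(p − 1) e₀ < (e₀ + 1)(p − 1)`
  (the two depth conditions `hr₀`, `hs₀` of `S33NI_inj_O`);
* `S33NF_mem_O`  : an element whose `p`-th power times a unit is integral is integral;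
* `S33NF_image`  : **the image**: `f₁ = φ`, `f₁' = φ'` are integral, `f₁^p u ∈ B`,
  `f₁'^p u ∈ B'`, and the three congruences `ht`, `ht'`, `htt` of `S33NI_inj_O`.
-/

set_option autoImplicit false
set_option synthInstance.maxHeartbeats 400000
set_option maxHeartbeats 1000000
set_option linter.unusedSectionVars false
set_option linter.unusedVariables false

open ModularCurve AlgebraicCurve

namespace Fermat.Agent.S33

open Fermat.Agent.S34 Fermat.Agent.S36 Fermat.Agent.S18 Fermat.Agent.S24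

/-- the two depth conditions of NEW-INJ for `e = (p − 1) e₀`, `r₀ = p e₀ + 1`, `s₀ = e₀ + 1`. -/
theorem S33NF_arith {p : ℕ} (hp : p.Prime) (e₀ : ℕ) :
    p * ((p - 1) * e₀) < (p * e₀ + 1) * (p - 1) ∧ (p - 1) * e₀ < (e₀ + 1) * (p - 1) := by
  obtain ⟨P, rfl⟩ : ∃ P, p = P + 1 := ⟨p - 1, by have := hp.one_lt; omega⟩
  have hP : 0 < P := by have := hp.one_lt; omega
  rw [Nat.add_sub_cancel]
  constructor <;> nlinarith

section abs

variable {L F k R : Type*} [Field L] [Field F] [Algebra L F] [Field k] [CommRing R]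
  [Algebra k R]

/-- the image, abstractly: over a lattice datum whose unit ball is `p`-root closed. -/
theorem S33NF_image_abs {p : ℕ} (hp : p.Prime) (S : S34L_Lat L F k R)
    (hroot : ∀ f : F, f ^ p ∈ S.O → f ∈ S.O) (B B' : Subalgebra L F) (c : S.A) (e₀ : ℕ)
    (u φ φ' l l' m : F) (hu0 : u ≠ 0) (hu : u⁻¹ ∈ S.O)
    (hl : l ∈ S.O) (hlB : l ∈ B) (hl' : l' ∈ S.O) (hl'B : l' ∈ B') (hm : m ∈ S.O)
    (e1 : φ ^ p * u = 1 + algebraMap L F (c : L) ^ (p * e₀ + 1) * l)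
    (e2 : φ' ^ p * u = 1 + algebraMap L F (c : L) ^ (p * e₀ + 1) * l')
    (e3 : φ - φ' = algebraMap L F (c : L) ^ (e₀ + 1) * (m * φ')) :
    φ ∈ S.O ∧ φ ^ p * u ∈ B ∧ φ' ∈ S.O ∧ φ' ^ p * u ∈ B' ∧
    (∃ l ∈ S.O, φ ^ p * u = 1 + algebraMap L F ((c ^ (p * e₀ + 1) : S.A) : L) * l) ∧
    (∃ l ∈ S.O, φ' ^ p * u = 1 + algebraMap L F ((c ^ (p * e₀ + 1) : S.A) : L) * l) ∧
    (∃ m ∈ S.O, φ = φ' + algebraMap L F ((c ^ (e₀ + 1) : S.A) : L) * m) := by
  have hϖO : algebraMap L F (c : L) ∈ S.O := S.algebraMap_mem _ c.2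
  have hcoe : ∀ N : ℕ, algebraMap L F ((c ^ N : S.A) : L) = algebraMap L F (c : L) ^ N := by
    intro N
    rw [← map_pow]
    rfl
  have hint : ∀ (f l : F), l ∈ S.O →
      f ^ p * u = 1 + algebraMap L F (c : L) ^ (p * e₀ + 1) * l → f ∈ S.O := by
    intro f l hl e
    apply hroot
    have : f ^ p = (1 + algebraMap L F (c : L) ^ (p * e₀ + 1) * l) * u⁻¹ := by
      rw [← e, mul_assoc, mul_inv_cancel₀ hu0, mul_one]
    rw [this]
    exact S.O.mul_mem (S.O.add_mem S.O.one_mem (S.O.mul_mem (S.O.pow_mem hϖO _) hl)) hu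
  have hφO := hint _ _ hl e1
  have hφ'O := hint _ _ hl' e2
  refine ⟨hφO, ?_, hφ'O, ?_, ⟨l, hl, ?_⟩, ⟨l', hl', ?_⟩, ⟨m * φ', S.O.mul_mem hm hφ'O, ?_⟩⟩
  · rw [e1]
    exact B.add_mem B.one_mem (B.mul_mem (B.pow_mem (B.algebraMap_mem _) _) hlB)
  · rw [e2]
    exact B'.add_mem B'.one_mem (B'.mul_mem (B'.pow_mem (B'.algebraMap_mem _) _) hl'B)
  · rw [hcoe, e1]
  · rw [hcoe, e2]
  · rw [hcoe, ← e3]
    ring

end abs

section image

variable (M p : ℕ) [NeZero (M * p)] (hp : p.Prime) (hpM : ¬ p ∣ M)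
  (A : ValuationSubring (AlgebraicClosure ℚ))
  (hgen : PrincipalGeneratedByIntegral A (IsLocalRing.residue A) (M * p))
  (H : Subgroup (AlgebraicClosure ℚ ≃ₐ[ℚ] AlgebraicClosure ℚ))

/-- the rational ring `O₁'' ⊓ O₂''` is the trace of the unit ball of the lattice datum. -/
theorem S33NF_mem_Os (f : S33NX_F M p H) :
    f ∈ S33NX_Os M p hp hpM A hgen H ↔
      (f : ↥(modularFunctionFieldBar (M * p))) ∈ (S34P_lat (S34M_same M p hp hpM A hgen)).O := by
  rw [S33NX_mem_Os]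
  constructor
  · intro h
    exact ⟨(S33NX_mem_O_zero M p hp hpM A hgen H f).1 (h 0),
      (S33NX_mem_O_one M p hp hpM A hgen H f).1 (h 1)⟩
  · rintro ⟨h0, h1⟩ i
    fin_cases i
    · exact (S33NX_mem_O_zero M p hp hpM A hgen H f).2 h0
    · exact (S33NX_mem_O_one M p hp hpM A hgen H f).2 h1

/-- an element of `F` whose `p`-th power is integral is integral. -/
theorem S33NF_mem_O_of_pow (f : ↥(modularFunctionFieldBar (M * p)))
    (h : f ^ p ∈ (S34P_lat (S34M_same M p hp hpM A hgen)).O) :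
    f ∈ (S34P_lat (S34M_same M p hp hpM A hgen)).O :=
  ⟨S34IX_mem_of_pow_mem _ hp.pos h.1, S34IX_mem_of_pow_mem _ hp.pos h.2⟩

/-- **N3-FIN, the image**: the conclusion of `S33NX_rat` (in `F''`), read in `F`, is the input
`(hf₁O, hf₁, hf₁'O, hf₁', ht, ht', htt)` of `S33NI_inj_O` with `d = c^(p e₀ + 1)`,
`d' = c^(e₀ + 1)`; `c ∈ A ∩ fixK(H)` is the uniformiser, `ϖ = S33NX_const c`. -/
theorem S33NF_image
    (c : (S34P_lat (S34M_same M p hp hpM A hgen)).A)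
    (hcH : (c : AlgebraicClosure ℚ) ∈ (S36FI_act (M * p) H).fixK)
    (e₀ : ℕ) (c₀ : AlgebraicClosure ℚ) (u φ φ' : S33NX_F M p H)
    (hu0 : (u : ↥(modularFunctionFieldBar (M * p))) ≠ 0)
    (hu : ((u : ↥(modularFunctionFieldBar (M * p))))⁻¹ ∈
      (S34P_lat (S34M_same M p hp hpM A hgen)).O)
    (h1 : ∃ l ∈ S33NX_Lam M p hp hpM A hgen H,
      φ ^ p * u = 1 + S33NX_const M p H (c : AlgebraicClosure ℚ) hcH ^ (p * e₀ + 1) * l)
    (h2 : ∃ l ∈ S33NX_Lam' M p hp hpM A hgen H c₀,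
      φ' ^ p * u = 1 + S33NX_const M p H (c : AlgebraicClosure ℚ) hcH ^ (p * e₀ + 1) * l)
    (h3 : ∃ m ∈ S33NX_Os M p hp hpM A hgen H,
      φ - φ' = S33NX_const M p H (c : AlgebraicClosure ℚ) hcH ^ (e₀ + 1) * (m * φ')) :
    (φ : ↥(modularFunctionFieldBar (M * p))) ∈ (S34P_lat (S34M_same M p hp hpM A hgen)).O ∧
    (φ : ↥(modularFunctionFieldBar (M * p))) ^ p * u ∈ S33NX_B M p ∧
    (φ' : ↥(modularFunctionFieldBar (M * p))) ∈ (S34P_lat (S34M_same M p hp hpM A hgen)).O ∧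
    (φ' : ↥(modularFunctionFieldBar (M * p))) ^ p * u ∈ S33NX_B' M p c₀ ∧
    (∃ l ∈ (S34P_lat (S34M_same M p hp hpM A hgen)).O,
      (φ : ↥(modularFunctionFieldBar (M * p))) ^ p * u =
        1 + algebraMap (AlgebraicClosure ℚ) ↥(modularFunctionFieldBar (M * p))
          ((c ^ (p * e₀ + 1) : (S34P_lat (S34M_same M p hp hpM A hgen)).A) :
            AlgebraicClosure ℚ) * l) ∧
    (∃ l ∈ (S34P_lat (S34M_same M p hp hpM A hgen)).O,
      (φ' : ↥(modularFunctionFieldBar (M * p))) ^ p * u =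
        1 + algebraMap (AlgebraicClosure ℚ) ↥(modularFunctionFieldBar (M * p))
          ((c ^ (p * e₀ + 1) : (S34P_lat (S34M_same M p hp hpM A hgen)).A) :
            AlgebraicClosure ℚ) * l) ∧
    (∃ m ∈ (S34P_lat (S34M_same M p hp hpM A hgen)).O,
      (φ : ↥(modularFunctionFieldBar (M * p))) =
        φ' + algebraMap (AlgebraicClosure ℚ) ↥(modularFunctionFieldBar (M * p))
          ((c ^ (e₀ + 1) : (S34P_lat (S34M_same M p hp hpM A hgen)).A) :
            AlgebraicClosure ℚ) * m) := by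
  obtain ⟨l, hl, e1⟩ := h1
  obtain ⟨l', hl', e2⟩ := h2
  obtain ⟨m, hm, e3⟩ := h3
  exact S33NF_image_abs hp (S34P_lat (S34M_same M p hp hpM A hgen))
    (S33NF_mem_O_of_pow M p hp hpM A hgen) (S33NX_B M p) (S33NX_B' M p c₀) c e₀ _ _ _ _ _ _
    hu0 hu ((S33NF_mem_Os M p hp hpM A hgen H l).1 hl.1) hl.2
    ((S33NF_mem_Os M p hp hpM A hgen H l').1 hl'.1) hl'.2
    ((S33NF_mem_Os M p hp hpM A hgen H m).1 hm)
    (congrArg Subtype.val e1) (congrArg Subtype.val e2) (congrArg Subtype.val e3)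

/-- **N3-FIN**: the conclusion of `S33NX_rat` for `u_y` and bounded torsion (`htors`, N3-INST
part 2) make `u_y` a trivial Kummer generator.  `c ∈ A ∩ fixK(H)` is the uniformiser
(`p = c^((p − 1) e₀) · ε`). -/
theorem S33NF_fin (hA : A.LiesOverPrime p)
    (c : (S34P_lat (S34M_same M p hp hpM A hgen)).A)
    (hcH : (c : AlgebraicClosure ℚ) ∈ (S36FI_act (M * p) H).fixK)
    (hc : ¬ IsUnit c) (hc0 : c ≠ 0) (e₀ : ℕ)
    (ε : ((S34P_lat (S34M_same M p hp hpM A hgen)).A)ˣ)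
    (hpe : ((p : ℕ) : (S34P_lat (S34M_same M p hp hpM A hgen)).A) = c ^ ((p - 1) * e₀) * ε)
    (c₀ : AlgebraicClosure ℚ) (u φ φ' : S33NX_F M p H)
    (huO : (u : ↥(modularFunctionFieldBar (M * p))) ∈
      (S34P_lat (S34M_same M p hp hpM A hgen)).O)
    (hu0 : (u : ↥(modularFunctionFieldBar (M * p))) ≠ 0)
    (hu : ((u : ↥(modularFunctionFieldBar (M * p))))⁻¹ ∈
      (S34P_lat (S34M_same M p hp hpM A hgen)).O)
    (htors : ∃ c₁ : (S34P_lat (S34M_same M p hp hpM A hgen)).A, c₁ ≠ 0 ∧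
      ∀ h ∈ S34IC_M (S34P_lat (S34M_same M p hp hpM A hgen)) (S33NX_B'' M p c₀) p
          (fun y hy => S34IX_reg_root _ hp.pos y hy) (u : ↥(modularFunctionFieldBar (M * p))),
      ∀ a : (S34P_lat (S34M_same M p hp hpM A hgen)).A, a ≠ 0 →
        a • h ∈ S34IC_M (S34P_lat (S34M_same M p hp hpM A hgen)) (S33NX_B M p) p
            (fun y hy => S34IX_reg_root _ hp.pos y hy)
            (u : ↥(modularFunctionFieldBar (M * p))) ⊔
          S34IC_M (S34P_lat (S34M_same M p hp hpM A hgen)) (S33NX_B' M p c₀) p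
            (fun y hy => S34IX_reg_root _ hp.pos y hy)
            (u : ↥(modularFunctionFieldBar (M * p))) →
        c₁ • h ∈ S34IC_M (S34P_lat (S34M_same M p hp hpM A hgen)) (S33NX_B M p) p
            (fun y hy => S34IX_reg_root _ hp.pos y hy)
            (u : ↥(modularFunctionFieldBar (M * p))) ⊔
          S34IC_M (S34P_lat (S34M_same M p hp hpM A hgen)) (S33NX_B' M p c₀) p
            (fun y hy => S34IX_reg_root _ hp.pos y hy)
            (u : ↥(modularFunctionFieldBar (M * p))))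
    (h1 : ∃ l ∈ S33NX_Lam M p hp hpM A hgen H,
      φ ^ p * u = 1 + S33NX_const M p H (c : AlgebraicClosure ℚ) hcH ^ (p * e₀ + 1) * l)
    (h2 : ∃ l ∈ S33NX_Lam' M p hp hpM A hgen H c₀,
      φ' ^ p * u = 1 + S33NX_const M p H (c : AlgebraicClosure ℚ) hcH ^ (p * e₀ + 1) * l)
    (h3 : ∃ m ∈ S33NX_Os M p hp hpM A hgen H,
      φ - φ' = S33NX_const M p H (c : AlgebraicClosure ℚ) hcH ^ (e₀ + 1) * (m * φ')) :
    Fermat.Agent.GalRep.GR_IsTriv (M * p) p (u : ↥(modularFunctionFieldBar (M * p))) := by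
  obtain ⟨hφO, hφB, hφ'O, hφ'B, ht, ht', htt⟩ :=
    S33NF_image M p hp hpM A hgen H c hcH e₀ c₀ u φ φ' hu0 hu h1 h2 h3
  obtain ⟨hr₀, hs₀⟩ := S33NF_arith hp e₀
  have hcN : ∀ N : ℕ, c ^ N ≠ 0 := fun N => pow_ne_zero N hc0
  exact S33NI_inj_O (S34P_lat (S34M_same M p hp hpM A hgen))
    (fun c hc hc0 a ha => S34RO_rank_one_Qbar _ hp hA c hc hc0 a ha) hp c hc hc0
    ((p - 1) * e₀) ε hpe (S33NX_B M p) (S33NX_B' M p c₀) (S33NX_B'' M p c₀)
    (S34IX_reg_anti (S34IX_TU''_sub _ c₀)) (S34IX_reg_anti (S34IX_TU''_sub' _ c₀))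
    (fun y hy => S34IX_reg_root _ hp.pos y hy) (fun y hy => S34IX_reg_root _ hp.pos y hy)
    (fun y hy => S34IX_reg_root _ hp.pos y hy)
    (fun f hf hf' => S34IX_reg_const (S18_hRR (M * p)) (S34IX_cover _ c₀) f hf hf')
    (u : ↥(modularFunctionFieldBar (M * p))) huO hu0 htors _ _ hφO hφB hφ'O hφ'B
    (p * e₀ + 1) hr₀ (c ^ (p * e₀ + 1)) (hcN _) dvd_rfl ht ht'
    (e₀ + 1) hs₀ (c ^ (e₀ + 1)) (hcN _) dvd_rfl htt

end image

end Fermat.Agent.S33
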