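import Fermat.Agent.S33.KumFinal
import Fermat.Agent.S36.BaseLCyc

/-!
# TRACK 11 (S33), package FRONT (helper1): NEW33-K from CORE

Level `M * p`, `p ∤ M`, `p` odd, `P` a place of `ℚ̄` over `p`.

* `S33NFR_Core M p hp hpM P τ₀ c` : **CORE(P, τ₀, c)**: for every normalised Kummer generator
  `u ∈ S34M_Kp M p hp hpM P hgen p` with trivial norms `N_α u`, `N_β u`, the function
  `τ₀ u · (u ^ c)⁻¹` is a trivial Kummer generator;
* `S33NFR_Core' … τ₀ c'` : the same with `τ₀ u · u ^ c'` (`S33NFR_core_of_core'`: `c + c' = p k`);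
* `S33NFR_Data p P τ₀ c c' k ζ` : `τ₀ ∈ I_P`, `ζ` a primitive `p`-th root of unity,
  `τ₀ ζ = ζ ^ c`, `p ∤ c − 1`, `c + c' = p k`;
* `S33NFR_exists_data` : such data exist (`c = 2`, `c' = p − 2`, `k = 1`; the inertia group acts
  transitively on the primitive `p`-th roots of unity);
* `S33NFR_newK` : `S33KB_NewK M p hp hpM` from CORE for all data;
* `S33NFR_final` : frozen S33 verbatim from CORE for all `M`, `P` and all data.
-/

set_option autoImplicit false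
set_option linter.style.haveILetI false
set_option linter.unusedSectionVars false
set_option linter.unusedVariables false
set_option synthInstance.maxHeartbeats 400000
set_option maxHeartbeats 1000000

open AlgebraicCurve ModularCurve IntermediateField

noncomputable section

namespace Fermat.Agent.S33

open Fermat.Agent.S17 Fermat.Agent.S18 Fermat.Agent.S19 Fermat.Agent.S24 Fermat.Agent.S34
  Fermat.Agent.S35 Fermat.Agent.S36 Fermat.Agent.S37 Fermat.Agent.GalRep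

section front

variable (M p : ℕ) [NeZero M] [NeZero p] [NeZero (M * p)] (hp : p.Prime) (hpM : ¬ p ∣ M)

/-- **CORE(P, τ₀, c)**. -/
def S33NFR_Core (P : ValuationSubring (AlgebraicClosure ℚ)) (τ₀ : GQ) (c : ℕ) : Prop :=
  ∀ (hgen : PrincipalGeneratedByIntegral P (IsLocalRing.residue P) (M * p)),
    ∀ u ∈ S34M_Kp M p hp hpM P hgen p,
      GR_IsTriv M p (S35B_NA M p u) → GR_IsTriv M p (S35B_NB M p u) →
      GR_IsTriv (M * p) p (GR_gal (M * p) τ₀ u * (u ^ c)⁻¹)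

/-- **CORE'(P, τ₀, c')**: the same with `τ₀ u · u ^ c'`. -/
def S33NFR_Core' (P : ValuationSubring (AlgebraicClosure ℚ)) (τ₀ : GQ) (c' : ℕ) : Prop :=
  ∀ (hgen : PrincipalGeneratedByIntegral P (IsLocalRing.residue P) (M * p)),
    ∀ u ∈ S34M_Kp M p hp hpM P hgen p,
      GR_IsTriv M p (S35B_NA M p u) → GR_IsTriv M p (S35B_NB M p u) →
      GR_IsTriv (M * p) p (GR_gal (M * p) τ₀ u * u ^ c')

/-- `τ₀ u · u ^ c'` trivial and `c + c' = p k`  ⇒  `τ₀ u · (u ^ c)⁻¹` trivial. -/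
theorem S33NFR_triv_of_triv' {N n : ℕ} {v u : ↥(modularFunctionFieldBar N)} (hu : u ≠ 0)
    {c c' k : ℕ} (hcc : c + c' = n * k) (h : GR_IsTriv N n (v * u ^ c')) :
    GR_IsTriv N n (v * (u ^ c)⁻¹) := by
  obtain ⟨a, g, ha, hg, e⟩ := h
  refine ⟨a, g * (u ^ k)⁻¹, ha, mul_ne_zero hg (inv_ne_zero (pow_ne_zero k hu)), ?_⟩
  have huc : u ^ c ≠ 0 := pow_ne_zero c hu
  have huc' : u ^ c' ≠ 0 := pow_ne_zero c' hu
  have hukn : (u ^ k) ^ n ≠ 0 := pow_ne_zero n (pow_ne_zero k hu)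
  have e1 : u ^ c * u ^ c' = (u ^ k) ^ n := by
    rw [← pow_add, hcc, ← pow_mul, mul_comm]
  have e2 : v = algebraMap (AlgebraicClosure ℚ) ↥(modularFunctionFieldBar N) a * g ^ n *
      (u ^ c')⁻¹ := by
    rw [← e]
    field_simp
  rw [mul_pow, inv_pow, e2, ← e1]
  field_simp

theorem S33NFR_core_of_core' (P : ValuationSubring (AlgebraicClosure ℚ)) (τ₀ : GQ)
    {c c' k : ℕ} (hcc : c + c' = p * k) (h : S33NFR_Core' M p hp hpM P τ₀ c') :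
    S33NFR_Core M p hp hpM P τ₀ c := by
  intro hgen u hu hA hB
  exact S33NFR_triv_of_triv' hu.1.1 hcc (h hgen u hu hA hB)

/-- the data `(τ₀, c, c', k, ζ)`. -/
def S33NFR_Data (P : ValuationSubring (AlgebraicClosure ℚ)) (τ₀ : GQ) (c c' k : ℕ)
    (ζ : AlgebraicClosure ℚ) : Prop :=
  τ₀ ∈ P.inertiaSubgroupIn ℚ ∧ IsPrimitiveRoot ζ p ∧ τ₀ ζ = ζ ^ c ∧
    ¬ (p : ℤ) ∣ (c : ℤ) - 1 ∧ c + c' = p * k

include hp in
/-- **the data exist**: `c = 2`, `c' = p − 2`, `k = 1`. -/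
theorem S33NFR_exists_data (hp2 : p ≠ 2) (P : ValuationSubring (AlgebraicClosure ℚ))
    (hP : P.LiesOverPrime p) :
    ∃ (τ₀ : GQ) (c c' k : ℕ) (ζ : AlgebraicClosure ℚ), S33NFR_Data p P τ₀ c c' k ζ := by
  haveI : Fact p.Prime := ⟨hp⟩
  obtain ⟨ζ, hζ⟩ := HasEnoughRootsOfUnity.exists_primitiveRoot (AlgebraicClosure ℚ) p
  have hcop : Nat.Coprime 2 p := (Nat.coprime_primes Nat.prime_two hp).mpr (Ne.symm hp2)
  have hζ2 : IsPrimitiveRoot (ζ ^ 2) p := hζ.pow_of_coprime 2 hcop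
  obtain ⟨τ₀, hτ₀, hτζ⟩ := S36BL_inertia_transitive P hP hζ hζ2
  have hp3 : 2 ≤ p := hp.two_le
  refine ⟨τ₀, 2, p - 2, 1, ζ, hτ₀, hζ, hτζ, ?_, by omega⟩
  intro hdvd
  have h1 : ((2 : ℕ) : ℤ) - 1 = 1 := by norm_num
  rw [h1] at hdvd
  have h2 : (p : ℤ) = 1 ∨ (p : ℤ) = -1 := Int.isUnit_iff.mp (isUnit_of_dvd_one hdvd)
  rcases h2 with h2 | h2
  · have : p = 1 := by exact_mod_cast h2
    exact hp.one_lt.ne' this
  · have : (0 : ℤ) ≤ (p : ℤ) := Int.natCast_nonneg p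
    omega

/-- **FRONT**: NEW33-K from CORE for all data. -/
theorem S33NFR_newK (hp2 : p ≠ 2)
    (h : ∀ (P : ValuationSubring (AlgebraicClosure ℚ)), P.LiesOverPrime p →
      ∀ (τ₀ : GQ) (c c' k : ℕ) (ζ : AlgebraicClosure ℚ), S33NFR_Data p P τ₀ c c' k ζ →
        S33NFR_Core M p hp hpM P τ₀ c) :
    S33KB_NewK M p hp hpM := by
  intro P hP
  obtain ⟨τ₀, c, c', k, ζ, hD⟩ := S33NFR_exists_data p hp hp2 P hP
  refine ⟨τ₀, hD.1, c, hD.2.2.2.1, ?_⟩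
  intro hgen u hkum h1 h2 hA hB
  refine h P hP τ₀ c c' k ζ hD hgen u ⟨hkum, ?_⟩ hA hB
  rw [S34K_mem_Norm_iff, S34M_T1_O, S34M_T2_O]
  exact ⟨h1, h2⟩

end front

section final

variable {p : ℕ} {N : ℕ} [NeZero N] {S : Finset ℕ}
  {𝒪 : Type} [CommRing 𝒪] [IsDomain 𝒪] [IsDiscreteValuationRing 𝒪]
  [IsAdicComplete (IsLocalRing.maximalIdeal 𝒪) 𝒪]
  {θ : CuspForm.heckeAlgebra N 2 (↑S : Set ℕ) →+* IsLocalRing.ResidueField 𝒪}
  {T : Type} [CommRing T] [IsLocalRing T] [IsNoetherianRing T]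
  [IsAdicComplete (IsLocalRing.maximalIdeal T) T] [Algebra 𝒪 T] [IsLocalHom (algebraMap 𝒪 T)]
  [Module.Finite 𝒪 T] [Module.Free 𝒪 T]

/-- **frozen S33 from CORE**. -/
theorem S33NFR_final [Finite (IsLocalRing.ResidueField 𝒪)] [CharZero 𝒪]
    (hp : p.Prime) (hp2 : p ≠ 2) (hp𝒪 : (p : 𝒪) ∈ IsLocalRing.maximalIdeal 𝒪)
    (hN : p ∣ N ∧ ¬ p ^ 2 ∣ N)
    (hNS : ∀ q : ℕ, q.Prime → q ∣ N → q ∈ S)
    (H : CuspForm.HeckeGaloisRepDatum N (↑S : Set ℕ) 𝒪 θ T)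
    (hres : (GaloisRepAdic.ofResidualGaloisRep H.ρ.residual).IsOrdinaryAt p)
    (hcore : ∀ (M : ℕ) [NeZero M] [NeZero p] [NeZero (M * p)] (hpM : ¬ p ∣ M)
      (P : ValuationSubring (AlgebraicClosure ℚ)), P.LiesOverPrime p →
      ∀ (τ₀ : GQ) (c c' k : ℕ) (ζ : AlgebraicClosure ℚ), S33NFR_Data p P τ₀ c c' k ζ →
        S33NFR_Core M p hp hpM P τ₀ c) :
    H.ρ.IsOrdinaryAt p :=
  S33KB_final hp hp2 hp𝒪 hN hNS H hres
    (fun M _ _ _ hpM => S33NFR_newK M p hp hpM hp2 (hcore M hpM))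

end final

end Fermat.Agent.S33
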