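import Mathlib

/-!
# TRACK 11 (S33), package T12 NEW-INJ (helper20): the abstract injectivity for `n = p`

Variant of TRACK 7's `S34/InjAbs.lean` (helper25) for the Kummer exponent `n = p`, where `p` is
NOT invertible in the base ring: `A` a commutative ring, `c ∈ A` (a uniformiser), `p = c ^ e · ε`
with `ε` a unit (`e` = absolute ramification index; for `A = O_L[ζ_p]`, `c = ζ_p - 1`: `e = p - 1`).
Newton's method for `p`-th roots converges beyond the depth `c* = p e / (p - 1)`.  Prefix `S33N3_`.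

* `S33N3_one_add_pow` : `(1 + Y)^p = 1 + p Y + p Y² R + Y^p`, `R` in the subalgebra;
* `S33N3_improve`     : from a trivialisation modulo `c^r` to one modulo `c^(r+1)`
                        (`c^r = p a`, `p a² ∈ c^(r+1) A`, `a^p ∈ c^(r+1) A`);
* `S33N3_fac`         : these three facts for all `r ≥ r₀`, if `p e < r₀ (p - 1)`;
* `S33N3_improve_all` : iteration;
* `S33N3_compare`     : two trivialisations modulo `c^N` which agree modulo `c^s₁`,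
                        `e < s₁ (p - 1)`, agree modulo `c^(N - e)`;
* `S33N3_false`       : **NEW-INJ**: no global section + bounded torsion + trivialisations on the
                        two charts modulo `c^r₀` (`p e < r₀ (p - 1)`) which agree modulo `c^s₀`
                        (`e < s₀ (p - 1)`) ⟹ `1 ∈ c Λ`.
-/

set_option autoImplicit false

open Finset

namespace Fermat.Agent.S33

section NewInj

variable {A F : Type*} [CommRing A] [Field F] [Algebra A F]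

/-- the binomial coefficients `C(p, i)`, `0 < i < p`, are multiples of `p`: the quotient. -/
noncomputable def S33N3_k (p i : ℕ) : ℕ := p.choose i / p

theorem S33N3_k_spec {p : ℕ} (hp : p.Prime) {i : ℕ} (hi0 : i ≠ 0) (hip : i < p) :
    p.choose i = p * S33N3_k p i :=
  (Nat.mul_div_cancel' (hp.dvd_choose_self hi0 hip)).symm

/-- the two-variable binomial formula with the middle terms divisible by `p`:
`(x + y)^p = y^p + p x y^(p-1) + p ∑_{j<q} k_j x^(j+2) y^(q-j) + x^p`, `p = q + 2`. -/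
theorem S33N3_add_pow {B : Type*} [CommRing B] {p q : ℕ} (hp : p.Prime) (hq : p = q + 2)
    (x y : B) :
    (x + y) ^ p = y ^ p + (p : B) * (x * y ^ (q + 1)) +
      (p : B) * (∑ j ∈ range q, (S33N3_k p (j + 2) : B) * (x ^ (j + 2) * y ^ (q - j))) +
      x ^ p := by
  rw [add_pow]
  have hr : p + 1 = q + 1 + 1 + 1 := by omega
  rw [hr, sum_range_succ, sum_range_succ', sum_range_succ']
  have h0 : p - 0 = p := by omega
  have h1 : p - (0 + 1) = q + 1 := by omega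
  have h2 : p - (q + 1 + 1) = 0 := by omega
  have h3 : q + 1 + 1 = p := by omega
  rw [h1, h2, h3, Nat.choose_self, Nat.choose_zero_right, Nat.choose_one_right]
  simp only [pow_zero, Nat.cast_one, mul_one, one_mul, zero_add, pow_one, Nat.sub_zero]
  have hmid : ∑ j ∈ range q, x ^ (j + 1 + 1) * y ^ (p - (j + 1 + 1)) *
        ((p.choose (j + 1 + 1) : ℕ) : B) =
      (p : B) * ∑ j ∈ range q, (S33N3_k p (j + 2) : B) * (x ^ (j + 2) * y ^ (q - j)) := by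
    rw [mul_sum]
    refine sum_congr rfl fun j hj => ?_
    rw [mem_range] at hj
    have hjp : j + 2 < p := by omega
    have hsub : p - (j + 1 + 1) = q - j := by omega
    rw [hsub, show j + 1 + 1 = j + 2 from rfl, S33N3_k_spec hp (by omega) hjp]
    push_cast
    ring
  rw [hmid]
  ring

/-- `(1 + Y)^p = 1 + p·Y + p·Y²·R + Y^p` with `R` in the subalgebra. -/
theorem S33N3_one_add_pow (Λ : Subalgebra A F) {p : ℕ} (hp : p.Prime) (Y : F) (hY : Y ∈ Λ) :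
    ∃ R ∈ Λ, (1 + Y) ^ p = 1 + (p : F) * Y + (p : F) * (Y ^ 2 * R) + Y ^ p := by
  obtain ⟨q, hq⟩ : ∃ q, p = q + 2 := ⟨p - 2, by have := hp.two_le; omega⟩
  refine ⟨∑ j ∈ range q, (S33N3_k p (j + 2) : F) * Y ^ j, ?_, ?_⟩
  · exact Λ.sum_mem fun j _ => Λ.mul_mem (natCast_mem Λ _) (Λ.pow_mem hY _)
  · rw [add_comm (1 : F) Y, S33N3_add_pow hp hq Y 1]
    simp only [one_pow, mul_one]
    have : ∑ j ∈ range q, (S33N3_k p (j + 2) : F) * Y ^ (j + 2) =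
        Y ^ 2 * ∑ j ∈ range q, (S33N3_k p (j + 2) : F) * Y ^ j := by
      rw [mul_sum]
      exact sum_congr rfl fun j _ => by ring
    rw [this]

/-- **improvement step** for `n = p`: from a trivialisation modulo `c^r` to one modulo
`c^(r+1)`, if `c^r = p a`, `p a² ∈ c^(r+1) A`, `a^p ∈ c^(r+1) A`. -/
theorem S33N3_improve {p : ℕ} (hp : p.Prime) (u : F) (c a b₁ b₂ : A) (r : ℕ) (hr : 1 ≤ r)
    (ha : c ^ r = (p : A) * a) (hb₁ : (p : A) * a ^ 2 = c ^ (r + 1) * b₁)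
    (hb₂ : a ^ p = c ^ (r + 1) * b₂)
    (Λ : Subalgebra A F) (M : Submodule A F) (hΛM : ∀ x ∈ Λ, ∀ f ∈ M, x * f ∈ M)
    (φ : F) (hφ : φ ∈ M) (hE : ∃ l ∈ Λ, φ ^ p * u - 1 = c ^ r • l) :
    ∃ φ' ∈ M, (∃ l' ∈ Λ, φ' ^ p * u - 1 = c ^ (r + 1) • l') ∧ ∃ m ∈ M, φ' - φ = a • m := by
  obtain ⟨l, hl, hE⟩ := hE
  set C : F := algebraMap A F c with hC
  set Aa : F := algebraMap A F a with hAa
  set B₁ : F := algebraMap A F b₁ with hB₁
  set B₂ : F := algebraMap A F b₂ with hB₂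
  have ha' : C ^ r = (p : F) * Aa := by
    have := congrArg (algebraMap A F) ha
    rwa [map_pow, map_mul, map_natCast] at this
  have hb₁' : (p : F) * Aa ^ 2 = C ^ (r + 1) * B₁ := by
    have := congrArg (algebraMap A F) hb₁
    rwa [map_mul, map_natCast, map_pow, map_mul, map_pow] at this
  have hb₂' : Aa ^ p = C ^ (r + 1) * B₂ := by
    have := congrArg (algebraMap A F) hb₂
    rwa [map_pow, map_mul, map_pow] at this
  have hCmem : C ∈ Λ := Λ.algebraMap_mem c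
  have hAmem : Aa ∈ Λ := Λ.algebraMap_mem a
  have hB₁mem : B₁ ∈ Λ := Λ.algebraMap_mem b₁
  have hB₂mem : B₂ ∈ Λ := Λ.algebraMap_mem b₂
  have hE' : φ ^ p * u - 1 = C ^ r * l := by
    rw [hE, Algebra.smul_def, map_pow]
  set Y : F := -(Aa * l) with hY
  have hYmem : Y ∈ Λ := Λ.neg_mem (Λ.mul_mem hAmem hl)
  obtain ⟨R, hR, hpow⟩ := S33N3_one_add_pow Λ hp Y hYmem
  obtain ⟨r', rfl⟩ : ∃ r', r = r' + 1 := ⟨r - 1, by omega⟩
  refine ⟨(1 + Y) * φ, hΛM _ (Λ.add_mem Λ.one_mem hYmem) _ hφ, ?_, ?_⟩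
  · refine ⟨-(C ^ r' * l ^ 2) + (B₁ * (l ^ 2 * R) + B₂ * (-l) ^ p) * (1 + C ^ (r' + 1) * l),
      ?_, ?_⟩
    · refine Λ.add_mem (Λ.neg_mem (Λ.mul_mem (Λ.pow_mem hCmem _) (Λ.pow_mem hl _))) ?_
      refine Λ.mul_mem (Λ.add_mem (Λ.mul_mem hB₁mem (Λ.mul_mem (Λ.pow_mem hl _) hR))
        (Λ.mul_mem hB₂mem (Λ.pow_mem (Λ.neg_mem hl) _))) ?_
      exact Λ.add_mem Λ.one_mem (Λ.mul_mem (Λ.pow_mem hCmem _) hl)
    · rw [Algebra.smul_def, map_pow, ← hC]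
      have h1 : φ ^ p * u = 1 + C ^ (r' + 1) * l := by rw [← hE']; ring
      have h2 : (p : F) * Y = -(C ^ (r' + 1) * l) := by
        rw [hY, mul_neg, ← mul_assoc, ← ha']
      have h3 : (p : F) * (Y ^ 2 * R) = C ^ (r' + 1 + 1) * (B₁ * (l ^ 2 * R)) := by
        rw [hY]
        linear_combination (l ^ 2 * R) * hb₁'
      have h4 : Y ^ p = C ^ (r' + 1 + 1) * (B₂ * (-l) ^ p) := by
        rw [hY, show -(Aa * l) = Aa * (-l) by ring, mul_pow, hb₂']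
        ring
      rw [mul_pow, mul_assoc, h1, hpow, h2, h3, h4]
      ring
  · refine ⟨-(l * φ), M.neg_mem (hΛM l hl φ hφ), ?_⟩
    rw [Algebra.smul_def, ← hAa, hY]
    ring

/-- the arithmetic of the depth: beyond `c* = p e / (p - 1)`. -/
theorem S33N3_arith {p e r₀ r : ℕ} (hp : p.Prime) (hr₀ : p * e < r₀ * (p - 1)) (hr : r₀ ≤ r) :
    ∃ t t₂ : ℕ, r = e + 1 + t ∧ p * (t + 1) = r + 1 + t₂ ∧ e < r₀ := by
  obtain ⟨P, rfl⟩ : ∃ P, p = P + 1 := ⟨p - 1, by have := hp.two_le; omega⟩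
  have hP : P + 1 - 1 = P := by omega
  rw [hP] at hr₀
  have he : e < r₀ := by
    by_contra hcon
    push Not at hcon
    have h1 : r₀ * P ≤ e * P := Nat.mul_le_mul_right P hcon
    nlinarith
  have h2 : r₀ * P ≤ r * P := Nat.mul_le_mul_right P hr
  obtain ⟨t, ht⟩ : ∃ t, r = e + 1 + t := ⟨r - e - 1, by omega⟩
  have h3 : e < (t + 1) * P := by
    rw [ht] at h2
    nlinarith
  refine ⟨t, (P + 1) * (t + 1) - (r + 1), ht, ?_, he⟩
  have h4 : r + 1 ≤ (P + 1) * (t + 1) := by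
    rw [ht]
    nlinarith
  omega

/-- the three facts of `S33N3_improve` for all `r ≥ r₀`, if `p = c^e ε` and
`p e < r₀ (p - 1)`; moreover `a ∈ c^(r₀ - e) A`. -/
theorem S33N3_fac {p : ℕ} (hp : p.Prime) (c : A) (e : ℕ) (ε : Aˣ) (hpe : (p : A) = c ^ e * ε)
    (r₀ : ℕ) (hr₀ : p * e < r₀ * (p - 1)) (r : ℕ) (hr : r₀ ≤ r) :
    ∃ a b₁ b₂ a' : A, c ^ r = (p : A) * a ∧ (p : A) * a ^ 2 = c ^ (r + 1) * b₁ ∧
      a ^ p = c ^ (r + 1) * b₂ ∧ a = c ^ (r₀ - e) * a' := by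
  obtain ⟨t, t₂, ht, ht₂, he⟩ := S33N3_arith hp hr₀ hr
  have hεε : (ε : A) * ((ε⁻¹ : Aˣ) : A) = 1 := ε.mul_inv
  refine ⟨c ^ (t + 1) * ((ε⁻¹ : Aˣ) : A), c ^ t * ((ε⁻¹ : Aˣ) : A),
    c ^ t₂ * ((ε⁻¹ : Aˣ) : A) ^ p, c ^ (r - r₀) * ((ε⁻¹ : Aˣ) : A), ?_, ?_, ?_, ?_⟩
  · rw [hpe, ht]
    linear_combination (-(c ^ (e + 1 + t))) * hεε
  · rw [hpe, ht]
    linear_combination (c ^ (e + 1 + t + 1) * c ^ t * ((ε⁻¹ : Aˣ) : A)) * hεε
  · rw [mul_pow, ← pow_mul, mul_comm (t + 1) p, ht₂]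
    ring
  · have : t + 1 = (r₀ - e) + (r - r₀) := by omega
    rw [this]
    ring

/-- iterate the improvement step. -/
theorem S33N3_improve_all {p : ℕ} (hp : p.Prime) (u : F) (c : A) (d r₀ : ℕ) (hr₀ : 1 ≤ r₀)
    (hfac : ∀ r, r₀ ≤ r → ∃ a b₁ b₂ a' : A, c ^ r = (p : A) * a ∧
      (p : A) * a ^ 2 = c ^ (r + 1) * b₁ ∧ a ^ p = c ^ (r + 1) * b₂ ∧ a = c ^ d * a')
    (Λ : Subalgebra A F) (M : Submodule A F) (hΛM : ∀ x ∈ Λ, ∀ f ∈ M, x * f ∈ M)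
    (f₁ : F) (hf₁ : f₁ ∈ M) (ht : ∃ l ∈ Λ, f₁ ^ p * u - 1 = c ^ r₀ • l) (N : ℕ) (hN : r₀ ≤ N) :
    ∃ φ ∈ M, (∃ l ∈ Λ, φ ^ p * u - 1 = c ^ N • l) ∧ ∃ m ∈ M, φ - f₁ = c ^ d • m := by
  induction N, hN using Nat.le_induction with
  | base => exact ⟨f₁, hf₁, ht, ⟨0, M.zero_mem, by simp⟩⟩
  | succ r hr ih =>
    obtain ⟨φ, hφ, hE, m, hm, hφm⟩ := ih
    obtain ⟨a, b₁, b₂, a', ha, hb₁, hb₂, haa'⟩ := hfac r hr
    obtain ⟨φ', hφ', hE', m', hm', hφm'⟩ :=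
      S33N3_improve hp u c a b₁ b₂ r (by omega) ha hb₁ hb₂ Λ M hΛM φ hφ hE
    refine ⟨φ', hφ', hE', a' • m' + m, M.add_mem (M.smul_mem _ hm') hm, ?_⟩
    rw [smul_add, ← hφm, smul_smul, ← haa', ← hφm']
    ring

/-- the mixed monomials `m^i φ^j u`, `i + j = p`, are integral. -/
theorem S33N3_mem {p : ℕ} (u : F) (Λ : Subalgebra A F) (M : Submodule A F)
    (hpow : ∀ t : Multiset F, Multiset.card t = p → (∀ f ∈ t, f ∈ M) → t.prod * u ∈ Λ)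
    {m φ : F} (hm : m ∈ M) (hφ : φ ∈ M) (i j : ℕ) (hij : i + j = p) :
    m ^ i * φ ^ j * u ∈ Λ := by
  have := hpow (Multiset.replicate i m + Multiset.replicate j φ) ?_ ?_
  · simpa [Multiset.prod_replicate] using this
  · simp only [Multiset.card_add, Multiset.card_replicate]
    exact hij
  · intro f hf
    simp only [Multiset.mem_add, Multiset.mem_replicate] at hf
    rcases hf with ⟨_, rfl⟩ | ⟨_, rfl⟩
    · exact hm
    · exact hφ

/-- **comparison, one step**: two trivialisations modulo `c^N` that agree modulo `c^s`,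
`e < s (p - 1)`, `s + e < N`, agree modulo `c^(s+1)`. -/
theorem S33N3_compare_step {p : ℕ} (hp : p.Prime) (u : F) (c : A)
    (hc : algebraMap A F c ≠ 0) (e : ℕ) (ε : Aˣ) (hpe : (p : A) = c ^ e * ε)
    (Λ : Subalgebra A F) (M : Submodule A F) (hΛM : ∀ x ∈ Λ, ∀ f ∈ M, x * f ∈ M)
    (hpow : ∀ t : Multiset F, Multiset.card t = p → (∀ f ∈ t, f ∈ M) → t.prod * u ∈ Λ)
    (N s : ℕ) (hs : e < s * (p - 1)) (hsN : s + e < N) (φ φ' : F) (hφ : φ ∈ M)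
    (hE : ∃ l ∈ Λ, φ ^ p * u - 1 = c ^ N • l) (hE' : ∃ l ∈ Λ, φ' ^ p * u - 1 = c ^ N • l)
    (hδ : ∃ m ∈ M, φ' - φ = c ^ s • m) :
    ∃ m ∈ M, φ' - φ = c ^ (s + 1) • m := by
  obtain ⟨q, hq⟩ : ∃ q, p = q + 2 := ⟨p - 2, by have := hp.two_le; omega⟩
  obtain ⟨l, hl, hE⟩ := hE
  obtain ⟨l', hl', hE'⟩ := hE'
  obtain ⟨m, hm, hδ⟩ := hδ
  set C : F := algebraMap A F c with hC
  set Eps : F := algebraMap A F (ε : A) with hEps
  set Epi : F := algebraMap A F ((ε⁻¹ : Aˣ) : A) with hEpi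
  have hEE : Eps * Epi = 1 := by
    rw [hEps, hEpi, ← map_mul, ε.mul_inv, map_one]
  have hpF : (p : F) = C ^ e * Eps := by
    have := congrArg (algebraMap A F) hpe
    rwa [map_natCast, map_mul, map_pow] at this
  have hCmem : C ∈ Λ := Λ.algebraMap_mem c
  have hEpsmem : Eps ∈ Λ := Λ.algebraMap_mem _
  have hEpimem : Epi ∈ Λ := Λ.algebraMap_mem _
  rw [Algebra.smul_def, map_pow, ← hC] at hE hE' hδ
  -- exponents
  have hs1 : 1 ≤ s := by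
    rcases Nat.eq_zero_or_pos s with h | h
    · rw [h, Nat.zero_mul] at hs
      omega
    · exact h
  obtain ⟨s', hs'⟩ : ∃ s', s = s' + 1 := ⟨s - 1, by omega⟩
  obtain ⟨t₁, ht₁⟩ : ∃ t₁, N = s + e + 1 + t₁ := ⟨N - (s + e + 1), by omega⟩
  obtain ⟨t₂, ht₂⟩ : ∃ t₂, s * p = s + e + 1 + t₂ := by
    refine ⟨s * p - (s + e + 1), ?_⟩
    have h1 : s * p = s * (p - 1) + s := by
      have : p = (p - 1) + 1 := by have := hp.two_le; omega
      nth_rewrite 1 [this]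
      ring
    omega
  -- the integral monomials
  have hT₁ : m ^ 1 * φ ^ (q + 1) * u ∈ Λ := S33N3_mem u Λ M hpow hm hφ 1 (q + 1) (by omega)
  have hTp : m ^ p * φ ^ 0 * u ∈ Λ := S33N3_mem u Λ M hpow hm hφ p 0 (by omega)
  have hTj : ∀ j ∈ range q, m ^ (j + 2) * φ ^ (q - j) * u ∈ Λ := fun j hj => by
    rw [mem_range] at hj
    exact S33N3_mem u Λ M hpow hm hφ (j + 2) (q - j) (by omega)
  set S : F := ∑ j ∈ range q, (S33N3_k p (j + 2) : F) *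
    (C ^ (s * j) * (m ^ (j + 2) * φ ^ (q - j) * u)) with hS
  have hSmem : S ∈ Λ := Λ.sum_mem fun j hj =>
    Λ.mul_mem (natCast_mem Λ _) (Λ.mul_mem (Λ.pow_mem hCmem _) (hTj j hj))
  -- the binomial expansion of `φ'^p u`
  have hφ' : φ' = C ^ s * m + φ := by rw [← hδ]; ring
  have hsum : (∑ j ∈ range q, (S33N3_k p (j + 2) : F) *
      ((C ^ s * m) ^ (j + 2) * φ ^ (q - j))) * u = C ^ (2 * s) * S := by
    rw [hS, sum_mul, mul_sum]
    refine sum_congr rfl fun j _ => ?_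
    ring
  have hexp : φ' ^ p * u = φ ^ p * u + (p : F) * (C ^ s * (m ^ 1 * φ ^ (q + 1) * u)) +
      (p : F) * (C ^ (2 * s) * S) + C ^ (s * p) * (m ^ p * φ ^ 0 * u) := by
    rw [hφ', S33N3_add_pow hp hq (C ^ s * m) φ]
    linear_combination (p : F) * hsum
  -- cancel `c^(s+e)`
  have hmain : Eps * (m ^ 1 * φ ^ (q + 1) * u) =
      C * (C ^ t₁ * (l' - l) - Eps * (C ^ s' * S) - C ^ t₂ * (m ^ p * φ ^ 0 * u)) := by
    have hCse : C ^ (s + e) ≠ 0 := pow_ne_zero _ hc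
    apply mul_left_cancel₀ hCse
    have h1 : φ' ^ p * u - φ ^ p * u = C ^ N * (l' - l) := by linear_combination hE' - hE
    rw [hexp, hpF, ht₁, ht₂] at h1
    have h2 : (2 : ℕ) * s = s + s' + 1 := by omega
    rw [h2] at h1
    linear_combination h1
  have hT₁C : m ^ 1 * φ ^ (q + 1) * u =
      C * (Epi * (C ^ t₁ * (l' - l) - Eps * (C ^ s' * S) - C ^ t₂ * (m ^ p * φ ^ 0 * u))) := by
    have h3 : m ^ 1 * φ ^ (q + 1) * u = Epi * (Eps * (m ^ 1 * φ ^ (q + 1) * u)) := by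
      rw [← mul_assoc, mul_comm Epi, hEE, one_mul]
    rw [h3, hmain]
    ring
  set x : F := Epi * (C ^ t₁ * (l' - l) - Eps * (C ^ s' * S) - C ^ t₂ * (m ^ p * φ ^ 0 * u))
    with hx
  have hxmem : x ∈ Λ := by
    refine Λ.mul_mem hEpimem (Λ.sub_mem (Λ.sub_mem ?_ ?_) ?_)
    · exact Λ.mul_mem (Λ.pow_mem hCmem _) (Λ.sub_mem hl' hl)
    · exact Λ.mul_mem hEpsmem (Λ.mul_mem (Λ.pow_mem hCmem _) hSmem)
    · exact Λ.mul_mem (Λ.pow_mem hCmem _) hTp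
  -- `m = c (x φ - c^(N-1) l m)`
  obtain ⟨N', hN'⟩ : ∃ N', N = N' + 1 := ⟨N - 1, by omega⟩
  refine ⟨x * φ - C ^ N' * (l * m), M.sub_mem (hΛM _ hxmem _ hφ) ?_, ?_⟩
  · exact hΛM _ (Λ.pow_mem hCmem _) _ (hΛM _ hl _ hm)
  · rw [Algebra.smul_def, map_pow, ← hC, hδ]
    have h5 : m = C * (x * φ - C ^ N' * (l * m)) := by
      have h6 : φ * (m ^ 1 * φ ^ (q + 1) * u) = m * (φ ^ p * u) := by
        rw [hq]
        ring
      rw [hT₁C] at h6
      rw [hN'] at hE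
      linear_combination -h6 - m * hE
    nth_rewrite 1 [h5]
    ring

/-- **comparison**: two trivialisations modulo `c^N` that agree modulo `c^s₁`,
`e < s₁ (p - 1)`, agree modulo `c^s` for every `s` with `s₁ ≤ s`, `s + e ≤ N`. -/
theorem S33N3_compare {p : ℕ} (hp : p.Prime) (u : F) (c : A)
    (hc : algebraMap A F c ≠ 0) (e : ℕ) (ε : Aˣ) (hpe : (p : A) = c ^ e * ε)
    (Λ : Subalgebra A F) (M : Submodule A F) (hΛM : ∀ x ∈ Λ, ∀ f ∈ M, x * f ∈ M)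
    (hpow : ∀ t : Multiset F, Multiset.card t = p → (∀ f ∈ t, f ∈ M) → t.prod * u ∈ Λ)
    (N s₁ : ℕ) (hs₁ : e < s₁ * (p - 1)) (φ φ' : F) (hφ : φ ∈ M)
    (hE : ∃ l ∈ Λ, φ ^ p * u - 1 = c ^ N • l) (hE' : ∃ l ∈ Λ, φ' ^ p * u - 1 = c ^ N • l)
    (hδ : ∃ m ∈ M, φ' - φ = c ^ s₁ • m) (s : ℕ) (hs : s₁ ≤ s) (hsN : s + e ≤ N) :
    ∃ m ∈ M, φ' - φ = c ^ s • m := by
  induction s, hs using Nat.le_induction with
  | base => exact hδ
  | succ r hr ih =>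
    have h1 : e < r * (p - 1) := lt_of_lt_of_le hs₁ (Nat.mul_le_mul_right _ hr)
    exact S33N3_compare_step hp u c hc e ε hpe Λ M hΛM hpow N r h1 (by omega) φ φ' hφ hE hE'
      (ih (by omega))

/-- **NEW-INJ** (`n = p`): a class without global section, with bounded torsion of
`M''/(M + M')`, cannot have trivialisations on the two charts modulo `c^r₀`, beyond the depth
`c* = p e/(p - 1)` (`p e < r₀ (p - 1)`), which agree modulo `c^s₀` beyond the depth `e/(p - 1)`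
of the `p`-th roots of unity (`e < s₀ (p - 1)`). -/
theorem S33N3_false [FaithfulSMul A F] {p : ℕ} (hp : p.Prime) (u : F) (c : A) (hc0 : c ≠ 0)
    (e : ℕ) (ε : Aˣ) (hpe : (p : A) = c ^ e * ε)
    (hrank : ∀ a : A, a ≠ 0 → ∃ N : ℕ, a ∣ c ^ N)
    (Λ Λ'' : Subalgebra A F) (hΛ : Λ ≤ Λ'') (Λ' : Subalgebra A F) (hΛ' : Λ' ≤ Λ'')
    (M M' M'' : Submodule A F) (hM : M ≤ M'') (hM' : M' ≤ M'')
    (hΛM : ∀ a ∈ Λ, ∀ f ∈ M, a * f ∈ M) (hΛM' : ∀ a ∈ Λ', ∀ f ∈ M', a * f ∈ M')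
    (hΛM'' : ∀ a ∈ Λ'', ∀ f ∈ M'', a * f ∈ M'')
    (hpow : ∀ t : Multiset F, Multiset.card t = p → (∀ f ∈ t, f ∈ M) → t.prod * u ∈ Λ)
    (hpow'' : ∀ t : Multiset F, Multiset.card t = p → (∀ f ∈ t, f ∈ M'') → t.prod * u ∈ Λ'')
    (hglob : ∀ f, f ∈ M → f ∈ M' → f = 0)
    (htors : ∃ c₀ : A, c₀ ≠ 0 ∧ ∀ h ∈ M'', ∀ a : A, a ≠ 0 → a • h ∈ M ⊔ M' → c₀ • h ∈ M ⊔ M')
    (f₁ f₁' : F) (hf₁ : f₁ ∈ M) (hf₁' : f₁' ∈ M')
    (r₀ : ℕ) (hr₀ : p * e < r₀ * (p - 1))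
    (ht : ∃ l ∈ Λ, f₁ ^ p * u - 1 = c ^ r₀ • l) (ht' : ∃ l ∈ Λ', f₁' ^ p * u - 1 = c ^ r₀ • l)
    (s₀ : ℕ) (hs₀ : e < s₀ * (p - 1))
    (htt : ∃ m ∈ M'', f₁ - f₁' = c ^ s₀ • m)
    (hprim : ∀ l ∈ Λ, (1 : F) ≠ c • l) : False := by
  have hinj : Function.Injective (algebraMap A F) := FaithfulSMul.algebraMap_injective A F
  have hne : ∀ a : A, a ≠ 0 → algebraMap A F a ≠ 0 :=
    fun a ha h => ha (hinj (by rw [h, map_zero]))
  have hcF : algebraMap A F c ≠ 0 := hne c hc0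
  have hp2 := hp.two_le
  -- the depths
  obtain ⟨t, t₂, htr, -, he⟩ := S33N3_arith hp hr₀ le_rfl
  have hr₀1 : 1 ≤ r₀ := by omega
  set d : ℕ := r₀ - e with hd
  have hd1 : 1 ≤ d := by omega
  have hde : e < d * (p - 1) := by
    obtain ⟨P, rfl⟩ : ∃ P, p = P + 1 := ⟨p - 1, by omega⟩
    have hP : P + 1 - 1 = P := by omega
    rw [hP] at hr₀ ⊢
    have h1 : r₀ = d + e := by omega
    rw [h1] at hr₀
    nlinarith
  set s₁ : ℕ := min s₀ d with hs₁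
  have hs₁e : e < s₁ * (p - 1) := by
    rcases min_choice s₀ d with h | h
    · rw [hs₁, h]; exact hs₀
    · rw [hs₁, h]; exact hde
  have hs₁s₀ : s₁ ≤ s₀ := min_le_left _ _
  have hs₁d : s₁ ≤ d := min_le_right _ _
  obtain ⟨c₀, hc₀, htors⟩ := htors
  have hc₀c : c₀ * c ≠ 0 := by
    intro h
    have := congrArg (algebraMap A F) h
    rw [map_mul, map_zero] at this
    exact mul_ne_zero (hne c₀ hc₀) hcF this
  have hcN : ∀ N : ℕ, c ^ N ≠ 0 := by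
    intro N h
    have := congrArg (algebraMap A F) h
    rw [map_pow, map_zero] at this
    exact pow_ne_zero _ hcF this
  obtain ⟨N₀, b₀, hN₀⟩ := hrank (c₀ * c) hc₀c
  set s : ℕ := N₀ + s₁ with hs
  have hsb : c ^ s = c₀ * c * (b₀ * c ^ s₁) := by
    rw [hs, pow_add, hN₀]
    ring
  set N : ℕ := s + e + r₀ with hN
  -- improvement on the two charts
  have hfac := fun r hr => S33N3_fac hp c e ε hpe r₀ hr₀ r hr
  obtain ⟨φ, hφ, ⟨l, hl, hE⟩, m, hm, hφm⟩ :=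
    S33N3_improve_all hp u c d r₀ hr₀1 hfac Λ M hΛM f₁ hf₁ ht N (by omega)
  obtain ⟨φ', hφ', ⟨l', hl', hE'⟩, m', hm', hφm'⟩ :=
    S33N3_improve_all hp u c d r₀ hr₀1 hfac Λ' M' hΛM' f₁' hf₁' ht' N (by omega)
  obtain ⟨m₀, hm₀, htt⟩ := htt
  -- comparison
  have hδ₁ : ∃ m₁ ∈ M'', φ' - φ = c ^ s₁ • m₁ := by
    obtain ⟨k₀, hk₀⟩ : ∃ k₀, s₀ = s₁ + k₀ := ⟨s₀ - s₁, by omega⟩
    obtain ⟨k₁, hk₁⟩ : ∃ k₁, d = s₁ + k₁ := ⟨d - s₁, by omega⟩
    refine ⟨c ^ k₁ • m' - c ^ k₀ • m₀ - c ^ k₁ • m, ?_, ?_⟩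
    · exact M''.sub_mem (M''.sub_mem (M''.smul_mem _ (hM' hm')) (M''.smul_mem _ hm₀))
        (M''.smul_mem _ (hM hm))
    · rw [hk₀] at htt
      rw [hk₁] at hφm hφm'
      simp only [Algebra.smul_def, map_pow] at htt hφm hφm' ⊢
      linear_combination hφm' - htt - hφm
  obtain ⟨h, hh, hδ⟩ := S33N3_compare hp u c hcF e ε hpe Λ'' M'' hΛM'' hpow'' N s₁ hs₁e φ φ'
    (hM hφ) ⟨l, hΛ hl, hE⟩ ⟨l', hΛ' hl', hE'⟩ hδ₁ s (by omega) (by omega)
  -- torsion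
  have hmem : c ^ s • h ∈ M ⊔ M' := by
    rw [← hδ, sub_eq_add_neg, add_comm]
    exact Submodule.add_mem_sup (M.neg_mem hφ) hφ'
  obtain ⟨g, hg, g', hg', hgg⟩ := Submodule.mem_sup.mp (htors h hh (c ^ s) (hcN s) hmem)
  -- the global section `c₀ φ + c^s g = c₀ φ' - c^s g'`
  have hz : c₀ • φ + c ^ s • g = c₀ • φ' - c ^ s • g' := by
    have h1 : c₀ • (φ' - φ) = c ^ s • (g + g') := by
      rw [hδ, hgg, smul_smul, smul_smul, mul_comm]
    rw [smul_sub, smul_add] at h1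
    linear_combination (exp := 1) -h1
  have hz0 : c₀ • φ + c ^ s • g = 0 := by
    refine hglob _ (M.add_mem (M.smul_mem _ hφ) (M.smul_mem _ hg)) ?_
    rw [hz]
    exact M'.sub_mem (M'.smul_mem _ hφ') (M'.smul_mem _ hg')
  -- `φ ∈ c M`
  have hφc : φ = c • (-((b₀ * c ^ s₁) • g)) := by
    have hc₀F : algebraMap A F c₀ ≠ 0 := hne c₀ hc₀
    have h1 : algebraMap A F c₀ * φ = algebraMap A F c₀ * (c • (-((b₀ * c ^ s₁) • g))) := by
      rw [hsb] at hz0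
      simp only [Algebra.smul_def, map_mul, map_pow] at hz0 ⊢
      linear_combination hz0
    exact mul_left_cancel₀ hc₀F h1
  -- `f₁ ∈ c M`
  obtain ⟨d', hd'⟩ : ∃ d', d = d' + 1 := ⟨d - 1, by omega⟩
  have hf₁c : f₁ = c • (-((b₀ * c ^ s₁) • g) - c ^ d' • m) := by
    rw [smul_sub, ← hφc, smul_smul, ← pow_succ', ← hd', ← hφm]
    ring
  -- `1 ∈ c Λ`
  obtain ⟨l₁, hl₁, ht⟩ := ht
  set m₂ : F := -((b₀ * c ^ s₁) • g) - c ^ d' • m with hm₂
  have hm₂M : m₂ ∈ M := M.sub_mem (M.neg_mem (M.smul_mem _ hg)) (M.smul_mem _ hm)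
  have hpm : m₂ ^ p * u ∈ Λ := by
    have := hpow (Multiset.replicate p m₂) (by simp) (fun f hf => by
      rw [Multiset.eq_of_mem_replicate hf]; exact hm₂M)
    simpa [Multiset.prod_replicate] using this
  obtain ⟨p', hp'⟩ : ∃ p', p = p' + 1 := ⟨p - 1, by omega⟩
  obtain ⟨r', hr'⟩ : ∃ r', r₀ = r' + 1 := ⟨r₀ - 1, by omega⟩
  refine hprim (c ^ p' • (m₂ ^ p * u) - c ^ r' • l₁)
    (Λ.sub_mem (Λ.smul_mem hpm _) (Λ.smul_mem hl₁ _)) ?_
  rw [hr'] at ht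
  rw [smul_sub, smul_smul, smul_smul, ← pow_succ', ← pow_succ', ← hp', ← ht, hf₁c]
  simp only [Algebra.smul_def, map_pow]
  ring_nf

end NewInj

end Fermat.Agent.S33
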