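import Fermat.Agent.S36.FixLUnit

/-!
# TRACK 11 (S33), package N-LA (helper7), part 1: SATURATION along one Gauss embedding

`Ω = ℚ̄`, `A ⊂ Ω` a valuation subring over `q`, `H ≤ Gal(Ω/ℚ)` (e.g. an open subgroup `I''` of the
inertia group), `L'' = Ω^H`, `ϖ ∈ L''` a uniformiser of the discrete valuation ring `A ∩ L''`
(`S33NL2_Unif`).  `φ : F_N → Ω((t))` an embedding which is the identity on constants, integral on
the generators `j(t^d)` and `H`-equivariant.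

* `S33NL2_hdisc` : the discreteness hypothesis `hdisc` of `S36FI_val` (exponent `m = ord_ϖ q`);
* `S33NL2_dv` : every `H`-fixed `f ≠ 0` is `ϖ^(-k) ·` (Gauss unit along `φ`);
* **`S33NL2_sat`** : an `H`-fixed `f` in the Gauss ring with reduction `0` is divisible by `ϖ` in
  the Gauss ring.
-/

set_option autoImplicit false
set_option linter.unusedSectionVars false
set_option linter.unusedVariables false
set_option linter.style.haveILetI false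
set_option synthInstance.maxHeartbeats 400000

open HahnSeries ModularCurve IntermediateField

namespace Fermat.Agent.S33

open Fermat.Agent.S18 Fermat.Agent.S24 Fermat.Agent.S34 Fermat.Agent.S36

local notation "Ω" => AlgebraicClosure ℚ

/-- `ϖ` is a uniformiser of the discrete valuation ring `A ∩ Ω^H`. -/
structure S33NL2_Unif (A : ValuationSubring Ω) (H : Subgroup (Ω ≃ₐ[ℚ] Ω)) (ϖ : Ω) : Prop where
  fixed : ∀ σ ∈ H, σ ϖ = ϖ
  lt_one : A.valuation ϖ < 1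
  ne_zero : ϖ ≠ 0
  dv : ∀ x : Ω, (∀ σ ∈ H, σ x = x) → x ≠ 0 → ∃ k : ℤ, A.valuation (x * ϖ ^ k) = 1

section gen

variable {q : ℕ} [hq : Fact q.Prime] (N : ℕ) [NeZero N] (A : ValuationSubring Ω)
  (H : Subgroup (Ω ≃ₐ[ℚ] Ω)) {ϖ : Ω}

theorem S33NL2_val_eq (h : S33NL2_Unif A H ϖ) {x : Ω} {k : ℤ}
    (hk : A.valuation (x * ϖ ^ k) = 1) : A.valuation x = A.valuation ϖ ^ (-k) := by
  have h0 : A.valuation ϖ ≠ 0 := (map_ne_zero _).mpr h.ne_zero
  rw [map_mul, map_zpow₀] at hk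
  rw [zpow_neg]
  exact eq_inv_of_mul_eq_one_left hk

/-- **`hdisc` of `S36FI_val`** from a uniformiser. -/
theorem S33NL2_hdisc (hA : A.LiesOverPrime q) (h : S33NL2_Unif A H ϖ) :
    ∃ m : ℕ, m ≠ 0 ∧ ∀ x : Ω, (∀ σ ∈ H, σ x = x) → x ≠ 0 →
      ∃ k : ℤ, A.valuation (x ^ m * (q : Ω) ^ k) = 1 := by
  have ha0 : A.valuation ϖ ≠ 0 := (map_ne_zero _).mpr h.ne_zero
  have ha0' : 0 < A.valuation ϖ := zero_lt_iff.mpr ha0
  have hq0 : (q : Ω) ≠ 0 := by exact_mod_cast hq.out.ne_zero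
  have hqfix : ∀ σ ∈ H, σ (q : Ω) = (q : Ω) := fun σ _ => map_natCast σ q
  obtain ⟨k₀, hk₀⟩ := h.dv (q : Ω) hqfix hq0
  have hvq := S33NL2_val_eq A H h hk₀
  have hqlt : A.valuation (q : Ω) < 1 := A.mem_nonunits_iff.mp hA
  have hk₀neg : k₀ < 0 := by
    by_contra hcon
    rw [not_lt] at hcon
    have : 1 ≤ A.valuation ϖ ^ (-k₀) :=
      one_le_zpow_of_nonpos₀ ha0' h.lt_one.le (by omega)
    rw [← hvq] at this
    exact absurd hqlt (not_lt.mpr this)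
  refine ⟨(-k₀).toNat, by omega, fun x hx hx0 => ?_⟩
  obtain ⟨k, hk⟩ := h.dv x hx hx0
  have hvx := S33NL2_val_eq A H h hk
  refine ⟨k, ?_⟩
  have hm : (((-k₀).toNat : ℕ) : ℤ) = -k₀ := Int.toNat_of_nonneg (by omega)
  rw [map_mul, map_pow, map_zpow₀, hvx, hvq, ← zpow_natCast, hm, ← zpow_mul, ← zpow_mul,
    ← zpow_add₀ ha0]
  have : -k * -k₀ + -k₀ * k = 0 := by ring
  rw [this, zpow_zero]

variable (φ : ↥(modularFunctionFieldBar N) →+* LaurentSeries Ω)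

/-- **discrete values**: every `H`-fixed `f ≠ 0` is `ϖ^(-k) ·` (Gauss unit along `φ`). -/
theorem S33NL2_dv (hA : A.LiesOverPrime q) (h : S33NL2_Unif A H ϖ)
    (hφc : ∀ c : Ω, φ (algebraMap Ω ↥(modularFunctionFieldBar N) c) = HahnSeries.C c)
    (hgen : ∀ (d : ℕ) [NeZero d] (hd : d ∣ N) (n : ℤ), (φ (jBar N d hd)).coeff n ∈ A ∧
      ∀ σ ∈ H, σ ((φ (jBar N d hd)).coeff n) = (φ (jBar N d hd)).coeff n)
    (f : ↥(modularFunctionFieldBar N)) (hf : f ∈ (S36FI_act N H).fixF) (hf0 : f ≠ 0) :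
    ∃ k : ℤ, f * algebraMap Ω ↥(modularFunctionFieldBar N) (ϖ ^ k) ∈ S36V_G A φ ∧
      (f * algebraMap Ω ↥(modularFunctionFieldBar N) (ϖ ^ k))⁻¹ ∈ S36V_G A φ := by
  obtain ⟨m, hm, hdisc⟩ := S33NL2_hdisc A H hA h
  obtain ⟨c, hc0, hcfix, s₁, s₂, hs₁, hs₂, hrep⟩ :=
    S36FI_val N A H hA m hm hdisc φ hφc hgen f hf hf0
  obtain ⟨k, hk⟩ := h.dv c hcfix hc0
  obtain ⟨huA, hunu⟩ := (S36BL_unit_iff A).mpr hk
  refine ⟨k, ?_⟩
  set u : A := ⟨c * ϖ ^ k, huA⟩ with hu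
  have hures : IsLocalRing.residue A u ≠ 0 := by
    rw [Ne, IsLocalRing.residue_eq_zero_iff, IsLocalRing.mem_maximalIdeal, mem_nonunits_iff,
      not_not]
    by_contra hnu
    exact hunu ((A.mem_nonunits_iff_exists_mem_maximalIdeal).mpr ⟨huA, by
      rwa [IsLocalRing.mem_maximalIdeal, mem_nonunits_iff]⟩)
  have hρ₁ : S18_ρ A (HahnSeries.C u * s₁) ≠ 0 := by
    rw [map_mul, S18_ρ_C]
    refine mul_ne_zero ?_ hs₁
    rw [Ne, map_eq_zero]
    exact hures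
  have hrep' : φ (f * algebraMap Ω ↥(modularFunctionFieldBar N) (ϖ ^ k)) *
      S18_ι A s₂ = S18_ι A (HahnSeries.C u * s₁) := by
    rw [map_mul, hφc, map_mul (S18_ι A), S18_ι_C]
    show _ = algebraMap Ω (LaurentSeries Ω) (c * ϖ ^ k) * _
    have e1 : (algebraMap Ω (LaurentSeries Ω) (c * ϖ ^ k) : LaurentSeries Ω) =
        HahnSeries.C c * HahnSeries.C (ϖ ^ k) := by
      rw [← map_mul, HahnSeries.C_apply, algebraMap_laurentSeries_eq_single]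
    rw [e1]
    calc φ f * HahnSeries.C (ϖ ^ k) * S18_ι A s₂
        = (φ f * S18_ι A s₂) * HahnSeries.C (ϖ ^ k) := by ring
      _ = (HahnSeries.C c * S18_ι A s₁) * HahnSeries.C (ϖ ^ k) := by rw [hrep]
      _ = _ := by ring
  have hmem : f * algebraMap Ω ↥(modularFunctionFieldBar N) (ϖ ^ k) ∈ S36V_G A φ :=
    S36V_G_of_rep A φ hs₂ hrep'
  refine ⟨hmem, S36V_G_inv_mem A φ hmem ?_⟩
  rw [S36V_Gred_eq A φ hmem hs₂ hrep']
  exact div_ne_zero hρ₁ hs₂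

/-- **SATURATION along `φ`**: an `H`-fixed element of the Gauss ring with reduction `0` is
divisible by `ϖ` in the Gauss ring. -/
theorem S33NL2_sat (hA : A.LiesOverPrime q) (h : S33NL2_Unif A H ϖ)
    (hφc : ∀ c : Ω, φ (algebraMap Ω ↥(modularFunctionFieldBar N) c) = HahnSeries.C c)
    (hgen : ∀ (d : ℕ) [NeZero d] (hd : d ∣ N) (n : ℤ), (φ (jBar N d hd)).coeff n ∈ A ∧
      ∀ σ ∈ H, σ ((φ (jBar N d hd)).coeff n) = (φ (jBar N d hd)).coeff n)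
    (f : ↥(modularFunctionFieldBar N)) (hf : f ∈ (S36FI_act N H).fixF)
    (hfG : f ∈ S36V_G A φ) (hred : S36V_Gred A φ ⟨f, hfG⟩ = 0) :
    f * algebraMap Ω ↥(modularFunctionFieldBar N) ϖ⁻¹ ∈ S36V_G A φ := by
  by_cases hf0 : f = 0
  · rw [hf0, zero_mul]
    exact zero_mem _
  obtain ⟨k, hk1, hk2⟩ := S33NL2_dv N A H φ hA h hφc hgen f hf hf0
  have hϖA : ϖ ∈ A := (A.valuation_le_one_iff ϖ).mp h.lt_one.le
  have hϖG : algebraMap Ω ↥(modularFunctionFieldBar N) ϖ ∈ S36V_G A φ :=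
    S36V_G_const A φ ⟨ϖ, hϖA⟩ (by
      rw [hφc, HahnSeries.C_apply, algebraMap_laurentSeries_eq_single])
  have hϖ0 : algebraMap Ω ↥(modularFunctionFieldBar N) ϖ ≠ 0 :=
    (map_ne_zero _).mpr h.ne_zero
  -- `k ≤ -1`
  have hkneg : k < 0 := by
    by_contra hcon
    rw [not_lt] at hcon
    obtain ⟨n, rfl⟩ := Int.eq_ofNat_of_zero_le hcon
    -- `f⁻¹ = (f ϖ^n)⁻¹ ϖ^n ∈ G`
    have hinv : f⁻¹ ∈ S36V_G A φ := by
      have e : f⁻¹ = (f * algebraMap Ω ↥(modularFunctionFieldBar N) (ϖ ^ (n : ℤ)))⁻¹ *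
          (algebraMap Ω ↥(modularFunctionFieldBar N) ϖ) ^ n := by
        rw [zpow_natCast, map_pow, mul_inv, mul_assoc, inv_mul_cancel₀ (pow_ne_zero _ hϖ0),
          mul_one]
      rw [e]
      exact mul_mem hk2 (pow_mem hϖG n)
    have hu : IsUnit (⟨f, hfG⟩ : S36V_G A φ) := by
      refine isUnit_iff_exists_inv.2 ⟨⟨f⁻¹, hinv⟩, ?_⟩
      exact Subtype.ext (mul_inv_cancel₀ hf0)
    exact (S36V_Gred_ne_zero_iff A φ ⟨f, hfG⟩).2 hu hred
  obtain ⟨n, hn⟩ : ∃ n : ℕ, -k - 1 = (n : ℤ) := Int.eq_ofNat_of_zero_le (by omega)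
  have e : f * algebraMap Ω ↥(modularFunctionFieldBar N) ϖ⁻¹ =
      (f * algebraMap Ω ↥(modularFunctionFieldBar N) (ϖ ^ k)) *
        (algebraMap Ω ↥(modularFunctionFieldBar N) ϖ) ^ n := by
    have hk' : k = -(n : ℤ) - 1 := by omega
    rw [mul_assoc, ← map_pow, ← map_mul]
    congr 2
    rw [hk', ← zpow_natCast, ← zpow_add₀ h.ne_zero]
    have : -(n : ℤ) - 1 + n = -1 := by ring
    rw [this, zpow_neg_one]
  rw [e]
  exact mul_mem hk1 (pow_mem hϖG n)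

end gen

end Fermat.Agent.S33
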