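import Fermat.Agent.S36.DescWChart
import Fermat.Agent.S34.Defs

/-!
# TRACK 11 (S33), package LIFT-a (helper26): rational lifts — prefix `S33NFA_`

Level `M q` (`q ∤ M` prime; in TRACK 11 `q = p`), `A ⊂ ℚ̄` over `q`, `I` its inertia group,
`D = S34DF_lat M q hq hqM A` TRACK 7's two-valuation lattice datum of
`F = modularFunctionFieldBar (M q)`: `D.O = O₁ ∩ O₂`, `D.red f = (red₁ f, red₁ (w_q f))`.

**LIFT-a**: every `s ∈ Λ_Ω(C) = D.O ∩ B_C` (`B_C` the functions regular on the chart `C`) has the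
same reduction as an `I`-FIXED `g ∈ D.O ∩ B_C`  (hence `g ∈ fixF H` for every `H ≤ I`).

* `S33NFA_red_F`, `S33NFA_red_V` : the Gauss reductions of TRACK 10 are the reductions of TRACK 7;
* `S33NFA_lift`    : `B_C = V` any subspace spanned by its `I`-fixed elements;
* `S33NFA_lift_D`  : `V = L(D)`, `D` an `I`-stable divisor;
* **`S33NFA_lift_U`**  : the chart `U = {j ≠ ∞}`  (`B = S34SB_reg Ω j = (S34M_chart …).B`);
* **`S33NFA_lift_U'`** : the chart `U' = {j ≠ c}` (`B = S34SB_regZ Ω (j - c)`), `c` fixed by `I`;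
* `S33NFA_lift_U_H`, `S33NFA_lift_U'_H` : the same in SUBRING form, for every `H ≤ I`:
  `g ∈ D.O ⊓ B ⊓ (fixF H).toSubring`.
-/

set_option autoImplicit false
set_option synthInstance.maxHeartbeats 400000
set_option maxHeartbeats 1000000
set_option linter.style.haveILetI false
set_option linter.unusedSectionVars false
set_option linter.unusedVariables false

open HahnSeries IntermediateField AlgebraicCurve ModularCurve

noncomputable section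

namespace Fermat.Agent.S33

open Fermat.Agent.S18 Fermat.Agent.S24 Fermat.Agent.S34 Fermat.Agent.S36 Fermat.Agent.GalRep
  Fermat.Agent.Lib

local notation "Ω" => AlgebraicClosure ℚ

variable (M q : ℕ) [NeZero M] [NeZero q] (hq : q.Prime) (hqM : ¬ q ∣ M)
  (A : ValuationSubring Ω) (hA : A.LiesOverPrime q)

/-! ### comparison of the reductions -/

/-- the Gauss reduction along `coe₁` is TRACK 7's reduction `S18_red`. -/
theorem S33NFA_red_F {f : ↥(modularFunctionFieldBar (M * q))} (hf : f ∈ S18_O A (M * q))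
    (hf' : f ∈ S36V_G A (S36V_emF M q)) :
    S36V_Gred A (S36V_emF M q) ⟨f, hf'⟩ =
      ((S18_red A (M * q) ⟨f, hf⟩ :
        ↥(modularFunctionFieldFullC (IsLocalRing.ResidueField A) (M * q))) :
        LaurentSeries (IsLocalRing.ResidueField A)) :=
  S36V_Gred_S18 A (M * q) ⟨f, hf⟩

/-- the Gauss reduction along `coe₁ ∘ w_q` is TRACK 7's second reduction. -/
theorem S33NFA_red_V {f : ↥(modularFunctionFieldBar (M * q))}
    (hf : S34DF_wq M q hq hqM f ∈ S18_O A (M * q))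
    (hf' : f ∈ S36V_G A (S36V_emV M q hq hqM)) :
    S36V_Gred A (S36V_emV M q hq hqM) ⟨f, hf'⟩ =
      ((S18_red A (M * q) ⟨S34DF_wq M q hq hqM f, hf⟩ :
        ↥(modularFunctionFieldFullC (IsLocalRing.ResidueField A) (M * q))) :
        LaurentSeries (IsLocalRing.ResidueField A)) := by
  have h1 : S36V_Gred A (S36V_emV M q hq hqM) ⟨f, hf'⟩ =
      S36V_Gred A (S36V_emF M q) ⟨S34DF_wq M q hq hqM f, hf'⟩ :=
    S36V_Gred_comp A (S36V_coe1 M q)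
      (S34DF_wq M q hq hqM : ↥(modularFunctionFieldBar (M * q)) →+*
        ↥(modularFunctionFieldBar (M * q))) hf'
  rw [h1]
  exact S33NFA_red_F M q A hf _

include hq hqM hA in
/-- membership in TRACK 7's lattice in terms of the two Gauss rings. -/
theorem S33NFA_mem_lat {f : ↥(modularFunctionFieldBar (M * q))}
    (h₁ : f ∈ S36V_G A (S36V_emF M q)) (h₂ : f ∈ S36V_G A (S36V_emV M q hq hqM)) :
    f ∈ (S34DF_lat M q hq hqM A).O :=
  (S34DF_mem_lat_O M q hq hqM A).2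
    ⟨S36NR_G_le_S18 M q hq hqM A hA h₁,
      S36NR_G_le_S18 M q hq hqM A hA ((S36NR_mem_V_iff M q hq hqM A).1 h₂)⟩

/-! ### LIFT-a -/

/-- equality of the reductions of TRACK 7's lattice, componentwise. -/
theorem S33NFA_red_eq {g s : ↥(modularFunctionFieldBar (M * q))}
    (hg : g ∈ (S34DF_lat M q hq hqM A).O) (hs : s ∈ (S34DF_lat M q hq hqM A).O)
    (hg₁ : g ∈ S18_O A (M * q)) (hs₁ : s ∈ S18_O A (M * q))
    (hg₂ : S34DF_wq M q hq hqM g ∈ S18_O A (M * q))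
    (hs₂ : S34DF_wq M q hq hqM s ∈ S18_O A (M * q))
    (h₁ : S18_red A (M * q) ⟨g, hg₁⟩ = S18_red A (M * q) ⟨s, hs₁⟩)
    (h₂ : S18_red A (M * q) ⟨S34DF_wq M q hq hqM g, hg₂⟩ =
      S18_red A (M * q) ⟨S34DF_wq M q hq hqM s, hs₂⟩) :
    (S34DF_lat M q hq hqM A).red ⟨g, hg⟩ = (S34DF_lat M q hq hqM A).red ⟨s, hs⟩ := by
  rw [S34DF_lat_red M q hq hqM A ⟨g, hg⟩, S34DF_lat_red M q hq hqM A ⟨s, hs⟩]
  exact Prod.ext h₁ h₂

include hA in
/-- **LIFT-a, subspace form**. -/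
theorem S33NFA_lift (V : Submodule Ω ↥(modularFunctionFieldBar (M * q)))
    (hV : V ≤ Submodule.span Ω
      {w | w ∈ V ∧ ∀ τ ∈ A.inertiaSubgroupIn ℚ, GR_gal (M * q) τ w = w})
    (s : ↥(modularFunctionFieldBar (M * q))) (hsV : s ∈ V)
    (hs : s ∈ (S34DF_lat M q hq hqM A).O) :
    ∃ g : ↥(modularFunctionFieldBar (M * q)), g ∈ V ∧
      (∀ τ ∈ A.inertiaSubgroupIn ℚ, GR_gal (M * q) τ g = g) ∧
      ∃ hg : g ∈ (S34DF_lat M q hq hqM A).O,
        (S34DF_lat M q hq hqM A).red ⟨g, hg⟩ = (S34DF_lat M q hq hqM A).red ⟨s, hs⟩ := by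
  have hs' := (S34DF_mem_lat_O M q hq hqM A).1 hs
  have hs₁ : s ∈ S36V_G A (S36V_emF M q) := S36NR_S18_le_G M q A hs'.1
  have hs₂ : s ∈ S36V_G A (S36V_emV M q hq hqM) :=
    (S36NR_mem_V_iff M q hq hqM A).2 (S36NR_S18_le_G M q A hs'.2)
  obtain ⟨g, hgV, hgfix, hg₁, hg₂, e₁, e₂⟩ :=
    S36DW_levG M q hq hqM A hA V hV s hsV hs₁ hs₂
  have hg := S33NFA_mem_lat M q hq hqM A hA hg₁ hg₂
  have hg' := (S34DF_mem_lat_O M q hq hqM A).1 hg
  refine ⟨g, hgV, hgfix, hg, ?_⟩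
  have k₁ : S18_red A (M * q) ⟨g, hg'.1⟩ = S18_red A (M * q) ⟨s, hs'.1⟩ := by
    apply Subtype.ext
    rw [← S33NFA_red_F M q A hg'.1 hg₁, ← S33NFA_red_F M q A hs'.1 hs₁]
    exact e₁
  have k₂ : S18_red A (M * q) ⟨S34DF_wq M q hq hqM g, hg'.2⟩ =
      S18_red A (M * q) ⟨S34DF_wq M q hq hqM s, hs'.2⟩ := by
    apply Subtype.ext
    rw [← S33NFA_red_V M q hq hqM A hg'.2 hg₂, ← S33NFA_red_V M q hq hqM A hs'.2 hs₂]
    exact e₂
  exact S33NFA_red_eq M q hq hqM A hg hs hg'.1 hs'.1 hg'.2 hs'.2 k₁ k₂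

include hA in
/-- **LIFT-a for `L(D)`**, `D` an `I`-stable divisor. -/
theorem S33NFA_lift_D (D : Divisor Ω ↥(modularFunctionFieldBar (M * q)))
    (hD : ∀ τ ∈ A.inertiaSubgroupIn ℚ, ∀ v,
      D (arithmeticGalois (modularFunctionFieldFull (M * q)) τ • v) = D v)
    (s : ↥(modularFunctionFieldBar (M * q))) (hsV : s ∈ riemannRochSpace D)
    (hs : s ∈ (S34DF_lat M q hq hqM A).O) :
    ∃ g : ↥(modularFunctionFieldBar (M * q)), g ∈ riemannRochSpace D ∧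
      (∀ τ ∈ A.inertiaSubgroupIn ℚ, GR_gal (M * q) τ g = g) ∧
      ∃ hg : g ∈ (S34DF_lat M q hq hqM A).O,
        (S34DF_lat M q hq hqM A).red ⟨g, hg⟩ = (S34DF_lat M q hq hqM A).red ⟨s, hs⟩ := by
  refine S33NFA_lift M q hq hqM A hA (riemannRochSpace D) ?_ s hsV hs
  refine le_trans (S36SH_rr_span (M * q) (A.inertiaSubgroupIn ℚ : Set (Ω ≃ₐ[ℚ] Ω)) D
    (fun τ hτ v => hD τ hτ v)) (Submodule.span_mono ?_)
  rintro w ⟨hw1, hw2⟩
  exact ⟨hw1, fun τ hτ => hw2 ⟨τ, hτ⟩⟩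

include hA in
/-- **LIFT-a on the chart `{x ≠ c}`**, `x`, `c` fixed by `I`. -/
theorem S33NFA_lift_Z (x : ↥(modularFunctionFieldBar (M * q)))
    (hx : ∀ τ ∈ A.inertiaSubgroupIn ℚ, GR_gal (M * q) τ x = x)
    (c : Ω) (hc : ∀ τ ∈ A.inertiaSubgroupIn ℚ, τ c = c)
    (s : ↥(modularFunctionFieldBar (M * q)))
    (hsB : s ∈ S34SB_regZ Ω (x - algebraMap Ω ↥(modularFunctionFieldBar (M * q)) c))
    (hs : s ∈ (S34DF_lat M q hq hqM A).O) :
    ∃ g : ↥(modularFunctionFieldBar (M * q)),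
      g ∈ S34SB_regZ Ω (x - algebraMap Ω ↥(modularFunctionFieldBar (M * q)) c) ∧
      (∀ τ ∈ A.inertiaSubgroupIn ℚ, GR_gal (M * q) τ g = g) ∧
      ∃ hg : g ∈ (S34DF_lat M q hq hqM A).O,
        (S34DF_lat M q hq hqM A).red ⟨g, hg⟩ = (S34DF_lat M q hq hqM A).red ⟨s, hs⟩ := by
  have hP := (S36LD_hRR (M * q)).principal
  obtain ⟨b, hb⟩ := S36DW_exists_b hP x c hsB
  obtain ⟨g, hgV, hgfix, hg⟩ := S33NFA_lift_D M q hq hqM A hA _
    (fun τ hτ v => S36DW_E_stable (M * q) hP x _ 0 b τ (hx τ hτ)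
      (S36DW_sub_fixed (M * q) τ (hx τ hτ) (hc τ hτ)) v) s hb hs
  exact ⟨g, S36DW_regZ_le hP x c b hgV, hgfix, hg⟩

include hA in
/-- **LIFT-a on the chart `{x ≠ ∞}`**, `x` fixed by `I`. -/
theorem S33NFA_lift_R (x : ↥(modularFunctionFieldBar (M * q)))
    (hx : ∀ τ ∈ A.inertiaSubgroupIn ℚ, GR_gal (M * q) τ x = x)
    (s : ↥(modularFunctionFieldBar (M * q))) (hsB : s ∈ S34SB_reg Ω x)
    (hs : s ∈ (S34DF_lat M q hq hqM A).O) :
    ∃ g : ↥(modularFunctionFieldBar (M * q)), g ∈ S34SB_reg Ω x ∧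
      (∀ τ ∈ A.inertiaSubgroupIn ℚ, GR_gal (M * q) τ g = g) ∧
      ∃ hg : g ∈ (S34DF_lat M q hq hqM A).O,
        (S34DF_lat M q hq hqM A).red ⟨g, hg⟩ = (S34DF_lat M q hq hqM A).red ⟨s, hs⟩ := by
  have hP := (S36LD_hRR (M * q)).principal
  obtain ⟨a, ha⟩ := S36DW_exists_a hP x (0 : Ω) hsB
  obtain ⟨g, hgV, hgfix, hg⟩ := S33NFA_lift_D M q hq hqM A hA _
    (fun τ hτ v => S36DW_E_stable (M * q) hP x _ a 0 τ (hx τ hτ)
      (S36DW_sub_fixed (M * q) τ (hx τ hτ) (map_zero τ)) v) s ha hs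
  exact ⟨g, S36DW_reg_le hP x (0 : Ω) a hgV, hgfix, hg⟩

include hA in
/-- **LIFT-a on the chart `U = {j ≠ ∞}`** (off the cusps). -/
theorem S33NFA_lift_U (s : ↥(modularFunctionFieldBar (M * q)))
    (hsB : s ∈ S34SB_reg Ω (jB (M * q) : ↥(modularFunctionFieldBar (M * q))))
    (hs : s ∈ (S34DF_lat M q hq hqM A).O) :
    ∃ g : ↥(modularFunctionFieldBar (M * q)),
      g ∈ S34SB_reg Ω (jB (M * q) : ↥(modularFunctionFieldBar (M * q))) ∧
      (∀ τ ∈ A.inertiaSubgroupIn ℚ, GR_gal (M * q) τ g = g) ∧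
      ∃ hg : g ∈ (S34DF_lat M q hq hqM A).O,
        (S34DF_lat M q hq hqM A).red ⟨g, hg⟩ = (S34DF_lat M q hq hqM A).red ⟨s, hs⟩ :=
  S33NFA_lift_R M q hq hqM A hA (jB (M * q)) (fun τ _ => S34SW_gal_jB (M * q) τ) s hsB hs

include hA in
/-- **LIFT-a on the chart `U' = {j ≠ c}`**, `c` fixed by `I`. -/
theorem S33NFA_lift_U' (c : Ω) (hc : ∀ τ ∈ A.inertiaSubgroupIn ℚ, τ c = c)
    (s : ↥(modularFunctionFieldBar (M * q)))
    (hsB : s ∈ S34SB_regZ Ω ((jB (M * q) : ↥(modularFunctionFieldBar (M * q))) -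
      algebraMap Ω ↥(modularFunctionFieldBar (M * q)) c))
    (hs : s ∈ (S34DF_lat M q hq hqM A).O) :
    ∃ g : ↥(modularFunctionFieldBar (M * q)),
      g ∈ S34SB_regZ Ω ((jB (M * q) : ↥(modularFunctionFieldBar (M * q))) -
        algebraMap Ω ↥(modularFunctionFieldBar (M * q)) c) ∧
      (∀ τ ∈ A.inertiaSubgroupIn ℚ, GR_gal (M * q) τ g = g) ∧
      ∃ hg : g ∈ (S34DF_lat M q hq hqM A).O,
        (S34DF_lat M q hq hqM A).red ⟨g, hg⟩ = (S34DF_lat M q hq hqM A).red ⟨s, hs⟩ :=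
  S33NFA_lift_Z M q hq hqM A hA (jB (M * q)) (fun τ _ => S34SW_gal_jB (M * q) τ) c hc s hsB hs

/-! ### subring form, for every `H ≤ I` -/

/-- an `I`-fixed function lies in `fixF H` for every `H ≤ I`. -/
theorem S33NFA_mem_fixF (H : Subgroup (Ω ≃ₐ[ℚ] Ω)) (hH : H ≤ A.inertiaSubgroupIn ℚ)
    {g : ↥(modularFunctionFieldBar (M * q))}
    (hg : ∀ τ ∈ A.inertiaSubgroupIn ℚ, GR_gal (M * q) τ g = g) :
    g ∈ (S36FI_act (M * q) H).fixF :=
  (S36FI_mem_fixF (M * q) H).2 fun σ hσ => hg σ (hH hσ)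

include hA in
/-- **LIFT-a on `U`, subring form**: `Λ_Ω(U) → W` and `Λ_Ω(U) ⊓ fixF H → W` have the same
image, for every `H ≤ I`. -/
theorem S33NFA_lift_U_H (H : Subgroup (Ω ≃ₐ[ℚ] Ω)) (hH : H ≤ A.inertiaSubgroupIn ℚ)
    (s : ↥(modularFunctionFieldBar (M * q)))
    (hs : s ∈ (S34DF_lat M q hq hqM A).O ⊓
      (S34SB_reg Ω (jB (M * q) : ↥(modularFunctionFieldBar (M * q)))).toSubring) :
    ∃ g : ↥(modularFunctionFieldBar (M * q)),
      g ∈ (S34DF_lat M q hq hqM A).O ⊓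
        (S34SB_reg Ω (jB (M * q) : ↥(modularFunctionFieldBar (M * q)))).toSubring ⊓
        (S36FI_act (M * q) H).fixF.toSubring ∧
      ∃ hg : g ∈ (S34DF_lat M q hq hqM A).O,
        (S34DF_lat M q hq hqM A).red ⟨g, hg⟩ = (S34DF_lat M q hq hqM A).red ⟨s, hs.1⟩ := by
  obtain ⟨g, hgB, hgfix, hg, e⟩ := S33NFA_lift_U M q hq hqM A hA s hs.2 hs.1
  exact ⟨g, ⟨⟨hg, hgB⟩, S33NFA_mem_fixF M q A H hH hgfix⟩, hg, e⟩

include hA in
/-- **LIFT-a on `U'`, subring form**, for every `H ≤ I`. -/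
theorem S33NFA_lift_U'_H (H : Subgroup (Ω ≃ₐ[ℚ] Ω)) (hH : H ≤ A.inertiaSubgroupIn ℚ)
    (c : Ω) (hc : ∀ τ ∈ A.inertiaSubgroupIn ℚ, τ c = c)
    (s : ↥(modularFunctionFieldBar (M * q)))
    (hs : s ∈ (S34DF_lat M q hq hqM A).O ⊓
      (S34SB_regZ Ω ((jB (M * q) : ↥(modularFunctionFieldBar (M * q))) -
        algebraMap Ω ↥(modularFunctionFieldBar (M * q)) c)).toSubring) :
    ∃ g : ↥(modularFunctionFieldBar (M * q)),
      g ∈ (S34DF_lat M q hq hqM A).O ⊓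
        (S34SB_regZ Ω ((jB (M * q) : ↥(modularFunctionFieldBar (M * q))) -
          algebraMap Ω ↥(modularFunctionFieldBar (M * q)) c)).toSubring ⊓
        (S36FI_act (M * q) H).fixF.toSubring ∧
      ∃ hg : g ∈ (S34DF_lat M q hq hqM A).O,
        (S34DF_lat M q hq hqM A).red ⟨g, hg⟩ = (S34DF_lat M q hq hqM A).red ⟨s, hs.1⟩ := by
  obtain ⟨g, hgB, hgfix, hg, e⟩ := S33NFA_lift_U' M q hq hqM A hA c hc s hs.2 hs.1
  exact ⟨g, ⟨⟨hg, hgB⟩, S33NFA_mem_fixF M q A H hH hgfix⟩, hg, e⟩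

end Fermat.Agent.S33
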