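import Mathlib

/-!
# TRACK 11 (S33), package T9 = NEWLOC (helper10): the local lemma (N0), abstract form

`F` a field (function field of `X₀(pM)`), `L ⊂ F` the constants with a valuation subring `A`
(residue characteristic `p`), `O₁ O₂` two valuation subrings of `F` over `A` (the two Gauss
valuations `V₁`, `V₂ = V₁ ∘ w`).  "Depth `a` at `V_i`" for `g ∈ F`: `g - 1 ∈ a · O_i`
(`S33N0_Dep O a g`).

`N₁₂ = α ∘ N_α`, `N₂₁ = β ∘ N_β : F →*₀ F` with the NORM ESTIMATES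
* (NE₁) `g - 1 ∈ a O₂`, `a ∈ 𝔪_A` ⇒ `N₁₂ g / g - 1 ∈ p a O₁ + a^p O₁`,
* (NE₂) `g - 1 ∈ a O₁`, `a ∈ 𝔪_A` ⇒ `N₂₁ g / g - 1 ∈ p a O₂ + a^p O₂`.

* `S33N0_step` : one round: depth `a` at `V₂` for `u / H₂ ^ p` and `N₁₂ u = h₁ ^ p` give depth
  `a e` at `V₁` for `u / H₁ ^ p`, if `e ∣ p` and `e ∣ a ^ (p - 1)`;
* `S33N0_main_pow` : if `N₁₂ u` and `N₂₁ u` are `p`-th powers and `u` has depth `a₀ ∈ 𝔪_A` at
  `V₁` and `V₂` (up to `p`-th powers), then it has depth `a₀ e₀ ^ n` at both, for every `n`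
  (`e₀ ∣ p`, `e₀ ∣ a₀ ^ (p - 1)`);
* `S33N0_main` : with rank one (`∀ c ≠ 0, ∃ n, c ∣ e₀ ^ n`): EVERY depth `c ≠ 0` is reached:
  `u` is a `p`-th power at `V₁` and at `V₂` to any precision  (= (N0)).
* `S33N0_pdepth` : (PD) local `p`-depth: if `u = H ^ p (1 + ε)` with `ε` deep, and
  `h ^ p u - 1 = a w` with `w ∈ O` and `a` less deep than `p λ`, then `w ≡ e G ^ p` modulo
  `𝔪_A O` with `e ∈ A`, `G ∈ O`: the leading term of a normalised Kummer generator is a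
  `p`-th power of the residue field (times a constant).
-/

set_option autoImplicit false
set_option linter.unusedSectionVars false

namespace Fermat.Agent.S33

section N0

variable {L F : Type*} [Field L] [Field F] [Algebra L F]

/-- `g` has depth `a` with respect to `O`: `g - 1 ∈ a · O`. -/
def S33N0_Dep (O : ValuationSubring F) (a : L) (g : F) : Prop :=
  ∃ l ∈ O, g - 1 = algebraMap L F a * l

variable (A : ValuationSubring L) (O : ValuationSubring F)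

theorem S33N0_Dep_mono {a b : L} {g : F} (hAO : ∀ a ∈ A, algebraMap L F a ∈ O)
    (hab : ∃ r ∈ A, b = a * r) (h : S33N0_Dep O b g) : S33N0_Dep O a g := by
  obtain ⟨l, hl, e⟩ := h
  obtain ⟨r, hr, rfl⟩ := hab
  refine ⟨algebraMap L F r * l, O.mul_mem _ _ (hAO r hr) hl, ?_⟩
  rw [e, map_mul, mul_assoc]

/-- `1 + a l` is a unit of `O` for `a ∈ 𝔪_A`, `l ∈ O`. -/
theorem S33N0_one_add_inv_mem
    (hAm : ∀ a ∈ A, A.valuation a < 1 → O.valuation (algebraMap L F a) < 1)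
    {a : L} (ha : a ∈ A) (ha1 : A.valuation a < 1) {l : F} (hl : l ∈ O) :
    (1 + algebraMap L F a * l)⁻¹ ∈ O := by
  have h1 : O.valuation (algebraMap L F a * l) < 1 := by
    rw [map_mul]
    exact lt_of_le_of_lt (mul_le_of_le_one_right' ((O.valuation_le_one_iff l).2 hl))
      (hAm a ha ha1)
  have h2 : O.valuation (1 + algebraMap L F a * l) = 1 := by
    have := Valuation.map_add_eq_of_lt_left O.valuation
      (x := (1 : F)) (y := algebraMap L F a * l) (by rw [map_one]; exact h1)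
    rw [this, map_one]
  rw [← O.valuation_le_one_iff, map_inv₀, h2, inv_one]

theorem S33N0_one_add_ne_zero
    (hAm : ∀ a ∈ A, A.valuation a < 1 → O.valuation (algebraMap L F a) < 1)
    {a : L} (ha : a ∈ A) (ha1 : A.valuation a < 1) {l : F} (hl : l ∈ O) :
    (1 + algebraMap L F a * l) ≠ 0 := by
  intro h0
  have h1 : O.valuation (algebraMap L F a * l) < 1 := by
    rw [map_mul]
    exact lt_of_le_of_lt (mul_le_of_le_one_right' ((O.valuation_le_one_iff l).2 hl))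
      (hAm a ha ha1)
  have h2 : algebraMap L F a * l = -1 := by
    rw [← sub_eq_zero, sub_neg_eq_add, add_comm]; exact h0
  rw [h2, Valuation.map_neg, map_one] at h1
  exact lt_irrefl _ h1

/-- depth of the inverse. -/
theorem S33N0_Dep_inv
    (hAm : ∀ a ∈ A, A.valuation a < 1 → O.valuation (algebraMap L F a) < 1)
    {a : L} (ha : a ∈ A) (ha1 : A.valuation a < 1) {g : F} (h : S33N0_Dep O a g) :
    S33N0_Dep O a g⁻¹ := by
  obtain ⟨l, hl, e⟩ := h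
  have hg : g = 1 + algebraMap L F a * l := by rw [← e]; ring
  have hne := S33N0_one_add_ne_zero A O hAm ha ha1 hl
  have hinv := S33N0_one_add_inv_mem A O hAm ha ha1 hl
  refine ⟨-(l * (1 + algebraMap L F a * l)⁻¹), O.neg_mem _ (O.mul_mem _ _ hl hinv), ?_⟩
  rw [hg]
  field_simp
  ring

/-- a unit of depth `a` is nonzero. -/
theorem S33N0_Dep_ne_zero
    (hAm : ∀ a ∈ A, A.valuation a < 1 → O.valuation (algebraMap L F a) < 1)
    {a : L} (ha : a ∈ A) (ha1 : A.valuation a < 1) {g : F} (h : S33N0_Dep O a g) : g ≠ 0 := by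
  obtain ⟨l, hl, e⟩ := h
  have hg : g = 1 + algebraMap L F a * l := by rw [← e]; ring
  rw [hg]
  exact S33N0_one_add_ne_zero A O hAm ha ha1 hl

variable (O₁ O₂ : ValuationSubring F) (p : ℕ)

/-- **one round of (N0)**: from depth `a` at `V₂` to depth `a e` at `V₁`. -/
theorem S33N0_step
    (hAO₁ : ∀ a ∈ A, algebraMap L F a ∈ O₁)
    (hAm₁ : ∀ a ∈ A, A.valuation a < 1 → O₁.valuation (algebraMap L F a) < 1)
    (N₁₂ : F →*₀ F)
    (hNE : ∀ a ∈ A, A.valuation a < 1 → ∀ g : F, S33N0_Dep O₂ a g →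
      ∃ l₁ ∈ O₁, ∃ l₂ ∈ O₁, N₁₂ g / g - 1 =
        algebraMap L F ((p : L) * a) * l₁ + algebraMap L F (a ^ p) * l₂)
    {u h₁ : F} (hu : u ≠ 0) (hN : N₁₂ u = h₁ ^ p)
    {a e : L} (ha : a ∈ A) (ha1 : A.valuation a < 1) (he : e ∈ A)
    (hep : ∃ r ∈ A, (p : L) = e * r) (hea : ∃ r ∈ A, a ^ (p - 1) = e * r) (hp : 0 < p)
    {H₂ : F} (hH₂ : H₂ ≠ 0) (h : S33N0_Dep O₂ a (u / H₂ ^ p)) :
    ∃ H₁ : F, H₁ ≠ 0 ∧ S33N0_Dep O₁ (a * e) (u / H₁ ^ p) := by
  obtain ⟨l₁, hl₁, l₂, hl₂, hrel⟩ := hNE a ha ha1 _ h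
  obtain ⟨r, hr, hpr⟩ := hep
  obtain ⟨s, hs, has⟩ := hea
  have hae : a * e ∈ A := A.mul_mem _ _ ha he
  have hae1 : A.valuation (a * e) < 1 := by
    rw [map_mul]
    exact lt_of_le_of_lt (mul_le_of_le_one_right' ((A.valuation_le_one_iff e).2 he)) ha1
  have hh₁ : h₁ ≠ 0 := by
    intro h0
    rw [h0, zero_pow hp.ne', map_eq_zero] at hN
    exact hu hN
  have hNH : N₁₂ H₂ ≠ 0 := (map_ne_zero N₁₂).2 hH₂
  -- the new root
  refine ⟨h₁ * H₂ / N₁₂ H₂, div_ne_zero (mul_ne_zero hh₁ hH₂) hNH, ?_⟩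
  have hkey : N₁₂ (u / H₂ ^ p) / (u / H₂ ^ p) = (u / (h₁ * H₂ / N₁₂ H₂) ^ p)⁻¹ := by
    have hpw : (h₁ * H₂ / N₁₂ H₂) ^ p = h₁ ^ p * H₂ ^ p / N₁₂ H₂ ^ p := by
      rw [div_pow, mul_pow]
    have hH₂p : H₂ ^ p ≠ 0 := pow_ne_zero _ hH₂
    have hNHp : N₁₂ H₂ ^ p ≠ 0 := pow_ne_zero _ hNH
    have hh₁p : h₁ ^ p ≠ 0 := pow_ne_zero _ hh₁
    rw [map_div₀, map_pow, hN, hpw]
    field_simp
  have hdep : S33N0_Dep O₁ (a * e) ((u / (h₁ * H₂ / N₁₂ H₂) ^ p)⁻¹) := by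
    rw [← hkey]
    refine ⟨algebraMap L F r * l₁ + algebraMap L F s * l₂,
      O₁.add_mem _ _ (O₁.mul_mem _ _ (hAO₁ r hr) hl₁) (O₁.mul_mem _ _ (hAO₁ s hs) hl₂), ?_⟩
    rw [hrel]
    have h1 : (p : L) * a = a * e * r := by rw [hpr]; ring
    have h2 : a ^ p = a * e * s := by
      have : a ^ p = a * a ^ (p - 1) := by
        rw [← pow_succ', Nat.sub_add_cancel hp]
      rw [this, has]; ring
    rw [h1, h2]
    simp only [map_mul]
    ring
  have := S33N0_Dep_inv A O₁ hAm₁ hae hae1 hdep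
  rwa [inv_inv] at this

/-- **(N0), power form**: depth `a₀ e₀ ^ n` at `V₁` and at `V₂`, for every `n`. -/
theorem S33N0_main_pow
    (hAO₁ : ∀ a ∈ A, algebraMap L F a ∈ O₁) (hAO₂ : ∀ a ∈ A, algebraMap L F a ∈ O₂)
    (hAm₁ : ∀ a ∈ A, A.valuation a < 1 → O₁.valuation (algebraMap L F a) < 1)
    (hAm₂ : ∀ a ∈ A, A.valuation a < 1 → O₂.valuation (algebraMap L F a) < 1)
    (N₁₂ N₂₁ : F →*₀ F)
    (hNE₁ : ∀ a ∈ A, A.valuation a < 1 → ∀ g : F, S33N0_Dep O₂ a g →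
      ∃ l₁ ∈ O₁, ∃ l₂ ∈ O₁, N₁₂ g / g - 1 =
        algebraMap L F ((p : L) * a) * l₁ + algebraMap L F (a ^ p) * l₂)
    (hNE₂ : ∀ a ∈ A, A.valuation a < 1 → ∀ g : F, S33N0_Dep O₁ a g →
      ∃ l₁ ∈ O₂, ∃ l₂ ∈ O₂, N₂₁ g / g - 1 =
        algebraMap L F ((p : L) * a) * l₁ + algebraMap L F (a ^ p) * l₂)
    (hp : 0 < p) {u h₁ h₂ : F} (hu : u ≠ 0) (hN₁ : N₁₂ u = h₁ ^ p) (hN₂ : N₂₁ u = h₂ ^ p)
    {a₀ e₀ : L} (ha₀ : a₀ ∈ A) (ha₀1 : A.valuation a₀ < 1) (he₀ : e₀ ∈ A)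
    (hep : ∃ r ∈ A, (p : L) = e₀ * r) (hea : ∃ r ∈ A, a₀ ^ (p - 1) = e₀ * r)
    (hstart₁ : ∃ H : F, H ≠ 0 ∧ S33N0_Dep O₁ a₀ (u / H ^ p))
    (hstart₂ : ∃ H : F, H ≠ 0 ∧ S33N0_Dep O₂ a₀ (u / H ^ p)) (n : ℕ) :
    (∃ H : F, H ≠ 0 ∧ S33N0_Dep O₁ (a₀ * e₀ ^ n) (u / H ^ p)) ∧
      (∃ H : F, H ≠ 0 ∧ S33N0_Dep O₂ (a₀ * e₀ ^ n) (u / H ^ p)) := by
  induction n with
  | zero =>
    rw [pow_zero, mul_one]
    exact ⟨hstart₁, hstart₂⟩
  | succ n ih =>
    have han : a₀ * e₀ ^ n ∈ A := A.mul_mem _ _ ha₀ (A.pow_mem he₀ n)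
    have han1 : A.valuation (a₀ * e₀ ^ n) < 1 := by
      rw [map_mul]
      exact lt_of_le_of_lt
        (mul_le_of_le_one_right' ((A.valuation_le_one_iff _).2 (A.pow_mem he₀ n))) ha₀1
    have hea' : ∃ r ∈ A, (a₀ * e₀ ^ n) ^ (p - 1) = e₀ * r := by
      obtain ⟨r, hr, e⟩ := hea
      refine ⟨r * (e₀ ^ n) ^ (p - 1), A.mul_mem _ _ hr (A.pow_mem (A.pow_mem he₀ n) _), ?_⟩
      rw [mul_pow, e]; ring
    obtain ⟨⟨H₁, hH₁, hd₁⟩, ⟨H₂, hH₂, hd₂⟩⟩ := ih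
    have e1 : a₀ * e₀ ^ (n + 1) = a₀ * e₀ ^ n * e₀ := by rw [pow_succ]; ring
    rw [e1]
    exact ⟨S33N0_step A O₁ O₂ p hAO₁ hAm₁ N₁₂ hNE₁ hu hN₁ han han1 he₀ hep hea' hp hH₂ hd₂,
      S33N0_step A O₂ O₁ p hAO₂ hAm₂ N₂₁ hNE₂ hu hN₂ han han1 he₀ hep hea' hp hH₁ hd₁⟩

/-- **(N0)**: a Kummer generator of depth `> 0` at `V₁`, `V₂` whose two norms are `p`-th powers
is a `p`-th power at `V₁` and at `V₂` to ANY precision `c ≠ 0`. -/
theorem S33N0_main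
    (hAO₁ : ∀ a ∈ A, algebraMap L F a ∈ O₁) (hAO₂ : ∀ a ∈ A, algebraMap L F a ∈ O₂)
    (hAm₁ : ∀ a ∈ A, A.valuation a < 1 → O₁.valuation (algebraMap L F a) < 1)
    (hAm₂ : ∀ a ∈ A, A.valuation a < 1 → O₂.valuation (algebraMap L F a) < 1)
    (N₁₂ N₂₁ : F →*₀ F)
    (hNE₁ : ∀ a ∈ A, A.valuation a < 1 → ∀ g : F, S33N0_Dep O₂ a g →
      ∃ l₁ ∈ O₁, ∃ l₂ ∈ O₁, N₁₂ g / g - 1 =
        algebraMap L F ((p : L) * a) * l₁ + algebraMap L F (a ^ p) * l₂)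
    (hNE₂ : ∀ a ∈ A, A.valuation a < 1 → ∀ g : F, S33N0_Dep O₁ a g →
      ∃ l₁ ∈ O₂, ∃ l₂ ∈ O₂, N₂₁ g / g - 1 =
        algebraMap L F ((p : L) * a) * l₁ + algebraMap L F (a ^ p) * l₂)
    (hp : 0 < p) {u h₁ h₂ : F} (hu : u ≠ 0) (hN₁ : N₁₂ u = h₁ ^ p) (hN₂ : N₂₁ u = h₂ ^ p)
    {a₀ e₀ : L} (ha₀ : a₀ ∈ A) (ha₀1 : A.valuation a₀ < 1) (he₀ : e₀ ∈ A)
    (hep : ∃ r ∈ A, (p : L) = e₀ * r) (hea : ∃ r ∈ A, a₀ ^ (p - 1) = e₀ * r)
    (hrank : ∀ c ∈ A, c ≠ 0 → ∃ n : ℕ, ∃ r ∈ A, e₀ ^ n = c * r)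
    (hstart₁ : ∃ H : F, H ≠ 0 ∧ S33N0_Dep O₁ a₀ (u / H ^ p))
    (hstart₂ : ∃ H : F, H ≠ 0 ∧ S33N0_Dep O₂ a₀ (u / H ^ p))
    {c : L} (hc : c ∈ A) (hc0 : c ≠ 0) :
    (∃ H : F, H ≠ 0 ∧ S33N0_Dep O₁ c (u / H ^ p)) ∧
      (∃ H : F, H ≠ 0 ∧ S33N0_Dep O₂ c (u / H ^ p)) := by
  obtain ⟨n, r, hr, hn⟩ := hrank c hc hc0
  obtain ⟨⟨H₁, hH₁, hd₁⟩, ⟨H₂, hH₂, hd₂⟩⟩ :=
    S33N0_main_pow A O₁ O₂ p hAO₁ hAO₂ hAm₁ hAm₂ N₁₂ N₂₁ hNE₁ hNE₂ hp hu hN₁ hN₂ ha₀ ha₀1 he₀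
      hep hea hstart₁ hstart₂ n
  have hdiv : ∃ r' ∈ A, a₀ * e₀ ^ n = c * r' :=
    ⟨a₀ * r, A.mul_mem _ _ ha₀ hr, by rw [hn]; ring⟩
  exact ⟨⟨H₁, hH₁, S33N0_Dep_mono A O₁ hAO₁ hdiv hd₁⟩,
    ⟨H₂, hH₂, S33N0_Dep_mono A O₂ hAO₂ hdiv hd₂⟩⟩

end N0

/-! ### (PD): the local `p`-depth -/

section PD

variable {L F : Type*} [Field L] [Field F] [Algebra L F]
variable (A : ValuationSubring L) (O : ValuationSubring F) (p : ℕ)

/-- a constant of `A` that is a non-unit of `O` is a non-unit of `A`. -/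
theorem S33N0_const_lt (hAO : ∀ a ∈ A, algebraMap L F a ∈ O) {b : L} (hb : b ∈ A)
    (hb1 : O.valuation (algebraMap L F b) < 1) : A.valuation b < 1 := by
  by_contra hcon
  have h1 : A.valuation b = 1 := le_antisymm ((A.valuation_le_one_iff b).2 hb) (not_lt.1 hcon)
  have hb0 : b ≠ 0 := by
    intro h0; rw [h0, map_zero] at h1; exact zero_ne_one h1
  have hinv : b⁻¹ ∈ A := by
    rw [← A.valuation_le_one_iff, map_inv₀, h1, inv_one]
  have h2 := hAO _ hinv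
  have h3 : algebraMap L F b * algebraMap L F b⁻¹ = 1 := by
    rw [← map_mul, mul_inv_cancel₀ hb0, map_one]
  have h4 : O.valuation (algebraMap L F b) * O.valuation (algebraMap L F b⁻¹) = 1 := by
    rw [← map_mul, h3, map_one]
  have h5 : O.valuation (algebraMap L F b) * O.valuation (algebraMap L F b⁻¹) < 1 :=
    lt_of_le_of_lt (mul_le_of_le_one_right' ((O.valuation_le_one_iff _).2 h2)) hb1
  rw [h4] at h5
  exact lt_irrefl _ h5

/-- division in the valuation ring. -/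
theorem S33N0_div_mem {x y : L} (hy : y ≠ 0) (h : A.valuation x ≤ A.valuation y) :
    ∃ r ∈ A, x = y * r := by
  refine ⟨x / y, ?_, by field_simp⟩
  rw [← A.valuation_le_one_iff, map_div₀]
  exact div_le_one_of_le₀ h zero_le

theorem S33N0_div_lt {x y : L} (hy : y ≠ 0) (h : A.valuation x < A.valuation y) :
    ∃ r ∈ A, A.valuation r < 1 ∧ x = y * r := by
  have hpos : 0 < A.valuation y := zero_lt_iff.2 ((Valuation.ne_zero_iff _).2 hy)
  have h1 : A.valuation (x / y) < 1 := by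
    rw [map_div₀]
    exact (div_lt_one₀ hpos).2 h
  exact ⟨x / y, (A.valuation_le_one_iff _).1 h1.le, h1, by field_simp⟩

/-- **(PD0)**: if `G ^ p = 1 + a t` with `t ∈ O` and `a ∈ 𝔪_A` less deep than `p λ`, then
`t ≡ e y ^ p` modulo `𝔪_A O`. -/
theorem S33N0_pdepth_pow (hp : p.Prime)
    (hAO : ∀ a ∈ A, algebraMap L F a ∈ O)
    (hAm : ∀ a ∈ A, A.valuation a < 1 → O.valuation (algebraMap L F a) < 1)
    (hpA : (p : L) ∈ A) (hp1 : A.valuation (p : L) < 1)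
    (hval : ∀ x ∈ O, x ≠ 0 → ∃ b ∈ A, b ≠ 0 ∧ ∃ y ∈ O, y⁻¹ ∈ O ∧ x = algebraMap L F b * y)
    {a : L} (ha : a ∈ A) (ha0 : a ≠ 0) (ha1 : A.valuation a < 1)
    (hdeep : ∀ b ∈ A, (∃ r ∈ A, b ^ (p - 1) = (p : L) * r) →
      ∃ m ∈ A, A.valuation m < 1 ∧ (p : L) * b = a * m)
    {G t : F} (ht : t ∈ O) (hrel : G ^ p = 1 + algebraMap L F a * t) :
    ∃ e ∈ A, ∃ y ∈ O, ∃ m ∈ A, A.valuation m < 1 ∧ ∃ l ∈ O,
      t = algebraMap L F e * y ^ p + algebraMap L F m * l := by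
  have hppos : 0 < p := hp.pos
  have ha0F : algebraMap L F a ≠ 0 := (map_ne_zero _).2 ha0
  have hat : O.valuation (algebraMap L F a * t) < 1 := by
    rw [map_mul]
    exact lt_of_le_of_lt (mul_le_of_le_one_right' ((O.valuation_le_one_iff t).2 ht))
      (hAm a ha ha1)
  have hpO : O.valuation ((p : F)) < 1 := by
    have := hAm _ hpA hp1
    rwa [map_natCast] at this
  -- `G` is a unit of `O`
  have hGp : O.valuation (G ^ p) = 1 := by
    rw [hrel]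
    have := Valuation.map_add_eq_of_lt_left O.valuation
      (x := (1 : F)) (y := algebraMap L F a * t) (by rw [map_one]; exact hat)
    rw [this, map_one]
  have hG1 : O.valuation G = 1 := by
    rw [map_pow] at hGp
    exact (pow_eq_one_iff_of_nonneg zero_le hppos.ne').1 hGp
  have hGO : G ∈ O := (O.valuation_le_one_iff G).1 hG1.le
  -- `x = G - 1`
  obtain ⟨x, hx⟩ : ∃ x : F, x = G - 1 := ⟨_, rfl⟩
  have hxO : x ∈ O := by rw [hx]; exact O.sub_mem hGO O.one_mem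
  obtain ⟨P, hPO, hP⟩ : ∃ P ∈ O, (x + 1) ^ p = x ^ p + 1 + (p : F) * x * P := by
    obtain ⟨r, hr⟩ := exists_add_pow_prime_eq hp (⟨x, hxO⟩ : ↥O) 1
    refine ⟨r, r.2, ?_⟩
    have := congrArg (fun z : ↥O => (z : F)) hr
    simpa using this
  have hxG : x + 1 = G := by rw [hx]; ring
  have hmain : x ^ p + (p : F) * x * P = algebraMap L F a * t := by
    have h1 := hP
    rw [hxG, hrel] at h1
    linear_combination -h1
  -- `x` is a non-unit
  have hx1 : O.valuation x < 1 := by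
    by_contra hcon
    have hxv : O.valuation x = 1 :=
      le_antisymm ((O.valuation_le_one_iff x).2 hxO) (not_lt.1 hcon)
    have h2 : x ^ p = algebraMap L F a * t - (p : F) * x * P := by
      linear_combination hmain
    have h3 : O.valuation (x ^ p) < 1 := by
      rw [h2]
      refine Valuation.map_sub_lt _ hat ?_
      rw [map_mul, map_mul]
      calc O.valuation (p : F) * O.valuation x * O.valuation P
          ≤ O.valuation (p : F) * O.valuation x :=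
            mul_le_of_le_one_right' ((O.valuation_le_one_iff P).2 hPO)
        _ ≤ O.valuation (p : F) := mul_le_of_le_one_right' hxv.le
        _ < 1 := hpO
    rw [map_pow, hxv, one_pow] at h3
    exact lt_irrefl _ h3
  by_cases hx0 : x = 0
  · refine ⟨0, A.zero_mem, 0, O.zero_mem, 0, A.zero_mem, by rw [map_zero]; exact zero_lt_one,
      0, O.zero_mem, ?_⟩
    rw [hx0, zero_pow hppos.ne', mul_zero, zero_mul, zero_add] at hmain
    have : t = 0 := by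
      rcases mul_eq_zero.1 hmain.symm with h | h
      · exact absurd h ha0F
      · exact h
    rw [this]; simp
  obtain ⟨b, hb, hb0, y, hy, hyinv, hxy⟩ := hval x hxO hx0
  have hy0 : y ≠ 0 := by
    intro h0; rw [h0, mul_zero] at hxy; exact hx0 hxy
  have hyv : O.valuation y = 1 := by
    have h1 := (O.valuation_le_one_iff y).2 hy
    have h2 := (O.valuation_le_one_iff y⁻¹).2 hyinv
    rw [map_inv₀] at h2
    have h3 : 1 ≤ O.valuation y := by
      have hpos : 0 < O.valuation y := zero_lt_iff.2 ((Valuation.ne_zero_iff _).2 hy0)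
      exact (inv_le_one₀ hpos).1 h2
    exact le_antisymm h1 h3
  have hbO : O.valuation (algebraMap L F b) < 1 := by
    have : O.valuation x = O.valuation (algebraMap L F b) := by
      rw [hxy, map_mul, hyv, mul_one]
    rw [← this]; exact hx1
  have hb1 : A.valuation b < 1 := S33N0_const_lt A O hAO hb hbO
  have hb0F : algebraMap L F b ≠ 0 := (map_ne_zero _).2 hb0
  -- the equation in terms of `b`, `y`
  have hmain' : algebraMap L F (b ^ p) * y ^ p + algebraMap L F ((p : L) * b) * (y * P) =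
      algebraMap L F a * t := by
    rw [← hmain, hxy]
    simp only [map_mul, map_pow, map_natCast]
    ring
  have hbp : b ^ (p - 1) ∈ A := A.pow_mem hb _
  have hbpp : b ^ p = b ^ (p - 1) * b := by
    rw [← pow_succ, Nat.sub_add_cancel hppos]
  have hbp0 : b ^ p ≠ 0 := pow_ne_zero _ hb0
  have hcancel : ∀ {c z z' : F}, c ≠ 0 → c * z = c * z' → z = z' :=
    fun hc h => mul_left_cancel₀ hc h
  -- comparison of `b ^ (p - 1)` and `p` in the valuation ring `A`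
  rcases le_or_gt (A.valuation (b ^ (p - 1))) (A.valuation (p : L)) with hle | hlt
  · -- `b ^ (p - 1) = p r`
    have hp0 : (p : L) ≠ 0 := by
      intro h0
      rw [h0, map_zero] at hle
      have h1 : A.valuation (b ^ (p - 1)) = 0 := le_antisymm hle zero_le
      exact pow_ne_zero _ hb0 ((Valuation.zero_iff _).1 h1)
    obtain ⟨r, hr, hbr⟩ := S33N0_div_mem A hp0 hle
    obtain ⟨m, hm, hm1, hpb⟩ := hdeep b hb ⟨r, hr, hbr⟩
    refine ⟨0, A.zero_mem, 0, O.zero_mem, m, hm, hm1,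
      algebraMap L F r * y ^ p + y * P,
      O.add_mem _ _ (O.mul_mem _ _ (hAO r hr) (O.pow_mem hy p)) (O.mul_mem _ _ hy hPO), ?_⟩
    have h1 : b ^ p = a * m * r := by
      rw [hbpp, hbr, ← hpb]; ring
    rw [h1, hpb] at hmain'
    apply hcancel ha0F
    rw [← hmain']
    simp only [map_mul, map_zero]
    ring
  · -- `p = b ^ (p - 1) m'`, `m' ∈ 𝔪_A`
    obtain ⟨m', hm', hm'1, hpm⟩ := S33N0_div_lt A (pow_ne_zero (p - 1) hb0) hlt
    have hpb : (p : L) * b = b ^ p * m' := by rw [hpm, hbpp]; ring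
    rw [hpb] at hmain'
    rcases le_or_gt (A.valuation (b ^ p)) (A.valuation a) with hle2 | hlt2
    · obtain ⟨e, he, hbe⟩ := S33N0_div_mem A ha0 hle2
      refine ⟨e, he, y, hy, m', hm', hm'1, algebraMap L F e * (y * P),
        O.mul_mem _ _ (hAO e he) (O.mul_mem _ _ hy hPO), ?_⟩
      rw [hbe] at hmain'
      apply hcancel ha0F
      rw [← hmain']
      simp only [map_mul]
      ring
    · exfalso
      obtain ⟨m'', hm'', hm''1, ham⟩ := S33N0_div_lt A hbp0 hlt2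
      rw [ham] at hmain'
      have h2 : y ^ p = algebraMap L F m'' * t - algebraMap L F m' * (y * P) := by
        have hbpF : algebraMap L F (b ^ p) ≠ 0 := (map_ne_zero _).2 hbp0
        apply hcancel hbpF
        have : algebraMap L F (b ^ p) * (algebraMap L F m'' * t - algebraMap L F m' * (y * P))
            = algebraMap L F (b ^ p * m'') * t - algebraMap L F (b ^ p * m') * (y * P) := by
          simp only [map_mul]; ring
        rw [this, ← hmain']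
        ring
      have h3 : O.valuation (y ^ p) < 1 := by
        rw [h2]
        refine Valuation.map_sub_lt _ ?_ ?_
        · rw [map_mul]
          exact lt_of_le_of_lt (mul_le_of_le_one_right' ((O.valuation_le_one_iff t).2 ht))
            (hAm m'' hm'' hm''1)
        · rw [map_mul]
          exact lt_of_le_of_lt
            (mul_le_of_le_one_right' ((O.valuation_le_one_iff _).2 (O.mul_mem _ _ hy hPO)))
            (hAm m' hm' hm'1)
      rw [map_pow, hyv, one_pow] at h3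
      exact lt_irrefl _ h3

/-- **(PD)**: local `p`-depth.  If `u / H ^ p` has depth `c₀ ∈ a 𝔪_A` and
`h ^ p u - 1 = a w`, `w ∈ O`, `a ∈ 𝔪_A` less deep than `p λ`, then `w ≡ e y ^ p` modulo
`𝔪_A O`, with `e ∈ A`, `y ∈ O`. -/
theorem S33N0_pdepth (hp : p.Prime)
    (hAO : ∀ a ∈ A, algebraMap L F a ∈ O)
    (hAm : ∀ a ∈ A, A.valuation a < 1 → O.valuation (algebraMap L F a) < 1)
    (hpA : (p : L) ∈ A) (hp1 : A.valuation (p : L) < 1)
    (hval : ∀ x ∈ O, x ≠ 0 → ∃ b ∈ A, b ≠ 0 ∧ ∃ y ∈ O, y⁻¹ ∈ O ∧ x = algebraMap L F b * y)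
    {a : L} (ha : a ∈ A) (ha0 : a ≠ 0) (ha1 : A.valuation a < 1)
    (hdeep : ∀ b ∈ A, (∃ r ∈ A, b ^ (p - 1) = (p : L) * r) →
      ∃ m ∈ A, A.valuation m < 1 ∧ (p : L) * b = a * m)
    {u H : F} (hH : H ≠ 0) {m₀ : L} (hm₀ : m₀ ∈ A) (hm₀1 : A.valuation m₀ < 1)
    (hdep : S33N0_Dep O (a * m₀) (u / H ^ p))
    {h w : F} (hw : w ∈ O) (hrel : h ^ p * u - 1 = algebraMap L F a * w) :
    ∃ e ∈ A, ∃ y ∈ O, ∃ m ∈ A, A.valuation m < 1 ∧ ∃ l ∈ O,
      w = algebraMap L F e * y ^ p + algebraMap L F m * l := by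
  obtain ⟨l₀, hl₀, hε⟩ := hdep
  have ham : a * m₀ ∈ A := A.mul_mem _ _ ha hm₀
  have ham1 : A.valuation (a * m₀) < 1 := by
    rw [map_mul]
    exact lt_of_le_of_lt (mul_le_of_le_one_right' ((A.valuation_le_one_iff _).2 hm₀)) ha1
  have hne := S33N0_one_add_ne_zero A O hAm ham ham1 hl₀
  have hinv := S33N0_one_add_inv_mem A O hAm ham ham1 hl₀
  have hHp : H ^ p ≠ 0 := pow_ne_zero _ hH
  obtain ⟨D, hDdef⟩ : ∃ D : F, D = 1 + algebraMap L F (a * m₀) * l₀ := ⟨_, rfl⟩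
  rw [← hDdef] at hne hinv
  have hDeq : D = 1 + algebraMap L F a * algebraMap L F m₀ * l₀ := by
    rw [hDdef, map_mul]
  have hu : u = H ^ p * D := by
    have : u / H ^ p = D := by rw [hDdef, ← hε]; ring
    rw [← this]; field_simp
  -- `t = (w - m₀ l₀) / (1 + c₀ l₀)`
  obtain ⟨t, htdef⟩ : ∃ t : F, t = (w - algebraMap L F m₀ * l₀) * D⁻¹ := ⟨_, rfl⟩
  have htO : t ∈ O := by
    rw [htdef]
    exact O.mul_mem _ _ (O.sub_mem hw (O.mul_mem _ _ (hAO _ hm₀) hl₀)) hinv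
  have htD : t * D = w - algebraMap L F m₀ * l₀ := by
    rw [htdef, mul_assoc, inv_mul_cancel₀ hne, mul_one]
  have hGt : (h * H) ^ p = 1 + algebraMap L F a * t := by
    have h1 : h ^ p * u = 1 + algebraMap L F a * w := by rw [← hrel]; ring
    rw [hu] at h1
    apply mul_right_cancel₀ hne
    have h3 : (1 + algebraMap L F a * t) * D = D + algebraMap L F a * (t * D) := by ring
    rw [h3, htD, mul_pow]
    rw [hDeq] at h1 ⊢
    linear_combination h1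
  obtain ⟨e, he, y, hy, m, hm, hm1, l, hl, ht⟩ :=
    S33N0_pdepth_pow A O p hp hAO hAm hpA hp1 hval ha ha0 ha1 hdeep htO hGt
  -- `w = t + m₀ (l₀ + a l₀ t)`
  have hwt : w = t + algebraMap L F m₀ * (l₀ + algebraMap L F a * (l₀ * t)) := by
    rw [hDeq] at htD
    linear_combination -htD
  -- combine the two error terms: `m l + m₀ l'` is a multiple of the less deep of `m`, `m₀`
  rcases le_total (A.valuation m) (A.valuation m₀) with hmm | hmm
  · by_cases hm₀0 : m₀ = 0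
    · refine ⟨e, he, y, hy, m, hm, hm1, l, hl, ?_⟩
      rw [hwt, hm₀0, map_zero, zero_mul, add_zero, ht]
    obtain ⟨r, hr, hmr⟩ := S33N0_div_mem A hm₀0 hmm
    refine ⟨e, he, y, hy, m₀, hm₀, hm₀1,
      algebraMap L F r * l + (l₀ + algebraMap L F a * (l₀ * t)),
      O.add_mem _ _ (O.mul_mem _ _ (hAO r hr) hl)
        (O.add_mem _ _ hl₀ (O.mul_mem _ _ (hAO a ha) (O.mul_mem _ _ hl₀ htO))), ?_⟩
    rw [hwt, ht, hmr]
    simp only [map_mul]
    ring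
  · by_cases hm0 : m = 0
    · refine ⟨e, he, y, hy, m₀, hm₀, hm₀1, l₀ + algebraMap L F a * (l₀ * t),
        O.add_mem _ _ hl₀ (O.mul_mem _ _ (hAO a ha) (O.mul_mem _ _ hl₀ htO)), ?_⟩
      rw [hwt, ht, hm0, map_zero, zero_mul, add_zero]
    obtain ⟨r, hr, hmr⟩ := S33N0_div_mem A hm0 hmm
    refine ⟨e, he, y, hy, m, hm, hm1,
      l + algebraMap L F r * (l₀ + algebraMap L F a * (l₀ * t)),
      O.add_mem _ _ hl (O.mul_mem _ _ (hAO r hr)
        (O.add_mem _ _ hl₀ (O.mul_mem _ _ (hAO a ha) (O.mul_mem _ _ hl₀ htO)))), ?_⟩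
    rw [hwt, ht, hmr]
    simp only [map_mul]
    ring

end PD

end Fermat.Agent.S33
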