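import Fermat.Agent.S33.NewLoc
import Fermat.Agent.S33.NewDepth

/-!
# TRACK 11 (S33), package N0-BRIDGE (helper17), part 1: the abstract bridge
`S33N0_main` (helper10, `S33/NewLoc.lean`) ⇒ `hN0` of `S33NA_rat` (helper16, `S33/NewAsm.lean`).
Prefix `S33N0B_`.  Mathlib + `S33/NewLoc` + `S33/NewDepth` only.

`L ⊂ F` fields (`F = F'' = fixF(I'')`, `L = L''`), `A ⊂ L` a valuation subring with an element
`ϖ` (`ϖ ∈ 𝔪_A`, `p ∈ ϖ A`), `O₁ O₂ ⊂ F` the two Gauss valuation rings.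

* `S33N0B_div_of_dep` : `S33N0_Dep O (ϖ ^ n) (u / H ^ p)` ⇒ `S33N1_Div O ϖ n (u · (H⁻¹) ^ p − 1)`;
* **`S33N0B_main`** : (NE₁), (NE₂), `N₁₂ u = h₁ ^ p`, `N₂₁ u = h₂ ^ p`, `u − 1 ∈ ϖ O_i` ⇒
  `∀ n, ∃ y, S33N1_Div O_i ϖ n (u · y ^ p − 1)` for `i = 1, 2`  (= `hN0`);
* `S33N0B_Ofam`, `S33N0B_hN0` : the same for the family `Fin 2 → Subring F`;
* `S33N0B_val_lt_one_iff`, `S33N0B_val_lt_comap` : `v(x) < 1` in terms of membership; comap;
* **`S33N0B_transfer`** : the descent of a norm estimate `X ∈ c₁ O' + c₂ O'` along field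
  embeddings `L → L'`, `F → F'` (`c₁, c₂ ∈ A = A' ∩ L`, `X ∈ F`): then `X ∈ c₁ O + c₂ O` with
  `O = O' ∩ F`;
* `S33N0B_restrict` : the restriction of a multiplicative map `N' : F' →*₀ F'` to a subfield
  stable under it; **`S33N0B_NE_descend`** : (NE) over `(L', F')` ⇒ (NE) over `(L, F)`.
-/

set_option autoImplicit false
set_option linter.unusedSectionVars false
set_option linter.unusedVariables false

namespace Fermat.Agent.S33

section abs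

variable {L F : Type*} [Field L] [Field F] [Algebra L F]
variable (A : ValuationSubring L) (O O₁ O₂ : ValuationSubring F) (p : ℕ)

/-- conversion of the depth predicates: `S33N0_Dep` (helper10) ⇒ `S33N1_Div` (helper16). -/
theorem S33N0B_div_of_dep {ϖ : L} {u H : F} (n : ℕ)
    (h : S33N0_Dep O (ϖ ^ n) (u / H ^ p)) :
    S33N1_Div O.toSubring (algebraMap L F ϖ) n (u * (H⁻¹) ^ p - 1) := by
  obtain ⟨l, hl, e⟩ := h
  refine ⟨l, hl, ?_⟩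
  rw [← map_pow, ← e, div_eq_mul_inv, inv_pow]

/-- **(N0) in the shape `hN0` of `S33NA_rat`.** -/
theorem S33N0B_main
    (hAO₁ : ∀ a ∈ A, algebraMap L F a ∈ O₁) (hAO₂ : ∀ a ∈ A, algebraMap L F a ∈ O₂)
    (hAm₁ : ∀ a ∈ A, A.valuation a < 1 → O₁.valuation (algebraMap L F a) < 1)
    (hAm₂ : ∀ a ∈ A, A.valuation a < 1 → O₂.valuation (algebraMap L F a) < 1)
    (N₁₂ N₂₁ : F →*₀ F)
    (hNE₁ : ∀ a ∈ A, A.valuation a < 1 → ∀ g : F, S33N0_Dep O₂ a g →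
      ∃ l₁ ∈ O₁, ∃ l₂ ∈ O₁, N₁₂ g / g - 1 =
        algebraMap L F ((p : L) * a) * l₁ + algebraMap L F (a ^ p) * l₂)
    (hNE₂ : ∀ a ∈ A, A.valuation a < 1 → ∀ g : F, S33N0_Dep O₁ a g →
      ∃ l₁ ∈ O₂, ∃ l₂ ∈ O₂, N₂₁ g / g - 1 =
        algebraMap L F ((p : L) * a) * l₁ + algebraMap L F (a ^ p) * l₂)
    (hp : 2 ≤ p) {u h₁ h₂ : F} (hu : u ≠ 0) (hN₁ : N₁₂ u = h₁ ^ p) (hN₂ : N₂₁ u = h₂ ^ p)
    {ϖ : L} (hϖ : ϖ ∈ A) (hϖ1 : A.valuation ϖ < 1) (hpϖ : ∃ r ∈ A, (p : L) = ϖ * r)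
    (hstart₁ : S33N0_Dep O₁ ϖ u) (hstart₂ : S33N0_Dep O₂ ϖ u) (n : ℕ) :
    (∃ y : F, S33N1_Div O₁.toSubring (algebraMap L F ϖ) n (u * y ^ p - 1)) ∧
      (∃ y : F, S33N1_Div O₂.toSubring (algebraMap L F ϖ) n (u * y ^ p - 1)) := by
  have hea : ∃ r ∈ A, ϖ ^ (p - 1) = ϖ * r :=
    ⟨ϖ ^ (p - 2), A.pow_mem hϖ _, by
      rw [← pow_succ']
      congr 1
      omega⟩
  have hs : ∀ (O : ValuationSubring F), S33N0_Dep O ϖ u →
      ∃ H : F, H ≠ 0 ∧ S33N0_Dep O ϖ (u / H ^ p) := fun O h =>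
    ⟨1, one_ne_zero, by rwa [one_pow, div_one]⟩
  obtain ⟨⟨H₁, hH₁, hd₁⟩, ⟨H₂, hH₂, hd₂⟩⟩ :=
    S33N0_main_pow A O₁ O₂ p hAO₁ hAO₂ hAm₁ hAm₂ N₁₂ N₂₁ hNE₁ hNE₂ (by omega) hu hN₁ hN₂ hϖ hϖ1
      hϖ hpϖ hea (hs O₁ hstart₁) (hs O₂ hstart₂) n
  have e : ϖ * ϖ ^ n = ϖ ^ (n + 1) := (pow_succ' ϖ n).symm
  rw [e] at hd₁ hd₂
  refine ⟨⟨H₁⁻¹, ?_⟩, ⟨H₂⁻¹, ?_⟩⟩
  · exact S33N1_Div_mono O₁.toSubring _ (hAO₁ ϖ hϖ) (Nat.le_succ n)
      (S33N0B_div_of_dep O₁ p (n + 1) hd₁)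
  · exact S33N1_Div_mono O₂.toSubring _ (hAO₂ ϖ hϖ) (Nat.le_succ n)
      (S33N0B_div_of_dep O₂ p (n + 1) hd₂)

/-- the family `i ↦ O_i` (`0 ↦ O₁`, `1 ↦ O₂`) as subrings. -/
def S33N0B_Ofam : Fin 2 → Subring F := ![O₁.toSubring, O₂.toSubring]

@[simp] theorem S33N0B_Ofam_zero : S33N0B_Ofam O₁ O₂ 0 = O₁.toSubring := rfl

@[simp] theorem S33N0B_Ofam_one : S33N0B_Ofam O₁ O₂ 1 = O₂.toSubring := rfl

/-- **`hN0` of `S33NA_rat`** for the family `S33N0B_Ofam O₁ O₂`. -/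
theorem S33N0B_hN0
    (hAO₁ : ∀ a ∈ A, algebraMap L F a ∈ O₁) (hAO₂ : ∀ a ∈ A, algebraMap L F a ∈ O₂)
    (hAm₁ : ∀ a ∈ A, A.valuation a < 1 → O₁.valuation (algebraMap L F a) < 1)
    (hAm₂ : ∀ a ∈ A, A.valuation a < 1 → O₂.valuation (algebraMap L F a) < 1)
    (N₁₂ N₂₁ : F →*₀ F)
    (hNE₁ : ∀ a ∈ A, A.valuation a < 1 → ∀ g : F, S33N0_Dep O₂ a g →
      ∃ l₁ ∈ O₁, ∃ l₂ ∈ O₁, N₁₂ g / g - 1 =
        algebraMap L F ((p : L) * a) * l₁ + algebraMap L F (a ^ p) * l₂)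
    (hNE₂ : ∀ a ∈ A, A.valuation a < 1 → ∀ g : F, S33N0_Dep O₁ a g →
      ∃ l₁ ∈ O₂, ∃ l₂ ∈ O₂, N₂₁ g / g - 1 =
        algebraMap L F ((p : L) * a) * l₁ + algebraMap L F (a ^ p) * l₂)
    (hp : 2 ≤ p) {u h₁ h₂ : F} (hu : u ≠ 0) (hN₁ : N₁₂ u = h₁ ^ p) (hN₂ : N₂₁ u = h₂ ^ p)
    {ϖ : L} (hϖ : ϖ ∈ A) (hϖ1 : A.valuation ϖ < 1) (hpϖ : ∃ r ∈ A, (p : L) = ϖ * r)
    (hstart₁ : S33N0_Dep O₁ ϖ u) (hstart₂ : S33N0_Dep O₂ ϖ u) :
    ∀ i, ∀ n : ℕ, ∃ y : F,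
      S33N1_Div (S33N0B_Ofam O₁ O₂ i) (algebraMap L F ϖ) n (u * y ^ p - 1) := by
  intro i n
  have h := S33N0B_main A O₁ O₂ p hAO₁ hAO₂ hAm₁ hAm₂ N₁₂ N₂₁ hNE₁ hNE₂ hp hu hN₁ hN₂ hϖ hϖ1
    hpϖ hstart₁ hstart₂ n
  fin_cases i
  · exact h.1
  · exact h.2

end abs

/-! ### valuations and comaps -/

section val

variable {K : Type*} [Field K] (B : ValuationSubring K)

/-- `v(x) < 1` iff `x = 0` or `x⁻¹ ∉ B`. -/
theorem S33N0B_val_lt_one_iff (x : K) : B.valuation x < 1 ↔ x = 0 ∨ x⁻¹ ∉ B := by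
  by_cases hx : x = 0
  · simp [hx]
  · have h1 : B.valuation x ≠ 0 := (map_ne_zero _).2 hx
    rw [← B.valuation_le_one_iff, map_inv₀, not_le]
    constructor
    · intro h
      right
      exact (one_lt_inv₀ (zero_lt_iff.2 h1)).2 h
    · rintro (h | h)
      · exact absurd h hx
      · exact (one_lt_inv₀ (zero_lt_iff.2 h1)).1 h

variable {K' : Type*} [Field K'] (ι : K →+* K') (B' : ValuationSubring K')

/-- the valuation of the comap: `v(x) < 1 ↔ v'(ι x) < 1`. -/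
theorem S33N0B_val_lt_comap (x : K) :
    (B'.comap ι).valuation x < 1 ↔ B'.valuation (ι x) < 1 := by
  rw [S33N0B_val_lt_one_iff, S33N0B_val_lt_one_iff, ValuationSubring.mem_comap, map_inv₀,
    map_eq_zero]

end val

/-! ### the descent of the norm estimates -/

section descend

variable {L F L' F' : Type*} [Field L] [Field F] [Algebra L F] [Field L'] [Field F']
  [Algebra L' F'] (ιL : L →+* L') (ιF : F →+* F')
  (hι : ∀ c : L, ιF (algebraMap L F c) = algebraMap L' F' (ιL c))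
  (A' : ValuationSubring L') (O' : ValuationSubring F')

include hι in
/-- **descent of an estimate** `X ∈ c₁ O' + c₂ O'` to `X ∈ c₁ O + c₂ O`, `O = O' ∩ F`
(`c₁, c₂ ∈ A = A' ∩ L`). -/
theorem S33N0B_transfer (hAO' : ∀ a ∈ A', algebraMap L' F' a ∈ O')
    {c₁ c₂ : L} (hc₁ : c₁ ∈ A'.comap ιL) (hc₂ : c₂ ∈ A'.comap ιL) {X : F}
    (h : ∃ l₁ ∈ O', ∃ l₂ ∈ O', ιF X =
      algebraMap L' F' (ιL c₁) * l₁ + algebraMap L' F' (ιL c₂) * l₂) :
    ∃ l₁ ∈ O'.comap ιF, ∃ l₂ ∈ O'.comap ιF,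
      X = algebraMap L F c₁ * l₁ + algebraMap L F c₂ * l₂ := by
  obtain ⟨l₁, hl₁, l₂, hl₂, e⟩ := h
  have hAO : ∀ a ∈ A'.comap ιL, ιF (algebraMap L F a) ∈ O' := fun a ha => by
    rw [hι]; exact hAO' _ ha
  by_cases h1 : c₁ = 0
  · by_cases h2 : c₂ = 0
    · refine ⟨0, (O'.comap ιF).zero_mem, 0, (O'.comap ιF).zero_mem, ?_⟩
      simp only [h1, h2, map_zero, zero_mul, add_zero] at e
      simp only [mul_zero, add_zero]
      exact (map_eq_zero ιF).1 e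
    · have hc2 : algebraMap L F c₂ ≠ 0 := (map_ne_zero _).2 h2
      refine ⟨0, (O'.comap ιF).zero_mem, X / algebraMap L F c₂, ?_, ?_⟩
      · rw [ValuationSubring.mem_comap, map_div₀, e, h1, map_zero, map_zero, zero_mul, zero_add,
          hι]
        have : algebraMap L' F' (ιL c₂) ≠ 0 := by rw [← hι]; exact (map_ne_zero _).2 hc2
        rw [mul_div_cancel_left₀ _ this]
        exact hl₂
      · rw [mul_zero, zero_add, mul_div_cancel₀ _ hc2]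
  · have hc1 : algebraMap L F c₁ ≠ 0 := (map_ne_zero _).2 h1
    have hc1' : algebraMap L' F' (ιL c₁) ≠ 0 := by rw [← hι]; exact (map_ne_zero _).2 hc1
    by_cases hr : c₂ / c₁ ∈ A'.comap ιL
    · -- `X = c₁ (l₁ + (c₂ / c₁) l₂)`
      refine ⟨X / algebraMap L F c₁, ?_, 0, (O'.comap ιF).zero_mem, ?_⟩
      · rw [ValuationSubring.mem_comap, map_div₀, e, hι]
        have e2 : (algebraMap L' F' (ιL c₁) * l₁ + algebraMap L' F' (ιL c₂) * l₂) /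
            algebraMap L' F' (ιL c₁) = l₁ + ιF (algebraMap L F (c₂ / c₁)) * l₂ := by
          rw [hι, map_div₀, map_div₀]
          field_simp
        rw [e2]
        exact O'.add_mem _ _ hl₁ (O'.mul_mem _ _ (hAO _ hr) hl₂)
      · rw [mul_zero, add_zero, mul_div_cancel₀ _ hc1]
    · -- `c₁ / c₂ ∈ A`, `c₂ ≠ 0`: `X = c₂ ((c₁ / c₂) l₁ + l₂)`
      have h2 : c₂ ≠ 0 := by
        intro h2
        apply hr
        rw [h2, zero_div]
        exact (A'.comap ιL).zero_mem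
      have hr' : c₁ / c₂ ∈ A'.comap ιL := by
        rcases (A'.comap ιL).mem_or_inv_mem (c₂ / c₁) with h | h
        · exact absurd h hr
        · rwa [inv_div] at h
      have hc2 : algebraMap L F c₂ ≠ 0 := (map_ne_zero _).2 h2
      have hc2' : algebraMap L' F' (ιL c₂) ≠ 0 := by rw [← hι]; exact (map_ne_zero _).2 hc2
      refine ⟨0, (O'.comap ιF).zero_mem, X / algebraMap L F c₂, ?_, ?_⟩
      · rw [ValuationSubring.mem_comap, map_div₀, e, hι]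
        have e2 : (algebraMap L' F' (ιL c₁) * l₁ + algebraMap L' F' (ιL c₂) * l₂) /
            algebraMap L' F' (ιL c₂) = ιF (algebraMap L F (c₁ / c₂)) * l₁ + l₂ := by
          rw [hι, map_div₀, map_div₀]
          field_simp
        rw [e2]
        exact O'.add_mem _ _ (O'.mul_mem _ _ (hAO _ hr') hl₁) hl₂
      · rw [mul_zero, zero_add, mul_div_cancel₀ _ hc2]

/-- the restriction of a multiplicative map `N'` of `F'` to the subfield `F` (embedded by `ιF`),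
when `N'` preserves the image of `F`. -/
noncomputable def S33N0B_restrict (N' : F' →*₀ F')
    (hN : ∀ g : F, ∃ g₁ : F, ιF g₁ = N' (ιF g)) : F →*₀ F where
  toFun g := (hN g).choose
  map_zero' := by
    apply ιF.injective
    rw [(hN 0).choose_spec]
    simp only [map_zero]
  map_one' := by
    apply ιF.injective
    rw [(hN 1).choose_spec]
    simp only [map_one]
  map_mul' x y := by
    apply ιF.injective
    rw [(hN (x * y)).choose_spec, map_mul, map_mul, map_mul, (hN x).choose_spec,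
      (hN y).choose_spec]

theorem S33N0B_restrict_spec (N' : F' →*₀ F')
    (hN : ∀ g : F, ∃ g₁ : F, ιF g₁ = N' (ιF g)) (g : F) :
    ιF (S33N0B_restrict ιF N' hN g) = N' (ιF g) :=
  (hN g).choose_spec

include hι in
/-- **descent of (NE)** from `(L', F')` to `(L, F)`: `A = A' ∩ L`, `O_i = O_i' ∩ F`, `N` the
restriction of `N'`. -/
theorem S33N0B_NE_descend (O₁' O₂' : ValuationSubring F')
    (hAO' : ∀ a ∈ A', algebraMap L' F' a ∈ O₁') (p : ℕ)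
    (N' : F' →*₀ F') (hN : ∀ g : F, ∃ g₁ : F, ιF g₁ = N' (ιF g))
    (hNE : ∀ a ∈ A', A'.valuation a < 1 → ∀ g : F', S33N0_Dep O₂' a g →
      ∃ l₁ ∈ O₁', ∃ l₂ ∈ O₁', N' g / g - 1 =
        algebraMap L' F' ((p : L') * a) * l₁ + algebraMap L' F' (a ^ p) * l₂) :
    ∀ a ∈ A'.comap ιL, (A'.comap ιL).valuation a < 1 → ∀ g : F,
      S33N0_Dep (O₂'.comap ιF) a g →
      ∃ l₁ ∈ O₁'.comap ιF, ∃ l₂ ∈ O₁'.comap ιF, S33N0B_restrict ιF N' hN g / g - 1 =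
        algebraMap L F ((p : L) * a) * l₁ + algebraMap L F (a ^ p) * l₂ := by
  intro a ha ha1 g hg
  have ha' : ιL a ∈ A' := ha
  have ha1' : A'.valuation (ιL a) < 1 := (S33N0B_val_lt_comap ιL A' a).1 ha1
  have hg' : S33N0_Dep O₂' (ιL a) (ιF g) := by
    obtain ⟨l, hl, e⟩ := hg
    refine ⟨ιF l, hl, ?_⟩
    rw [← hι, ← map_mul, ← e, map_sub, map_one]
  obtain ⟨l₁, hl₁, l₂, hl₂, e⟩ := hNE _ ha' ha1' _ hg'
  have hp : ((p : L) * a) ∈ A'.comap ιL :=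
    (A'.comap ιL).mul_mem _ _ (natCast_mem _ p) ha
  have hap : a ^ p ∈ A'.comap ιL := (A'.comap ιL).pow_mem ha p
  refine S33N0B_transfer ιL ιF hι A' O₁' hAO' hp hap ⟨l₁, hl₁, l₂, hl₂, ?_⟩
  rw [map_sub, map_div₀, map_one, S33N0B_restrict_spec, e]
  simp only [map_mul, map_pow, map_natCast]

end descend

end Fermat.Agent.S33
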