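import Fermat.Agent.S33.NewLocBridgeInst
import Fermat.Agent.S33.NewDisc

/-!
# TRACK 11 (S33), package N0-BRIDGE (helper17), part 3: the target `S33NX_TN0` in the CONSUMER
form — from a uniformiser (`S33NL2_Unif`, helper7), the discreteness `S33NX_TDV` (helper3) and a
NORMALISED `u` (`u ∈ S34K_Norm T₁ T₂`, TRACK 7).  Prefix `S33N0B_`.

* `S33N0B_unif_mem`, `S33N0B_unif_p` : `ϖ ∈ A`, `p ∈ ϖ A` for a uniformiser `ϖ` of `A ∩ Ω^H`;
* `S33N0B_dep_of_red` : `u ∈ F''` normalised (reductions `1` at `V₁`, `V₂`) ⇒ `u − 1 ∈ ϖ T_i.O`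
  (from V-DISC);
* **`S33N0B_TN0_fin`** : `S33NX_TN0 … (S33NX_const ϖ _) u` from (NE₁), (NE₂) over `ℚ̄`,
  `h : S33NL2_Unif A H ϖ`, `u ∈ F''` normalised, `α (N_α u) = h₁ ^ p`, `β (N_β u) = h₂ ^ p`
  with `h₁, h₂ ∈ F''`.
-/

set_option autoImplicit false
set_option linter.unusedSectionVars false
set_option linter.unusedVariables false
set_option linter.style.haveILetI false
set_option synthInstance.maxHeartbeats 400000
set_option maxHeartbeats 1000000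

open ModularCurve AlgebraicCurve

noncomputable section

namespace Fermat.Agent.S33

open Fermat.Agent.S34 Fermat.Agent.S36 Fermat.Agent.S18 Fermat.Agent.S24 Fermat.Agent.S35
  Fermat.Agent.GalRep

local notation "Ω" => AlgebraicClosure ℚ

section unif

variable (A : ValuationSubring Ω) (H : Subgroup (Ω ≃ₐ[ℚ] Ω)) {ϖ : Ω}

/-- a uniformiser lies in `A`. -/
theorem S33N0B_unif_mem (h : S33NL2_Unif A H ϖ) : ϖ ∈ A :=
  (A.valuation_le_one_iff ϖ).1 h.lt_one.le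

/-- `p ∈ ϖ A`. -/
theorem S33N0B_unif_p {p : ℕ} (hp : p.Prime) (hA : A.LiesOverPrime p)
    (h : S33NL2_Unif A H ϖ) : ∃ r ∈ A, (p : Ω) = ϖ * r := by
  have hϖA := S33N0B_unif_mem A H h
  have hp0 : (p : Ω) ≠ 0 := by exact_mod_cast hp.ne_zero
  have hplt : A.valuation (p : Ω) < 1 := A.mem_nonunits_iff.mp hA
  obtain ⟨k, hk⟩ := h.dv (p : Ω) (fun σ _ => map_natCast σ p) hp0
  have hkneg : k < 0 := by
    by_contra hcon
    rw [not_lt] at hcon
    obtain ⟨n, rfl⟩ := Int.eq_ofNat_of_zero_le hcon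
    rw [zpow_natCast, map_mul] at hk
    have h1 : A.valuation (ϖ ^ n) ≤ 1 := (A.valuation_le_one_iff _).2 (A.pow_mem hϖA n)
    have h2 : A.valuation (p : Ω) * A.valuation (ϖ ^ n) < 1 :=
      lt_of_le_of_lt (mul_le_of_le_one_right' h1) hplt
    rw [hk] at h2
    exact lt_irrefl _ h2
  obtain ⟨n, hn⟩ : ∃ n : ℕ, k = -((n : ℤ) + 1) := ⟨(-k - 1).toNat, by omega⟩
  set w : Ω := (p : Ω) * ϖ ^ k with hw
  have hwA : w ∈ A := (A.valuation_le_one_iff w).1 hk.le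
  refine ⟨ϖ ^ n * w, A.mul_mem _ _ (A.pow_mem hϖA n) hwA, ?_⟩
  have e : ϖ * (ϖ ^ n * w) = (p : Ω) * (ϖ ^ (n + 1) * ϖ ^ k) := by
    rw [hw, pow_succ]; ring
  rw [e, hn, zpow_neg]
  have : ϖ ^ (n + 1) * (ϖ ^ ((n : ℤ) + 1))⁻¹ = 1 := by
    have h3 : ϖ ^ ((n : ℤ) + 1) = ϖ ^ (n + 1) := by
      rw [← zpow_natCast]; push_cast; rfl
    rw [h3, mul_inv_cancel₀ (pow_ne_zero _ h.ne_zero)]
  rw [this, mul_one]

end unif

section target

variable (M p : ℕ) [NeZero (M * p)] (hp : p.Prime) (hpM : ¬ p ∣ M)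
  (A : ValuationSubring Ω)
  (hgen : PrincipalGeneratedByIntegral A (IsLocalRing.residue A) (M * p))
  (H : Subgroup (Ω ≃ₐ[ℚ] Ω))

/-- one valuation: a rational `u` with reduction `1` is `≡ 1` modulo `ϖ`. -/
theorem S33N0B_dep_of_red_one {k Fk : Type*} [Field k] [Field Fk] [Algebra k Fk]
    (T : S18_Val Ω ↥(modularFunctionFieldBar (M * p)) k Fk)
    (O : Subring (S33NX_F M p H))
    (hO : ∀ f : S33NX_F M p H, f ∈ O ↔ (f : ↥(modularFunctionFieldBar (M * p))) ∈ T.O)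
    (ϖ₀ : Ω) (hϖfix : ϖ₀ ∈ (S36FI_act (M * p) H).fixK)
    (hDV : S33N1_IsDV O (S33NX_const M p H ϖ₀ hϖfix))
    (u : S33NX_F M p H) (hu : (u : ↥(modularFunctionFieldBar (M * p))) ∈ T.O)
    (hred : T.red ⟨(u : ↥(modularFunctionFieldBar (M * p))), hu⟩ = 1) :
    S33N0_Dep T.O ϖ₀ (u : ↥(modularFunctionFieldBar (M * p))) := by
  have hx : u - 1 ∈ O := (hO _).2 (T.O.sub_mem hu T.O.one_mem)
  rcases hDV.loc _ hx with ⟨t, ht, e⟩ | hinv
  · refine ⟨(t : ↥(modularFunctionFieldBar (M * p))), (hO t).1 ht, ?_⟩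
    have := congrArg (Subtype.val) e
    exact this
  · by_cases h0 : u - 1 = 0
    · refine ⟨0, T.O.zero_mem, ?_⟩
      have := congrArg (Subtype.val) h0
      rw [mul_zero]
      exact this
    · exfalso
      have hx' : ((u : ↥(modularFunctionFieldBar (M * p))) - 1) ∈ T.O :=
        T.O.sub_mem hu T.O.one_mem
      have hinv' : ((u : ↥(modularFunctionFieldBar (M * p))) - 1)⁻¹ ∈ T.O := (hO _).1 hinv
      have hne : ((u : ↥(modularFunctionFieldBar (M * p))) - 1) ≠ 0 := fun h =>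
        h0 (Subtype.ext h)
      have hunit : IsUnit (⟨(u : ↥(modularFunctionFieldBar (M * p))) - 1, hx'⟩ : T.O) :=
        ⟨⟨⟨_, hx'⟩, ⟨_, hinv'⟩, Subtype.ext (mul_inv_cancel₀ hne),
          Subtype.ext (inv_mul_cancel₀ hne)⟩, rfl⟩
      have hr := (T.red_ne_zero_iff _).2 hunit
      apply hr
      have e : (⟨(u : ↥(modularFunctionFieldBar (M * p))) - 1, hx'⟩ : T.O) =
          ⟨(u : ↥(modularFunctionFieldBar (M * p))), hu⟩ - 1 := rfl
      rw [e, map_sub, hred, map_one, sub_self]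

/-- **`u ∈ F''` normalised ⇒ `u − 1 ∈ ϖ T_i.O`**, `i = 1, 2` (from V-DISC). -/
theorem S33N0B_dep_of_red (ϖ₀ : Ω) (hϖfix : ϖ₀ ∈ (S36FI_act (M * p) H).fixK)
    (hDV : S33NX_TDV M p hp hpM A hgen H (S33NX_const M p H ϖ₀ hϖfix))
    (u : S33NX_F M p H)
    (hu : (u : ↥(modularFunctionFieldBar (M * p))) ∈
      S34K_Norm (S34M_T1 M p A hgen) (S34M_T2 M p hp hpM A hgen)) :
    S33N0_Dep (S34M_T1 M p A hgen).O ϖ₀ (u : ↥(modularFunctionFieldBar (M * p))) ∧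
      S33N0_Dep (S34M_T2 M p hp hpM A hgen).O ϖ₀ (u : ↥(modularFunctionFieldBar (M * p))) := by
  obtain ⟨hmem, hred⟩ := hu
  have h1 : (S34M_T1 M p A hgen).red ⟨_, hmem.1⟩ = 1 := by
    have := congrArg Prod.fst hred
    exact this
  have h2 : (S34M_T2 M p hp hpM A hgen).red ⟨_, hmem.2⟩ = 1 := by
    have := congrArg Prod.snd hred
    exact this
  exact ⟨S33N0B_dep_of_red_one M p H _ _ (S33NX_mem_O_zero M p hp hpM A hgen H) ϖ₀ hϖfix
      (hDV 0) u hmem.1 h1,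
    S33N0B_dep_of_red_one M p H _ _ (S33NX_mem_O_one M p hp hpM A hgen H) ϖ₀ hϖfix
      (hDV 1) u hmem.2 h2⟩

/-- **the target `S33NX_TN0`, consumer form.** -/
theorem S33N0B_TN0_fin (hA : A.LiesOverPrime p)
    (hNE₁ : S33N0B_NE1 M p hp hpM A hgen (S33N0B_N12 M p hp hpM))
    (hNE₂ : S33N0B_NE2 M p hp hpM A hgen (S33N0B_N21 M p hp))
    {ϖ₀ : Ω} (h : S33NL2_Unif A H ϖ₀)
    (u h₁ h₂ : S33NX_F M p H)
    (hu : (u : ↥(modularFunctionFieldBar (M * p))) ∈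
      S34K_Norm (S34M_T1 M p A hgen) (S34M_T2 M p hp hpM A hgen))
    (hN₁ : S33N0B_N12 M p hp hpM (u : ↥(modularFunctionFieldBar (M * p))) =
      (h₁ : ↥(modularFunctionFieldBar (M * p))) ^ p)
    (hN₂ : S33N0B_N21 M p hp (u : ↥(modularFunctionFieldBar (M * p))) =
      (h₂ : ↥(modularFunctionFieldBar (M * p))) ^ p) :
    S33NX_TN0 M p hp hpM A hgen H
      (S33NX_const M p H ϖ₀ ((S36FI_mem_fixK (M * p) H).2 h.fixed)) u := by
  have hDV := S33ND_TDV M p hp hpM A hA hgen H h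
  obtain ⟨hs₁, hs₂⟩ := S33N0B_dep_of_red M p hp hpM A hgen H ϖ₀ _ hDV u hu
  have hu0 : u ≠ 0 := fun h0 =>
    S34K_ne_zero_of_Norm hu (by rw [h0]; rfl)
  exact S33N0B_TN0 M p hp hpM A hgen H hNE₁ hNE₂ ϖ₀ _ (S33N0B_unif_mem A H h) h.lt_one
    (S33N0B_unif_p A H hp hA h) u h₁ h₂ hu0 hN₁ hN₂ hs₁ hs₂

end target

end Fermat.Agent.S33
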