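import Fermat.Agent.S33.NewLocBridge
import Fermat.Agent.S33.NewDefs
import Fermat.Agent.S36.Comp3Norm
import Fermat.Agent.S36.FixLVal

/-!
# TRACK 11 (S33), package N0-BRIDGE (helper17), part 2: the target `S33NX_TN0` of the designer's
`S33/NewDefs.lean` from helper10's (N0) and the norm estimates (NE₁), (NE₂).  Prefix `S33N0B_`.

Level `M p` (`p ∤ M`), `F = F_{Mp}` over `Ω = ℚ̄`, `T₁ = S34M_T1`, `T₂ = S34M_T2` the two Gauss
valuation data, `H ≤ Gal(ℚ̄/ℚ)`, `F'' = S33NX_F M p H = fixF(H)`, `L'' = fixK(H)`.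

* `S33N0B_N12 M p`, `S33N0B_N21 M p : F →*₀ F` : `N₁₂ = α ∘ N_α`, `N₂₁ = β ∘ N_β`
  (`S33N0B_N12_apply`, `S33N0B_N21_apply`);  `S33N0B_N12_fix`, `S33N0B_N21_fix` : they preserve
  `fixF(H)` for every `H`;
* `S33N0B_NE1 … N₁₂`, `S33N0B_NE2 … N₂₁` : the norm estimates over `Ω` as `Prop`s
  (= `hNE₁`, `hNE₂` of `S33N0_main` for `(Ω, F, A, T₁.O, T₂.O)`; N0-INST, helper29);
* **`S33N0B_TN0_gen`** : for ANY `N₁₂`, `N₂₁` preserving `fixF(H)` with (NE₁), (NE₂):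
  `u ∈ F''`, `u ≠ 0`, `N₁₂ u = h₁ ^ p`, `N₂₁ u = h₂ ^ p` (`h_i ∈ F''`), `u − 1 ∈ ϖ₀ T_i.O`
  (over `Ω`), `ϖ₀ ∈ A ∩ L''` a non-unit, `p ∈ ϖ₀ A`  ⇒  `S33NX_TN0 … (S33NX_const ϖ₀ _) u`;
* **`S33N0B_TN0`** : the same for `N₁₂ = α ∘ N_α`, `N₂₁ = β ∘ N_β`.
-/

set_option autoImplicit false
set_option linter.unusedSectionVars false
set_option linter.unusedVariables false
set_option linter.style.haveILetI false
set_option synthInstance.maxHeartbeats 400000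
set_option maxHeartbeats 1000000

open ModularCurve AlgebraicCurve

noncomputable section

namespace Fermat.Agent.S33

open Fermat.Agent.S34 Fermat.Agent.S36 Fermat.Agent.S18 Fermat.Agent.S24 Fermat.Agent.S35
  Fermat.Agent.GalRep

local notation "Ω" => AlgebraicClosure ℚ

section norms

theorem S33N0B_neZero_left (M p : ℕ) [NeZero (M * p)] : NeZero M :=
  ⟨fun h => NeZero.ne (M * p) (by rw [h, zero_mul])⟩

theorem S33N0B_neZero_right (M p : ℕ) [NeZero (M * p)] : NeZero p :=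
  ⟨fun h => NeZero.ne (M * p) (by rw [h, mul_zero])⟩

variable (M p : ℕ) [NeZero (M * p)]

variable (hp : p.Prime) (hpM : ¬ p ∣ M)

include hp hpM in
theorem S33N0B_NA_zero :
    haveI := S33N0B_neZero_left M p
    haveI := S33N0B_neZero_right M p
    S35B_NA M p 0 = 0 := by
  haveI := S33N0B_neZero_left M p
  haveI := S33N0B_neZero_right M p
  letI : Algebra ↥(modularFunctionFieldBar M) ↥(modularFunctionFieldBar (M * p)) :=
    (heckeAlphaBar Ω M p).toRingHom.toAlgebra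
  haveI : FiniteDimensional ↥(modularFunctionFieldBar M) ↥(modularFunctionFieldBar (M * p)) :=
    S35B_finiteDimensional_alpha M p hp hpM
  exact Algebra.norm_zero

include hp in
theorem S33N0B_NB_zero :
    haveI := S33N0B_neZero_left M p
    haveI := S33N0B_neZero_right M p
    S35B_NB M p 0 = 0 := by
  haveI := S33N0B_neZero_left M p
  haveI := S33N0B_neZero_right M p
  letI : Algebra ↥(modularFunctionFieldBar M) ↥(modularFunctionFieldBar (M * p)) :=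
    (heckeBetaBar Ω M p).toRingHom.toAlgebra
  haveI : FiniteDimensional ↥(modularFunctionFieldBar M) ↥(modularFunctionFieldBar (M * p)) :=
    GRHK_finiteDimensional hp
  exact Algebra.norm_zero

/-- **`N₁₂ = α ∘ N_α`** on `F_{Mp}`. -/
def S33N0B_N12 : ↥(modularFunctionFieldBar (M * p)) →*₀ ↥(modularFunctionFieldBar (M * p)) :=
  haveI := S33N0B_neZero_left M p
  haveI := S33N0B_neZero_right M p
  { toFun := fun g => heckeAlphaBar Ω M p (S35B_NA M p g)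
    map_zero' := by
      show heckeAlphaBar Ω M p (S35B_NA M p 0) = 0
      rw [S33N0B_NA_zero M p hp hpM, map_zero]
    map_one' := by
      show heckeAlphaBar Ω M p (S35B_NA M p 1) = 1
      rw [S36CN_NA_one, map_one]
    map_mul' := fun x y => by
      show heckeAlphaBar Ω M p (S35B_NA M p (x * y)) =
        heckeAlphaBar Ω M p (S35B_NA M p x) * heckeAlphaBar Ω M p (S35B_NA M p y)
      rw [S36CN_NA_mul, map_mul] }

/-- **`N₂₁ = β ∘ N_β`** on `F_{Mp}`. -/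
def S33N0B_N21 : ↥(modularFunctionFieldBar (M * p)) →*₀ ↥(modularFunctionFieldBar (M * p)) :=
  haveI := S33N0B_neZero_left M p
  haveI := S33N0B_neZero_right M p
  { toFun := fun g => heckeBetaBar Ω M p (S35B_NB M p g)
    map_zero' := by
      show heckeBetaBar Ω M p (S35B_NB M p 0) = 0
      rw [S33N0B_NB_zero M p hp, map_zero]
    map_one' := by
      show heckeBetaBar Ω M p (S35B_NB M p 1) = 1
      rw [S36CN_NB_one, map_one]
    map_mul' := fun x y => by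
      show heckeBetaBar Ω M p (S35B_NB M p (x * y)) =
        heckeBetaBar Ω M p (S35B_NB M p x) * heckeBetaBar Ω M p (S35B_NB M p y)
      rw [S36CN_NB_mul, map_mul] }

theorem S33N0B_N12_apply (g : ↥(modularFunctionFieldBar (M * p))) :
    haveI := S33N0B_neZero_left M p
    haveI := S33N0B_neZero_right M p
    S33N0B_N12 M p hp hpM g = heckeAlphaBar Ω M p (S35B_NA M p g) := rfl

theorem S33N0B_N21_apply (g : ↥(modularFunctionFieldBar (M * p))) :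
    haveI := S33N0B_neZero_left M p
    haveI := S33N0B_neZero_right M p
    S33N0B_N21 M p hp g = heckeBetaBar Ω M p (S35B_NB M p g) := rfl

variable (H : Subgroup (Ω ≃ₐ[ℚ] Ω))

/-- `α ∘ N_α` preserves `fixF(H)`. -/
theorem S33N0B_N12_fix (g : ↥(modularFunctionFieldBar (M * p)))
    (hg : g ∈ (S36FI_act (M * p) H).fixF) :
    S33N0B_N12 M p hp hpM g ∈ (S36FI_act (M * p) H).fixF := by
  haveI := S33N0B_neZero_left M p
  haveI := S33N0B_neZero_right M p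
  have h1 := S36CN_NA_mem M p H hg
  rw [S36FI_mem_fixF] at h1 ⊢
  intro σ hσ
  rw [S33N0B_N12_apply]
  have h2 := S36WD_gal_alpha M p σ (S35B_NA M p g)
  have h3 : GR_gal M σ (S35B_NA M p g) = S35B_NA M p g := h1 σ hσ
  rw [h3] at h2
  exact h2

/-- `β ∘ N_β` preserves `fixF(H)`. -/
theorem S33N0B_N21_fix (g : ↥(modularFunctionFieldBar (M * p)))
    (hg : g ∈ (S36FI_act (M * p) H).fixF) :
    S33N0B_N21 M p hp g ∈ (S36FI_act (M * p) H).fixF := by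
  haveI := S33N0B_neZero_left M p
  haveI := S33N0B_neZero_right M p
  have h1 := S36CN_NB_mem M p H hg
  rw [S36FI_mem_fixF] at h1 ⊢
  intro σ hσ
  rw [S33N0B_N21_apply]
  have h2 := S36WD_gal_beta M p σ (S35B_NB M p g)
  have h3 : GR_gal M σ (S35B_NB M p g) = S35B_NB M p g := h1 σ hσ
  rw [h3] at h2
  exact h2

end norms

section target

variable (M p : ℕ) [NeZero (M * p)] (hp : p.Prime) (hpM : ¬ p ∣ M)
  (A : ValuationSubring Ω)
  (hgen : PrincipalGeneratedByIntegral A (IsLocalRing.residue A) (M * p))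
  (H : Subgroup (Ω ≃ₐ[ℚ] Ω))

/-- **(NE₁) over `Ω`** (N0-INST): `g − 1 ∈ a T₂.O` ⇒ `N₁₂ g / g − 1 ∈ p a T₁.O + a ^ p T₁.O`. -/
def S33N0B_NE1
    (N₁₂ : ↥(modularFunctionFieldBar (M * p)) →*₀ ↥(modularFunctionFieldBar (M * p))) : Prop :=
  ∀ a ∈ A, A.valuation a < 1 → ∀ g : ↥(modularFunctionFieldBar (M * p)),
    S33N0_Dep (S34M_T2 M p hp hpM A hgen).O a g →
    ∃ l₁ ∈ (S34M_T1 M p A hgen).O, ∃ l₂ ∈ (S34M_T1 M p A hgen).O, N₁₂ g / g - 1 =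
      algebraMap Ω ↥(modularFunctionFieldBar (M * p)) ((p : Ω) * a) * l₁ +
        algebraMap Ω ↥(modularFunctionFieldBar (M * p)) (a ^ p) * l₂

/-- **(NE₂) over `Ω`** (N0-INST): `g − 1 ∈ a T₁.O` ⇒ `N₂₁ g / g − 1 ∈ p a T₂.O + a ^ p T₂.O`. -/
def S33N0B_NE2
    (N₂₁ : ↥(modularFunctionFieldBar (M * p)) →*₀ ↥(modularFunctionFieldBar (M * p))) : Prop :=
  ∀ a ∈ A, A.valuation a < 1 → ∀ g : ↥(modularFunctionFieldBar (M * p)),
    S33N0_Dep (S34M_T1 M p A hgen).O a g →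
    ∃ l₁ ∈ (S34M_T2 M p hp hpM A hgen).O, ∃ l₂ ∈ (S34M_T2 M p hp hpM A hgen).O,
      N₂₁ g / g - 1 =
        algebraMap Ω ↥(modularFunctionFieldBar (M * p)) ((p : Ω) * a) * l₁ +
          algebraMap Ω ↥(modularFunctionFieldBar (M * p)) (a ^ p) * l₂

/-- constants of `A` are integral for an `S18_Val` with base ring `A`; non-units stay
non-units. -/
theorem S33N0B_const {k Fk : Type*} [Field k] [Field Fk] [Algebra k Fk]
    (T : S18_Val Ω ↥(modularFunctionFieldBar (M * p)) k Fk) (hT : T.A = A) :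
    (∀ a ∈ A, algebraMap Ω ↥(modularFunctionFieldBar (M * p)) a ∈ T.O) ∧
    (∀ a ∈ A, A.valuation a < 1 →
      T.O.valuation (algebraMap Ω ↥(modularFunctionFieldBar (M * p)) a) < 1) := by
  subst hT
  refine ⟨fun a ha => (T.algebraMap_mem_iff a).2 ha, fun a ha ha1 => ?_⟩
  rw [S33N0B_val_lt_one_iff] at ha1 ⊢
  rcases ha1 with h | h
  · left; rw [h, map_zero]
  · right
    rw [← map_inv₀, T.algebraMap_mem_iff]
    exact h

/-- **the target `S33NX_TN0`**, for any `N₁₂`, `N₂₁` preserving `fixF(H)` and satisfying the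
norm estimates. -/
theorem S33N0B_TN0_gen
    (N₁₂ N₂₁ : ↥(modularFunctionFieldBar (M * p)) →*₀ ↥(modularFunctionFieldBar (M * p)))
    (hfix₁₂ : ∀ g ∈ (S36FI_act (M * p) H).fixF, N₁₂ g ∈ (S36FI_act (M * p) H).fixF)
    (hfix₂₁ : ∀ g ∈ (S36FI_act (M * p) H).fixF, N₂₁ g ∈ (S36FI_act (M * p) H).fixF)
    (hNE₁ : S33N0B_NE1 M p hp hpM A hgen N₁₂) (hNE₂ : S33N0B_NE2 M p hp hpM A hgen N₂₁)
    (ϖ₀ : Ω) (hϖfix : ϖ₀ ∈ (S36FI_act (M * p) H).fixK) (hϖA : ϖ₀ ∈ A)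
    (hϖ1 : A.valuation ϖ₀ < 1) (hpϖ : ∃ r ∈ A, (p : Ω) = ϖ₀ * r)
    (u h₁ h₂ : S33NX_F M p H) (hu : u ≠ 0)
    (hN₁ : N₁₂ (u : ↥(modularFunctionFieldBar (M * p))) =
      (h₁ : ↥(modularFunctionFieldBar (M * p))) ^ p)
    (hN₂ : N₂₁ (u : ↥(modularFunctionFieldBar (M * p))) =
      (h₂ : ↥(modularFunctionFieldBar (M * p))) ^ p)
    (hstart₁ : S33N0_Dep (S34M_T1 M p A hgen).O ϖ₀ (u : ↥(modularFunctionFieldBar (M * p))))
    (hstart₂ : S33N0_Dep (S34M_T2 M p hp hpM A hgen).O ϖ₀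
      (u : ↥(modularFunctionFieldBar (M * p)))) :
    S33NX_TN0 M p hp hpM A hgen H (S33NX_const M p H ϖ₀ hϖfix) u := by
  set S := S36FI_act (M * p) H with hS
  set ιL : ↥S.fixK →+* Ω := S.fixK.subtype with hιL
  set ιF : ↥S.fixF →+* ↥(modularFunctionFieldBar (M * p)) := S.fixF.subtype with hιF
  have hι : ∀ c : ↥S.fixK, ιF (algebraMap ↥S.fixK ↥S.fixF c) =
      algebraMap Ω ↥(modularFunctionFieldBar (M * p)) (ιL c) := fun c => rfl
  set T₁ := S34M_T1 M p A hgen with hT₁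
  set T₂ := S34M_T2 M p hp hpM A hgen with hT₂
  obtain ⟨hAO₁, hAm₁⟩ := S33N0B_const M p A T₁ rfl
  obtain ⟨hAO₂, hAm₂⟩ := S33N0B_const M p A T₂ rfl
  -- the rational objects
  set A'' : ValuationSubring ↥S.fixK := A.comap ιL with hA''
  set O₁ : ValuationSubring ↥S.fixF := T₁.O.comap ιF with hO₁
  set O₂ : ValuationSubring ↥S.fixF := T₂.O.comap ιF with hO₂
  have hN₁₂ : ∀ g : ↥S.fixF, ∃ g₁ : ↥S.fixF, ιF g₁ = N₁₂ (ιF g) := fun g =>
    ⟨⟨N₁₂ (g : ↥(modularFunctionFieldBar (M * p))), hfix₁₂ _ g.2⟩, rfl⟩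
  have hN₂₁ : ∀ g : ↥S.fixF, ∃ g₁ : ↥S.fixF, ιF g₁ = N₂₁ (ιF g) := fun g =>
    ⟨⟨N₂₁ (g : ↥(modularFunctionFieldBar (M * p))), hfix₂₁ _ g.2⟩, rfl⟩
  have hAO₁'' : ∀ a ∈ A'', algebraMap ↥S.fixK ↥S.fixF a ∈ O₁ := fun a ha => hAO₁ _ ha
  have hAO₂'' : ∀ a ∈ A'', algebraMap ↥S.fixK ↥S.fixF a ∈ O₂ := fun a ha => hAO₂ _ ha
  have hAm₁'' : ∀ a ∈ A'', A''.valuation a < 1 →
      O₁.valuation (algebraMap ↥S.fixK ↥S.fixF a) < 1 := fun a ha ha1 => by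
    rw [hO₁, S33N0B_val_lt_comap, hι]
    exact hAm₁ _ ha ((S33N0B_val_lt_comap ιL A a).1 ha1)
  have hAm₂'' : ∀ a ∈ A'', A''.valuation a < 1 →
      O₂.valuation (algebraMap ↥S.fixK ↥S.fixF a) < 1 := fun a ha ha1 => by
    rw [hO₂, S33N0B_val_lt_comap, hι]
    exact hAm₂ _ ha ((S33N0B_val_lt_comap ιL A a).1 ha1)
  have hNE₁'' := S33N0B_NE_descend ιL ιF hι A T₁.O T₂.O hAO₁ p N₁₂ hN₁₂ hNE₁
  have hNE₂'' := S33N0B_NE_descend ιL ιF hι A T₂.O T₁.O hAO₂ p N₂₁ hN₂₁ hNE₂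
  -- the uniformiser
  set ϖ : ↥S.fixK := ⟨ϖ₀, hϖfix⟩ with hϖdef
  have hϖ0 : ϖ₀ ≠ 0 := by
    intro h0
    obtain ⟨r, -, hr⟩ := hpϖ
    rw [h0, zero_mul] at hr
    exact hp.ne_zero (by exact_mod_cast hr)
  have hϖ'' : ϖ ∈ A'' := hϖA
  have hϖ1'' : A''.valuation ϖ < 1 := (S33N0B_val_lt_comap ιL A ϖ).2 hϖ1
  have hpϖ'' : ∃ r ∈ A'', (p : ↥S.fixK) = ϖ * r := by
    obtain ⟨r, hr, hpr⟩ := hpϖ
    have hrfix : r ∈ S.fixK := by
      have : r = (p : Ω) / ϖ₀ := by rw [hpr, mul_div_cancel_left₀ _ hϖ0]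
      rw [this]
      exact S.fixK.div_mem (natCast_mem _ p) hϖfix
    refine ⟨⟨r, hrfix⟩, hr, Subtype.ext ?_⟩
    show ((p : ↥S.fixK) : Ω) = ϖ₀ * r
    rw [← hpr]
    rfl
  -- `u`, `h₁`, `h₂`
  have hN₁'' : S33N0B_restrict ιF N₁₂ hN₁₂ u = h₁ ^ p := by
    apply ιF.injective
    rw [S33N0B_restrict_spec, map_pow]
    exact hN₁
  have hN₂'' : S33N0B_restrict ιF N₂₁ hN₂₁ u = h₂ ^ p := by
    apply ιF.injective
    rw [S33N0B_restrict_spec, map_pow]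
    exact hN₂
  have hπ0 : algebraMap Ω ↥(modularFunctionFieldBar (M * p)) ϖ₀ ≠ 0 := (map_ne_zero _).2 hϖ0
  have hst : ∀ (T : ValuationSubring ↥(modularFunctionFieldBar (M * p))),
      S33N0_Dep T ϖ₀ (u : ↥(modularFunctionFieldBar (M * p))) →
        S33N0_Dep (T.comap ιF) ϖ u := by
    rintro T ⟨l, hl, e⟩
    have hl' : l = ((u : ↥(modularFunctionFieldBar (M * p))) - 1) /
        algebraMap Ω ↥(modularFunctionFieldBar (M * p)) ϖ₀ := by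
      rw [e, mul_div_cancel_left₀ _ hπ0]
    have hlfix : l ∈ S.fixF := by
      rw [hl']
      exact S.fixF.div_mem (S.fixF.sub_mem u.2 S.fixF.one_mem) (S.algebraMap_mem_fixF hϖfix)
    refine ⟨⟨l, hlfix⟩, hl, Subtype.ext ?_⟩
    exact e
  have hmain := S33N0B_main A'' O₁ O₂ p hAO₁'' hAO₂'' hAm₁'' hAm₂''
    (S33N0B_restrict ιF N₁₂ hN₁₂) (S33N0B_restrict ιF N₂₁ hN₂₁) hNE₁'' hNE₂'' hp.two_le hu
    hN₁'' hN₂'' hϖ'' hϖ1'' hpϖ'' (hst T₁.O hstart₁) (hst T₂.O hstart₂)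
  intro i n
  obtain ⟨⟨y₁, t₁, ht₁, e₁⟩, ⟨y₂, t₂, ht₂, e₂⟩⟩ := hmain n
  fin_cases i
  · exact ⟨y₁, t₁, (S33NX_mem_O_zero M p hp hpM A hgen H t₁).2 ht₁, e₁⟩
  · exact ⟨y₂, t₂, (S33NX_mem_O_one M p hp hpM A hgen H t₂).2 ht₂, e₂⟩

/-- **the target `S33NX_TN0`** for `N₁₂ = α ∘ N_α`, `N₂₁ = β ∘ N_β`. -/
theorem S33N0B_TN0
    (hNE₁ : S33N0B_NE1 M p hp hpM A hgen (S33N0B_N12 M p hp hpM))
    (hNE₂ : S33N0B_NE2 M p hp hpM A hgen (S33N0B_N21 M p hp))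
    (ϖ₀ : Ω) (hϖfix : ϖ₀ ∈ (S36FI_act (M * p) H).fixK) (hϖA : ϖ₀ ∈ A)
    (hϖ1 : A.valuation ϖ₀ < 1) (hpϖ : ∃ r ∈ A, (p : Ω) = ϖ₀ * r)
    (u h₁ h₂ : S33NX_F M p H) (hu : u ≠ 0)
    (hN₁ : S33N0B_N12 M p hp hpM (u : ↥(modularFunctionFieldBar (M * p))) =
      (h₁ : ↥(modularFunctionFieldBar (M * p))) ^ p)
    (hN₂ : S33N0B_N21 M p hp (u : ↥(modularFunctionFieldBar (M * p))) =
      (h₂ : ↥(modularFunctionFieldBar (M * p))) ^ p)
    (hstart₁ : S33N0_Dep (S34M_T1 M p A hgen).O ϖ₀ (u : ↥(modularFunctionFieldBar (M * p))))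
    (hstart₂ : S33N0_Dep (S34M_T2 M p hp hpM A hgen).O ϖ₀
      (u : ↥(modularFunctionFieldBar (M * p)))) :
    S33NX_TN0 M p hp hpM A hgen H (S33NX_const M p H ϖ₀ hϖfix) u :=
  S33N0B_TN0_gen M p hp hpM A hgen H _ _ (S33N0B_N12_fix M p hp hpM H)
    (S33N0B_N21_fix M p hp H) hNE₁ hNE₂ ϖ₀ hϖfix hϖA hϖ1 hpϖ u h₁ h₂ hu hN₁ hN₂
    hstart₁ hstart₂

end target

end Fermat.Agent.S33
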