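import Fermat.Agent.S33.NewLocBridgeInst
import Fermat.Agent.S33.NewLocT
import Fermat.Agent.S34.RedNorm

/-!
# TRACK 11 (S33), package N0-INST (helper29): the norm estimates (NE₁), (NE₂) over `Ω = ℚ̄`

Level `M p`, `p ∤ M`, `F = F_{Mp}`, `w = S34WJ_wq hp hpM` (Atkin–Lehner), `t = GRS_t hst` the
multiplicative `U_p` (`(t f)(t^p) = ∏_{i<p} f(ζ^i t)`), `N₁₂ = α ∘ N_α = S33N0B_N12`,
`N₂₁ = β ∘ N_β = S33N0B_N21`, `T₁ = S34M_T1`, `T₂ = S34M_T2 = T₁ ∘ w`.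

* `S33N0I_N12_eq` : `N₁₂ g = g · t (w g)`;
* `S33N0I_N21_eq` : `N₂₁ g = g · w (t g)`;
* `S33N0I_NEt … hst` : the `Prop` (NE-t) (helper10): `f − 1 = a l`, `l ∈ S18_O` ⇒
  `t f − 1 ∈ p a O₁ + a^p O₁`;
* `S33N0I_NE1_of`, `S33N0I_NE2_of` : (NE-t) ⇒ helper17's `S33N0B_NE1 … N₁₂`, `S33N0B_NE2 … N₂₁`;
* **`S33N0I_NE1`**, **`S33N0I_NE2`** : the two norm estimates, NO hypothesis left
  (`hA : A.LiesOverPrime p` only), with (NE-t) = helper10's `S33N0_NEt`;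
* **`S33N0I_TN0`** : helper17's `S33N0B_TN0` with (NE₁), (NE₂) supplied.
-/

set_option autoImplicit false
set_option linter.unusedSectionVars false
set_option linter.unusedVariables false
set_option linter.style.haveILetI false
set_option synthInstance.maxHeartbeats 400000
set_option maxHeartbeats 1000000

open ModularCurve AlgebraicCurve

noncomputable section

namespace Fermat.Agent.S33

open Fermat.Agent.S34 Fermat.Agent.S36 Fermat.Agent.S18 Fermat.Agent.S24 Fermat.Agent.S35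
  Fermat.Agent.GalRep

local notation "Ω" => AlgebraicClosure ℚ

section identities

variable (M p : ℕ) [NeZero M] [NeZero p] [NeZero (M * p)] (hp : p.Prime) (hpM : ¬ p ∣ M)
  (ζ : Ωˣ) (hζ : IsPrimitiveRoot (ζ : Ω) p) (hst : GRS_Stab (M * p) p ζ)

include hζ in
/-- **`α (N_α g) = g · t (w g)`**. -/
theorem S33N0I_alpha_NA (g : ↥(modularFunctionFieldBar (M * p))) :
    heckeAlphaBar Ω M p (S35B_NA M p g) = g * GRS_t hst (S34WJ_wq hp hpM g) := by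
  obtain ⟨y, w, h⟩ := GRHP_exists_yw hp hpM
  have h1 := S34U_wq_t M p hp hpM ζ hζ y w h hst
    (fun f => S34WJ_wq hp hpM f) (fun f => S34NK_qExpand_wq M p hp hpM y w h f)
    (S34WJ_wq hp hpM g) (S34NK_normBeta M p (S34WJ_wq hp hpM g))
    (S34NK_beta_normBeta M p (S34WJ_wq hp hpM g))
  rw [S34NK_normBeta_wq] at h1
  simp only [S34WJ_wq_wq] at h1
  exact h1.symm

include hζ in
/-- **`β (N_β g) = g · w (t g)`**. -/
theorem S33N0I_beta_NB (g : ↥(modularFunctionFieldBar (M * p))) :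
    heckeBetaBar Ω M p (S35B_NB M p g) = g * S34WJ_wq hp hpM (GRS_t hst g) := by
  obtain ⟨y, w, h⟩ := GRHP_exists_yw hp hpM
  have h1 := S34U_wq_t M p hp hpM ζ hζ y w h hst
    (fun f => S34WJ_wq hp hpM f) (fun f => S34NK_qExpand_wq M p hp hpM y w h f)
    g (S34NK_normBeta M p g) (S34NK_beta_normBeta M p g)
  have h2 := congrArg (S34WJ_wq hp hpM) h1
  simp only [map_mul, S34WJ_wq_wq, S34WJ_wq_alpha] at h2
  exact h2.symm

end identities

section assembly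

variable (M p : ℕ) [NeZero (M * p)] (hp : p.Prime) (hpM : ¬ p ∣ M)
  (A : ValuationSubring Ω)
  (hgen : PrincipalGeneratedByIntegral A (IsLocalRing.residue A) (M * p))

/-- **(NE-t)** as a `Prop` (for any multiplicative operator `t` on `F_{Mp}`; the instance is
`t = GRS_t hst`, the multiplicative `U_p`): `f − 1 = a l`, `l ∈ O₁ = S18_O A (M p)` ⇒
`t f − 1 ∈ p a O₁ + a^p O₁`. -/
def S33N0I_NEt
    (t : ↥(modularFunctionFieldBar (M * p)) →*₀ ↥(modularFunctionFieldBar (M * p))) : Prop :=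
  ∀ a ∈ A, ∀ f l : ↥(modularFunctionFieldBar (M * p)), l ∈ S18_O A (M * p) →
    f - 1 = algebraMap Ω ↥(modularFunctionFieldBar (M * p)) a * l →
    ∃ l₁ ∈ S18_O A (M * p), ∃ l₂ ∈ S18_O A (M * p),
      t f - 1 = algebraMap Ω ↥(modularFunctionFieldBar (M * p)) ((p : Ω) * a) * l₁ +
        algebraMap Ω ↥(modularFunctionFieldBar (M * p)) (a ^ p) * l₂

variable (ζ : Ωˣ) (hζ : IsPrimitiveRoot (ζ : Ω) p)

theorem S33N0I_mem_T1 {l : ↥(modularFunctionFieldBar (M * p))} :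
    l ∈ (S34M_T1 M p A hgen).O ↔ l ∈ S18_O A (M * p) := by
  rw [S34M_T1_O]
  exact S34DF_mem_O1 M p A hgen

theorem S33N0I_mem_T2 {l : ↥(modularFunctionFieldBar (M * p))} :
    l ∈ (S34M_T2 M p hp hpM A hgen).O ↔ S34DF_wq M p hp hpM l ∈ S18_O A (M * p) := by
  rw [S34M_T2_O]
  exact S34DF_mem_O2 M p hp hpM A hgen

include hζ in
/-- **(NE₁) over `Ω`** from (NE-t). -/
theorem S33N0I_NE1_of
    (hst : haveI := S33N0B_neZero_right M p; GRS_Stab (M * p) p ζ)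
    (hNEt : haveI := S33N0B_neZero_right M p; S33N0I_NEt M p A (GRS_t hst)) :
    S33N0B_NE1 M p hp hpM A hgen (S33N0B_N12 M p hp hpM) := by
  haveI := S33N0B_neZero_left M p
  haveI := S33N0B_neZero_right M p
  intro a ha ha1 g hdep
  have hg0 : g ≠ 0 := S33N0_Dep_ne_zero A _
    (S33N0B_const M p A (S34M_T2 M p hp hpM A hgen) rfl).2 ha ha1 hdep
  obtain ⟨l, hl, e⟩ := hdep
  have hl' : S34WJ_wq hp hpM l ∈ S18_O A (M * p) := (S33N0I_mem_T2 M p hp hpM A hgen).1 hl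
  have e' : S34WJ_wq hp hpM g - 1 =
      algebraMap Ω ↥(modularFunctionFieldBar (M * p)) a * S34WJ_wq hp hpM l := by
    have h1 := congrArg (S34WJ_wq hp hpM) e
    rw [map_sub, map_one] at h1
    rw [h1, map_mul (S34WJ_wq hp hpM), AlgEquiv.commutes]
  obtain ⟨l₁, h1, l₂, h2, e2⟩ := hNEt a ha _ _ hl' e'
  refine ⟨l₁, (S33N0I_mem_T1 M p A hgen).2 h1, l₂, (S33N0I_mem_T1 M p A hgen).2 h2, ?_⟩
  rw [S33N0B_N12_apply, S33N0I_alpha_NA M p hp hpM ζ hζ hst g, mul_div_cancel_left₀ _ hg0]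
  exact e2

include hζ in
/-- **(NE₂) over `Ω`** from (NE-t). -/
theorem S33N0I_NE2_of
    (hst : haveI := S33N0B_neZero_right M p; GRS_Stab (M * p) p ζ)
    (hNEt : haveI := S33N0B_neZero_right M p; S33N0I_NEt M p A (GRS_t hst)) :
    S33N0B_NE2 M p hp hpM A hgen (S33N0B_N21 M p hp) := by
  haveI := S33N0B_neZero_left M p
  haveI := S33N0B_neZero_right M p
  intro a ha ha1 g hdep
  have hg0 : g ≠ 0 := S33N0_Dep_ne_zero A _
    (S33N0B_const M p A (S34M_T1 M p A hgen) rfl).2 ha ha1 hdep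
  obtain ⟨l, hl, e⟩ := hdep
  have hl' : l ∈ S18_O A (M * p) := (S33N0I_mem_T1 M p A hgen).1 hl
  obtain ⟨l₁, h1, l₂, h2, e2⟩ := hNEt a ha _ _ hl' e
  have hw : ∀ x : ↥(modularFunctionFieldBar (M * p)), x ∈ S18_O A (M * p) →
      S34WJ_wq hp hpM x ∈ (S34M_T2 M p hp hpM A hgen).O := fun x hx => by
    rw [S33N0I_mem_T2]
    have : S34DF_wq M p hp hpM (S34WJ_wq hp hpM x) = x := S34WJ_wq_wq hp hpM x
    rw [this]
    exact hx
  refine ⟨S34WJ_wq hp hpM l₁, hw _ h1, S34WJ_wq hp hpM l₂, hw _ h2, ?_⟩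
  rw [S33N0B_N21_apply, S33N0I_beta_NB M p hp hpM ζ hζ hst g, mul_div_cancel_left₀ _ hg0]
  have h3 := congrArg (S34WJ_wq hp hpM) e2
  rw [map_sub, map_one, map_add] at h3
  rw [h3, map_mul (S34WJ_wq hp hpM), map_mul (S34WJ_wq hp hpM), AlgEquiv.commutes,
    AlgEquiv.commutes]

end assembly

section closed

variable (M p : ℕ) [NeZero (M * p)] (hp : p.Prime) (hpM : ¬ p ∣ M)
  (A : ValuationSubring Ω) (hA : A.LiesOverPrime p)
  (hgen : PrincipalGeneratedByIntegral A (IsLocalRing.residue A) (M * p))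

include hp hpM hA in
/-- (NE-t) for `t = GRS_t hst` (helper10's `S33N0_NEt`). -/
theorem S33N0I_NEt_inst (ζ : Ωˣ) (hζ : ζ ^ p = 1)
    (hst : haveI := S33N0B_neZero_right M p; GRS_Stab (M * p) p ζ) :
    haveI := S33N0B_neZero_right M p
    S33N0I_NEt M p A (GRS_t hst) := by
  haveI := S33N0B_neZero_right M p
  intro a ha f l hl e
  have hf : f = 1 + algebraMap Ω ↥(modularFunctionFieldBar (M * p)) a * l := by
    rw [← e]; ring
  rw [hf]
  exact S33N0_NEt M p hp hpM A hA ζ hζ hst ha hl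

include hA in
/-- **(NE₁) over `Ω`**: `g − 1 ∈ a T₂.O` ⇒ `α (N_α g) / g − 1 ∈ p a T₁.O + a^p T₁.O`. -/
theorem S33N0I_NE1 : S33N0B_NE1 M p hp hpM A hgen (S33N0B_N12 M p hp hpM) := by
  haveI := S33N0B_neZero_left M p
  haveI := S33N0B_neZero_right M p
  obtain ⟨ζ₀, hζ₀⟩ := HasEnoughRootsOfUnity.exists_primitiveRoot Ω p
  set ζ : Ωˣ := (hζ₀.isUnit (NeZero.ne p)).unit with hζdef
  have hζ : IsPrimitiveRoot (ζ : Ω) p := by
    rw [hζdef, IsUnit.unit_spec]; exact hζ₀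
  have hst : GRS_Stab (M * p) p ζ := GRHS_stab ζ hζ hp
  have hζp : ζ ^ p = 1 := Units.ext (by rw [Units.val_pow_eq_pow_val]; exact hζ.pow_eq_one)
  exact S33N0I_NE1_of M p hp hpM A hgen ζ hζ hst (S33N0I_NEt_inst M p hp hpM A hA ζ hζp hst)

include hA in
/-- **(NE₂) over `Ω`**: `g − 1 ∈ a T₁.O` ⇒ `β (N_β g) / g − 1 ∈ p a T₂.O + a^p T₂.O`. -/
theorem S33N0I_NE2 : S33N0B_NE2 M p hp hpM A hgen (S33N0B_N21 M p hp) := by
  haveI := S33N0B_neZero_left M p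
  haveI := S33N0B_neZero_right M p
  obtain ⟨ζ₀, hζ₀⟩ := HasEnoughRootsOfUnity.exists_primitiveRoot Ω p
  set ζ : Ωˣ := (hζ₀.isUnit (NeZero.ne p)).unit with hζdef
  have hζ : IsPrimitiveRoot (ζ : Ω) p := by
    rw [hζdef, IsUnit.unit_spec]; exact hζ₀
  have hst : GRS_Stab (M * p) p ζ := GRHS_stab ζ hζ hp
  have hζp : ζ ^ p = 1 := Units.ext (by rw [Units.val_pow_eq_pow_val]; exact hζ.pow_eq_one)
  exact S33N0I_NE2_of M p hp hpM A hgen ζ hζ hst (S33N0I_NEt_inst M p hp hpM A hA ζ hζp hst)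

include hA in
/-- **the target `S33NX_TN0`** (= helper17's `S33N0B_TN0` with (NE₁), (NE₂) supplied). -/
theorem S33N0I_TN0 (H : Subgroup (Ω ≃ₐ[ℚ] Ω))
    (ϖ₀ : Ω) (hϖfix : ϖ₀ ∈ (S36FI_act (M * p) H).fixK) (hϖA : ϖ₀ ∈ A)
    (hϖ1 : A.valuation ϖ₀ < 1) (hpϖ : ∃ r ∈ A, (p : Ω) = ϖ₀ * r)
    (u h₁ h₂ : S33NX_F M p H) (hu : u ≠ 0)
    (hN₁ : S33N0B_N12 M p hp hpM (u : ↥(modularFunctionFieldBar (M * p))) =
      (h₁ : ↥(modularFunctionFieldBar (M * p))) ^ p)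
    (hN₂ : S33N0B_N21 M p hp (u : ↥(modularFunctionFieldBar (M * p))) =
      (h₂ : ↥(modularFunctionFieldBar (M * p))) ^ p)
    (hstart₁ : S33N0_Dep (S34M_T1 M p A hgen).O ϖ₀ (u : ↥(modularFunctionFieldBar (M * p))))
    (hstart₂ : S33N0_Dep (S34M_T2 M p hp hpM A hgen).O ϖ₀
      (u : ↥(modularFunctionFieldBar (M * p)))) :
    S33NX_TN0 M p hp hpM A hgen H (S33NX_const M p H ϖ₀ hϖfix) u :=
  S33N0B_TN0 M p hp hpM A hgen H (S33N0I_NE1 M p hp hpM A hA hgen)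
    (S33N0I_NE2 M p hp hpM A hA hgen) ϖ₀ hϖfix hϖA hϖ1 hpϖ u h₁ h₂ hu hN₁ hN₂ hstart₁ hstart₂

end closed

end Fermat.Agent.S33
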