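import Fermat.Agent.S33.NewNormTriv
import Fermat.Agent.S33.NewChoice

/-!
# TRACK 11 (S33), package NORM-TRIV (helper17), part 2: `hN0` of `S33NC_rat`, literally

For a choice `h : S33NC_Choice M p A fs cs ζ H ϖ₀ e₀` (helper5, CHOICE) whose finite set `fs`
contains `u` and the two roots `h₁`, `h₂` of NORM-TRIV:

* `S33NV_TN0_choice` : `S33NX_TN0 … (S33NX_const M p H ϖ₀ h.varpi_mem) ⟨u, h.fs_mem u hu⟩`
  = the hypothesis `hN0` of `S33NC_rat` / `S33NX_rat`, in the literal shape;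
* `S33NV_TN0_choice'` : the same for `u'' : S33NX_F M p H` given with `(u'' : F) = u`;
* `S33NV_fs u h₁ h₂ fs₀` : the finite set `{u, h₁, h₂} ∪ fs₀` to be passed to `S33NC_exists`.
-/

set_option autoImplicit false
set_option linter.unusedSectionVars false
set_option linter.unusedVariables false
set_option linter.style.haveILetI false
set_option synthInstance.maxHeartbeats 400000
set_option maxHeartbeats 1000000

open ModularCurve AlgebraicCurve

noncomputable section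

namespace Fermat.Agent.S33

open Fermat.Agent.S34 Fermat.Agent.S36 Fermat.Agent.S18 Fermat.Agent.S24 Fermat.Agent.S35
  Fermat.Agent.GalRep

local notation "Ω" => AlgebraicClosure ℚ

variable (M p : ℕ) [NeZero (M * p)] (hp : p.Prime) (hpM : ¬ p ∣ M)
  (A : ValuationSubring Ω)
  (hgen : PrincipalGeneratedByIntegral A (IsLocalRing.residue A) (M * p))

open Classical in
/-- the finite set of functions to be made rational: `u`, `h₁`, `h₂` and whatever else. -/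
def S33NV_fs (u h₁ h₂ : ↥(modularFunctionFieldBar (M * p)))
    (fs₀ : Finset ↥(modularFunctionFieldBar (M * p))) :
    Finset ↥(modularFunctionFieldBar (M * p)) :=
  insert u (insert h₁ (insert h₂ fs₀))

theorem S33NV_fs_u (u h₁ h₂ : ↥(modularFunctionFieldBar (M * p)))
    (fs₀ : Finset ↥(modularFunctionFieldBar (M * p))) : u ∈ S33NV_fs M p u h₁ h₂ fs₀ := by
  classical
  unfold S33NV_fs
  exact Finset.mem_insert_self _ _

theorem S33NV_fs_h₁ (u h₁ h₂ : ↥(modularFunctionFieldBar (M * p)))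
    (fs₀ : Finset ↥(modularFunctionFieldBar (M * p))) : h₁ ∈ S33NV_fs M p u h₁ h₂ fs₀ := by
  classical
  unfold S33NV_fs
  exact Finset.mem_insert_of_mem (Finset.mem_insert_self _ _)

theorem S33NV_fs_h₂ (u h₁ h₂ : ↥(modularFunctionFieldBar (M * p)))
    (fs₀ : Finset ↥(modularFunctionFieldBar (M * p))) : h₂ ∈ S33NV_fs M p u h₁ h₂ fs₀ := by
  classical
  unfold S33NV_fs
  exact Finset.mem_insert_of_mem (Finset.mem_insert_of_mem (Finset.mem_insert_self _ _))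

theorem S33NV_fs_of_mem (u h₁ h₂ : ↥(modularFunctionFieldBar (M * p)))
    (fs₀ : Finset ↥(modularFunctionFieldBar (M * p)))
    {f : ↥(modularFunctionFieldBar (M * p))} (hf : f ∈ fs₀) :
    f ∈ S33NV_fs M p u h₁ h₂ fs₀ := by
  classical
  unfold S33NV_fs
  exact Finset.mem_insert_of_mem (Finset.mem_insert_of_mem (Finset.mem_insert_of_mem hf))

/-- **`hN0` of `S33NC_rat`, literally**: for a choice `h` whose `fs` contains `u`, `h₁`, `h₂`. -/
theorem S33NV_TN0_choice (hA : A.LiesOverPrime p)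
    (hNE₁ : S33N0B_NE1 M p hp hpM A hgen (S33N0B_N12 M p hp hpM))
    (hNE₂ : S33N0B_NE2 M p hp hpM A hgen (S33N0B_N21 M p hp))
    {fs : Finset ↥(modularFunctionFieldBar (M * p))} {cs : Finset Ω} {ζ : Ω}
    {H : Subgroup (Ω ≃ₐ[ℚ] Ω)} {ϖ₀ : Ω} {e₀ : ℕ} (h : S33NC_Choice M p A fs cs ζ H ϖ₀ e₀)
    (u h₁ h₂ : ↥(modularFunctionFieldBar (M * p)))
    (hu : u ∈ fs) (hh₁ : h₁ ∈ fs) (hh₂ : h₂ ∈ fs)
    (hv₁ : (S34DF_O1 M p A hgen).valuation (u - 1) < 1)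
    (hv₂ : (S34DF_O2 M p hp hpM A hgen).valuation (u - 1) < 1)
    (hN₁ : S33N0B_N12 M p hp hpM u = h₁ ^ p) (hN₂ : S33N0B_N21 M p hp u = h₂ ^ p) :
    S33NX_TN0 M p hp hpM A hgen H (S33NX_const M p H ϖ₀ h.varpi_mem) ⟨u, h.fs_mem u hu⟩ :=
  S33NV_TN0 M p hp hpM A hgen H hA hNE₁ hNE₂ h.unif u h₁ h₂ (h.fs_mem u hu) (h.fs_mem h₁ hh₁)
    (h.fs_mem h₂ hh₂) hv₁ hv₂ hN₁ hN₂

/-- the same, for `u'' : F''` given with its image `u` in `F`, normalised in the `S34M_Kp` form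
(`u ∈ S34K_Norm T₁ T₂`). -/
theorem S33NV_TN0_choice' (hA : A.LiesOverPrime p)
    (hNE₁ : S33N0B_NE1 M p hp hpM A hgen (S33N0B_N12 M p hp hpM))
    (hNE₂ : S33N0B_NE2 M p hp hpM A hgen (S33N0B_N21 M p hp))
    {fs : Finset ↥(modularFunctionFieldBar (M * p))} {cs : Finset Ω} {ζ : Ω}
    {H : Subgroup (Ω ≃ₐ[ℚ] Ω)} {ϖ₀ : Ω} {e₀ : ℕ} (h : S33NC_Choice M p A fs cs ζ H ϖ₀ e₀)
    (u'' : S33NX_F M p H) (h₁ h₂ : ↥(modularFunctionFieldBar (M * p)))
    (hh₁ : h₁ ∈ fs) (hh₂ : h₂ ∈ fs)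
    (hu : (u'' : ↥(modularFunctionFieldBar (M * p))) ∈
      S34K_Norm (S34M_T1 M p A hgen) (S34M_T2 M p hp hpM A hgen))
    (hN₁ : S33N0B_N12 M p hp hpM (u'' : ↥(modularFunctionFieldBar (M * p))) = h₁ ^ p)
    (hN₂ : S33N0B_N21 M p hp (u'' : ↥(modularFunctionFieldBar (M * p))) = h₂ ^ p) :
    S33NX_TN0 M p hp hpM A hgen H (S33NX_const M p H ϖ₀ h.varpi_mem) u'' :=
  S33N0B_TN0_fin M p hp hpM A hgen H hA hNE₁ hNE₂ h.unif u'' ⟨h₁, h.fs_mem h₁ hh₁⟩
    ⟨h₂, h.fs_mem h₂ hh₂⟩ hu hN₁ hN₂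

end Fermat.Agent.S33
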