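import Fermat.Agent.S34.NodesX0
import Fermat.Agent.S34.NodalX0Main

/-!
# TRACK 11 (S33), package START (helper23): trivialisations of depth `1` on `U` and on `U'`
for the Kummer exponent `n = q ^ r` (the residue characteristic)

Level `M * q` (`q ∤ M` prime; in TRACK 11 `q = p`), `A ⊂ ℚ̄` over `q`, TRACK 7's canonical objects
`S34M_T1`, `S34M_T2`, `S34M_same`, `S34M_chart`, `S34M_Kp` (`S34/Asm3.lean`), nodes `e₁ e₂` with
`hE`, `hW1` (the output of G1 = `S34NX_nodes`, valid for EVERY `n`).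

* `S33NS_root_one`, `S33NS_glue_one` : in characteristic `q` the gluing constants `c i`
  (`c i ^ (q ^ r) = 1`) are `1`;
* `S33NS_W_eq` : **for `n = q ^ r` every normalised Kummer generator has trivial gluing
  invariant** in the chart `U`: `W^u = S34B_glued e₁ e₂ 1` (from G2 = `S34HX_hex_X0`);
* `S33NS_lev` : (LEV) for a GIVEN constant `c₀ ∈ A` whose residue avoids the values of `j̄` at
  the nodes (`S34CL_lev_of`);
* `S33NS_start` : **START**: `f₁, f₁' ∈ O₁ ∩ O₂` with `red f₁ = red f₁' = (1, 1)`,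
  `f₁ ^ n * u` regular on `U = {j ≠ ∞}`, `f₁' ^ n * u` regular on `U' = {j ≠ c₀}`;
* `S33NS_start'` : the same with `f₁ f₁' : F` and `T_i.red f = 1` for `i = 1, 2` separately;
* `S33NS_main` : **START with the nodes hidden**: `∃ T : Finset k, ∀ c₀ ∈ A, c̄₀ ∉ T → ∀ u, …`
  (the chart rings are `S33NX_B M q`, `S33NX_B' M q c₀` of `S33/NewDefs.lean`, by `rfl`).
-/

set_option autoImplicit false
set_option synthInstance.maxHeartbeats 400000
set_option maxHeartbeats 1000000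
set_option linter.unusedSectionVars false
set_option linter.unusedVariables false
set_option linter.style.haveILetI false

open HahnSeries IntermediateField AlgebraicCurve ModularCurve

noncomputable section

namespace Fermat.Agent.S33

open Fermat.Agent.Lib Fermat.Agent.S18 Fermat.Agent.S24 Fermat.Agent.GalRep Fermat.Agent.S34

/-! ### the gluing constants are `1` in characteristic `q` -/

section abs

variable {k : Type*} [Field k] {R₁ R₂ : Type*} [CommRing R₁] [CommRing R₂]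
  [Algebra k R₁] [Algebra k R₂] {ι : Type*}

/-- in characteristic `q` a `q ^ r`-th root of unity is `1`. -/
theorem S33NS_root_one (q : ℕ) [Fact q.Prime] [CharP k q] (r : ℕ) (c : k)
    (hc : c ^ (q ^ r) = 1) : c = 1 := by
  have h : (c - 1) ^ (q ^ r) = 0 := by
    rw [sub_pow_char_pow, hc, one_pow, sub_self]
  exact sub_eq_zero.1 (pow_eq_zero_iff (pow_ne_zero r (Fact.out : q.Prime).ne_zero) |>.1 h)

/-- the gluing constants of a glued module all of whose members have equal `q ^ r`-th powers at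
the two branches of every node are `1`. -/
theorem S33NS_glue_one (q : ℕ) [Fact q.Prime] [CharP k q] (r : ℕ)
    (e₁ : ι → R₁ →ₐ[k] k) (e₂ : ι → R₂ →ₐ[k] k) (hE : Function.Surjective (S34B_E e₁ e₂))
    (c : ι → k)
    (hpow : ∀ m ∈ S34B_glued e₁ e₂ c, ∀ i, e₁ i m.1 ^ (q ^ r) = e₂ i m.2 ^ (q ^ r)) :
    c = fun _ => 1 := by
  obtain ⟨m, hm, hm1, hm2⟩ := S34K_exists_witness e₁ e₂ hE c
  funext i
  have h := hpow m hm i
  rw [hm1, hm2, one_pow] at h
  exact S33NS_root_one q r (c i) h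

end abs

section chart

variable {L F k Fk₁ Fk₂ : Type*} [Field L] [Field F] [Algebra L F] [Field k]
  [Field Fk₁] [Field Fk₂] [Algebra k Fk₁] [Algebra k Fk₂]
  {S₁ : S18_Val L F k Fk₁} {S₂ : S18_Val L F k Fk₂} (hS : S34P_Same S₁ S₂)

/-- **the gluing invariant is trivial for `n = q ^ r`**: a glued `W^u` (`u` normalised) in a
chart whose `W^1` is the nodal ring is glued with the constants `1`. -/
theorem S33NS_W_glued_one (q : ℕ) [Fact q.Prime] [CharP k q] (r : ℕ) {ι : Type*}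
    (C : S34K_Chart (L := L) (F := F) (k := k) (Fk₁ := Fk₁) (Fk₂ := Fk₂) (q ^ r))
    (e₁ : ι → ↥C.Rb₁ →ₐ[k] k) (e₂ : ι → ↥C.Rb₂ →ₐ[k] k)
    (hE : Function.Surjective (S34B_E e₁ e₂))
    (hW1 : S34K_W hS C 1 = S34B_W e₁ e₂)
    {u : F} (hu : u ∈ S34K_Norm S₁ S₂) {c : ι → k}
    (hc : S34K_W hS C u = S34B_glued e₁ e₂ c) :
    S34K_W hS C u = S34B_glued e₁ e₂ (fun _ => 1) := by
  have h1 : c = fun _ => 1 := by
    apply S33NS_glue_one q r e₁ e₂ hE c
    intro m hm i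
    rw [← hc] at hm
    have h2 := S34K_pow_mem_W hS C hu hm
    rw [hW1, S34B_mem_W] at h2
    have h3 := h2 i
    rw [Prod.pow_fst, Prod.pow_snd, map_pow, map_pow] at h3
    exact h3
  rw [hc, h1]

end chart

/-! ### the canonical objects of TRACK 7 -/

section X0

variable (M q : ℕ) [NeZero (M * q)] (hq : q.Prime) (hqM : ¬ q ∣ M)
  (A : ValuationSubring (AlgebraicClosure ℚ))
  (hgen : PrincipalGeneratedByIntegral A (IsLocalRing.residue A) (M * q))

/-- **START, gluing**: for `n = q ^ r` every normalised Kummer generator has trivial gluing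
invariant in the chart `U`. -/
theorem S33NS_W_eq (hA : A.LiesOverPrime q) {n : ℕ} (hn : 0 < n) (r : ℕ) (hnr : n = q ^ r)
    {ι : Type*} [Fintype ι]
    (e₁ : ι → ↥(S34M_chart M q A n hn).Rb₁ →ₐ[IsLocalRing.ResidueField A]
      IsLocalRing.ResidueField A)
    (e₂ : ι → ↥(S34M_chart M q A n hn).Rb₂ →ₐ[IsLocalRing.ResidueField A]
      IsLocalRing.ResidueField A)
    (hE : Function.Surjective (S34B_E e₁ e₂))
    (hW1 : S34K_W (S34M_same M q hq hqM A hgen) (S34M_chart M q A n hn) 1 = S34B_W e₁ e₂) :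
    ∀ u ∈ S34M_Kp M q hq hqM A hgen n,
      S34K_W (S34M_same M q hq hqM A hgen) (S34M_chart M q A n hn) u =
        S34B_glued e₁ e₂ (fun _ => 1) := by
  intro u hu
  haveI : NeZero M := S34CL_neZero_M M q
  haveI : Fact q.Prime := ⟨hq⟩
  haveI := S18_residue_charP A q hq hA
  obtain ⟨c, hc⟩ := S34HX_hex_X0 M q hq hqM A hgen hA hn e₁ e₂ hE hW1 u hu
  subst hnr
  exact S33NS_W_glued_one (S34M_same M q hq hqM A hgen) q r (S34M_chart M q A (q ^ r) hn)
    e₁ e₂ hE hW1 hu.2 hc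

/-- (LEV) on the canonical pair for a GIVEN constant `c`, with the reduction `x₁ = j̄` as a
variable. -/
theorem S33NS_lev_aux (hA : A.LiesOverPrime q)
    (x₁ : ↥(modularFunctionFieldFullC (IsLocalRing.ResidueField A) (M * q)))
    (hx₁ : x₁ = S18_jbar (M * q) (IsLocalRing.ResidueField A))
    {n : ℕ} (hn : 0 < n) {ι : Type*} [Fintype ι]
    (e₁ : ι → ↥(S34SB_reg (IsLocalRing.ResidueField A) x₁) →ₐ[IsLocalRing.ResidueField A]
      IsLocalRing.ResidueField A)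
    (e₂ : ι → ↥(S34SB_reg (IsLocalRing.ResidueField A) (x₁ ^ q)) →ₐ[IsLocalRing.ResidueField A]
      IsLocalRing.ResidueField A)
    (hE : Function.Surjective (S34B_E e₁ e₂))
    (hcard : (RR_genus (AlgebraicClosure ℚ) ↥(modularFunctionFieldBar (M * q)) : ℤ) + 1 -
      2 * RR_genus (IsLocalRing.ResidueField A)
        ↥(modularFunctionFieldFullC (IsLocalRing.ResidueField A) (M * q)) ≤ Fintype.card ι)
    (c : (S34M_T1 M q A hgen).A)
    (hc : ∀ i, e₁ i ⟨x₁, S34SB_self_mem_reg x₁⟩ ≠ (S34M_T1 M q A hgen).res c)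
    (u : ↥(modularFunctionFieldBar (M * q)))
    (hu : u ∈ S34K_Norm (S34M_T1 M q A hgen) (S34M_T2 M q hq hqM A hgen))
    (D : Divisor (AlgebraicClosure ℚ) ↥(modularFunctionFieldBar (M * q)))
    (hD : n • D = RR_div (S18_hRR (M * q)).principal u)
    (hWu : S34K_W (S34M_same M q hq hqM A hgen)
        (S34SB_chart (AlgebraicClosure ℚ) (IsLocalRing.ResidueField A) (jB (M * q))
          x₁ (x₁ ^ q) n hn) u = S34B_glued e₁ e₂ (fun _ => 1)) :
    ∃ (m₀ : ℕ)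
      (G : ℕ → ℕ → Submodule (IsLocalRing.ResidueField A)
        (↥(modularFunctionFieldFullC (IsLocalRing.ResidueField A) (M * q)) ×
          ↥(modularFunctionFieldFullC (IsLocalRing.ResidueField A) (M * q)))),
      (∀ a b a' b', G a b ⊓ G a' b' ≤ G (min a a') (min b b')) ∧
      (∀ a b, m₀ ≤ a + b → (S34P_lat (S34M_same M q hq hqM A hgen)).redSub (riemannRochSpace
        (S34P_E (S18_hRR (M * q)).principal (jB (M * q))
          (jB (M * q) - algebraMap (AlgebraicClosure ℚ) ↥(modularFunctionFieldBar (M * q))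
            (c : AlgebraicClosure ℚ))
          a b + D)) = G a b) ∧
      (∃ a, m₀ ≤ a ∧ (1 : _ × _) ∈ G a 0) ∧ (∃ b, m₀ ≤ b ∧ (1 : _ × _) ∈ G 0 b) := by
  subst hx₁
  haveI : NeZero M := S34CL_neZero_M M q
  have hk := S34VF_hk M A hq hA hqM
  have hcart : S34PX_Cart M q hq hqM A hgen := S34VW_cart M q hq hqM A hgen hA
  have hd₁ := S34PX_pole (M := M) (hq := hq) (hqM := hqM) (A := A) hA
  have hd₂ : 0 < (RR_poleDiv hk.principal
      (S18_jbar (M * q) (IsLocalRing.ResidueField A) ^ q)).degree := by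
    rw [S34VD_poleDiv_pow_degree]
    have : (0 : ℤ) < (q : ℤ) := by exact_mod_cast hq.pos
    exact mul_pos this hd₁
  have hred : S34P_red (S34M_T1 M q A hgen) (S34M_T2 M q hq hqM A hgen)
      (S34PX_j M q hq hqM A hgen) =
      (S18_jbar (M * q) (IsLocalRing.ResidueField A),
        S18_jbar (M * q) (IsLocalRing.ResidueField A) ^ q) :=
    Prod.ext (S34PX_red_j_fst M q hq hqM A hgen) (S34PX_red_j_snd M q hq hqM A hgen hA)
  exact S34CL_lev_of (S34M_same M q hq hqM A hgen) (S18_hRR (M * q)) hk hk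
    (S34PX_j M q hq hqM A hgen) (S34PX_hyp hcart)
    (fun V hV => by
      rw [S34P_lat_redSub]
      exact S34PX_count hcart V hV)
    _ _ hred hd₁ hd₂ (S34VF_hdeg M A hq hA hqM hk.principal hk.principal _) hn e₁ e₂ hE
    (by linarith) c hc u hu D hD hWu

/-- **(LEV) for a given constant** `c` whose residue avoids the values of `j̄` at the nodes, for
a normalised Kummer generator with trivial gluing invariant (any `n`). -/
theorem S33NS_lev (hA : A.LiesOverPrime q) {n : ℕ} (hn : 0 < n) {ι : Type*} [Fintype ι]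
    (e₁ : ι → ↥(S34M_chart M q A n hn).Rb₁ →ₐ[IsLocalRing.ResidueField A]
      IsLocalRing.ResidueField A)
    (e₂ : ι → ↥(S34M_chart M q A n hn).Rb₂ →ₐ[IsLocalRing.ResidueField A]
      IsLocalRing.ResidueField A)
    (hE : Function.Surjective (S34B_E e₁ e₂))
    (hW1 : S34K_W (S34M_same M q hq hqM A hgen) (S34M_chart M q A n hn) 1 = S34B_W e₁ e₂)
    (c : (S34M_T1 M q A hgen).A)
    (hc : ∀ i, e₁ i ⟨S34M_xb M q A, S34SB_self_mem_reg (S34M_xb M q A)⟩ ≠
      (S34M_T1 M q A hgen).res c)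
    (u : ↥(modularFunctionFieldBar (M * q))) (hu : u ∈ S34M_Kp M q hq hqM A hgen n)
    (hWu : S34K_W (S34M_same M q hq hqM A hgen) (S34M_chart M q A n hn) u =
      S34B_glued e₁ e₂ (fun _ => 1))
    (D : Divisor (AlgebraicClosure ℚ) ↥(modularFunctionFieldBar (M * q)))
    (hD : n • D = RR_div (S18_hRR (M * q)).principal u) :
    ∃ (m₀ : ℕ)
      (G : ℕ → ℕ → Submodule (IsLocalRing.ResidueField A)
        (↥(modularFunctionFieldFullC (IsLocalRing.ResidueField A) (M * q)) ×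
          ↥(modularFunctionFieldFullC (IsLocalRing.ResidueField A) (M * q)))),
      (∀ a b a' b', G a b ⊓ G a' b' ≤ G (min a a') (min b b')) ∧
      (∀ a b, m₀ ≤ a + b → (S34P_lat (S34M_same M q hq hqM A hgen)).redSub (riemannRochSpace
        (S34P_E (S18_hRR (M * q)).principal (jB (M * q))
          (jB (M * q) - algebraMap (AlgebraicClosure ℚ) ↥(modularFunctionFieldBar (M * q))
            (c : AlgebraicClosure ℚ))
          a b + D)) = G a b) ∧
      (∃ a, m₀ ≤ a ∧ (1 : _ × _) ∈ G a 0) ∧ (∃ b, m₀ ≤ b ∧ (1 : _ × _) ∈ G 0 b) :=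
  S33NS_lev_aux M q hq hqM A hgen hA (S34M_xb M q A)
    (S34PX_red_j_fst M q hq hqM A hgen) hn e₁ e₂ hE
    (S34CL_card_X0_aux M q hq hqM A hgen hA (S34M_xb M q A)
      (S34PX_red_j_fst M q hq hqM A hgen) hn e₁ e₂ hE hW1).ge c hc u hu.2 D hD hWu

/-- **START**: for `n = q ^ r`, a normalised Kummer generator `u` has trivialisations of depth
`1` on `U = {j ≠ ∞}` and on `U' = {j ≠ c₀}`: `f₁, f₁' ∈ O₁ ∩ O₂` with reduction `(1, 1)`,
`f₁ ^ n * u` regular on `U`, `f₁' ^ n * u` regular on `U'`.  The constant `c₀ ∈ A` is ANY constant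
whose residue avoids the values of `j̄` at the nodes. -/
theorem S33NS_start (hA : A.LiesOverPrime q) {n : ℕ} (hn : 0 < n) (r : ℕ) (hnr : n = q ^ r)
    {ι : Type*} [Fintype ι]
    (e₁ : ι → ↥(S34M_chart M q A n hn).Rb₁ →ₐ[IsLocalRing.ResidueField A]
      IsLocalRing.ResidueField A)
    (e₂ : ι → ↥(S34M_chart M q A n hn).Rb₂ →ₐ[IsLocalRing.ResidueField A]
      IsLocalRing.ResidueField A)
    (hE : Function.Surjective (S34B_E e₁ e₂))
    (hW1 : S34K_W (S34M_same M q hq hqM A hgen) (S34M_chart M q A n hn) 1 = S34B_W e₁ e₂)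
    (c₀ : A)
    (hc₀ : ∀ i, e₁ i ⟨S34M_xb M q A, S34SB_self_mem_reg (S34M_xb M q A)⟩ ≠
      IsLocalRing.residue A c₀)
    (u : ↥(modularFunctionFieldBar (M * q))) (hu : u ∈ S34M_Kp M q hq hqM A hgen n) :
    (∃ f₁ : S34P_O2 (S34M_T1 M q A hgen) (S34M_T2 M q hq hqM A hgen),
      (f₁ : ↥(modularFunctionFieldBar (M * q))) ^ n * u ∈
        S34IX_reg (S34IX_TU (K := AlgebraicClosure ℚ) (jB (M * q))) ∧
      S34P_red (S34M_T1 M q A hgen) (S34M_T2 M q hq hqM A hgen) f₁ = 1) ∧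
    (∃ f₁' : S34P_O2 (S34M_T1 M q A hgen) (S34M_T2 M q hq hqM A hgen),
      (f₁' : ↥(modularFunctionFieldBar (M * q))) ^ n * u ∈
        S34IX_reg (S34IX_TU' (jB (M * q)) (c₀ : AlgebraicClosure ℚ)) ∧
      S34P_red (S34M_T1 M q A hgen) (S34M_T2 M q hq hqM A hgen) f₁' = 1) := by
  have hWu := S33NS_W_eq M q hq hqM A hgen hA hn r hnr e₁ e₂ hE hW1 u hu
  have hRR := S18_hRR (M * q)
  have hu0 : u ≠ 0 := S34K_ne_zero_of_Norm hu.2
  obtain ⟨D, hD⟩ := S34HX_exists_D hRR.principal u hu.1.2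
  obtain ⟨m₀, G, -, hlev, ⟨a, ha, h1⟩, ⟨b, hb, h1'⟩⟩ :=
    S33NS_lev M q hq hqM A hgen hA hn e₁ e₂ hE hW1 c₀ hc₀ u hu hWu D hD
  rw [← hlev a 0 (by omega), S34P_lat_redSub, S34P_mem_redSub] at h1
  rw [← hlev 0 b (by omega), S34P_lat_redSub, S34P_mem_redSub] at h1'
  obtain ⟨f₁, hf₁, hr₁⟩ := h1
  obtain ⟨f₁', hf₁', hr₁'⟩ := h1'
  exact ⟨⟨f₁, S34IG_hVB hRR.principal (jB (M * q)) (c₀ : AlgebraicClosure ℚ) hn hu0 hD a _ hf₁,
      hr₁⟩,
    ⟨f₁', S34IG_hVB' hRR.principal (jB (M * q)) (c₀ : AlgebraicClosure ℚ) hn hu0 hD b _ hf₁',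
      hr₁'⟩⟩

/-- **START, explicit form**: the same with `f₁ f₁' : F` and the two reductions separately
(`T_i.red f = 1`, `i = 1, 2`). -/
theorem S33NS_start' (hA : A.LiesOverPrime q) {n : ℕ} (hn : 0 < n) (r : ℕ) (hnr : n = q ^ r)
    {ι : Type*} [Fintype ι]
    (e₁ : ι → ↥(S34M_chart M q A n hn).Rb₁ →ₐ[IsLocalRing.ResidueField A]
      IsLocalRing.ResidueField A)
    (e₂ : ι → ↥(S34M_chart M q A n hn).Rb₂ →ₐ[IsLocalRing.ResidueField A]
      IsLocalRing.ResidueField A)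
    (hE : Function.Surjective (S34B_E e₁ e₂))
    (hW1 : S34K_W (S34M_same M q hq hqM A hgen) (S34M_chart M q A n hn) 1 = S34B_W e₁ e₂)
    (c₀ : A)
    (hc₀ : ∀ i, e₁ i ⟨S34M_xb M q A, S34SB_self_mem_reg (S34M_xb M q A)⟩ ≠
      IsLocalRing.residue A c₀)
    (u : ↥(modularFunctionFieldBar (M * q))) (hu : u ∈ S34M_Kp M q hq hqM A hgen n) :
    (∃ (f₁ : ↥(modularFunctionFieldBar (M * q))) (h₁ : f₁ ∈ (S34M_T1 M q A hgen).O)
        (h₂ : f₁ ∈ (S34M_T2 M q hq hqM A hgen).O),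
      (S34M_T1 M q A hgen).red ⟨f₁, h₁⟩ = 1 ∧ (S34M_T2 M q hq hqM A hgen).red ⟨f₁, h₂⟩ = 1 ∧
      f₁ ^ n * u ∈ S34IX_reg (S34IX_TU (K := AlgebraicClosure ℚ) (jB (M * q)))) ∧
    (∃ (f₁' : ↥(modularFunctionFieldBar (M * q))) (h₁ : f₁' ∈ (S34M_T1 M q A hgen).O)
        (h₂ : f₁' ∈ (S34M_T2 M q hq hqM A hgen).O),
      (S34M_T1 M q A hgen).red ⟨f₁', h₁⟩ = 1 ∧ (S34M_T2 M q hq hqM A hgen).red ⟨f₁', h₂⟩ = 1 ∧
      f₁' ^ n * u ∈ S34IX_reg (S34IX_TU' (jB (M * q)) (c₀ : AlgebraicClosure ℚ))) := by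
  obtain ⟨⟨f₁, hB, hr⟩, ⟨f₁', hB', hr'⟩⟩ :=
    S33NS_start M q hq hqM A hgen hA hn r hnr e₁ e₂ hE hW1 c₀ hc₀ u hu
  exact ⟨⟨f₁, f₁.2.1, f₁.2.2, congrArg Prod.fst hr, congrArg Prod.snd hr, hB⟩,
    ⟨f₁', f₁'.2.1, f₁'.2.2, congrArg Prod.fst hr', congrArg Prod.snd hr', hB'⟩⟩

/-- **START, nodes hidden**: there is a FINITE set `T` of residues (the values of `j̄` at the
nodes) such that for every constant `c₀ ∈ A` with `c̄₀ ∉ T` and every normalised Kummer generator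
`u` of exponent `n = q ^ r` there are `f₁, f₁'` with `T_i.red f = 1` (`i = 1, 2`),
`f₁ ^ n * u` regular on `U = {j ≠ ∞}` and `f₁' ^ n * u` regular on `U' = {j ≠ c₀}`. -/
theorem S33NS_main (hA : A.LiesOverPrime q) {n : ℕ} (hn : 0 < n) (r : ℕ) (hnr : n = q ^ r) :
    ∃ T : Finset (IsLocalRing.ResidueField A), ∀ c₀ : A, IsLocalRing.residue A c₀ ∉ T →
      ∀ u ∈ S34M_Kp M q hq hqM A hgen n,
    (∃ (f₁ : ↥(modularFunctionFieldBar (M * q))) (h₁ : f₁ ∈ (S34M_T1 M q A hgen).O)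
        (h₂ : f₁ ∈ (S34M_T2 M q hq hqM A hgen).O),
      (S34M_T1 M q A hgen).red ⟨f₁, h₁⟩ = 1 ∧ (S34M_T2 M q hq hqM A hgen).red ⟨f₁, h₂⟩ = 1 ∧
      f₁ ^ n * u ∈ S34IX_reg (S34IX_TU (K := AlgebraicClosure ℚ) (jB (M * q)))) ∧
    (∃ (f₁' : ↥(modularFunctionFieldBar (M * q))) (h₁ : f₁' ∈ (S34M_T1 M q A hgen).O)
        (h₂ : f₁' ∈ (S34M_T2 M q hq hqM A hgen).O),
      (S34M_T1 M q A hgen).red ⟨f₁', h₁⟩ = 1 ∧ (S34M_T2 M q hq hqM A hgen).red ⟨f₁', h₂⟩ = 1 ∧
      f₁' ^ n * u ∈ S34IX_reg (S34IX_TU' (jB (M * q)) (c₀ : AlgebraicClosure ℚ))) := by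
  classical
  obtain ⟨s, e₁, e₂, hE, hW1⟩ := S34NX_nodes M q hq hqM A hA hgen n hn
  refine ⟨Finset.univ.image
    (fun i : Fin s => e₁ i ⟨S34M_xb M q A, S34SB_self_mem_reg (S34M_xb M q A)⟩), ?_⟩
  intro c₀ hc₀ u hu
  refine S33NS_start' M q hq hqM A hgen hA hn r hnr e₁ e₂ hE hW1 c₀ ?_ u hu
  intro i h
  exact hc₀ (Finset.mem_image.mpr ⟨i, Finset.mem_univ i, h⟩)

end X0

end Fermat.Agent.S33
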