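import Fermat.Agent.S34.Asm4
import Fermat.Agent.S34.InjConc
import Fermat.Agent.S34.InjWire

/-!
# TRACK 11 (S33), package TAU (helper23, pair of helper21/helper7): the Galois action keeps the
chart rings

`N` any level, `σ ∈ Gal(ℚ̄/ℚ)`, `GR_gal N σ` the arithmetic Galois action on
`F = modularFunctionFieldBar N`.

* `S33NTB_gal_sub_const` : `σ (j − c₀) = j − σ c₀`;
* `S33NTB_gal_reg`   : `GR_gal N σ` keeps `S34IX_reg (S34IX_TU (jB N))` (= `S33NX_B`, chart `U`);
* `S33NTB_gal_reg'`  : `GR_gal N σ` keeps `S34IX_reg (S34IX_TU' (jB N) c₀)` (= `S33NX_B' c₀`,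
  chart `U'`) **if `σ c₀ = c₀`**;
* `S33NTB_gal_reg''` : the same for `S34IX_TU''` (chart `U''`).
-/

set_option autoImplicit false
set_option synthInstance.maxHeartbeats 400000
set_option maxHeartbeats 800000
set_option linter.unusedSectionVars false
set_option linter.unusedVariables false
set_option linter.style.haveILetI false

open HahnSeries IntermediateField ModularCurve AlgebraicCurve CongruenceSubgroup

noncomputable section

namespace Fermat.Agent.S33

open Fermat.Agent.GalRep Fermat.Agent.S16 Fermat.Agent.S41 Fermat.Agent.S24 Fermat.Agent.S18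
  Fermat.Agent.S35 Fermat.Agent.S34

variable (N : ℕ) [NeZero N]

/-- the arithmetic Galois action keeps a chart `T` of places which is stable under it. -/
theorem S33NTB_gal_reg_of (σ : GQ)
    (T : Set (Place (AlgebraicClosure ℚ) ↥(modularFunctionFieldBar N)))
    (hT : ∀ Q ∈ T, (arithmeticGalois (modularFunctionFieldFull N) σ)⁻¹ • Q ∈ T)
    (f : ↥(modularFunctionFieldBar N)) (hf : f ∈ S34IX_reg T) :
    GR_gal N σ f ∈ S34IX_reg T := by
  rw [S34IX_mem_reg] at hf ⊢
  intro Q hQ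
  set g : SemilinearAut (AlgebraicClosure ℚ) ↥(modularFunctionFieldBar N) :=
    arithmeticGalois (modularFunctionFieldFull N) σ with hg
  have hQv : g • (g⁻¹ • Q) = Q := by rw [smul_smul, mul_inv_cancel, one_smul]
  have hfv : f ∈ (g⁻¹ • Q).toValuationSubring := hf _ (hT Q hQ)
  have h2 : g • f ∈ (g • (g⁻¹ • Q)).toValuationSubring := by
    rw [SemilinearAut.smul_toValuationSubring]
    exact ValuationSubring.smul_mem_pointwise_smul g f _ hfv
  rw [hQv] at h2
  exact h2

/-- the order of a `σ`-fixed function at `g⁻¹ • Q`. -/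
theorem S33NTB_ord_inv_smul (σ : GQ) (x : ↥(modularFunctionFieldBar N))
    (hx : arithmeticGalois (modularFunctionFieldFull N) σ • x = x)
    (Q : Place (AlgebraicClosure ℚ) ↥(modularFunctionFieldBar N)) :
    ((arithmeticGalois (modularFunctionFieldFull N) σ)⁻¹ • Q).ord x = Q.ord x := by
  set g : SemilinearAut (AlgebraicClosure ℚ) ↥(modularFunctionFieldBar N) :=
    arithmeticGalois (modularFunctionFieldFull N) σ with hg
  have hQv : g • (g⁻¹ • Q) = Q := by rw [smul_smul, mul_inv_cancel, one_smul]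
  have h := SemilinearAut.ord_smul g (g⁻¹ • Q) x
  rw [hQv, hx] at h
  exact h.symm

/-- `σ (j − c₀) = j − c₀` if `σ c₀ = c₀`. -/
theorem S33NTB_gal_sub_const (σ : GQ) (c₀ : AlgebraicClosure ℚ) (hc₀ : σ c₀ = c₀) :
    arithmeticGalois (modularFunctionFieldFull N) σ •
      (jB N - algebraMap (AlgebraicClosure ℚ) ↥(modularFunctionFieldBar N) c₀) =
    jB N - algebraMap (AlgebraicClosure ℚ) ↥(modularFunctionFieldBar N) c₀ := by
  have hgj : arithmeticGalois (modularFunctionFieldFull N) σ • jB N = jB N :=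
    S34WJ_arith_jBar N σ 1 (one_dvd N)
  have hgc : arithmeticGalois (modularFunctionFieldFull N) σ •
      algebraMap (AlgebraicClosure ℚ) ↥(modularFunctionFieldBar N) c₀ =
      algebraMap (AlgebraicClosure ℚ) ↥(modularFunctionFieldBar N) c₀ := by
    have h := arithmeticRingAut_algebraMap (modularFunctionFieldFull N) σ c₀
    rw [hc₀] at h
    exact h
  rw [smul_sub, hgj, hgc]

/-- **chart `U`**: the arithmetic Galois action keeps `S34IX_reg (S34IX_TU (jB N))`. -/
theorem S33NTB_gal_reg (σ : GQ) (f : ↥(modularFunctionFieldBar N))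
    (hf : f ∈ S34IX_reg (S34IX_TU (K := AlgebraicClosure ℚ) (jB N))) :
    GR_gal N σ f ∈ S34IX_reg (S34IX_TU (K := AlgebraicClosure ℚ) (jB N)) := by
  refine S33NTB_gal_reg_of N σ _ (fun Q hQ => ?_) f hf
  change (0 : ℤ) ≤ ((arithmeticGalois (modularFunctionFieldFull N) σ)⁻¹ • Q).ord (jB N)
  rw [S33NTB_ord_inv_smul N σ (jB N) (S34WJ_arith_jBar N σ 1 (one_dvd N))]
  exact hQ

/-- **chart `U'`**: the arithmetic Galois action keeps `S34IX_reg (S34IX_TU' (jB N) c₀)` if
`σ c₀ = c₀`. -/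
theorem S33NTB_gal_reg' (σ : GQ) (c₀ : AlgebraicClosure ℚ) (hc₀ : σ c₀ = c₀)
    (f : ↥(modularFunctionFieldBar N))
    (hf : f ∈ S34IX_reg (S34IX_TU' (jB N) c₀)) :
    GR_gal N σ f ∈ S34IX_reg (S34IX_TU' (jB N) c₀) := by
  refine S33NTB_gal_reg_of N σ _ (fun Q hQ => ?_) f hf
  change ((arithmeticGalois (modularFunctionFieldFull N) σ)⁻¹ • Q).ord
    (jB N - algebraMap (AlgebraicClosure ℚ) ↥(modularFunctionFieldBar N) c₀) ≤ (0 : ℤ)
  rw [S33NTB_ord_inv_smul N σ _ (S33NTB_gal_sub_const N σ c₀ hc₀)]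
  exact hQ

/-- **chart `U''`**: the arithmetic Galois action keeps `S34IX_reg (S34IX_TU'' (jB N) c₀)` if
`σ c₀ = c₀`. -/
theorem S33NTB_gal_reg'' (σ : GQ) (c₀ : AlgebraicClosure ℚ) (hc₀ : σ c₀ = c₀)
    (f : ↥(modularFunctionFieldBar N))
    (hf : f ∈ S34IX_reg (S34IX_TU'' (jB N) c₀)) :
    GR_gal N σ f ∈ S34IX_reg (S34IX_TU'' (jB N) c₀) := by
  refine S33NTB_gal_reg_of N σ _ (fun Q hQ => ?_) f hf
  have hQ' : Q ∈ S34IX_TU (jB N) ∩ S34IX_TU' (jB N) c₀ := hQ
  refine Set.mem_inter ?_ ?_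
  · change (0 : ℤ) ≤ ((arithmeticGalois (modularFunctionFieldFull N) σ)⁻¹ • Q).ord (jB N)
    rw [S33NTB_ord_inv_smul N σ (jB N) (S34WJ_arith_jBar N σ 1 (one_dvd N))]
    exact hQ'.1
  · change ((arithmeticGalois (modularFunctionFieldFull N) σ)⁻¹ • Q).ord
      (jB N - algebraMap (AlgebraicClosure ℚ) ↥(modularFunctionFieldBar N) c₀) ≤ (0 : ℤ)
    rw [S33NTB_ord_inv_smul N σ _ (S33NTB_gal_sub_const N σ c₀ hc₀)]
    exact hQ'.2

end Fermat.Agent.S33
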