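import Fermat.Agent.S33.NewTau
import Fermat.Agent.S33.NewLatT
import Fermat.Agent.S33.NewChoice

/-!
# TRACK 11 (S33), package TAU, part 2 (helper21): the target `S33NX_TTau` for a CHOICE
— prefix `S33NTT_`

For a choice `h : S33NC_Choice M p A fs cs ζ H ϖ₀ e₀` (helper5), `τ₀` in the inertia group `I`
of `A` with `τ₀ ζ = ζ ^ c`, and a chart constant `c₀` fixed by `τ₀`:

* `S33NTT_hnorm`   : `τ₀` normalises `H`;
* `S33NTT_tau h τ₀ hτ₀` : the ring hom `τ = S33NT_tau M p H τ₀ _` of `F'' = fixF(H)`;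
* `S33NTT_tau_coe` : `(τ f : F) = GR_gal (M p) τ₀ f` (by `rfl`);
* **`S33NTT_TTau`** : the hypothesis `hτ` of `S33NC_rat`, literally:
  `S33NX_TTau … (S33NX_const ϖ₀ _) (S33NX_const (ζ − 1) _) c₀ τ c`
  (part 1 = `S33NT_hτlam`, parts 2–4 = `S33NL2_TTau` of N-LA);
* `S33NTT_rat`     : `S33NC_rat` with `τ` and `hτ` plugged in.
-/

set_option autoImplicit false
set_option linter.unusedSectionVars false
set_option linter.unusedVariables false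
set_option linter.style.haveILetI false
set_option linter.style.longLine false
set_option synthInstance.maxHeartbeats 400000
set_option maxHeartbeats 1000000

open ModularCurve

noncomputable section

namespace Fermat.Agent.S33

open Fermat.Agent.S18 Fermat.Agent.S24 Fermat.Agent.S34 Fermat.Agent.S36 Fermat.Agent.GalRep

local notation "Ω" => AlgebraicClosure ℚ
local notation "Γ" => (AlgebraicClosure ℚ ≃ₐ[ℚ] AlgebraicClosure ℚ)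

variable (M p : ℕ) [NeZero (M * p)] (hp : p.Prime) (hpM : ¬ p ∣ M)
  (A : ValuationSubring Ω) (hA : A.LiesOverPrime p)
  (hgen : PrincipalGeneratedByIntegral A (IsLocalRing.residue A) (M * p))

variable {fs : Finset ↥(modularFunctionFieldBar (M * p))} {cs : Finset Ω} {ζ : Ω}
  {H : Subgroup Γ} {ϖ₀ : Ω} {e₀ : ℕ}

/-- `τ₀ ∈ I` normalises the `H` of a choice. -/
theorem S33NTT_hnorm (h : S33NC_Choice M p A fs cs ζ H ϖ₀ e₀) (τ₀ : Γ)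
    (hτ₀ : τ₀ ∈ A.inertiaSubgroupIn ℚ) : ∀ σ ∈ H, τ₀⁻¹ * σ * τ₀ ∈ H :=
  S33NT_hnorm_of (A.inertiaSubgroupIn ℚ) H h.normal τ₀ hτ₀

/-- the ring hom `τ` of `F'' = fixF(H)` attached to `τ₀ ∈ I`, for the `H` of a choice. -/
def S33NTT_tau (h : S33NC_Choice M p A fs cs ζ H ϖ₀ e₀) (τ₀ : Γ)
    (hτ₀ : τ₀ ∈ A.inertiaSubgroupIn ℚ) : S33NX_F M p H →+* S33NX_F M p H :=
  S33NT_tau M p H τ₀ (S33NTT_hnorm M p A h τ₀ hτ₀)

theorem S33NTT_tau_coe (h : S33NC_Choice M p A fs cs ζ H ϖ₀ e₀) (τ₀ : Γ)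
    (hτ₀ : τ₀ ∈ A.inertiaSubgroupIn ℚ) (f : S33NX_F M p H) :
    ((S33NTT_tau M p A h τ₀ hτ₀ f : S33NX_F M p H) : ↥(modularFunctionFieldBar (M * p))) =
      GR_gal (M * p) τ₀ (f : ↥(modularFunctionFieldBar (M * p))) := rfl

theorem S33NTT_tau_mk (h : S33NC_Choice M p A fs cs ζ H ϖ₀ e₀) (τ₀ : Γ)
    (hτ₀ : τ₀ ∈ A.inertiaSubgroupIn ℚ) (f : ↥(modularFunctionFieldBar (M * p)))
    (hf : f ∈ (S36FI_act (M * p) H).fixF) :
    ((S33NTT_tau M p A h τ₀ hτ₀ ⟨f, hf⟩ : S33NX_F M p H) :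
      ↥(modularFunctionFieldBar (M * p))) = GR_gal (M * p) τ₀ f := rfl

include hA in
/-- **the target `S33NX_TTau`** (= the hypothesis `hτ` of `S33NC_rat`) for a choice, `τ₀ ∈ I`
with `τ₀ ζ = ζ ^ c`, and a chart constant `c₀` fixed by `τ₀`. -/
theorem S33NTT_TTau (h : S33NC_Choice M p A fs cs ζ H ϖ₀ e₀) (hζp : ζ ^ p = 1)
    (τ₀ : Γ) (hτ₀ : τ₀ ∈ A.inertiaSubgroupIn ℚ) (c : ℕ) (hτζ : τ₀ ζ = ζ ^ c)
    (c₀ : Ω) (hc₀ : τ₀ c₀ = c₀) :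
    S33NX_TTau M p hp hpM A hgen H (S33NX_const M p H ϖ₀ h.varpi_mem)
      (S33NX_const M p H (ζ - 1) h.lam_mem) c₀ (S33NTT_tau M p A h τ₀ hτ₀) c := by
  obtain ⟨ε, ε', hε, hε', hεε, hlam⟩ := h.exists_eps hp hpM hgen
  refine S33NL2_TTau M p hp hpM A hgen H hA h.unif h.varpi_mem τ₀ hτ₀
    (S33NTT_tau M p A h τ₀ hτ₀) (fun f => rfl) c₀ hc₀ _ c ?_
  exact S33NT_hτlam M p hp hpM A hgen H τ₀ (S33NTT_hnorm M p A h τ₀ hτ₀) ζ hζp h.zeta_mem c hτζ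
    c₀ (S33NX_const M p H ϖ₀ h.varpi_mem) (S33NX_const M p H (ζ - 1) h.lam_mem) ε e₀ h.e_pos
    (h.hϖ hp hpM hgen c₀) (hε c₀) rfl hlam

include hA in
/-- **`S33NC_rat` with `τ` and `hτ` plugged in**: for a choice, `τ₀ ∈ I` with `τ₀ ζ = ζ ^ c`,
`c + c' = p k`, a chart constant `c₀` fixed by `τ₀`, from the targets `TSat`, `TFrob`, `TN0` and
START on `U`, `U'`: trivialisations of `τ₀(u)·u^c'` of depth `ϖ^(p e₀ + 1)` on `U` and on `U'`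
agreeing to the depth `ϖ^(e₀ + 1)`. -/
theorem S33NTT_rat (hp2 : p ≠ 2) (h : S33NC_Choice M p A fs cs ζ H ϖ₀ e₀) (hζp : ζ ^ p = 1)
    (τ₀ : Γ) (hτ₀ : τ₀ ∈ A.inertiaSubgroupIn ℚ) (c c' k : ℕ) (hcc : c + c' = p * k)
    (hτζ : τ₀ ζ = ζ ^ c) (c₀ : Ω) (hc₀ : τ₀ c₀ = c₀)
    (hsat : S33NX_TSat M p hp hpM A hgen H (S33NX_const M p H ϖ₀ h.varpi_mem))
    (hsat' : S33NX_TSat' M p hp hpM A hgen H (S33NX_const M p H ϖ₀ h.varpi_mem) c₀)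
    (hFrob : S33NX_TFrob M p hp hpM A hgen H (S33NX_const M p H ϖ₀ h.varpi_mem))
    (hFrob' : S33NX_TFrob' M p hp hpM A hgen H (S33NX_const M p H ϖ₀ h.varpi_mem) c₀)
    (u : S33NX_F M p H)
    (hN0 : S33NX_TN0 M p hp hpM A hgen H (S33NX_const M p H ϖ₀ h.varpi_mem) u)
    (hstart : ∃ f, ∃ w ∈ S33NX_Lam M p hp hpM A hgen H,
      f ^ p * u = 1 + S33NX_const M p H ϖ₀ h.varpi_mem * w)
    (hstart' : ∃ f, ∃ w ∈ S33NX_Lam' M p hp hpM A hgen H c₀,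
      f ^ p * u = 1 + S33NX_const M p H ϖ₀ h.varpi_mem * w) :
    ∃ φ φ' : S33NX_F M p H,
      (∃ l ∈ S33NX_Lam M p hp hpM A hgen H,
        φ ^ p * (S33NTT_tau M p A h τ₀ hτ₀ u * u ^ c') =
          1 + S33NX_const M p H ϖ₀ h.varpi_mem ^ (p * e₀ + 1) * l) ∧
      (∃ l ∈ S33NX_Lam' M p hp hpM A hgen H c₀,
        φ' ^ p * (S33NTT_tau M p A h τ₀ hτ₀ u * u ^ c') =
          1 + S33NX_const M p H ϖ₀ h.varpi_mem ^ (p * e₀ + 1) * l) ∧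
      ∃ m ∈ S33NX_Os M p hp hpM A hgen H,
        φ - φ' = S33NX_const M p H ϖ₀ h.varpi_mem ^ (e₀ + 1) * (m * φ') :=
  S33NC_rat M p hp hpM A hA hgen hp2 h c₀ hsat hsat' hFrob hFrob' u hN0 hstart hstart'
    (S33NTT_tau M p A h τ₀ hτ₀) c c' k hcc
    (S33NTT_TTau M p hp hpM A hA hgen h hζp τ₀ hτ₀ c hτζ c₀ hc₀)

end Fermat.Agent.S33
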